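import Fermat.Agent.S16.CFCount
import Fermat.Agent.S20

/-!
# S16, package P8 (part 4): lifting homomorphisms `Γ₀(N) → ℤ/n` to `ℤ`

Every homomorphism `φ : Γ₀(N) → ℤ/n` killing the elements of trace `t` with `t² ≤ 4`
(parabolic and elliptic elements, `± 1`) is the reduction of a parabolic homomorphism
`Φ : Γ₀(N) → ℤ` (`exists_int_lift`).

The proof is a dimension count: the parabolic homomorphisms to `ℤ` form a free `ℤ`-module of rank
`≥ dim_ℂ Hom_par(Γ₀(N), ℂ) = 2 g` (statements S20, S21), it is saturated in `Hom(Γ₀(N), ℤ)`, and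
its reduction mod a prime `r` lands in a space of dimension `≤ 2 g` (`CFCount.lean`).
-/

set_option autoImplicit false

open CongruenceSubgroup ModularCurve ModularCurve.Period
open scoped MatrixGroups

namespace Fermat.Agent.S16

namespace CF

open Fermat.Agent.S21

/-! ### Elliptic elements have finite order -/

theorem matrix_sq_eq (A : Matrix (Fin 2) (Fin 2) ℤ) (hdet : A.det = 1) :
    A * A = A.trace • A - 1 := by
  rw [Matrix.det_fin_two] at hdet
  ext i j
  fin_cases i <;> fin_cases j <;>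
    simp [Matrix.mul_apply, Fin.sum_univ_two, Matrix.trace_fin_two, Matrix.smul_apply,
      -zsmul_eq_mul] <;>
    first | linear_combination (0 : ℤ) * hdet | linear_combination (-1 : ℤ) * hdet

theorem pow_twelve_eq_one (g : SL(2, ℤ))
    (h : ((g : SL(2, ℤ)) : Matrix (Fin 2) (Fin 2) ℤ).trace ^ 2 < 4) : g ^ 12 = 1 := by
  apply Subtype.ext
  rw [Matrix.SpecialLinearGroup.coe_pow, Matrix.SpecialLinearGroup.coe_one]
  set A : Matrix (Fin 2) (Fin 2) ℤ := (g : Matrix (Fin 2) (Fin 2) ℤ) with hA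
  have hCH := matrix_sq_eq A (Matrix.SpecialLinearGroup.det_coe g)
  have ht : A.trace = 0 ∨ A.trace = 1 ∨ A.trace = -1 := by
    have h1 : -2 < A.trace := by nlinarith
    have h2 : A.trace < 2 := by nlinarith
    omega
  rcases ht with ht | ht | ht
  · rw [ht, zero_smul, zero_sub] at hCH
    have : A ^ 12 = (A * A) ^ 6 := by rw [← pow_two, ← pow_mul]
    rw [this, hCH]
    exact Even.neg_one_pow (by decide)
  · rw [ht, one_smul] at hCH
    have h3 : A ^ 3 = -1 := by
      rw [pow_succ, pow_two, hCH, sub_mul, one_mul, hCH]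
      abel
    have : A ^ 12 = (A ^ 3) ^ 4 := by rw [← pow_mul]
    rw [this, h3]
    exact Even.neg_one_pow (by decide)
  · rw [ht, neg_one_smul] at hCH
    have h3 : A ^ 3 = 1 := by
      rw [pow_succ, pow_two, hCH, sub_mul, neg_mul, one_mul, hCH]
      abel
    have : A ^ 12 = (A ^ 3) ^ 4 := by rw [← pow_mul]
    rw [this, h3, one_pow]

/-- an integer valued parabolic homomorphism kills the elliptic elements as well -/
theorem isTraceHom_of_isParabolicHom_int {N : ℕ} {Φ : Additive (Gamma0 N) →+ ℤ}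
    (hΦ : IsParabolicHom (Gamma0 N) Φ) : IsTraceHom N Φ := by
  intro γ hγ
  rcases hγ.lt_or_eq with h | h
  · have h12 : γ ^ 12 = 1 := by
      apply Subtype.ext
      rw [Subgroup.coe_pow, Subgroup.coe_one]
      exact pow_twelve_eq_one _ h
    have h1 : (12 : ℕ) • Φ (Additive.ofMul γ) = 0 := by
      rw [← map_nsmul, ← ofMul_pow, h12, ofMul_one, map_zero]
    simpa using h1
  · exact hΦ γ h


/-! ### Homomorphisms are determined by their Schreier values -/

/-- a homomorphism `Γ₀(N) → A` vanishing on the Schreier elements for `S` and `T` is zero -/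
theorem hom_eq_zero_of_schreier {N : ℕ} {A : Type*} [AddCommGroup A]
    (ψ : Additive (Gamma0 N) →+ A)
    (hS : ∀ x, ψ (Additive.ofMul (Shapiro.cocEl (Gamma0 N) ModularGroup.S x)) = 0)
    (hT : ∀ x, ψ (Additive.ofMul (Shapiro.cocEl (Gamma0 N) ModularGroup.T x)) = 0) : ψ = 0 := by
  have hgen : Subgroup.closure {ModularGroup.S, ModularGroup.T} = (⊤ : Subgroup SL(2, ℤ)) :=
    SpecialLinearGroup.SL2Z_generators
  refine (eq_zero_of_cfn (Gamma0 N) ψ (0 : SL(2, ℤ) ⧸ Gamma0 N → A)
    {ModularGroup.S, ModularGroup.T} hgen ?_).1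
  intro s hs x
  rcases hs with rfl | rfl
  · simp [cfn, hS x]
  · simp [cfn, hT x]

/-! ### The integral structure -/

section integral

variable (N : ℕ) [NeZero N]

/-- the Shapiro embedding of the integer valued parabolic homomorphisms -/
noncomputable def JZ : (parabolicHoms ℤ (Gamma0 N) ℤ) →ₗ[ℤ]
    ((SL(2, ℤ) ⧸ Gamma0 N → ℤ) × (SL(2, ℤ) ⧸ Gamma0 N → ℤ)) :=
  AddMonoidHom.toIntLinearMap
    { toFun := fun ψ =>
        (fun x => (ψ : Additive (Gamma0 N) →+ ℤ)
            (Additive.ofMul (Shapiro.cocEl (Gamma0 N) ModularGroup.S x)),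
          fun x => (ψ : Additive (Gamma0 N) →+ ℤ)
            (Additive.ofMul (Shapiro.cocEl (Gamma0 N) ModularGroup.T x)))
      map_zero' := rfl
      map_add' := fun _ _ => rfl }

omit [NeZero N] in
theorem JZ_injective : Function.Injective (JZ N) := by
  rw [injective_iff_map_eq_zero]
  intro ψ hψ
  have h1 : ∀ x, (ψ : Additive (Gamma0 N) →+ ℤ)
      (Additive.ofMul (Shapiro.cocEl (Gamma0 N) ModularGroup.S x)) = 0 :=
    fun x => congrFun (congrArg Prod.fst hψ) x
  have h2 : ∀ x, (ψ : Additive (Gamma0 N) →+ ℤ)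
      (Additive.ofMul (Shapiro.cocEl (Gamma0 N) ModularGroup.T x)) = 0 :=
    fun x => congrFun (congrArg Prod.snd hψ) x
  exact Subtype.ext (hom_eq_zero_of_schreier _ h1 h2)

theorem finite_PZ : Module.Finite ℤ (parabolicHoms ℤ (Gamma0 N) ℤ) := by
  have hfinX : Finite (SL(2, ℤ) ⧸ Gamma0 N) := inferInstance
  exact Module.Finite.of_injective (JZ N) (JZ_injective N)

omit [NeZero N] in
theorem torsionFree_PZ : Module.IsTorsionFree ℤ (parabolicHoms ℤ (Gamma0 N) ℤ) :=
  Function.Injective.moduleIsTorsionFree (JZ N) (JZ_injective N) (fun r m => map_smul (JZ N) r m)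

theorem free_PZ : Module.Free ℤ (parabolicHoms ℤ (Gamma0 N) ℤ) := by
  have := finite_PZ N
  have := torsionFree_PZ N
  exact Module.free_of_finite_type_torsion_free'

end integral


/-! ### Complex parabolic homomorphisms are combinations of integral ones -/

section complex

variable (N : ℕ) [NeZero N]

/-- a complex valued parabolic homomorphism is a complex combination of integer valued ones -/
theorem exists_int_decomp (θ : Additive (Gamma0 N) →+ ℂ) (hθ : IsParabolicHom (Gamma0 N) θ) :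
    ∃ (ι : Type) (_ : Fintype ι) (lam : ι → ℂ) (c : ι → Additive (Gamma0 N) →+ ℤ),
      (∀ i, IsParabolicHom (Gamma0 N) (c i)) ∧
      ∀ γ : Gamma0 N, θ (Additive.ofMul γ) = ∑ i, ((c i (Additive.ofMul γ) : ℤ) : ℂ) * lam i := by
  classical
  have hfinX : Finite (SL(2, ℤ) ⧸ Gamma0 N) := inferInstance
  let Sset : Set ℂ :=
    Set.range (fun x => θ (Additive.ofMul (Shapiro.cocEl (Gamma0 N) ModularGroup.S x))) ∪
      Set.range (fun x => θ (Additive.ofMul (Shapiro.cocEl (Gamma0 N) ModularGroup.T x)))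
  have hSfin : Sset.Finite := (Set.finite_range _).union (Set.finite_range _)
  let Λ : Submodule ℤ ℂ := Submodule.span ℤ Sset
  -- every value of `θ` lies in `Λ`
  have hmem : ∀ a : Additive (Gamma0 N), θ a ∈ Λ := by
    let θbar : Additive (Gamma0 N) →+ ℂ ⧸ Λ := (Λ.mkQ : ℂ →ₗ[ℤ] ℂ ⧸ Λ).toAddMonoidHom.comp θ
    have h0 : θbar = 0 := by
      apply hom_eq_zero_of_schreier
      · intro x
        show Λ.mkQ (θ _) = 0
        rw [Submodule.mkQ_apply, Submodule.Quotient.mk_eq_zero]
        exact Submodule.subset_span (Or.inl ⟨x, rfl⟩)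
      · intro x
        show Λ.mkQ (θ _) = 0
        rw [Submodule.mkQ_apply, Submodule.Quotient.mk_eq_zero]
        exact Submodule.subset_span (Or.inr ⟨x, rfl⟩)
    intro a
    have h1 : θbar a = 0 := by rw [h0]; rfl
    have h2 : Λ.mkQ (θ a) = 0 := h1
    rwa [Submodule.mkQ_apply, Submodule.Quotient.mk_eq_zero] at h2
  have hfinΛ : Module.Finite ℤ Λ := Module.Finite.span_of_finite ℤ hSfin
  have htfΛ : Module.IsTorsionFree ℤ Λ :=
    Function.Injective.moduleIsTorsionFree Λ.subtype Λ.injective_subtype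
      (fun r m => map_smul Λ.subtype r m)
  have hfreeΛ : Module.Free ℤ Λ := Module.free_of_finite_type_torsion_free'
  let b := Module.Free.chooseBasis ℤ Λ
  let c : Module.Free.ChooseBasisIndex ℤ Λ → Additive (Gamma0 N) →+ ℤ := fun i =>
    AddMonoidHom.mk' (fun a => b.repr ⟨θ a, hmem a⟩ i) (by
      intro a a'
      have : (⟨θ (a + a'), hmem (a + a')⟩ : Λ) = ⟨θ a, hmem a⟩ + ⟨θ a', hmem a'⟩ :=
        Subtype.ext (map_add θ a a')
      rw [this, map_add, Finsupp.add_apply])
  refine ⟨Module.Free.ChooseBasisIndex ℤ Λ, inferInstance, fun i => ((b i : Λ) : ℂ), c, ?_, ?_⟩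
  · intro i γ hγ
    show b.repr ⟨θ (Additive.ofMul γ), hmem _⟩ i = 0
    have : (⟨θ (Additive.ofMul γ), hmem _⟩ : Λ) = 0 := Subtype.ext (hθ γ hγ)
    rw [this, map_zero, Finsupp.zero_apply]
  · intro γ
    have h1 := b.sum_repr ⟨θ (Additive.ofMul γ), hmem _⟩
    have h2 := congrArg (Λ.subtype) h1
    rw [map_sum] at h2
    simp only [map_zsmul, Submodule.subtype_apply, zsmul_eq_mul] at h2
    rw [← h2]
    rfl


/-- the rank of the integral parabolic homomorphisms is at least the complex dimension -/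
theorem finrank_parabolicHoms_le_card {ι : Type} [Fintype ι]
    (b : Module.Basis ι ℤ (parabolicHoms ℤ (Gamma0 N) ℤ)) :
    Module.finrank ℂ (parabolicHoms ℂ (Gamma0 N) ℂ) ≤ Fintype.card ι := by
  classical
  let κ : (parabolicHoms ℤ (Gamma0 N) ℤ) →ₗ[ℤ] (Gamma0 N → ℂ) :=
    AddMonoidHom.toIntLinearMap
      { toFun := fun ψ γ => (((ψ : Additive (Gamma0 N) →+ ℤ) (Additive.ofMul γ) : ℤ) : ℂ)
        map_zero' := by funext γ; simp
        map_add' := by intro ψ ψ'; funext γ; simp }
  let v : ι → (Gamma0 N → ℂ) := fun j => κ (b j)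
  have hκ : ∀ ψ : parabolicHoms ℤ (Gamma0 N) ℤ, κ ψ ∈ Submodule.span ℂ (Set.range v) := by
    intro ψ
    rw [← b.sum_repr ψ, map_sum]
    refine Submodule.sum_mem _ (fun j _ => ?_)
    rw [map_zsmul, ← Int.cast_smul_eq_zsmul ℂ]
    exact Submodule.smul_mem _ _ (Submodule.subset_span ⟨j, rfl⟩)
  let E : (parabolicHoms ℂ (Gamma0 N) ℂ) →ₗ[ℂ] (Gamma0 N → ℂ) :=
    { toFun := fun θ γ => (θ : Additive (Gamma0 N) →+ ℂ) (Additive.ofMul γ)
      map_add' := fun _ _ => rfl
      map_smul' := fun _ _ => rfl }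
  have hEinj : Function.Injective E := by
    intro θ θ' h
    apply Subtype.ext
    apply AddMonoidHom.ext
    intro a
    obtain ⟨γ, rfl⟩ := Additive.ofMul.surjective a
    exact congrFun h γ
  have hE : LinearMap.range E ≤ Submodule.span ℂ (Set.range v) := by
    rintro _ ⟨θ, rfl⟩
    obtain ⟨ι', _, lam, c, hc, hdec⟩ := exists_int_decomp N (θ : Additive (Gamma0 N) →+ ℂ) θ.2
    have : E θ = ∑ i, lam i • κ ⟨c i, hc i⟩ := by
      funext γ
      rw [Finset.sum_apply]
      show (θ : Additive (Gamma0 N) →+ ℂ) (Additive.ofMul γ) = _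
      rw [hdec γ]
      refine Finset.sum_congr rfl (fun i _ => ?_)
      show _ = lam i * ((c i (Additive.ofMul γ) : ℤ) : ℂ)
      ring
    rw [this]
    exact Submodule.sum_mem _ (fun i _ => Submodule.smul_mem _ _ (hκ _))
  have h1 : Module.finrank ℂ (LinearMap.range E) =
      Module.finrank ℂ (parabolicHoms ℂ (Gamma0 N) ℂ) := LinearMap.finrank_range_of_inj hEinj
  have hfinspan : Module.Finite ℂ (Submodule.span ℂ (Set.range v)) :=
    FiniteDimensional.span_of_finite ℂ (Set.finite_range v)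
  have h2 := Submodule.finrank_mono hE
  have h3 : Module.finrank ℂ (Submodule.span ℂ (Set.range v)) ≤ Fintype.card ι :=
    finrank_range_le_card (R := ℂ) v
  omega

end complex

/-! ### Reduction modulo a prime -/

section prime

variable (N : ℕ) [NeZero N] (r : ℕ) [Fact r.Prime]

theorem exists_lift_prime (φ : Additive (Gamma0 N) →+ ZMod r) (hφ : IsTraceHom N φ) :
    ∃ Φ : Additive (Gamma0 N) →+ ℤ, IsParabolicHom (Gamma0 N) Φ ∧
      ∀ γ : Gamma0 N, ((Φ (Additive.ofMul γ) : ℤ) : ZMod r) = φ (Additive.ofMul γ) := by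
  classical
  have hfree := free_PZ N
  have hfin := finite_PZ N
  let b := Module.Free.chooseBasis ℤ (parabolicHoms ℤ (Gamma0 N) ℤ)
  -- the reductions of the basis vectors
  let red : Module.Free.ChooseBasisIndex ℤ (parabolicHoms ℤ (Gamma0 N) ℤ) →
      traceFuns N (ZMod r) := fun j =>
    ⟨fun γ => ((((b j : parabolicHoms ℤ (Gamma0 N) ℤ) : Additive (Gamma0 N) →+ ℤ)
        (Additive.ofMul γ) : ℤ) : ZMod r), by
      refine ⟨fun γ δ => ?_, fun γ hγ => ?_⟩
      · beta_reduce
        rw [ofMul_mul, map_add, Int.cast_add]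
      · beta_reduce
        rw [isTraceHom_of_isParabolicHom_int (b j).2 γ hγ, Int.cast_zero]⟩
  have hredsum : ∀ (k : Module.Free.ChooseBasisIndex ℤ (parabolicHoms ℤ (Gamma0 N) ℤ) → ℤ)
      (γ : Gamma0 N),
      (((((∑ j, k j • b j : parabolicHoms ℤ (Gamma0 N) ℤ) : Additive (Gamma0 N) →+ ℤ)
        (Additive.ofMul γ)) : ℤ) : ZMod r) =
      ((∑ j, (k j : ZMod r) • red j : traceFuns N (ZMod r)) : Gamma0 N → ZMod r) γ := by
    intro k γ
    rw [Submodule.coe_sum, Submodule.coe_sum, AddMonoidHom.finsetSum_apply, Finset.sum_apply,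
      Int.cast_sum]
    refine Finset.sum_congr rfl (fun j _ => ?_)
    rw [Submodule.coe_smul, Submodule.coe_smul, AddMonoidHom.smul_apply, Pi.smul_apply,
      smul_eq_mul, smul_eq_mul, Int.cast_mul]
  have hli : LinearIndependent (ZMod r) red := by
    rw [Fintype.linearIndependent_iff]
    intro c hc j
    choose k hk using fun j => ZMod.intCast_surjective (c j)
    set ψ : parabolicHoms ℤ (Gamma0 N) ℤ := ∑ j, k j • b j with hψdef
    have hψ : ∀ γ : Gamma0 N,
        ((((ψ : Additive (Gamma0 N) →+ ℤ) (Additive.ofMul γ)) : ℤ) : ZMod r) = 0 := by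
      intro γ
      rw [hψdef, hredsum k γ]
      have h1 : (∑ j, (k j : ZMod r) • red j : traceFuns N (ZMod r)) = 0 := by
        rw [← hc]
        exact Finset.sum_congr rfl (fun j _ => by rw [hk j])
      rw [h1]
      rfl
    have hdvd : ∀ a : Additive (Gamma0 N), (r : ℤ) ∣ (ψ : Additive (Gamma0 N) →+ ℤ) a := by
      intro a
      obtain ⟨γ, rfl⟩ := Additive.ofMul.surjective a
      exact (ZMod.intCast_zmod_eq_zero_iff_dvd _ r).mp (hψ γ)
    let ψ' : Additive (Gamma0 N) →+ ℤ :=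
      AddMonoidHom.mk' (fun a => (ψ : Additive (Gamma0 N) →+ ℤ) a / (r : ℤ)) (by
        intro a a'
        rw [map_add, Int.add_ediv_of_dvd_left (hdvd a)])
    have hψ'par : IsParabolicHom (Gamma0 N) ψ' := by
      intro γ hγ
      show (ψ : Additive (Gamma0 N) →+ ℤ) (Additive.ofMul γ) / (r : ℤ) = 0
      rw [ψ.2 γ hγ, Int.zero_ediv]
    have heq : ψ = (r : ℤ) • (⟨ψ', hψ'par⟩ : parabolicHoms ℤ (Gamma0 N) ℤ) := by
      apply Subtype.ext
      apply AddMonoidHom.ext
      intro a
      show (ψ : Additive (Gamma0 N) →+ ℤ) a = (r : ℤ) • ((ψ : Additive (Gamma0 N) →+ ℤ) a / (r : ℤ))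
      rw [smul_eq_mul, Int.mul_ediv_cancel' (hdvd a)]
    have hrepr : b.repr ψ j = k j := by
      rw [hψdef, map_sum, Finsupp.finsetSum_apply]
      simp [Finsupp.single_apply]
    have hkj : k j = (r : ℤ) * b.repr (⟨ψ', hψ'par⟩ : parabolicHoms ℤ (Gamma0 N) ℤ) j := by
      rw [← hrepr, heq, map_smul, Finsupp.smul_apply, smul_eq_mul]
    rw [← hk j, hkj]
    simp
  -- dimension count
  have hfinT : Module.Finite (ZMod r) (traceFuns N (ZMod r)) := finite_traceFuns N (ZMod r)
  have h5 := hli.fintype_card_le_finrank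
  have h4 := finrank_parabolicHoms_le_card N b
  have h1 := two_mul_finrank_cuspForm_two_le N
  have h2 := Fermat.Agent.S20.result N
  have h3 := finrank_traceFuns_le_two_genus N (ZMod r)
  have hcard : Fintype.card (Module.Free.ChooseBasisIndex ℤ (parabolicHoms ℤ (Gamma0 N) ℤ)) =
      Module.finrank (ZMod r) (traceFuns N (ZMod r)) := by
    have h3' : Module.finrank (ZMod r) (traceFuns N (ZMod r)) ≤
        2 * Module.finrank ℂ (CuspForm (Gamma0 N) 2) := by
      rw [← h2] at h3
      exact_mod_cast h3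
    omega
  have hspan := hli.span_eq_top_of_card_eq_finrank' hcard
  -- the given hom, as an element of `traceFuns`
  let f : traceFuns N (ZMod r) := ⟨fun γ => φ (Additive.ofMul γ),
    fun γ δ => by beta_reduce; rw [ofMul_mul, map_add], fun γ hγ => hφ γ hγ⟩
  have hf : f ∈ Submodule.span (ZMod r) (Set.range red) := by rw [hspan]; trivial
  obtain ⟨c, hc⟩ := (Submodule.mem_span_range_iff_exists_fun (ZMod r)).mp hf
  choose k hk using fun j => ZMod.intCast_surjective (c j)
  refine ⟨((∑ j, k j • b j : parabolicHoms ℤ (Gamma0 N) ℤ) : Additive (Gamma0 N) →+ ℤ),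
    (∑ j, k j • b j : parabolicHoms ℤ (Gamma0 N) ℤ).2, fun γ => ?_⟩
  rw [hredsum k γ]
  have h6 : (∑ j, (k j : ZMod r) • red j : traceFuns N (ZMod r)) = f := by
    rw [← hc]
    exact Finset.sum_congr rfl (fun j _ => by rw [hk j])
  rw [h6]

end prime


/-! ### Induction on the modulus -/

/-- multiplication by `r`, as a homomorphism `ℤ/n' → ℤ/(r n')` -/
noncomputable def mulHom (r n' : ℕ) : ZMod n' →+ ZMod (r * n') :=
  ZMod.lift n' ⟨(AddMonoidHom.mulLeft (r : ZMod (r * n'))).comp (Int.castAddHom (ZMod (r * n'))), by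
    show (r : ZMod (r * n')) * (((n' : ℕ) : ℤ) : ZMod (r * n')) = 0
    rw [Int.cast_natCast, ← Nat.cast_mul, ZMod.natCast_self]⟩

theorem mulHom_intCast (r n' : ℕ) (k : ℤ) :
    mulHom r n' (k : ZMod n') = (r : ZMod (r * n')) * (k : ZMod (r * n')) := by
  unfold mulHom
  rw [ZMod.lift_coe]
  rfl

theorem mulHom_injective (r n' : ℕ) (hr : 0 < r) : Function.Injective (mulHom r n') := by
  unfold mulHom
  rw [ZMod.lift_injective]
  intro m hm
  have h1 : (((r : ℤ) * m : ℤ) : ZMod (r * n')) = 0 := by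
    push_cast
    exact hm
  rw [ZMod.intCast_zmod_eq_zero_iff_dvd] at h1 ⊢
  push_cast at h1
  exact (mul_dvd_mul_iff_left (by exact_mod_cast hr.ne')).mp h1

theorem mem_range_mulHom (r n' : ℕ) (y : ZMod (r * n'))
    (hy : ZMod.castHom (dvd_mul_right r n') (ZMod r) y = 0) : ∃ x, mulHom r n' x = y := by
  obtain ⟨m, rfl⟩ := ZMod.intCast_surjective y
  rw [map_intCast, ZMod.intCast_zmod_eq_zero_iff_dvd] at hy
  obtain ⟨k, rfl⟩ := hy
  refine ⟨(k : ZMod n'), ?_⟩
  rw [mulHom_intCast]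
  push_cast
  rfl

theorem exists_lift_pos (N : ℕ) [NeZero N] :
    ∀ n : ℕ, 0 < n → ∀ φ : Additive (Gamma0 N) →+ ZMod n, IsTraceHom N φ →
      ∃ Φ : Additive (Gamma0 N) →+ ℤ, IsParabolicHom (Gamma0 N) Φ ∧
        ∀ γ : Gamma0 N, ((Φ (Additive.ofMul γ) : ℤ) : ZMod n) = φ (Additive.ofMul γ) := by
  intro n
  induction n using Nat.strong_induction_on with
  | _ n ih =>
    intro hn φ hφ
    rcases eq_or_ne n 1 with rfl | hn1
    · exact ⟨0, fun _ _ => rfl, fun γ => Subsingleton.elim _ _⟩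
    · obtain ⟨r, hr, n', rfl⟩ : ∃ r, r.Prime ∧ ∃ n', n = r * n' :=
        ⟨n.minFac, Nat.minFac_prime hn1, Nat.minFac_dvd n⟩
      haveI : Fact r.Prime := ⟨hr⟩
      have hn'pos : 0 < n' := Nat.pos_of_mul_pos_left hn
      have hn'lt : n' < r * n' := by nlinarith [hr.two_le]
      -- step 1: reduce mod `r`
      let φr : Additive (Gamma0 N) →+ ZMod r :=
        (ZMod.castHom (dvd_mul_right r n') (ZMod r)).toAddMonoidHom.comp φ
      have hφr : IsTraceHom N φr := by
        intro γ hγ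
        show ZMod.castHom (dvd_mul_right r n') (ZMod r) (φ (Additive.ofMul γ)) = 0
        rw [hφ γ hγ, map_zero]
      obtain ⟨Φ1, hΦ1, hΦ1'⟩ := exists_lift_prime N r φr hφr
      -- step 2: the difference is divisible by `r`
      let δ : Additive (Gamma0 N) →+ ZMod (r * n') :=
        φ - (Int.castAddHom (ZMod (r * n'))).comp Φ1
      have hδapp : ∀ γ : Gamma0 N, δ (Additive.ofMul γ) =
          φ (Additive.ofMul γ) - ((Φ1 (Additive.ofMul γ) : ℤ) : ZMod (r * n')) := fun γ => rfl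
      have hδ : ∀ a : Additive (Gamma0 N),
          ZMod.castHom (dvd_mul_right r n') (ZMod r) (δ a) = 0 := by
        intro a
        obtain ⟨γ, rfl⟩ := Additive.ofMul.surjective a
        rw [hδapp, map_sub, map_intCast, hΦ1' γ]
        exact sub_self _
      choose φ'fun hφ'fun using fun a => mem_range_mulHom r n' (δ a) (hδ a)
      let φ' : Additive (Gamma0 N) →+ ZMod n' := AddMonoidHom.mk' φ'fun (by
        intro a b
        apply mulHom_injective r n' hr.pos
        rw [map_add, hφ'fun, hφ'fun, hφ'fun, map_add])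
      have hφ'app : ∀ a, mulHom r n' (φ' a) = δ a := hφ'fun
      have hφ' : IsTraceHom N φ' := by
        intro γ hγ
        apply mulHom_injective r n' hr.pos
        rw [map_zero, hφ'app, hδapp, hφ γ hγ, isTraceHom_of_isParabolicHom_int hΦ1 γ hγ]
        simp
      obtain ⟨Φ2, hΦ2, hΦ2'⟩ := ih n' hn'lt hn'pos φ' hφ'
      refine ⟨Φ1 + (r : ℤ) • Φ2, ?_, ?_⟩
      · intro γ hγ
        show Φ1 (Additive.ofMul γ) + (r : ℤ) • Φ2 (Additive.ofMul γ) = 0
        rw [hΦ1 γ hγ, hΦ2 γ hγ]
        simp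
      · intro γ
        have h1 := hφ'app (Additive.ofMul γ)
        rw [← hΦ2' γ, mulHom_intCast, hδapp] at h1
        show (((Φ1 (Additive.ofMul γ) + (r : ℤ) • Φ2 (Additive.ofMul γ) : ℤ)) : ZMod (r * n')) = _
        rw [smul_eq_mul]
        push_cast
        rw [h1]
        abel

end CF

open CF in
/-- **Package P8.** Every homomorphism `Γ₀(N) → ℤ/n` killing the elements of trace `t`,
`t² ≤ 4`, lifts to a parabolic homomorphism `Γ₀(N) → ℤ`. -/
theorem exists_int_lift (N : ℕ) [NeZero N] (n : ℕ)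
    (φ : Additive (CongruenceSubgroup.Gamma0 N) →+ ZMod n)
    (hφ : ∀ γ : CongruenceSubgroup.Gamma0 N,
      ((γ : SL(2, ℤ)) : Matrix (Fin 2) (Fin 2) ℤ).trace ^ 2 ≤ 4 → φ (Additive.ofMul γ) = 0) :
    ∃ Φ : Additive (CongruenceSubgroup.Gamma0 N) →+ ℤ,
      ModularCurve.Period.IsParabolicHom (CongruenceSubgroup.Gamma0 N) Φ ∧
      ∀ γ : CongruenceSubgroup.Gamma0 N,
        ((Φ (Additive.ofMul γ) : ℤ) : ZMod n) = φ (Additive.ofMul γ) := by
  rcases Nat.eq_zero_or_pos n with rfl | hn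
  · exact ⟨φ, fun γ hγ => hφ γ hγ.le, fun γ => Int.cast_id⟩
  · exact exists_lift_pos N n hn φ hφ

end Fermat.Agent.S16
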