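import Mathlib
import Fermat.Prelude.Def_CuspForm_HeckeLocal
import Fermat.Prelude.Def_CuspForm_HeckeEvalForms
import Fermat.Prelude.Def_HeckeGalois_EichlerShimura
import Fermat.Prelude.Def_ModularCurve_ModularUnit

/-!
# S16, Step 0 (algebra): the index of the Eisenstein ideal from two divisibility bounds

`T / I = ℤ / J`, where `J` is the ideal of the Eisenstein values of all Hecke relations.
-/

set_option autoImplicit false

namespace Fermat.Agent.S16

open ModularCurve CuspForm

/-- Abstract form of Step 0: for surjective `ev : R → S` and `A : R → ℤ`, the quotient of `S` by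
the image of `ker A` is `ℤ / A(ker ev)`. -/
theorem StepZero.card_quot_map_ker {R S : Type*} [CommRing R] [CommRing S] (ev : R →+* S)
    (hev : Function.Surjective ev) (A : R →+* ℤ) (n : ℕ) (hn : 0 < n)
    (LB : ∀ P : R, ev P = 0 → (n : ℤ) ∣ A P)
    (UB : ∀ d : ℕ, 2 ≤ d → (∀ P : R, ev P = 0 → (d : ℤ) ∣ A P) → d ∣ n) :
    Nat.card (S ⧸ Ideal.map ev (RingHom.ker A)) = n := by
  set I' : Ideal S := Ideal.map ev (RingHom.ker A) with hI'
  have hAint : ∀ z : ℤ, A (z : R) = z := fun z => by rw [map_intCast]; simp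
  have hevint : ∀ z : ℤ, ev (z : R) = (z : S) := fun z => map_intCast ev z
  let g : ℤ →+* S ⧸ I' := Int.castRingHom _
  have hg_apply : ∀ z : ℤ, g z = Ideal.Quotient.mk I' (z : S) := fun z => by
    simp [g]
  have hg_surj : Function.Surjective g := by
    intro x
    obtain ⟨s, rfl⟩ := Ideal.Quotient.mk_surjective x
    obtain ⟨P, rfl⟩ := hev s
    refine ⟨A P, ?_⟩
    rw [hg_apply]
    symm
    rw [Ideal.Quotient.eq, ← hevint, ← map_sub]
    apply Ideal.mem_map_of_mem
    rw [RingHom.mem_ker, map_sub, hAint, sub_self]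
  -- membership in the kernel
  have hker : ∀ z : ℤ, z ∈ RingHom.ker g ↔ ∃ R₀ : R, ev R₀ = 0 ∧ A R₀ = z := by
    intro z
    rw [RingHom.mem_ker, hg_apply, Ideal.Quotient.eq_zero_iff_mem]
    constructor
    · intro h
      obtain ⟨Q, hQ, hQz⟩ := (Ideal.mem_map_iff_of_surjective ev hev).mp h
      refine ⟨(z : R) - Q, ?_, ?_⟩
      · rw [map_sub, hevint, hQz, sub_self]
      · rw [map_sub, hAint, RingHom.mem_ker.mp hQ, sub_zero]
    · rintro ⟨R₀, h0, hz⟩
      have : (z : S) = ev ((z : R) - R₀) := by rw [map_sub, hevint, h0, sub_zero]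
      rw [this]
      apply Ideal.mem_map_of_mem
      rw [RingHom.mem_ker, map_sub, hAint, hz, sub_self]
  obtain ⟨m, hm⟩ : ∃ m : ℤ, RingHom.ker g = Ideal.span {m} :=
    ⟨_, (IsPrincipalIdealRing.principal (RingHom.ker g)).span_singleton_generator.symm⟩
  have hcard : Nat.card (S ⧸ I') = m.natAbs := by
    have e1 : (ℤ ⧸ RingHom.ker g) ≃+* (S ⧸ I') := RingHom.quotientKerEquivOfSurjective hg_surj
    rw [← Nat.card_congr e1.toEquiv, hm, Nat.card_congr (Int.quotientSpanEquivZMod m).toEquiv,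
      Nat.card_zmod]
  rw [hcard]
  have hm_mem : m ∈ RingHom.ker g := by rw [hm]; exact Ideal.mem_span_singleton_self m
  have hnm : (n : ℤ) ∣ m := by
    obtain ⟨R₀, h0, hz⟩ := (hker m).mp hm_mem
    rw [← hz]; exact LB R₀ h0
  have hnm' : n ∣ m.natAbs := Int.natCast_dvd.mp hnm
  have hrel : ∀ P : R, ev P = 0 → m ∣ A P := by
    intro P hP
    have : A P ∈ RingHom.ker g := (hker _).mpr ⟨P, hP, rfl⟩
    rw [hm] at this
    exact Ideal.mem_span_singleton.mp this
  rcases Nat.lt_or_ge m.natAbs 2 with hlt | hge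
  · rcases Nat.eq_zero_or_pos m.natAbs with h0 | hpos
    · -- `m = 0` is impossible
      exfalso
      have hm0 : m = 0 := Int.natAbs_eq_zero.mp h0
      have := UB (n + 2) (by omega) (fun P hP => by
        have := hrel P hP
        rw [hm0, zero_dvd_iff] at this
        rw [this]; exact dvd_zero _)
      have := Nat.le_of_dvd hn this
      omega
    · have h1 : m.natAbs = 1 := by omega
      rw [h1] at hnm' ⊢
      exact (Nat.dvd_one.mp hnm').symm
  · have := UB m.natAbs hge (fun P hP => by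
      exact Int.natAbs_dvd.mpr (hrel P hP))
    exact Nat.dvd_antisymm this hnm'

end Fermat.Agent.S16

namespace Fermat.Agent.S16

open ModularCurve CuspForm

/-- The ring hom of the statement: Hecke polynomials acting on the integral lattice. -/
noncomputable abbrev evT (p : ℕ) [Fact p.Prime] : HeckeAlg →+* ↥(heckeLatticeAlgebra p ∅) :=
  (latticeRestrictHom p ∅).toRingHom.comp (heckeEvalForms p 2)

theorem StepZero.heckeEvalForms_surjective (N : ℕ) [NeZero N] (k : ℤ) :
    Function.Surjective (heckeEvalForms N k) := by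
  rintro ⟨x, hx⟩
  suffices h : ∃ P : HeckeAlg, ((heckeEvalForms N k P : heckeAlgebra N k ∅) :
      Module.End ℂ (CuspForm (CongruenceSubgroup.Gamma0 N) k)) = x by
    obtain ⟨P, hP⟩ := h
    exact ⟨P, Subtype.ext hP⟩
  unfold heckeAlgebra at hx
  induction hx using Algebra.adjoin_induction with
  | mem x hx =>
    rcases hx with ⟨ℓ, hℓ, hℓN, -, rfl⟩ | ⟨q, hqN, hq, -, rfl⟩
    · refine ⟨heckeGen ⟨ℓ, hℓ⟩, ?_⟩
      rw [heckeEvalForms_heckeGen_of_not_dvd (ℓ := (⟨ℓ, hℓ⟩ : Nat.Primes)) hℓN]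
      rfl
    · refine ⟨heckeGen ⟨q, hq⟩, ?_⟩
      rw [heckeEvalForms_heckeGen_of_dvd (q := (⟨q, hq⟩ : Nat.Primes)) hqN]
      rfl
  | algebraMap r =>
    refine ⟨MvPolynomial.C r, ?_⟩
    rw [heckeEvalForms_C]
    rfl
  | add x y _ _ hx hy =>
    obtain ⟨P, rfl⟩ := hx
    obtain ⟨Q, rfl⟩ := hy
    exact ⟨P + Q, by rw [map_add]; rfl⟩
  | mul x y _ _ hx hy =>
    obtain ⟨P, rfl⟩ := hx
    obtain ⟨Q, rfl⟩ := hy
    exact ⟨P * Q, by rw [map_mul]; rfl⟩

theorem evT_surjective (p : ℕ) [Fact p.Prime] : Function.Surjective (evT p) := by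
  intro t
  obtain ⟨s, rfl⟩ := latticeRestrictHom_surjective p ∅ t
  obtain ⟨P, rfl⟩ := StepZero.heckeEvalForms_surjective p 2 s
  exact ⟨P, rfl⟩

theorem StepZero.eisensteinNumerator_pos (p : ℕ) [hp : Fact p.Prime] : 0 < eisensteinNumerator p := by
  unfold eisensteinNumerator
  have h1 : 0 < p - 1 := by have := hp.1.two_le; omega
  exact Nat.div_pos (Nat.le_of_dvd h1 (Nat.gcd_dvd_left _ _)) (Nat.gcd_pos_of_pos_left _ h1)

/-- Step 0: the frozen conclusion of S16 from the lower and the upper bound on the Eisenstein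
values of Hecke relations. -/
theorem card_quotient_of_bounds (p : ℕ) [Fact p.Prime]
    (LB : ∀ P : HeckeAlg, evT p P = 0 →
      ((eisensteinNumerator p : ℕ) : ℤ) ∣ MvPolynomial.aeval (eisensteinSystem p) P)
    (UB : ∀ d : ℕ, 2 ≤ d →
      (∀ P : HeckeAlg, evT p P = 0 → (d : ℤ) ∣ MvPolynomial.aeval (eisensteinSystem p) P) →
      d ∣ eisensteinNumerator p) :
    Nat.card (↥(heckeLatticeAlgebra p ∅) ⧸
        Ideal.map ((latticeRestrictHom p ∅).toRingHom.comp (heckeEvalForms p 2))
          (eisensteinIdeal p)) = eisensteinNumerator p :=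
  StepZero.card_quot_map_ker (evT p) (evT_surjective p)
    (MvPolynomial.aeval (R := ℤ) (eisensteinSystem p)).toRingHom (eisensteinNumerator p)
    (StepZero.eisensteinNumerator_pos p) LB UB

end Fermat.Agent.S16
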