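import Fermat.Agent.S16.LowerBound
import Fermat.Agent.S16.CFLift
import Fermat.Agent.S16.StepZeroAlg

/-!
# S16: the lower bound (Step 3), final form

`n = (p-1)/gcd(p-1,12)` divides the Eisenstein value of every Hecke polynomial which vanishes on
the integral lattice of `S₂(Γ₀(p))`.  This is the hypothesis `LB` of
`Fermat.Agent.S16.card_quotient_of_bounds`.
-/

set_option autoImplicit false

open scoped MatrixGroups

namespace Fermat.Agent.S16

open ModularCurve

/-- **Lower bound for S16** (Step 3 of the plan): if `P(T_l, U_p)` vanishes on the integral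
lattice of `S₂(Γ₀(p))`, then `n ∣ P(1 + l, 1)`. -/
theorem lowerBound (p : ℕ) [Fact p.Prime] (P : HeckeAlg)
    (hP : ((CuspForm.latticeRestrictHom p ∅).toRingHom.comp (CuspForm.heckeEvalForms p 2)) P = 0) :
    (eisensteinNumerator p : ℤ) ∣ MvPolynomial.aeval (eisensteinSystem p) P :=
  LB.lowerBound_of_lift p
    (exists_int_lift p (eisensteinNumerator p) (shimuraHom p)
      (shimuraHom_eq_zero_of_trace_sq_le p)) P hP

/-- The lower bound in the shape consumed by `card_quotient_of_bounds`. -/
theorem lowerBound_evT (p : ℕ) [Fact p.Prime] :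
    ∀ P : HeckeAlg, evT p P = 0 →
      ((eisensteinNumerator p : ℕ) : ℤ) ∣ MvPolynomial.aeval (eisensteinSystem p) P :=
  fun P hP => lowerBound p P hP

end Fermat.Agent.S16
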