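import Mathlib
import Fermat.Prelude.Def_ModularForm_HeckeOperator
import Fermat.Prelude.Def_FLTPrelim_Modularity
import Fermat.Prelude.Sol.S_ModularForm_heckeT_slash_eq_self_of_mem_Gamma0
import Fermat.Prelude.Sol.S_ModularForm_isBoundedAtImInfty_heckeT
import Fermat.Prelude.Thm_CongruenceSubgroup_one_mem_strictPeriods_Gamma0

/-!
# S16, package P1b: the Eisenstein form `e = (p E₂(pz) - E₂(z)) / 24` on `Γ₀(p)`

`e ∈ M₂(Γ₀(p))` with `q`-expansion `(p-1)/24 + ∑_{n ≥ 1} σ'(n) qⁿ`, where `σ'(n)` is the sum of the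
divisors of `n` prime to `p`.
-/

set_option autoImplicit false

open UpperHalfPlane hiding I
open Complex Filter Function
open scoped Manifold MatrixGroups ModularForm Topology Real
open EisensteinSeries

namespace Fermat.Agent.S16

/-- The function `z ↦ (p E₂(pz) - E₂(z)) / 24`. -/
noncomputable def eisFun (p : ℕ) : ℍ → ℂ :=
  (24 : ℂ)⁻¹ • (E2 ∣[(2 : ℤ)] ModularForm.heckeDiagMatrix p - E2)

theorem eisFun_apply (p : ℕ) (hp : p ≠ 0) (z : ℍ) :
    eisFun p z = ((p : ℂ) * E2 (ModularForm.heckeDiagMatrix p • z) - E2 z) / 24 := by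
  simp only [eisFun, Pi.smul_apply, Pi.sub_apply, smul_eq_mul,
    ModularForm.slash_heckeDiagMatrix_apply 2 hp]
  norm_num
  ring

theorem eisFun_mdiff (p : ℕ) : MDiff (eisFun p) :=
  ((E2_mdifferentiable.slash 2 _).sub E2_mdifferentiable).const_smul _

namespace EisP

/-- `D2 γ` is bounded at `i∞`. -/
theorem isBoundedAtImInfty_D2 (γ : SL(2, ℤ)) : IsBoundedAtImInfty (D2 γ) := by
  rw [UpperHalfPlane.isBoundedAtImInfty_iff]
  refine ⟨2 * π, 1, fun z hz => ?_⟩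
  have hden : |((γ 1 0 : ℤ) : ℝ)| ≤ ‖denom γ z‖ := by
    have him : (denom γ z).im = ((γ 1 0 : ℤ) : ℝ) * z.im := by
      simp [denom]
    calc |((γ 1 0 : ℤ) : ℝ)| ≤ |((γ 1 0 : ℤ) : ℝ)| * z.im := by
          nlinarith [abs_nonneg ((γ 1 0 : ℤ) : ℝ)]
      _ = |(denom γ z).im| := by rw [him, abs_mul, abs_of_pos z.im_pos]
      _ ≤ ‖denom γ z‖ := Complex.abs_im_le_norm _
  have hne : denom γ z ≠ 0 := denom_ne_zero γ z
  have hpos : 0 < ‖denom γ z‖ := norm_pos_iff.mpr hne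
  show ‖(2 * π * I * (γ 1 0 : ℂ)) / denom γ z‖ ≤ 2 * π
  rw [norm_div, div_le_iff₀ hpos]
  have h1 : ‖(2 * π * I * ((γ 1 0 : ℤ) : ℂ))‖ = 2 * π * |((γ 1 0 : ℤ) : ℝ)| := by
    simp [abs_of_pos Real.pi_pos]
  rw [h1]
  exact mul_le_mul_of_nonneg_left hden (by positivity)

open Matrix.SpecialLinearGroup in
/-- Commuting `diag(p,1)` past an element of `Γ₀(p)`. -/
theorem diag_mul_of_dvd (p : ℕ) (hp : p ≠ 0) (g : SL(2, ℤ)) (e : ℤ) (he : g 1 0 = p * e) :
    ∃ g' : SL(2, ℤ), g' 1 0 = e ∧ g' 1 1 = g 1 1 ∧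
      ModularForm.heckeDiagMatrix p * mapGL ℝ g = mapGL ℝ g' * ModularForm.heckeDiagMatrix p := by
  obtain ⟨g', h10, hmul⟩ :=
    P2MW.S_ModularForm_heckeT_slash_eq_self_of_mem_Gamma0.ModularForm.HeckeSlashInvariance.heckeDiagMatrix_mul_of_eq'
      hp g e he
  refine ⟨g', h10, ?_, hmul⟩
  have h11 := congrArg (fun M : GL (Fin 2) ℝ => (M : Matrix (Fin 2) (Fin 2) ℝ) 1 1) hmul
  simp only [Matrix.GeneralLinearGroup.coe_mul, Matrix.mul_apply, Fin.sum_univ_two,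
    ModularForm.val_heckeDiagMatrix hp, mapGL_coe_matrix] at h11
  simp at h11
  exact_mod_cast h11.symm

open Matrix.SpecialLinearGroup in
/-- Commuting `diag(p,1)` past an arbitrary element of `SL(2,ℤ)`: the result is an element of
`SL(2,ℤ)` times an upper triangular matrix. -/
theorem diag_mul_SL (p : ℕ) [Fact p.Prime] (g : SL(2, ℤ)) :
    ∃ (g' : SL(2, ℤ)) (β : GL (Fin 2) ℝ), (β : Matrix (Fin 2) (Fin 2) ℝ) 1 0 = 0 ∧
      ModularForm.heckeDiagMatrix p * mapGL ℝ g = mapGL ℝ g' * β := by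
  have hp : p ≠ 0 := (Fact.out : p.Prime).ne_zero
  by_cases hc : ((g 1 0 : ℤ) : ZMod p) = 0
  · obtain ⟨e, he⟩ := (ZMod.intCast_zmod_eq_zero_iff_dvd _ _).mp hc
    obtain ⟨g', -, -, hmul⟩ := diag_mul_of_dvd p hp g e he
    exact ⟨g', _,
      P2MW.S_ModularForm_isBoundedAtImInfty_heckeT.M4cP1W2.heckeDiagMatrix_one_zero p, hmul⟩
  · set y : ZMod p := ((g 1 1 : ℤ) : ZMod p) / ((g 1 0 : ℤ) : ZMod p) with hy
    obtain ⟨e, he⟩ : (p : ℤ) ∣ g 1 1 - g 1 0 * y.val := by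
      rw [← ZMod.intCast_zmod_eq_zero_iff_dvd]
      push_cast
      rw [ZMod.natCast_zmod_val, hy, mul_div_cancel₀ _ hc, sub_self]
    obtain ⟨g', -, hmul⟩ :=
      P2MW.S_ModularForm_heckeT_slash_eq_self_of_mem_Gamma0.ModularForm.HeckeSlashInvariance.heckeDiagMatrix_mul_of_eq
        hp g y.val e (by linear_combination he)
    exact ⟨g', _,
      P2MW.S_ModularForm_isBoundedAtImInfty_heckeT.M4cP1W2.heckeMatrix_one_zero p y.val, hmul⟩

/-- The constant `1 / (2 ζ(2))` of `E2_slash_action`. -/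
theorem E2_slash_GL (g : SL(2, ℤ)) :
    E2 ∣[(2 : ℤ)] (Matrix.SpecialLinearGroup.mapGL ℝ g) = E2 - (1 / (2 * riemannZeta 2)) • D2 g :=
  E2_slash_action g

open Matrix.SpecialLinearGroup in
/-- All `SL(2,ℤ)`-translates of `eisFun p` are bounded at `i∞`. -/
theorem eisFun_slash_bdd (p : ℕ) [Fact p.Prime] (g : SL(2, ℤ)) :
    IsBoundedAtImInfty (eisFun p ∣[(2 : ℤ)] g) := by
  obtain ⟨g', β, hβ, hmul⟩ := diag_mul_SL p g
  have h1 : (E2 ∣[(2 : ℤ)] ModularForm.heckeDiagMatrix p) ∣[(2 : ℤ)] g =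
      (E2 - (1 / (2 * riemannZeta 2)) • D2 g') ∣[(2 : ℤ)] β := by
    have h0 : (E2 ∣[(2 : ℤ)] ModularForm.heckeDiagMatrix p) ∣[(2 : ℤ)] g =
        (E2 ∣[(2 : ℤ)] ModularForm.heckeDiagMatrix p) ∣[(2 : ℤ)] (mapGL ℝ g) := rfl
    rw [h0, ← SlashAction.slash_mul, hmul, SlashAction.slash_mul, E2_slash_GL]
  have h2 : eisFun p ∣[(2 : ℤ)] g = (24 : ℂ)⁻¹ •
      ((E2 - (1 / (2 * riemannZeta 2)) • D2 g') ∣[(2 : ℤ)] β
        - (E2 - (1 / (2 * riemannZeta 2)) • D2 g)) := by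
    rw [eisFun, ModularForm.SL_smul_slash, sub_eq_add_neg, SlashAction.add_slash,
      SlashAction.neg_slash, h1, E2_slash_action, ← sub_eq_add_neg]
  rw [h2]
  have hb : ∀ γ : SL(2, ℤ), IsBoundedAtImInfty (E2 - (1 / (2 * riemannZeta 2)) • D2 γ) :=
    fun γ => isBoundedAtImInfty_E2.sub ((isBoundedAtImInfty_D2 γ).const_smul_left _)
  exact (((hb g').slash 2 hβ).sub (hb g)).const_smul_left _

theorem D2_slash_diag (p : ℕ) (hp : p ≠ 0) (g g' : SL(2, ℤ)) (e : ℤ) (he : g 1 0 = p * e)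
    (h10 : g' 1 0 = e) (h11 : g' 1 1 = g 1 1) :
    D2 g' ∣[(2 : ℤ)] ModularForm.heckeDiagMatrix p = D2 g := by
  ext z
  rw [ModularForm.slash_heckeDiagMatrix_apply 2 hp]
  have hd' : denom g' ((ModularForm.heckeDiagMatrix p • z : ℍ) : ℂ) =
      (e : ℂ) * ((p : ℂ) * z) + (g 1 1 : ℂ) := by
    rw [ModularGroup.denom_apply, ModularForm.coe_heckeDiagMatrix_smul hp, h10, h11]
  have hd : denom g z = ((p : ℂ) * (e : ℂ)) * z + (g 1 1 : ℂ) := by
    rw [ModularGroup.denom_apply, he]; push_cast; ring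
  have hne : denom g z ≠ 0 := denom_ne_zero g z
  have hne' : (e : ℂ) * ((p : ℂ) * z) + (g 1 1 : ℂ) ≠ 0 := by
    rw [hd] at hne
    intro h
    apply hne
    rw [← h]; ring
  simp only [D2, hd', hd, h10, he]
  rw [hd] at hne
  push_cast
  field_simp

open Matrix.SpecialLinearGroup in
/-- `eisFun p` is invariant under `Γ₀(p)` in weight `2`. -/
theorem eisFun_slash_Gamma0 (p : ℕ) [Fact p.Prime] (g : SL(2, ℤ))
    (hg : g ∈ CongruenceSubgroup.Gamma0 p) : eisFun p ∣[(2 : ℤ)] g = eisFun p := by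
  have hp : p ≠ 0 := (Fact.out : p.Prime).ne_zero
  obtain ⟨e, he⟩ := (ZMod.intCast_zmod_eq_zero_iff_dvd _ _).mp (CongruenceSubgroup.Gamma0_mem.mp hg)
  obtain ⟨g', h10, h11, hmul⟩ := diag_mul_of_dvd p hp g e he
  have h1 : (E2 ∣[(2 : ℤ)] ModularForm.heckeDiagMatrix p) ∣[(2 : ℤ)] g =
      E2 ∣[(2 : ℤ)] ModularForm.heckeDiagMatrix p - (1 / (2 * riemannZeta 2)) • D2 g := by
    have h0 : (E2 ∣[(2 : ℤ)] ModularForm.heckeDiagMatrix p) ∣[(2 : ℤ)] g =
        (E2 ∣[(2 : ℤ)] ModularForm.heckeDiagMatrix p) ∣[(2 : ℤ)] (mapGL ℝ g) := rfl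
    rw [h0, ← SlashAction.slash_mul, hmul, SlashAction.slash_mul, E2_slash_GL, sub_eq_add_neg,
      SlashAction.add_slash, SlashAction.neg_slash, ModularForm.smul_slash,
      ModularForm.σ_heckeDiagMatrix, D2_slash_diag p hp g g' e he h10 h11, ← sub_eq_add_neg]
    rfl
  rw [eisFun, ModularForm.SL_smul_slash, sub_eq_add_neg, SlashAction.add_slash,
    SlashAction.neg_slash, h1, E2_slash_action]
  congr 1
  abel

/-- `σ'(n)`: the sum of the divisors of `n` prime to `p`. -/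
def _root_.Fermat.Agent.S16.sigmaP (p n : ℕ) : ℕ := ∑ d ∈ n.divisors with ¬ p ∣ d, d

/-- The `q`-coefficients of `E₂`. -/
noncomputable def e2c (m : ℕ) : ℂ := if m = 0 then 1 else -24 * (ArithmeticFunction.sigma 1 m : ℂ)

/-- The `q`-coefficients of `eisFun p`. -/
noncomputable def _root_.Fermat.Agent.S16.eisCoeff (p n : ℕ) : ℂ :=
  if n = 0 then ((p : ℂ) - 1) / 24 else (sigmaP p n : ℂ)

theorem hasSum_E2 (τ : ℍ) : HasSum (fun m : ℕ => e2c m • Periodic.qParam 1 τ ^ m) (E2 τ) := by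
  have h := hasSum_qExpansion_E2 (z := τ)
  simpa only [e2c, Periodic.qParam, ofReal_one, div_one] using h

theorem hasSum_E2_diag (p : ℕ) (hp : p ≠ 0) (τ : ℍ) :
    HasSum (fun n : ℕ => (if p ∣ n then e2c (n / p) else 0) • Periodic.qParam 1 τ ^ n)
      (E2 (ModularForm.heckeDiagMatrix p • τ)) := by
  have hD := hasSum_E2 (ModularForm.heckeDiagMatrix p • τ)
  rw [P2MW.S_ModularForm_isBoundedAtImInfty_heckeT.M4cP1W2.qParam_heckeDiagMatrix_smul hp τ] at hD
  have hinj : Function.Injective (fun l : ℕ ↦ l * p) := mul_left_injective₀ hp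
  refine (hinj.hasSum_iff (fun m hm => ?_)).mp ?_
  · have : ¬ p ∣ m := by
      rintro ⟨l, rfl⟩
      exact hm ⟨l, by simp [mul_comm]⟩
    simp [this]
  · convert hD using 1
    funext l
    simp only [comp_apply, if_pos (dvd_mul_left p l), Nat.mul_div_cancel _ (Nat.pos_of_ne_zero hp)]
    rw [← pow_mul, mul_comm l p]

theorem sigma_one_eq (p n : ℕ) (hp : p ≠ 0) (hn : n ≠ 0) :
    ArithmeticFunction.sigma 1 n =
      sigmaP p n + (if p ∣ n then p * ArithmeticFunction.sigma 1 (n / p) else 0) := by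
  rw [ArithmeticFunction.sigma_one_apply, sigmaP,
    ← Finset.sum_filter_not_add_sum_filter n.divisors (fun d => p ∣ d) (fun d => d)]
  congr 1
  split_ifs with h
  · obtain ⟨m, rfl⟩ := h
    have hm : m ≠ 0 := by rintro rfl; simp at hn
    rw [Nat.mul_div_cancel_left _ (Nat.pos_of_ne_zero hp), ArithmeticFunction.sigma_one_apply,
      Finset.mul_sum]
    refine Finset.sum_bij' (fun d _ => d / p) (fun d _ => p * d) ?_ ?_ ?_ ?_ ?_
    · intro d hd
      simp only [Finset.mem_filter, Nat.mem_divisors] at hd ⊢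
      obtain ⟨⟨hd1, -⟩, k, rfl⟩ := hd
      rw [Nat.mul_div_cancel_left _ (Nat.pos_of_ne_zero hp)]
      exact ⟨(Nat.mul_dvd_mul_iff_left (Nat.pos_of_ne_zero hp)).mp hd1, hm⟩
    · intro d hd
      simp only [Finset.mem_filter, Nat.mem_divisors] at hd ⊢
      exact ⟨⟨Nat.mul_dvd_mul_left p hd.1, hn⟩, dvd_mul_right p d⟩
    · intro d hd
      simp only [Finset.mem_filter, Nat.mem_divisors] at hd
      exact Nat.mul_div_cancel' hd.2
    · intro d _
      exact Nat.mul_div_cancel_left _ (Nat.pos_of_ne_zero hp)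
    · intro d hd
      simp only [Finset.mem_filter, Nat.mem_divisors] at hd
      exact (Nat.mul_div_cancel' hd.2).symm
  · apply Finset.sum_eq_zero
    intro d hd
    simp only [Finset.mem_filter, Nat.mem_divisors] at hd
    exact absurd (hd.2.trans hd.1.1) h

theorem eisCoeff_eq (p n : ℕ) (hp : p ≠ 0) :
    ((p : ℂ) * (if p ∣ n then e2c (n / p) else 0) - e2c n) / 24 = eisCoeff p n := by
  rcases Nat.eq_zero_or_pos n with rfl | hn
  · simp [e2c, eisCoeff]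
  · have hn' : n ≠ 0 := hn.ne'
    have hσ := congrArg (Nat.cast : ℕ → ℂ) (sigma_one_eq p n hp hn')
    rw [eisCoeff, if_neg hn']
    by_cases h : p ∣ n
    · have hnp : n / p ≠ 0 := by
        obtain ⟨m, rfl⟩ := h
        rw [Nat.mul_div_cancel_left _ (Nat.pos_of_ne_zero hp)]
        rintro rfl; simp at hn
      rw [if_pos h] at hσ ⊢
      simp only [e2c, if_neg hn', if_neg hnp]
      push_cast at hσ
      rw [hσ]; ring
    · rw [if_neg h] at hσ ⊢
      simp only [e2c, if_neg hn']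
      push_cast at hσ
      rw [hσ]; ring

/-- The `q`-expansion of `eisFun p` as a `HasSum`. -/
theorem hasSum_eisFun (p : ℕ) (hp : p ≠ 0) (τ : ℍ) :
    HasSum (fun n : ℕ => eisCoeff p n • Periodic.qParam 1 τ ^ n) (eisFun p τ) := by
  have h1 := ((hasSum_E2_diag p hp τ).mul_left (p : ℂ)).sub (hasSum_E2 τ)
  have h2 := h1.div_const 24
  rw [eisFun_apply p hp]
  have hfun : (fun n : ℕ => eisCoeff p n • Periodic.qParam 1 (τ : ℂ) ^ n) = fun i =>
      (↑p * (if p ∣ i then e2c (i / p) else 0) • Periodic.qParam 1 (τ : ℂ) ^ i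
        - e2c i • Periodic.qParam 1 (τ : ℂ) ^ i) / 24 := by
    funext n
    rw [← eisCoeff_eq p n hp]
    simp only [smul_eq_mul]
    ring
  rw [hfun]
  exact h2

end EisP

/-- **The Eisenstein form** `e = (p E₂(pz) - E₂(z)) / 24 ∈ M₂(Γ₀(p))`. -/
noncomputable def eisP (p : ℕ) [Fact p.Prime] : ModularForm (CongruenceSubgroup.Gamma0 p) 2 where
  toFun := eisFun p
  slash_action_eq' := by
    rintro γ ⟨γ', hγ', rfl⟩
    exact EisP.eisFun_slash_Gamma0 p γ' hγ'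
  holo' := eisFun_mdiff p
  bdd_at_cusps' := by
    intro c hc
    have : NeZero p := ⟨(Fact.out : p.Prime).ne_zero⟩
    have hc' := (Subgroup.IsArithmetic.isCusp_iff_isCusp_SL2Z _).mp hc
    rw [OnePoint.isBoundedAt_iff_forall_SL2Z hc']
    intro γ _
    exact EisP.eisFun_slash_bdd p γ

@[simp] theorem coe_eisP (p : ℕ) [Fact p.Prime] : (⇑(eisP p) : ℍ → ℂ) = eisFun p := rfl

theorem eisP_apply (p : ℕ) [Fact p.Prime] (z : ℍ) :
    eisP p z = ((p : ℂ) * E2 (ModularForm.heckeDiagMatrix p • z) - E2 z) / 24 :=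
  eisFun_apply p (Fact.out : p.Prime).ne_zero z

/-- The `q`-expansion of `eisP p` as a `HasSum`. -/
theorem hasSum_eisP (p : ℕ) [Fact p.Prime] (τ : ℍ) :
    HasSum (fun n : ℕ => eisCoeff p n • Periodic.qParam 1 τ ^ n) (eisP p τ) :=
  EisP.hasSum_eisFun p (Fact.out : p.Prime).ne_zero τ

/-- The `q`-expansion coefficients of `eisP p`: `(p-1)/24` and `σ'(n)` for `n ≥ 1`. -/
theorem qExpansion_eisP_coeff (p : ℕ) [Fact p.Prime] (n : ℕ) :
    (UpperHalfPlane.qExpansion 1 (eisP p)).coeff n = eisCoeff p n := by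
  have hper : Periodic ((⇑(eisP p) : ℍ → ℂ) ∘ ofComplex) 1 :=
    SlashInvariantFormClass.periodic_comp_ofComplex (eisP p)
      (CongruenceSubgroup.one_mem_strictPeriods_Gamma0 p)
  have han : AnalyticAt ℂ (cuspFunction 1 (eisP p)) 0 :=
    analyticAt_cuspFunction_zero one_pos hper (eisFun_mdiff p)
      (ModularFormClass.bdd_at_infty (eisP p))
  exact (P2MW.S_ModularForm_isBoundedAtImInfty_heckeT.M4cP1W2.qExpansion_coeff_unique'
    (eisFun_mdiff p).continuous han (hasSum_eisP p) n).symm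

theorem qCoeff_eisP (p : ℕ) [Fact p.Prime] (n : ℕ) :
    ModularFormClass.qCoeff (eisP p) n = eisCoeff p n :=
  qExpansion_eisP_coeff p n

theorem qCoeff_eisP_zero (p : ℕ) [Fact p.Prime] :
    ModularFormClass.qCoeff (eisP p) 0 = ((p : ℂ) - 1) / 24 := by
  rw [qCoeff_eisP, eisCoeff, if_pos rfl]

theorem qCoeff_eisP_of_ne_zero (p : ℕ) [Fact p.Prime] {n : ℕ} (hn : n ≠ 0) :
    ModularFormClass.qCoeff (eisP p) n = (sigmaP p n : ℂ) := by
  rw [qCoeff_eisP, eisCoeff, if_neg hn]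

end Fermat.Agent.S16
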