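import Mathlib
import Fermat.Agent.S16.StepZeroAlg
import Fermat.Agent.S16.EisP
import Fermat.Agent.S23

/-!
# S16, Step 0 (duality): Eisenstein relations give a lattice form congruent to the Eisenstein
series

If every Hecke relation `P(T_ℓ, U_p) = 0` on the integral lattice `L` has Eisenstein value
divisible by `d`, then there is `f ∈ L` with `a_k(f) ≡ σ'(k) mod d` for all `k ≥ 1`.
-/

set_option autoImplicit false

namespace Fermat.Agent.S16

open ModularCurve CuspForm ModularFormClass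
open Fermat.Agent.S23.Denoms

namespace StepZero

section Sigma

variable {p : ℕ}

theorem sigmaP_one (hp : p.Prime) : sigmaP p 1 = 1 := by
  unfold sigmaP
  rw [Nat.divisors_one, Finset.filter_singleton, if_pos (by
    intro h; exact hp.one_lt.ne' (Nat.dvd_one.mp h)), Finset.sum_singleton]

/-- `σ'(m p) = σ'(m)`. -/
theorem sigmaP_mul_self (hp : p.Prime) {m : ℕ} (hm : 0 < m) : sigmaP p (m * p) = sigmaP p m := by
  unfold sigmaP
  congr 1
  ext e
  simp only [Finset.mem_filter, Nat.mem_divisors]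
  constructor
  · rintro ⟨⟨h1, h2⟩, h3⟩
    refine ⟨⟨?_, hm.ne'⟩, h3⟩
    exact (Nat.Coprime.dvd_mul_right ((Nat.Prime.coprime_iff_not_dvd hp).mpr h3).symm).mp h1
  · rintro ⟨⟨h1, h2⟩, h3⟩
    exact ⟨⟨Dvd.dvd.mul_right h1 p, mul_ne_zero h2 hp.ne_zero⟩, h3⟩

/-- `σ'(m ℓ) = (1 + ℓ) σ'(m) - [ℓ ∣ m] ℓ σ'(m / ℓ)` for a prime `ℓ ≠ p`. -/
theorem sigmaP_mul_prime (hp : p.Prime) {ℓ : ℕ} (hℓ : ℓ.Prime) (hℓp : ¬ ℓ ∣ p) {m : ℕ}
    (hm : 0 < m) :
    sigmaP p (m * ℓ) + (if ℓ ∣ m then ℓ * sigmaP p (m / ℓ) else 0) = (1 + ℓ) * sigmaP p m := by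
  classical
  have hpℓ : ¬ p ∣ ℓ := fun h => hℓp ((Nat.prime_dvd_prime_iff_eq hp hℓ).mp h ▸ dvd_rfl)
  set A : Finset ℕ := m.divisors.filter (fun e => ¬ p ∣ e) with hA
  set B : Finset ℕ := A.image (fun e => ℓ * e) with hB
  have hinj : Function.Injective (fun e : ℕ => ℓ * e) := fun a b h =>
    Nat.eq_of_mul_eq_mul_left hℓ.pos h
  have hsumB : ∑ e ∈ B, e = ℓ * sigmaP p m := by
    rw [hB, Finset.sum_image (fun a _ b _ h => hinj h), ← Finset.mul_sum]
    rfl
  have hunion : A ∪ B = (m * ℓ).divisors.filter (fun e => ¬ p ∣ e) := by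
    ext e
    simp only [hA, hB, Finset.mem_union, Finset.mem_filter, Nat.mem_divisors, Finset.mem_image]
    constructor
    · rintro (⟨⟨h1, h2⟩, h3⟩ | ⟨e', ⟨⟨h1, h2⟩, h3⟩, rfl⟩)
      · exact ⟨⟨Dvd.dvd.mul_right h1 ℓ, mul_ne_zero h2 hℓ.ne_zero⟩, h3⟩
      · refine ⟨⟨?_, mul_ne_zero h2 hℓ.ne_zero⟩, ?_⟩
        · rw [mul_comm m ℓ]; exact Nat.mul_dvd_mul_left ℓ h1
        · intro h
          rcases (Nat.Prime.dvd_mul hp).mp h with h | h
          · exact hpℓ h
          · exact h3 h
    · rintro ⟨⟨h1, h2⟩, h3⟩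
      by_cases hℓe : ℓ ∣ e
      · right
        obtain ⟨e', rfl⟩ := hℓe
        refine ⟨e', ⟨⟨?_, hm.ne'⟩, fun h => h3 (Dvd.dvd.mul_left h ℓ)⟩, rfl⟩
        rw [mul_comm m ℓ] at h1
        exact (Nat.mul_dvd_mul_iff_left hℓ.pos).mp h1
      · left
        refine ⟨⟨?_, hm.ne'⟩, h3⟩
        exact (Nat.Coprime.dvd_mul_right
          ((Nat.Prime.coprime_iff_not_dvd hℓ).mpr hℓe).symm).mp h1
  have hinter : ∑ e ∈ A ∩ B, e = if ℓ ∣ m then ℓ * sigmaP p (m / ℓ) else 0 := by
    split_ifs with hℓm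
    · have : A ∩ B = ((m / ℓ).divisors.filter (fun e => ¬ p ∣ e)).image (fun e => ℓ * e) := by
        ext e
        simp only [hA, hB, Finset.mem_inter, Finset.mem_filter, Nat.mem_divisors,
          Finset.mem_image]
        constructor
        · rintro ⟨⟨⟨h1, h2⟩, h3⟩, ⟨e', ⟨⟨h4, h5⟩, h6⟩, rfl⟩⟩
          refine ⟨e', ⟨⟨?_, ?_⟩, h6⟩, rfl⟩
          · obtain ⟨c, rfl⟩ := hℓm
            rw [Nat.mul_div_cancel_left _ hℓ.pos]
            exact (Nat.mul_dvd_mul_iff_left hℓ.pos).mp h1
          · exact (Nat.div_pos (Nat.le_of_dvd hm hℓm) hℓ.pos).ne'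
        · rintro ⟨e', ⟨⟨h1, h2⟩, h3⟩, rfl⟩
          have h4 : ℓ * e' ∣ m := by
            obtain ⟨c, rfl⟩ := hℓm
            rw [Nat.mul_div_cancel_left _ hℓ.pos] at h1
            exact Nat.mul_dvd_mul_left ℓ h1
          have h5 : e' ∣ m := dvd_trans (Dvd.intro_left ℓ rfl) h4
          refine ⟨⟨⟨h4, hm.ne'⟩, ?_⟩, ⟨e', ⟨⟨h5, hm.ne'⟩, h3⟩, rfl⟩⟩
          intro h
          rcases (Nat.Prime.dvd_mul hp).mp h with h | h
          · exact hpℓ h
          · exact h3 h
      rw [this, Finset.sum_image (fun a _ b _ h => hinj h), ← Finset.mul_sum]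
      rfl
    · have : A ∩ B = ∅ := by
        ext e
        simp only [hA, hB, Finset.mem_inter, Finset.mem_filter, Nat.mem_divisors,
          Finset.mem_image, Finset.notMem_empty, iff_false]
        rintro ⟨⟨⟨h1, h2⟩, h3⟩, ⟨e', _, rfl⟩⟩
        exact hℓm (dvd_trans (Dvd.intro e' rfl) h1)
      rw [this, Finset.sum_empty]
  have key := Finset.sum_union_inter (s₁ := A) (s₂ := B) (f := fun e => e)
  rw [hunion, hinter, hsumB] at key
  have hAs : ∑ e ∈ A, e = sigmaP p m := rfl
  rw [hAs] at key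
  unfold sigmaP at key ⊢
  rw [key]; ring

end Sigma

section Lattice

variable (p : ℕ)

theorem mem_intLattice_iff' {N : ℕ} (f : CuspForm (CongruenceSubgroup.Gamma0 N) 2) :
    f ∈ CuspForm.intLattice N 2 ↔ ∀ n : ℕ, ∃ m : ℤ, qCoeff f n = (m : ℂ) := by
  constructor
  · intro hf
    unfold CuspForm.intLattice at hf
    induction hf using Submodule.span_induction with
    | mem x hx => exact hx
    | zero => intro n; exact ⟨0, by rw [qc_zero]; simp⟩
    | add x y _ _ hx hy =>
      intro n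
      obtain ⟨a, ha⟩ := hx n
      obtain ⟨b, hb⟩ := hy n
      exact ⟨a + b, by rw [qc_add, ha, hb]; push_cast; ring⟩
    | smul c x _ hx =>
      intro n
      obtain ⟨a, ha⟩ := hx n
      exact ⟨c * a, by rw [qc_intCast_smul, ha]; push_cast; ring⟩
  · intro h
    exact Submodule.subset_span h

/-- The `n`-th `q`-coefficient of a lattice form, as an integer. -/
noncomputable def cInt (f : ↥(CuspForm.intLattice p 2)) (n : ℕ) : ℤ :=
  ((mem_intLattice_iff' f.1).mp f.2 n).choose

theorem cInt_spec (f : ↥(CuspForm.intLattice p 2)) (n : ℕ) :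
    ((cInt p f n : ℤ) : ℂ) = qCoeff (f : CuspForm (CongruenceSubgroup.Gamma0 p) 2) n :=
  ((mem_intLattice_iff' f.1).mp f.2 n).choose_spec.symm

theorem cInt_add (f g : ↥(CuspForm.intLattice p 2)) (n : ℕ) :
    cInt p (f + g) n = cInt p f n + cInt p g n := by
  have : ((cInt p (f + g) n : ℤ) : ℂ) = ((cInt p f n + cInt p g n : ℤ) : ℂ) := by
    push_cast
    rw [cInt_spec, cInt_spec, cInt_spec]
    exact qc_add _ _ n
  exact_mod_cast this

theorem cInt_zsmul (z : ℤ) (f : ↥(CuspForm.intLattice p 2)) (n : ℕ) :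
    cInt p (z • f) n = z * cInt p f n := by
  have : ((cInt p (z • f) n : ℤ) : ℂ) = ((z * cInt p f n : ℤ) : ℂ) := by
    push_cast
    rw [cInt_spec, cInt_spec]
    exact qc_intCast_smul z _ n
  exact_mod_cast this

theorem cInt_zero_index (f : ↥(CuspForm.intLattice p 2)) : cInt p f 0 = 0 := by
  have : ((cInt p f 0 : ℤ) : ℂ) = ((0 : ℤ) : ℂ) := by
    rw [cInt_spec, qc_cusp]; simp
  exact_mod_cast this

/-- A lattice form is determined by its integer coefficients. -/
theorem eq_zero_of_cInt (f : ↥(CuspForm.intLattice p 2)) (h : ∀ n, 1 ≤ n → cInt p f n = 0) :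
    f = 0 := by
  apply Subtype.ext
  have hq : ∀ n, qCoeff (f : CuspForm (CongruenceSubgroup.Gamma0 p) 2) n = 0 := by
    intro n
    rcases Nat.eq_zero_or_pos n with rfl | hn
    · exact qc_cusp _
    · rw [← cInt_spec, h n hn]; simp
  have hΓ' := hΓ p
  have hzero : UpperHalfPlane.qExpansion 1 (f : CuspForm (CongruenceSubgroup.Gamma0 p) 2) = 0 := by
    ext n
    simpa [qCoeff] using hq n
  have : Fact (IsCusp OnePoint.infty (Subgroup.map (Matrix.SpecialLinearGroup.mapGL ℝ)
      (CongruenceSubgroup.Gamma0 p))) := ⟨Subgroup.isCusp_of_mem_strictPeriods one_pos hΓ'⟩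
  have := (UpperHalfPlane.qExpansion_eq_zero_iff one_pos
    (SlashInvariantFormClass.periodic_comp_ofComplex
      (f : CuspForm (CongruenceSubgroup.Gamma0 p) 2) hΓ')
    (ModularFormClass.holo (f : CuspForm (CongruenceSubgroup.Gamma0 p) 2))
    (ModularFormClass.bdd_at_infty (f : CuspForm (CongruenceSubgroup.Gamma0 p) 2))).1 hzero
  exact DFunLike.coe_injective this

/-- A lattice form all of whose coefficients are divisible by `d` is `d` times a lattice form. -/
theorem exists_eq_smul_of_cInt_dvd (d : ℕ) (hd : 0 < d) (f : ↥(CuspForm.intLattice p 2))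
    (h : ∀ n, 1 ≤ n → (d : ℤ) ∣ cInt p f n) :
    ∃ g : ↥(CuspForm.intLattice p 2), f = (d : ℤ) • g := by
  have hdc : (d : ℂ) ≠ 0 := by exact_mod_cast hd.ne'
  set g0 : CuspForm (CongruenceSubgroup.Gamma0 p) 2 :=
    ((d : ℂ)⁻¹) • (f : CuspForm (CongruenceSubgroup.Gamma0 p) 2) with hg0
  have hg0mem : g0 ∈ CuspForm.intLattice p 2 := by
    rw [mem_intLattice_iff']
    intro n
    rcases Nat.eq_zero_or_pos n with rfl | hn
    · exact ⟨0, by rw [qc_cusp]; simp⟩
    · obtain ⟨c, hc⟩ := h n hn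
      refine ⟨c, ?_⟩
      rw [hg0, qc_smul, ← cInt_spec, hc]
      push_cast
      field_simp
  refine ⟨⟨g0, hg0mem⟩, Subtype.ext ?_⟩
  change (f : CuspForm (CongruenceSubgroup.Gamma0 p) 2) = (d : ℤ) • g0
  rw [hg0, ← Int.cast_smul_eq_zsmul ℂ, smul_smul]
  push_cast
  rw [mul_inv_cancel₀ hdc, one_smul]

end Lattice

section Words

variable (p : ℕ) [hp : Fact p.Prime]

/-- The integral lattice as a type. -/
abbrev Lat (p : ℕ) : Type := ↥(CuspForm.intLattice p 2)

/-- The Hecke algebra of the lattice as a type. -/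
abbrev TLat (p : ℕ) [Fact p.Prime] : Type := ↥(heckeLatticeAlgebra p ∅)

theorem evT_apply_coe (P : HeckeAlg) (f : Lat p) :
    ((((evT p P : TLat p) : Module.End ℤ (Lat p)) f : Lat p) :
        CuspForm (CongruenceSubgroup.Gamma0 p) 2) =
      ((heckeEvalForms p 2 P : heckeAlgebra p 2 ∅) :
        Module.End ℂ (CuspForm (CongruenceSubgroup.Gamma0 p) 2))
        (f : CuspForm (CongruenceSubgroup.Gamma0 p) 2) := rfl

/-- Hecke words: `a_1(t_n f) = a_n(f)` with Eisenstein value `σ'(n)`. -/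
theorem exists_hecke_word (n : ℕ) (hn : 1 ≤ n) :
    ∃ P : HeckeAlg, MvPolynomial.aeval (eisensteinSystem p) P = (sigmaP p n : ℤ) ∧
      ∀ f : CuspForm (CongruenceSubgroup.Gamma0 p) 2,
        qCoeff (((heckeEvalForms p 2 P : heckeAlgebra p 2 ∅) :
          Module.End ℂ (CuspForm (CongruenceSubgroup.Gamma0 p) 2)) f) 1 = qCoeff f n := by
  induction n using Nat.strong_induction_on with
  | _ n ih =>
    rcases Nat.lt_or_ge n 2 with h2 | h2
    · have h1 : n = 1 := by omega
      subst h1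
      refine ⟨1, ?_, fun f => ?_⟩
      · rw [map_one, sigmaP_one hp.1]; simp
      · rw [map_one]; rfl
    · obtain ⟨q, hq⟩ : ∃ q : Nat.Primes, (q : ℕ) = n.minFac :=
        ⟨⟨n.minFac, Nat.minFac_prime (by omega)⟩, rfl⟩
      have hℓ : (q : ℕ).Prime := q.2
      have hℓn : (q : ℕ) ∣ n := hq ▸ Nat.minFac_dvd n
      obtain ⟨m, hm⟩ := hℓn
      have hmpos : 0 < m := by
        rcases Nat.eq_zero_or_pos m with h0 | h0
        · subst h0; omega
        · exact h0
      have hmlt : m < n := by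
        rw [hm]
        have := hℓ.two_le
        nlinarith
      have hnm : n = m * (q : ℕ) := by rw [hm, mul_comm]
      obtain ⟨Pm, hPm1, hPm2⟩ := ih m hmlt hmpos
      by_cases hℓp : (q : ℕ) ∣ p
      · -- `U_p`
        have hℓeq : (q : ℕ) = p := (Nat.prime_dvd_prime_iff_eq hℓ hp.1).mp hℓp
        refine ⟨Pm * heckeGen q, ?_, fun f => ?_⟩
        · rw [map_mul, hPm1, aeval_heckeGen, eisensteinSystem_of_dvd hℓp, mul_one, hnm, hℓeq,
            sigmaP_mul_self hp.1 hmpos]
        · rw [map_mul, heckeEvalForms_heckeGen_of_dvd hℓp]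
          change qCoeff (((heckeEvalForms p 2 Pm : heckeAlgebra p 2 ∅) :
            Module.End ℂ (CuspForm (CongruenceSubgroup.Gamma0 p) 2))
            (CuspForm.heckeULin 2 hℓp f)) 1 = _
          rw [hPm2, qc_heckeU hℓ, hnm]
      · -- `T_ℓ`
        have hT : ∀ f : CuspForm (CongruenceSubgroup.Gamma0 p) 2,
            qCoeff (((heckeEvalForms p 2 (Pm * heckeGen q) : heckeAlgebra p 2 ∅) :
              Module.End ℂ (CuspForm (CongruenceSubgroup.Gamma0 p) 2)) f) 1 =
            qCoeff f n + if (q : ℕ) ∣ m then ((q : ℕ) : ℂ) * qCoeff f (m / (q : ℕ)) else 0 := by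
          intro f
          rw [map_mul, heckeEvalForms_heckeGen_of_not_dvd hℓp]
          change qCoeff (((heckeEvalForms p 2 Pm : heckeAlgebra p 2 ∅) :
            Module.End ℂ (CuspForm (CongruenceSubgroup.Gamma0 p) 2))
            (CuspForm.heckeTLin 2 hℓ hℓp f)) 1 = _
          rw [hPm2, qc_heckeT hℓ, hnm]
          norm_num
        have hsig := sigmaP_mul_prime hp.1 hℓ hℓp hmpos
        by_cases hℓm : (q : ℕ) ∣ m
        · have hmℓpos : 0 < m / (q : ℕ) := Nat.div_pos (Nat.le_of_dvd hmpos hℓm) hℓ.pos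
          have hmℓlt : m / (q : ℕ) < n := lt_of_le_of_lt (Nat.div_le_self m _) hmlt
          obtain ⟨Pq, hPq1, hPq2⟩ := ih (m / (q : ℕ)) hmℓlt hmℓpos
          refine ⟨Pm * heckeGen q - ((q : ℕ) : ℤ) • Pq, ?_, fun f => ?_⟩
          · rw [map_sub, map_mul, map_zsmul, hPm1, hPq1, aeval_heckeGen,
              eisensteinSystem_of_not_dvd hℓp, hnm]
            rw [if_pos hℓm] at hsig
            have : ((sigmaP p (m * (q : ℕ)) : ℕ) : ℤ) +
                ((q : ℕ) : ℤ) * (sigmaP p (m / (q : ℕ)) : ℤ) =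
                (1 + ((q : ℕ) : ℤ)) * (sigmaP p m : ℤ) := by exact_mod_cast hsig
            simp only [smul_eq_mul]
            linarith
          · have h1 := hT f
            rw [if_pos hℓm] at h1
            have h2 := hPq2 f
            have key : ((heckeEvalForms p 2 (Pm * heckeGen q - ((q : ℕ) : ℤ) • Pq) :
                heckeAlgebra p 2 ∅) :
                Module.End ℂ (CuspForm (CongruenceSubgroup.Gamma0 p) 2)) f =
                ((heckeEvalForms p 2 (Pm * heckeGen q) : heckeAlgebra p 2 ∅) :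
                  Module.End ℂ (CuspForm (CongruenceSubgroup.Gamma0 p) 2)) f +
                (-((q : ℕ) : ℤ)) • (((heckeEvalForms p 2 Pq : heckeAlgebra p 2 ∅) :
                  Module.End ℂ (CuspForm (CongruenceSubgroup.Gamma0 p) 2)) f) := by
              rw [map_sub, map_zsmul]
              change (((heckeEvalForms p 2 (Pm * heckeGen q) : heckeAlgebra p 2 ∅) :
                  Module.End ℂ (CuspForm (CongruenceSubgroup.Gamma0 p) 2)) -
                ((q : ℕ) : ℤ) • ((heckeEvalForms p 2 Pq : heckeAlgebra p 2 ∅) :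
                  Module.End ℂ (CuspForm (CongruenceSubgroup.Gamma0 p) 2))) f = _
              rw [LinearMap.sub_apply, LinearMap.smul_apply, neg_smul, sub_eq_add_neg]
            rw [key, qc_add, qc_intCast_smul, h1, h2]
            push_cast
            ring
        · refine ⟨Pm * heckeGen q, ?_, fun f => ?_⟩
          · rw [map_mul, hPm1, aeval_heckeGen, eisensteinSystem_of_not_dvd hℓp, hnm]
            rw [if_neg hℓm, add_zero] at hsig
            have : ((sigmaP p (m * (q : ℕ)) : ℕ) : ℤ) =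
                (1 + ((q : ℕ) : ℤ)) * (sigmaP p m : ℤ) := by
              exact_mod_cast hsig
            rw [this]; ring
          · have h1 := hT f
            rw [if_neg hℓm, add_zero] at h1
            exact h1

/-- Hecke words on the lattice. -/
theorem exists_lattice_word (n : ℕ) (hn : 1 ≤ n) :
    ∃ P : HeckeAlg, MvPolynomial.aeval (eisensteinSystem p) P = (sigmaP p n : ℤ) ∧
      ∀ f : Lat p, cInt p (((evT p P : TLat p) : Module.End ℤ (Lat p)) f) 1 = cInt p f n := by
  obtain ⟨P, hP1, hP2⟩ := exists_hecke_word p n hn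
  refine ⟨P, hP1, fun f => ?_⟩
  have : ((cInt p (((evT p P : TLat p) : Module.End ℤ (Lat p)) f) 1 : ℤ) : ℂ) =
      ((cInt p f n : ℤ) : ℂ) := by
    rw [cInt_spec, cInt_spec, evT_apply_coe, hP2]
  exact_mod_cast this

end Words

section Duality

variable (p : ℕ) [hp : Fact p.Prime]

/-- The pairing `⟨t, f⟩ = a_1(t f)`. -/
noncomputable def pair : TLat p →ₗ[ℤ] Lat p →ₗ[ℤ] ℤ :=
  LinearMap.mk₂ ℤ (fun t f => cInt p ((t : Module.End ℤ (Lat p)) f) 1)
    (fun t t' f => by
      change cInt p (((t : Module.End ℤ (Lat p)) + (t' : Module.End ℤ (Lat p))) f) 1 = _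
      rw [LinearMap.add_apply, cInt_add])
    (fun c t f => by
      change cInt p ((c • (t : Module.End ℤ (Lat p))) f) 1 = _
      rw [LinearMap.smul_apply, cInt_zsmul]; rfl)
    (fun t f g => by rw [map_add, cInt_add])
    (fun c t f => by rw [map_zsmul, cInt_zsmul]; rfl)

theorem pair_apply (t : TLat p) (f : Lat p) :
    pair p t f = cInt p ((t : Module.End ℤ (Lat p)) f) 1 := rfl

theorem cInt_eq_pair (n : ℕ) (hn : 1 ≤ n) :
    ∃ P : HeckeAlg, MvPolynomial.aeval (eisensteinSystem p) P = (sigmaP p n : ℤ) ∧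
      ∀ f : Lat p, pair p (evT p P) f = cInt p f n :=
  exists_lattice_word p n hn

/-- The pairing is non-degenerate on the Hecke side. -/
theorem eq_zero_of_pair (t : TLat p) (h : ∀ f : Lat p, pair p t f = 0) : t = 0 := by
  apply Subtype.ext
  apply LinearMap.ext
  intro f
  change (t : Module.End ℤ (Lat p)) f = 0
  apply eq_zero_of_cInt
  intro n hn
  obtain ⟨P, -, hP⟩ := cInt_eq_pair p n hn
  rw [← hP, pair_apply]
  have hcomm : (evT p P : TLat p) * t = t * evT p P := mul_comm _ _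
  have h1 : ((evT p P : TLat p) : Module.End ℤ (Lat p)) ((t : Module.End ℤ (Lat p)) f) =
      (t : Module.End ℤ (Lat p)) (((evT p P : TLat p) : Module.End ℤ (Lat p)) f) := by
    have := congrArg (fun x : TLat p => (x : Module.End ℤ (Lat p)) f) hcomm
    simpa using this
  rw [h1]
  exact h _

/-- The pairing is non-degenerate modulo `d` on the lattice side. -/
theorem exists_eq_smul_of_pair_dvd (d : ℕ) (hd : 0 < d) (f : Lat p)
    (h : ∀ t : TLat p, (d : ℤ) ∣ pair p t f) : ∃ g : Lat p, f = (d : ℤ) • g := by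
  apply exists_eq_smul_of_cInt_dvd p d hd f
  intro n hn
  obtain ⟨P, -, hP⟩ := cInt_eq_pair p n hn
  rw [← hP]
  exact h _

end Duality

section Counting

variable (p : ℕ) [hp : Fact p.Prime]

theorem finrank_TLat_le : Module.finrank ℤ (TLat p) ≤ Module.finrank ℤ (Lat p) := by
  haveI := intLattice.moduleFinite p
  haveI := intLattice.moduleFree p
  set r := Module.finrank ℤ (Lat p) with hr
  let bL : Module.Basis (Fin r) ℤ (Lat p) := Module.finBasis ℤ (Lat p)
  let Φ : TLat p →ₗ[ℤ] (Fin r → ℤ) := LinearMap.pi (fun j => (pair p).flip (bL j))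
  have hΦ : Function.Injective Φ := by
    rw [injective_iff_map_eq_zero]
    intro t ht
    apply eq_zero_of_pair p t
    intro f
    have h0 : pair p t = 0 := by
      apply bL.ext
      intro j
      have := congrFun ht j
      simpa [Φ] using this
    rw [h0]; rfl
  have := LinearMap.finrank_le_finrank_of_injective hΦ
  rwa [Module.finrank_fin_fun] at this

/-- Surjectivity of the pairing modulo `d`: every additive character of the Hecke algebra with
values in `ℤ/d` is `t ↦ a_1(t f) mod d` for a lattice form `f`. -/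
theorem exists_lattice_form_of_char (d : ℕ) (hd : 0 < d) (χ : TLat p →+ ZMod d) :
    ∃ f : Lat p, ∀ t : TLat p, ((pair p t f : ℤ) : ZMod d) = χ t := by
  haveI : NeZero d := ⟨hd.ne'⟩
  haveI := intLattice.moduleFinite p
  haveI := intLattice.moduleFree p
  set r := Module.finrank ℤ (Lat p) with hr
  set s := Module.finrank ℤ (TLat p) with hs
  have hsr : s ≤ r := finrank_TLat_le p
  let bL : Module.Basis (Fin r) ℤ (Lat p) := Module.finBasis ℤ (Lat p)
  let bT : Module.Basis (Fin s) ℤ (TLat p) := Module.finBasis ℤ (TLat p)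
  let M : Matrix (Fin s) (Fin r) (ZMod d) := fun i j => ((pair p (bT i) (bL j) : ℤ) : ZMod d)
  -- lifting a vector mod `d` to a lattice form
  let lift : (Fin r → ZMod d) → Lat p := fun x => ∑ j, (((x j).val : ℕ) : ℤ) • bL j
  have hlift_pair : ∀ (x : Fin r → ZMod d) (i : Fin s),
      ((pair p (bT i) (lift x) : ℤ) : ZMod d) = (M.mulVec x) i := by
    intro x i
    simp only [lift, map_sum, map_zsmul, Matrix.mulVec, dotProduct, M, smul_eq_mul]
    push_cast
    refine Finset.sum_congr rfl fun j _ => ?_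
    rw [ZMod.natCast_zmod_val, mul_comm]
  have hpair_all : ∀ (f : Lat p) (t : TLat p),
      pair p t f = ∑ i, bT.repr t i * pair p (bT i) f := by
    intro f t
    conv_lhs => rw [← bT.sum_repr t]
    simp only [map_sum, map_zsmul, LinearMap.sum_apply, LinearMap.smul_apply, smul_eq_mul]
  have hinj : Function.Injective (M.mulVecLin) := by
    rw [injective_iff_map_eq_zero]
    intro x hx
    have hx' : ∀ i, (M.mulVec x) i = 0 := fun i => by
      have := congrFun hx i
      simpa using this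
    have hdvd : ∀ t : TLat p, (d : ℤ) ∣ pair p t (lift x) := by
      intro t
      rw [hpair_all]
      refine Finset.dvd_sum fun i _ => Dvd.dvd.mul_left ?_ _
      rw [← ZMod.intCast_zmod_eq_zero_iff_dvd, hlift_pair, hx']
    obtain ⟨g, hg⟩ := exists_eq_smul_of_pair_dvd p d hd (lift x) hdvd
    funext j
    have h1 : bL.repr (lift x) j = (((x j).val : ℕ) : ℤ) := by
      have := bL.repr_sum_self (fun j => (((x j).val : ℕ) : ℤ))
      exact congrFun this j
    have h2 : bL.repr (lift x) j = (d : ℤ) * bL.repr g j := by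
      rw [hg, map_zsmul]; rfl
    have h3 : (((((x j).val : ℕ) : ℤ)) : ZMod d) = 0 := by
      rw [← h1, h2]; push_cast; simp
    rw [Int.cast_natCast, ZMod.natCast_zmod_val] at h3
    exact h3
  have hbij : Function.Bijective (M.mulVecLin) := by
    apply hinj.bijective_of_nat_card_le
    rw [Nat.card_eq_fintype_card, Nat.card_eq_fintype_card, Fintype.card_fun, Fintype.card_fun,
      ZMod.card, Fintype.card_fin, Fintype.card_fin]
    exact Nat.pow_le_pow_right hd hsr
  obtain ⟨x, hx⟩ := hbij.2 (fun i => χ (bT i))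
  refine ⟨lift x, fun t => ?_⟩
  rw [hpair_all]
  conv_rhs => rw [← bT.sum_repr t]
  rw [map_sum]
  push_cast
  refine Finset.sum_congr rfl fun i _ => ?_
  rw [map_zsmul, hlift_pair]
  have := congrFun hx i
  simp only [Matrix.mulVecLin_apply] at this
  rw [this]
  simp

end Counting

end StepZero

end Fermat.Agent.S16

namespace Fermat.Agent.S16

open ModularCurve CuspForm ModularFormClass StepZero

/-- A Hecke polynomial vanishes on the integral lattice iff it vanishes on `S₂(Γ₀(p))`. -/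
theorem evT_eq_zero_iff (p : ℕ) [Fact p.Prime] (P : HeckeAlg) :
    evT p P = 0 ↔ heckeEvalForms p 2 P = 0 := by
  constructor
  · intro h
    have hinj := (latticeRestrictHom_bijective p ∅ (Fermat.Agent.S23.result p)).1
    apply hinj
    rw [map_zero]
    exact h
  · intro h
    change latticeRestrictHom p ∅ (heckeEvalForms p 2 P) = 0
    rw [h, map_zero]

/-- Step 0 (duality): if every Hecke relation on the lattice has Eisenstein value divisible by
`d`, there is a lattice form congruent to the Eisenstein series modulo `d`. -/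
theorem exists_form_of_eisenstein_relations (p : ℕ) [Fact p.Prime] (d : ℕ) (hd : 2 ≤ d)
    (h : ∀ P : HeckeAlg, evT p P = 0 →
      (d : ℤ) ∣ MvPolynomial.aeval (eisensteinSystem p) P) :
    ∃ f : CuspForm (CongruenceSubgroup.Gamma0 p) 2, f ∈ CuspForm.intLattice p 2 ∧
      ∃ c : ℕ → ℤ, (∀ k, ModularFormClass.qCoeff f k = (c k : ℂ)) ∧
        ∀ k, 1 ≤ k → (d : ℤ) ∣ c k - (sigmaP p k : ℤ) := by
  have hd0 : 0 < d := by omega
  -- the Eisenstein character modulo `d`
  let A : HeckeAlg →+* ZMod d :=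
    (Int.castRingHom (ZMod d)).comp (MvPolynomial.aeval (R := ℤ) (eisensteinSystem p)).toRingHom
  have hker : RingHom.ker (evT p) ≤ RingHom.ker A := by
    intro P hP
    rw [RingHom.mem_ker] at hP ⊢
    change ((MvPolynomial.aeval (eisensteinSystem p) P : ℤ) : ZMod d) = 0
    rw [ZMod.intCast_zmod_eq_zero_iff_dvd]
    exact h P hP
  let χ : TLat p →+* ZMod d := (evT p).liftOfSurjective (evT_surjective p) ⟨A, hker⟩
  have hχ : ∀ P : HeckeAlg, χ (evT p P) =
      ((MvPolynomial.aeval (eisensteinSystem p) P : ℤ) : ZMod d) := by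
    intro P
    exact RingHom.liftOfRightInverse_comp_apply _ _ _ ⟨A, hker⟩ P
  obtain ⟨f, hf⟩ := exists_lattice_form_of_char p d hd0 χ.toAddMonoidHom
  refine ⟨f.1, f.2, fun k => cInt p f k, fun k => (cInt_spec p f k).symm, fun k hk => ?_⟩
  obtain ⟨P, hP1, hP2⟩ := cInt_eq_pair p k hk
  have h1 := hf (evT p P)
  rw [hP2] at h1
  have h2 : ((cInt p f k : ℤ) : ZMod d) = (((sigmaP p k : ℕ) : ℤ) : ZMod d) := by
    rw [h1]
    change χ (evT p P) = _
    rw [hχ, hP1]
  exact (ZMod.intCast_eq_intCast_iff_dvd_sub _ _ d).mp h2.symm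

end Fermat.Agent.S16
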