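import Mathlib
import Fermat.Prelude.Def_ModularForm_HeckeOperatorForms
import Fermat.Agent.S20.CombBasic

/-!
# S16, package P1a: the Fricke involution on `M_k(Γ₀(p))`, the cosets of `Γ₀(p)` in `SL(2, ℤ)`,
and the trace identity `f ∣ W = - U_p f` in weight two.
-/

set_option autoImplicit false

open UpperHalfPlane hiding I
open Complex ModularForm CongruenceSubgroup
open scoped MatrixGroups ModularForm Manifold

namespace Fermat.Agent.S16

noncomputable section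

/-- The Fricke matrix `[[0, -1], [p, 0]]`. -/
def frickeMat (p : ℕ) [NeZero p] : GL (Fin 2) ℝ :=
  Matrix.GeneralLinearGroup.mkOfDetNeZero !![0, -1; (p : ℝ), 0]
    (by simp [Matrix.det_fin_two_of, NeZero.ne p])

section basic

variable (p : ℕ) [NeZero p]

@[simp] theorem val_frickeMat :
    ((frickeMat p : GL (Fin 2) ℝ) : Matrix (Fin 2) (Fin 2) ℝ) = !![0, -1; (p : ℝ), 0] := rfl

theorem det_frickeMat : ((frickeMat p).det : ℝ) = p := by
  rw [Matrix.GeneralLinearGroup.val_det_apply, val_frickeMat, Matrix.det_fin_two_of]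
  ring

theorem det_frickeMat_pos : 0 < ((frickeMat p).det : ℝ) := by
  rw [det_frickeMat]
  exact_mod_cast Nat.pos_of_ne_zero (NeZero.ne p)

theorem σ_frickeMat : UpperHalfPlane.σ (frickeMat p) = .refl ℝ ℂ := by
  rw [UpperHalfPlane.σ, if_pos (det_frickeMat_pos p)]

theorem denom_frickeMat (τ : ℍ) : UpperHalfPlane.denom (frickeMat p) τ = p * τ := by
  simp [UpperHalfPlane.denom, val_frickeMat]

theorem coe_frickeMat_smul (τ : ℍ) : ((frickeMat p • τ : ℍ) : ℂ) = -1 / (p * τ) := by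
  rw [UpperHalfPlane.coe_smul_of_det_pos (det_frickeMat_pos p)]
  simp [UpperHalfPlane.num, UpperHalfPlane.denom, val_frickeMat]

/-- Explicit formula for the slash action of the Fricke matrix:
`(f ∣[k] W) τ = p⁻¹ τ^(-k) f(-1/(p τ))`. -/
theorem slash_frickeMat_apply (k : ℤ) (f : ℍ → ℂ) (τ : ℍ) :
    (f ∣[k] frickeMat p) τ = (p : ℂ)⁻¹ * (τ : ℂ) ^ (-k) * f (frickeMat p • τ) := by
  have hp' : (p : ℂ) ≠ 0 := by exact_mod_cast NeZero.ne p
  rw [ModularForm.slash_apply, σ_frickeMat, det_frickeMat, denom_frickeMat]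
  simp only [ContinuousAlgEquiv.refl_apply, Nat.abs_cast, Complex.ofReal_natCast]
  rw [mul_zpow, zpow_sub₀ hp', zpow_neg, zpow_neg, zpow_one]
  field_simp

/-- `W² = -p`: slashing twice by the Fricke matrix multiplies by `(-1)^k p^(k-2)`. -/
theorem slash_frickeMat_slash_frickeMat (k : ℤ) (f : ℍ → ℂ) :
    (f ∣[k] frickeMat p) ∣[k] frickeMat p = ((-1 : ℂ) ^ k * (p : ℂ) ^ (k - 2)) • f := by
  have hp' : (p : ℂ) ≠ 0 := by exact_mod_cast NeZero.ne p
  funext τ
  have hτ : (τ : ℂ) ≠ 0 := τ.ne_zero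
  have hpt : frickeMat p • (frickeMat p • τ) = τ := by
    apply UpperHalfPlane.ext
    rw [coe_frickeMat_smul, coe_frickeMat_smul]
    field_simp
  rw [slash_frickeMat_apply, slash_frickeMat_apply, hpt, coe_frickeMat_smul, Pi.smul_apply,
    smul_eq_mul]
  have h1 : (-1 / ((p : ℂ) * (τ : ℂ))) ^ (-k) = (-1 : ℂ) ^ k * (p : ℂ) ^ k * (τ : ℂ) ^ k := by
    have hneg : ((-1 : ℂ) ^ k)⁻¹ = (-1 : ℂ) ^ k := by
      rw [← inv_zpow]; norm_num
    rw [div_zpow, mul_zpow, zpow_neg, zpow_neg, zpow_neg, div_eq_mul_inv, hneg, mul_inv, inv_inv,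
      inv_inv]
    ring
  rw [h1, zpow_sub₀ hp', zpow_neg]
  have h2 : (τ : ℂ) ^ k ≠ 0 := zpow_ne_zero _ hτ
  field_simp

/-- The coset representative `S T^j` in terms of the Fricke matrix and the Hecke matrix
`[[1, j], [0, p]]`. -/
theorem slash_S_mul_T_pow (k : ℤ) (f : ℍ → ℂ) (j : ℕ) :
    f ∣[k] (ModularGroup.S * ModularGroup.T ^ j) =
      (p : ℂ) ^ (2 - k) • ((f ∣[k] frickeMat p) ∣[k] heckeMatrix p j) := by
  have hp : p ≠ 0 := NeZero.ne p
  have hp' : (p : ℂ) ≠ 0 := by exact_mod_cast hp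
  funext τ
  have hS : ∀ w : ℍ, ((ModularGroup.S • w : ℍ) : ℂ) = (-(w : ℂ))⁻¹ := fun w => by
    rw [UpperHalfPlane.modular_S_smul]
  have h3 : ((ModularGroup.T ^ j • τ : ℍ) : ℂ) = (τ : ℂ) + j := by
    have := UpperHalfPlane.modular_T_zpow_smul τ (j : ℤ)
    rw [zpow_natCast] at this
    rw [this]
    simp [add_comm]
  have hpt : frickeMat p • (heckeMatrix p j • τ) = (ModularGroup.S * ModularGroup.T ^ j) • τ := by
    apply UpperHalfPlane.ext
    rw [coe_frickeMat_smul, coe_heckeMatrix_smul hp, mul_smul, hS, h3]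
    have hne : (τ : ℂ) + j ≠ 0 := by
      rw [← h3]; exact UpperHalfPlane.ne_zero _
    field_simp
  have hmat : ((ModularGroup.S * ModularGroup.T ^ j : SL(2, ℤ)) : Matrix (Fin 2) (Fin 2) ℤ)
      = !![0, -1; 1, (j : ℤ)] := by
    rw [← zpow_natCast, Matrix.SpecialLinearGroup.coe_mul, ModularGroup.coe_T_zpow,
      ModularGroup.coe_S]
    simp
  have hden : UpperHalfPlane.denom (ModularGroup.S * ModularGroup.T ^ j : SL(2, ℤ)) τ
      = (τ : ℂ) + j := by
    rw [ModularGroup.denom_apply, hmat]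
    simp
  rw [ModularForm.SL_slash_apply, Pi.smul_apply, smul_eq_mul, slash_heckeMatrix_apply k hp,
    slash_frickeMat_apply, hpt, coe_heckeMatrix_smul hp, hden]
  have hne : (τ : ℂ) + j ≠ 0 := by
    have := UpperHalfPlane.denom_ne_zero (ModularGroup.S * ModularGroup.T ^ j : SL(2, ℤ)) τ
    rwa [hden] at this
  rw [div_zpow, zpow_sub₀ hp', zpow_neg, zpow_neg]
  have h2 : ((τ : ℂ) + j) ^ k ≠ 0 := zpow_ne_zero _ hne
  have h3 : (p : ℂ) ^ k ≠ 0 := zpow_ne_zero _ hp'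
  field_simp

/-- The Fricke matrix normalises `Γ₀(p)`: for `g ∈ Γ₀(p)` there is `g' ∈ Γ₀(p)` with
`W g = g' W`; moreover `g ↦ g'` is onto. -/
theorem exists_frickeMat_mul {g : SL(2, ℤ)} (hg : g ∈ Gamma0 p) :
    ∃ g' ∈ Gamma0 p, frickeMat p * (Matrix.SpecialLinearGroup.mapGL ℝ g) =
      Matrix.SpecialLinearGroup.mapGL ℝ g' * frickeMat p ∧
      frickeMat p * (Matrix.SpecialLinearGroup.mapGL ℝ g') =
      Matrix.SpecialLinearGroup.mapGL ℝ g * frickeMat p := by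
  obtain ⟨c', hc'⟩ : (p : ℤ) ∣ g 1 0 :=
    (ZMod.intCast_zmod_eq_zero_iff_dvd _ _).mp (Gamma0_mem.mp hg)
  have hdet : g 0 0 * g 1 1 - g 0 1 * g 1 0 = 1 := by
    have h := g.det_coe
    rwa [Matrix.det_fin_two] at h
  have hdet' : (!![g 1 1, -c'; -((p : ℤ) * g 0 1), g 0 0] : Matrix (Fin 2) (Fin 2) ℤ).det = 1 := by
    rw [Matrix.det_fin_two_of]
    rw [hc'] at hdet
    linear_combination hdet
  let g' : SL(2, ℤ) := ⟨!![g 1 1, -c'; -((p : ℤ) * g 0 1), g 0 0], hdet'⟩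
  have hg'val : (g' : Matrix (Fin 2) (Fin 2) ℤ) = !![g 1 1, -c'; -((p : ℤ) * g 0 1), g 0 0] := rfl
  have h10 : ((g 1 0 : ℤ) : ℝ) = (p : ℝ) * (c' : ℝ) := by rw [hc']; push_cast; ring
  have hent : ∀ (h : SL(2, ℤ)) (i j : Fin 2),
      ((Matrix.SpecialLinearGroup.mapGL ℝ h : GL (Fin 2) ℝ) : Matrix (Fin 2) (Fin 2) ℝ) i j
        = ((h i j : ℤ) : ℝ) := fun h i j => rfl
  have e00 : g' 0 0 = g 1 1 := rfl
  have e01 : g' 0 1 = -c' := rfl
  have e10 : g' 1 0 = -((p : ℤ) * g 0 1) := rfl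
  have e11 : g' 1 1 = g 0 0 := rfl
  refine ⟨g', ?_, ?_, ?_⟩
  · rw [Gamma0_mem, e10]
    simp
  · apply Matrix.GeneralLinearGroup.ext
    intro i j
    rw [Matrix.GeneralLinearGroup.coe_mul, Matrix.GeneralLinearGroup.coe_mul,
      Matrix.mul_apply, Matrix.mul_apply, Fin.sum_univ_two, Fin.sum_univ_two]
    simp only [hent, val_frickeMat]
    fin_cases i <;> fin_cases j <;>
      simp [e00, e01, e10, e11, h10, mul_comm]
  · apply Matrix.GeneralLinearGroup.ext
    intro i j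
    rw [Matrix.GeneralLinearGroup.coe_mul, Matrix.GeneralLinearGroup.coe_mul,
      Matrix.mul_apply, Matrix.mul_apply, Fin.sum_univ_two, Fin.sum_univ_two]
    simp only [hent, val_frickeMat]
    fin_cases i <;> fin_cases j <;>
      simp [e00, e01, e10, e11, h10, mul_comm]

open ConjAct Pointwise in
/-- Conjugation by the Fricke matrix preserves (the image in `GL(2, ℝ)` of) `Γ₀(p)`. -/
theorem conj_frickeMat_Gamma0 :
    toConjAct (frickeMat p)⁻¹ • (Gamma0 p : Subgroup (GL (Fin 2) ℝ)) =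
      (Gamma0 p : Subgroup (GL (Fin 2) ℝ)) := by
  ext x
  rw [map_inv, Subgroup.mem_inv_pointwise_smul_iff, toConjAct_smul]
  constructor
  · rintro ⟨h, hh, hx⟩
    obtain ⟨g, hg, -, h2⟩ := exists_frickeMat_mul p hh
    refine ⟨g, hg, ?_⟩
    have : frickeMat p * Matrix.SpecialLinearGroup.mapGL ℝ g = frickeMat p * x := by
      rw [h2, hx]; group
    exact mul_left_cancel this
  · rintro ⟨g, hg, rfl⟩
    obtain ⟨g', hg', h1, -⟩ := exists_frickeMat_mul p hg
    refine ⟨g', hg', ?_⟩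
    rw [h1]; group

/-- The Fricke operator `f ↦ f ∣[k] W` on `M_k(Γ₀(p))`, `W = [[0, -1], [p, 0]]`:
`(frickeW p k f) τ = p⁻¹ τ^(-k) f(-1/(p τ))`. -/
def frickeW (k : ℤ) :
    ModularForm (Gamma0 p) k →ₗ[ℂ] ModularForm (Gamma0 p) k where
  toFun f :=
    { toFun := ⇑f ∣[k] frickeMat p
      slash_action_eq' := fun γ hγ =>
        (ModularForm.translate f (frickeMat p)).slash_action_eq' γ
          (by rw [conj_frickeMat_Gamma0]; exact hγ)
      holo' := (ModularForm.translate f (frickeMat p)).holo'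
      bdd_at_cusps' := fun hc =>
        (ModularForm.translate f (frickeMat p)).bdd_at_cusps'
          (by rw [conj_frickeMat_Gamma0]; exact hc) }
  map_add' f g := DFunLike.coe_injective <| by
    show (⇑(f + g)) ∣[k] frickeMat p = ⇑f ∣[k] frickeMat p + ⇑g ∣[k] frickeMat p
    rw [FunLike.coe_add, SlashAction.add_slash]
  map_smul' c f := DFunLike.coe_injective <| by
    show (⇑(c • f)) ∣[k] frickeMat p = c • (⇑f ∣[k] frickeMat p)
    rw [FunLike.coe_smul, ModularForm.smul_slash, σ_frickeMat]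
    rfl

@[simp] theorem coe_frickeW (k : ℤ) (f : ModularForm (Gamma0 p) k) :
    ⇑(frickeW p k f) = ⇑f ∣[k] frickeMat p := rfl

theorem frickeW_apply (k : ℤ) (f : ModularForm (Gamma0 p) k) (τ : ℍ) :
    frickeW p k f τ = (p : ℂ)⁻¹ * (τ : ℂ) ^ (-k) * f (frickeMat p • τ) :=
  slash_frickeMat_apply p k f τ

theorem frickeW_frickeW (k : ℤ) (f : ModularForm (Gamma0 p) k) :
    frickeW p k (frickeW p k f) = ((-1 : ℂ) ^ k * (p : ℂ) ^ (k - 2)) • f :=
  DFunLike.coe_injective <| by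
    rw [coe_frickeW, coe_frickeW, slash_frickeMat_slash_frickeMat, FunLike.coe_smul]

/-- The Fricke operator on cusp forms. -/
def frickeWCusp (k : ℤ) :
    CuspForm (Gamma0 p) k →ₗ[ℂ] CuspForm (Gamma0 p) k where
  toFun f :=
    { toFun := ⇑f ∣[k] frickeMat p
      slash_action_eq' := fun γ hγ =>
        (CuspForm.translate f (frickeMat p)).slash_action_eq' γ
          (by rw [conj_frickeMat_Gamma0]; exact hγ)
      holo' := (CuspForm.translate f (frickeMat p)).holo'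
      zero_at_cusps' := fun hc =>
        (CuspForm.translate f (frickeMat p)).zero_at_cusps'
          (by rw [conj_frickeMat_Gamma0]; exact hc) }
  map_add' f g := DFunLike.coe_injective <| by
    show (⇑(f + g)) ∣[k] frickeMat p = ⇑f ∣[k] frickeMat p + ⇑g ∣[k] frickeMat p
    rw [FunLike.coe_add, SlashAction.add_slash]
  map_smul' c f := DFunLike.coe_injective <| by
    show (⇑(c • f)) ∣[k] frickeMat p = c • (⇑f ∣[k] frickeMat p)
    rw [FunLike.coe_smul, ModularForm.smul_slash, σ_frickeMat]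
    rfl

@[simp] theorem coe_frickeWCusp (k : ℤ) (f : CuspForm (Gamma0 p) k) :
    ⇑(frickeWCusp p k f) = ⇑f ∣[k] frickeMat p := rfl

end basic

section cosets

open Fermat.Agent.S20.Comb SlashInvariantForm

variable (p : ℕ)

/-- The coset space `SL(2, ℤ) / Γ₀(p)` in the shape used by Mathlib's `ModularForm.norm` and
`ModularForm.trace`. -/
abbrev Quot0 : Type :=
  ↥𝒮ℒ ⧸ (Gamma0 p : Subgroup (GL (Fin 2) ℝ)).subgroupOf 𝒮ℒ

/-- Representatives of `SL(2, ℤ) / Γ₀(p)`: the identity and the inverses of `S T^j`, `j < p`. -/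
def gamma0Rep : Option (Fin p) → SL(2, ℤ)
  | none => 1
  | some j => (ModularGroup.S * ModularGroup.T ^ (j : ℕ))⁻¹

/-- The class in `Quot0 p` of an element of `SL(2, ℤ)`. -/
def quot0Mk (g : SL(2, ℤ)) : Quot0 p :=
  QuotientGroup.mk ⟨Matrix.SpecialLinearGroup.mapGL ℝ g, ⟨g, rfl⟩⟩

theorem quot0Mk_eq_iff (g h : SL(2, ℤ)) :
    quot0Mk p g = quot0Mk p h ↔ (p : ℤ) ∣ cross g h := by
  rw [← inv_mul_mem_Gamma0_iff, quot0Mk, quot0Mk, QuotientGroup.eq, Subgroup.mem_subgroupOf]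
  have : (((⟨Matrix.SpecialLinearGroup.mapGL ℝ g, ⟨g, rfl⟩⟩ : ↥𝒮ℒ)⁻¹ *
      ⟨Matrix.SpecialLinearGroup.mapGL ℝ h, ⟨h, rfl⟩⟩ : ↥𝒮ℒ) : GL (Fin 2) ℝ) =
      Matrix.SpecialLinearGroup.mapGL ℝ (g⁻¹ * h) := by
    simp
  rw [this]
  exact Subgroup.mem_map_iff_mem Matrix.SpecialLinearGroup.mapGL_injective

theorem quot0Mk_surjective : Function.Surjective (quot0Mk p) := by
  intro q
  induction q using QuotientGroup.induction_on with
  | H x =>
    obtain ⟨x, g, rfl⟩ := x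
    exact ⟨g, rfl⟩

theorem gamma0Rep_some_00 (j : Fin p) : (gamma0Rep p (some j)) 0 0 = (j : ℕ) := by
  have hmat : ((ModularGroup.S * ModularGroup.T ^ (j : ℕ) : SL(2, ℤ)) : Matrix (Fin 2) (Fin 2) ℤ)
      = !![0, -1; 1, ((j : ℕ) : ℤ)] := by
    rw [← zpow_natCast, Matrix.SpecialLinearGroup.coe_mul, ModularGroup.coe_T_zpow,
      ModularGroup.coe_S]
    simp
  rw [gamma0Rep, Matrix.SpecialLinearGroup.coe_inv, Matrix.adjugate_fin_two, hmat]
  simp

theorem gamma0Rep_some_10 (j : Fin p) : (gamma0Rep p (some j)) 1 0 = -1 := by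
  have hmat : ((ModularGroup.S * ModularGroup.T ^ (j : ℕ) : SL(2, ℤ)) : Matrix (Fin 2) (Fin 2) ℤ)
      = !![0, -1; 1, ((j : ℕ) : ℤ)] := by
    rw [← zpow_natCast, Matrix.SpecialLinearGroup.coe_mul, ModularGroup.coe_T_zpow,
      ModularGroup.coe_S]
    simp
  rw [gamma0Rep, Matrix.SpecialLinearGroup.coe_inv, Matrix.adjugate_fin_two, hmat]
  simp

variable [Fact p.Prime]

/-- The `p + 1` representatives form a complete system: `Option (Fin p) → SL(2, ℤ) / Γ₀(p)` is a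
bijection. -/
theorem quot0Mk_gamma0Rep_bijective :
    Function.Bijective (fun o : Option (Fin p) => quot0Mk p (gamma0Rep p o)) := by
  have hp : p.Prime := Fact.out
  have hp' : Prime (p : ℤ) := Nat.prime_iff_prime_int.mp hp
  constructor
  · intro o o' h
    rw [quot0Mk_eq_iff] at h
    rcases o with _ | i <;> rcases o' with _ | j
    · rfl
    · exfalso
      have : cross (gamma0Rep p none) (gamma0Rep p (some j)) = -1 := by
        rw [cross, gamma0Rep_some_10, gamma0Rep_some_00]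
        simp [gamma0Rep]
      rw [this] at h
      exact hp'.not_dvd_one ((dvd_neg).mp h)
    · exfalso
      have : cross (gamma0Rep p (some i)) (gamma0Rep p none) = 1 := by
        rw [cross, gamma0Rep_some_10, gamma0Rep_some_00]
        simp [gamma0Rep]
      rw [this] at h
      exact hp'.not_dvd_one h
    · have : cross (gamma0Rep p (some i)) (gamma0Rep p (some j)) = ((j : ℕ) : ℤ) - ((i : ℕ) : ℤ) := by
        rw [cross, gamma0Rep_some_10, gamma0Rep_some_00, gamma0Rep_some_10, gamma0Rep_some_00]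
        ring
      rw [this] at h
      have h2 : ((i : ℕ) : ℤ) ≡ ((j : ℕ) : ℤ) [ZMOD (p : ℤ)] := (Int.modEq_iff_dvd).mpr h
      have h3 : (i : ℕ) ≡ (j : ℕ) [MOD p] := Int.natCast_modEq_iff.mp h2
      have h4 : (i : ℕ) = (j : ℕ) := Nat.ModEq.eq_of_lt_of_lt h3 i.2 j.2
      rw [Fin.ext h4]
  · intro q
    obtain ⟨g, rfl⟩ := quot0Mk_surjective p q
    by_cases hd : (p : ℤ) ∣ g 1 0
    · refine ⟨none, ?_⟩
      show quot0Mk p (gamma0Rep p none) = quot0Mk p g
      rw [quot0Mk_eq_iff]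
      have : cross (gamma0Rep p none) g = g 1 0 := by simp [cross, gamma0Rep]
      rw [this]
      exact hd
    · have hunit : IsUnit ((g 1 0 : ℤ) : ZMod p) := by
        rw [ZMod.coe_int_isUnit_iff_isCoprime]
        exact (Prime.coprime_iff_not_dvd hp').mpr hd
      let t : ZMod p := -((g 0 0 : ℤ) : ZMod p) * ((g 1 0 : ℤ) : ZMod p)⁻¹
      refine ⟨some ⟨t.val, ZMod.val_lt t⟩, ?_⟩
      show quot0Mk p (gamma0Rep p (some _)) = quot0Mk p g
      rw [quot0Mk_eq_iff]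
      have : cross (gamma0Rep p (some ⟨t.val, ZMod.val_lt t⟩)) g
          = ((t.val : ℕ) : ℤ) * g 1 0 + g 0 0 := by
        rw [cross, gamma0Rep_some_10, gamma0Rep_some_00]
        ring
      rw [this, ← ZMod.intCast_zmod_eq_zero_iff_dvd]
      push_cast
      rw [ZMod.natCast_val, ZMod.cast_id', id]
      have hu := ZMod.inv_mul_of_unit _ hunit
      show -((g 0 0 : ℤ) : ZMod p) * ((g 1 0 : ℤ) : ZMod p)⁻¹ * ((g 1 0 : ℤ) : ZMod p) +
        ((g 0 0 : ℤ) : ZMod p) = 0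
      rw [mul_assoc, hu]
      ring

theorem card_quot0 : Nat.card (Quot0 p) = p + 1 := by
  rw [← Nat.card_congr (Equiv.ofBijective _ (quot0Mk_gamma0Rep_bijective p))]
  simp

omit [Fact p.Prime] in
/-- Mathlib's `quotientFunc` at the class of `g⁻¹`. -/
theorem quotientFunc_quot0Mk_inv {F : Type*} [FunLike F ℍ ℂ] {k : ℤ}
    [SlashInvariantFormClass F (Gamma0 p) k] (f : F) (g : SL(2, ℤ)) :
    quotientFunc f (quot0Mk p g⁻¹) = (f : ℍ → ℂ) ∣[k] g := by
  rw [quot0Mk, quotientFunc_mk]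
  show (f : ℍ → ℂ) ∣[k] (Matrix.SpecialLinearGroup.mapGL ℝ g⁻¹)⁻¹ = _
  rw [map_inv, inv_inv]
  rfl

/-- Products over the cosets `SL(2, ℤ) / Γ₀(p)`, made explicit. -/
theorem prod_quotientFunc_Gamma0 {F : Type*} [FunLike F ℍ ℂ] {k : ℤ}
    [SlashInvariantFormClass F (Gamma0 p) k] (f : F) {M : Type*} [CommMonoid M]
    (Φ : (ℍ → ℂ) → M) [Fintype (Quot0 p)] :
    ∏ q : Quot0 p, Φ (quotientFunc f q) =
      Φ f * ∏ j ∈ Finset.range p, Φ ((f : ℍ → ℂ) ∣[k] (ModularGroup.S * ModularGroup.T ^ j)) := by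
  rw [← (quot0Mk_gamma0Rep_bijective p).prod_comp (fun q => Φ (quotientFunc f q)),
    Fintype.prod_option,
    ← Fin.prod_univ_eq_prod_range
      (fun j => Φ ((f : ℍ → ℂ) ∣[k] (ModularGroup.S * ModularGroup.T ^ j))) p]
  congr 1
  · have h := quotientFunc_quot0Mk_inv p f (1 : SL(2, ℤ))
    rw [inv_one] at h
    show Φ (quotientFunc f (quot0Mk p 1)) = _
    rw [h]
    congr 1
    exact SlashAction.slash_one k _
  · refine Finset.prod_congr rfl fun j _ => ?_
    show Φ (quotientFunc f (quot0Mk p (ModularGroup.S * ModularGroup.T ^ (j : ℕ))⁻¹)) = _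
    rw [quotientFunc_quot0Mk_inv]

/-- Every conjugate `quotientFunc f q` of a form on `Γ₀(p)` is either `f` itself or
`f ∣ S T^j = p^(2-k) (f ∣ W) ∣ [[1, j], [0, p]]` for some `j < p`. -/
theorem quotientFunc_Gamma0_cases {F : Type*} [FunLike F ℍ ℂ] {k : ℤ}
    [SlashInvariantFormClass F (Gamma0 p) k] (f : F) (q : Quot0 p) :
    quotientFunc f q = (f : ℍ → ℂ) ∨ ∃ j < p, quotientFunc f q =
      (p : ℂ) ^ (2 - k) • (((f : ℍ → ℂ) ∣[k] frickeMat p) ∣[k] heckeMatrix p j) := by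
  obtain ⟨o, rfl⟩ := (quot0Mk_gamma0Rep_bijective p).2 q
  rcases o with _ | j
  · left
    have h := quotientFunc_quot0Mk_inv p f (1 : SL(2, ℤ))
    rw [inv_one] at h
    show quotientFunc f (quot0Mk p 1) = _
    rw [h]
    exact SlashAction.slash_one k _
  · right
    refine ⟨j, j.2, ?_⟩
    show quotientFunc f (quot0Mk p (ModularGroup.S * ModularGroup.T ^ (j : ℕ))⁻¹) = _
    rw [quotientFunc_quot0Mk_inv, slash_S_mul_T_pow p]

/-- Pointwise form of the conjugates: `(f ∣ S T^j)(τ) = p^(1-k) (f ∣ W)((τ + j)/p)`. -/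
theorem slash_S_mul_T_pow_apply (k : ℤ) (f : ℍ → ℂ) (j : ℕ) (τ : ℍ) :
    (f ∣[k] (ModularGroup.S * ModularGroup.T ^ j)) τ =
      (p : ℂ) ^ (1 - k) * (f ∣[k] frickeMat p) (heckeMatrix p j • τ) := by
  have hp : p ≠ 0 := NeZero.ne p
  have hp' : (p : ℂ) ≠ 0 := by exact_mod_cast hp
  rw [slash_S_mul_T_pow p, Pi.smul_apply, smul_eq_mul, slash_heckeMatrix_apply k hp, ← mul_assoc]
  congr 1
  rw [show (1 : ℤ) - k = (2 - k) + (-1) by ring, zpow_add₀ hp', zpow_neg_one]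

/-- Sums over the cosets `SL(2, ℤ) / Γ₀(p)`, made explicit. -/
theorem sum_quotientFunc_Gamma0 {F : Type*} [FunLike F ℍ ℂ] {k : ℤ}
    [SlashInvariantFormClass F (Gamma0 p) k] (f : F) {M : Type*} [AddCommMonoid M]
    (Φ : (ℍ → ℂ) → M) [Fintype (Quot0 p)] :
    ∑ q : Quot0 p, Φ (quotientFunc f q) =
      Φ f + ∑ j ∈ Finset.range p, Φ ((f : ℍ → ℂ) ∣[k] (ModularGroup.S * ModularGroup.T ^ j)) :=
  prod_quotientFunc_Gamma0 (M := Multiplicative M) p f Φ

/-- The trace from `Γ₀(p)` to level one: `Tr f = f + p^(2-k) U_p (f ∣ W)`. -/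
theorem coe_trace_Gamma0 {F : Type*} [FunLike F ℍ ℂ] {k : ℤ}
    [ModularFormClass F (Gamma0 p) k] (f : F) :
    ⇑(ModularForm.trace 𝒮ℒ f) =
      (f : ℍ → ℂ) + (p : ℂ) ^ (2 - k) • heckeU k p ((f : ℍ → ℂ) ∣[k] frickeMat p) := by
  rw [ModularForm.coe_trace]
  let _ := Fintype.ofFinite (Quot0 p)
  have h := sum_quotientFunc_Gamma0 p f (fun x : ℍ → ℂ => x)
  refine h.trans ?_
  congr 1
  rw [heckeU, Finset.smul_sum]
  exact Finset.sum_congr rfl fun j _ => slash_S_mul_T_pow p k f j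

/-- The norm from `Γ₀(p)` to level one: `Nm f = f * ∏_j f ∣ S T^j`, and
`f ∣ S T^j = p^(2-k) (f ∣ W) ∣ [[1, j], [0, p]]`. -/
theorem coe_norm_Gamma0 {F : Type*} [FunLike F ℍ ℂ] {k : ℤ}
    [ModularFormClass F (Gamma0 p) k] (f : F) :
    ⇑(ModularForm.norm 𝒮ℒ f) =
      (f : ℍ → ℂ) * ∏ j ∈ Finset.range p,
        (p : ℂ) ^ (2 - k) • (((f : ℍ → ℂ) ∣[k] frickeMat p) ∣[k] heckeMatrix p j) := by
  rw [ModularForm.coe_norm]
  let _ := Fintype.ofFinite (Quot0 p)
  have h := prod_quotientFunc_Gamma0 p f (fun x : ℍ → ℂ => x)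
  refine h.trans ?_
  congr 1
  exact Finset.prod_congr rfl fun j _ => slash_S_mul_T_pow p k f j

/-- **(F0)** In weight two the Fricke involution is `-U_p`: `f ∣ W = - U_p f`. -/
theorem slash_frickeMat_eq_neg_heckeU {F : Type*} [FunLike F ℍ ℂ]
    [ModularFormClass F (Gamma0 p) 2] (f : F) :
    (f : ℍ → ℂ) ∣[(2 : ℤ)] frickeMat p = -heckeU 2 p (f : ℍ → ℂ) := by
  have hzero : ∀ g : ModularForm 𝒮ℒ 2, g = 0 :=
    rank_zero_iff_forall_zero.mp ModularForm.levelOne_weight_two_rank_zero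
  -- the form `f`, as an honest modular form
  let f₀ : ModularForm (Gamma0 p) 2 :=
    { toFun := f
      slash_action_eq' := fun γ hγ => SlashInvariantFormClass.slash_action_eq f γ hγ
      holo' := ModularFormClass.holo f
      bdd_at_cusps' := fun hc => ModularFormClass.bdd_at_cusps f hc }
  have hf₀ : (⇑f₀ : ℍ → ℂ) = f := rfl
  have key : ∀ g : ModularForm (Gamma0 p) 2,
      (g : ℍ → ℂ) + heckeU 2 p ((g : ℍ → ℂ) ∣[(2 : ℤ)] frickeMat p) = 0 := by
    intro g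
    have h1 := coe_trace_Gamma0 p g
    rw [hzero (ModularForm.trace 𝒮ℒ g)] at h1
    simpa using h1.symm
  have h2 := key (frickeW p 2 f₀)
  rw [coe_frickeW, slash_frickeMat_slash_frickeMat, hf₀] at h2
  have h3 : ((-1 : ℂ) ^ (2 : ℤ) * (p : ℂ) ^ ((2 : ℤ) - 2)) • (f : ℍ → ℂ) = f := by
    simp
  rw [h3] at h2
  exact eq_neg_of_add_eq_zero_left h2

end cosets

end

end Fermat.Agent.S16
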