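import Mathlib
import Fermat.Prelude.Def_FLTPrelim_Modularity

/-!
# S16: small-weight facts at level one

* `qExpansion_E4_coeff`, `qExpansion_E6_coeff`: explicit coefficients of `E₄`, `E₆`;
* `coeff_eq_of_weight_six`: a level-one form of weight `6` is `a₀ • E₆`;
* `eq_zero_of_weight_fourteen`: a level-one form of weight `14` with `a₀ = 0` vanishes.
-/

set_option autoImplicit false

open UpperHalfPlane hiding I
open Complex Filter Function
open scoped Manifold MatrixGroups ModularForm Topology ArithmeticFunction.sigma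
open ModularForm EisensteinSeries

namespace Fermat.Agent.S16

theorem qExpansion_E4_coeff (m : ℕ) :
    (qExpansion 1 E₄).coeff m = if m = 0 then 1 else 240 * (σ 3 m : ℂ) := by
  have h := E_qExpansion_coeff (k := 4) (by norm_num) ⟨2, rfl⟩ m
  have hb : bernoulli 4 = -1 / 30 := by decide +kernel
  rw [show (E₄ : ℍ → ℂ) = (E (k := 4) (by norm_num) : ℍ → ℂ) from rfl, h]
  split_ifs
  · rfl
  · rw [hb]; norm_num

theorem qExpansion_E6_coeff (m : ℕ) :
    (qExpansion 1 E₆).coeff m = if m = 0 then 1 else -504 * (σ 5 m : ℂ) := by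
  have h := E_qExpansion_coeff (k := 6) (by norm_num) ⟨3, rfl⟩ m
  have hb : bernoulli 6 = 1 / 42 := by decide +kernel
  rw [show (E₆ : ℍ → ℂ) = (E (k := 6) (by norm_num) : ℍ → ℂ) from rfl, h]
  split_ifs
  · rfl
  · rw [hb]; norm_num

/-- A level-one modular form of weight `k < 12` with vanishing constant term is zero. -/
theorem eq_zero_of_weight_lt_twelve {k : ℤ} (hk : k < 12) (F : ModularForm 𝒮ℒ k)
    (h0 : (qExpansion 1 F).coeff 0 = 0) : F = 0 := by
  have h1 : CuspForm.discriminantEquiv (toCuspForm F h0) = 0 :=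
    rank_zero_iff_forall_zero.mp (levelOne_neg_weight_rank_zero (by omega)) _
  have h2 := qExpansion_eq_qExpansion_discriminant_mul F h0
  rw [h1] at h2
  have h3 : qExpansion 1 (F : ℍ → ℂ) = 0 := by
    rw [h2]
    have : ((0 : ModularForm 𝒮ℒ (k - 12)) : ℍ → ℂ) = 0 := rfl
    rw [this, qExpansion_zero, mul_zero]
  exact (ModularForm.qExpansion_eq_zero_iff one_pos one_mem_strictPeriods_SL F).mp h3

/-- A level-one modular form of weight `14` with vanishing constant term is zero. -/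
theorem eq_zero_of_weight_fourteen {k : ℤ} (hk : k = 14) (F : ModularForm 𝒮ℒ k)
    (h0 : (qExpansion 1 F).coeff 0 = 0) : F = 0 := by
  subst hk
  have h1 : CuspForm.discriminantEquiv (toCuspForm F h0) = 0 := by
    have hr : Module.rank ℂ (ModularForm 𝒮ℒ ((14 : ℤ) - 12)) = 0 := by
      have : ((14 : ℤ) - 12) = 2 := by norm_num
      rw [this]; exact levelOne_weight_two_rank_zero
    exact rank_zero_iff_forall_zero.mp hr _
  have h2 := qExpansion_eq_qExpansion_discriminant_mul F h0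
  rw [h1] at h2
  have h3 : qExpansion 1 (F : ℍ → ℂ) = 0 := by
    rw [h2]
    have : ((0 : ModularForm 𝒮ℒ ((14 : ℤ) - 12)) : ℍ → ℂ) = 0 := rfl
    rw [this, qExpansion_zero, mul_zero]
  exact (ModularForm.qExpansion_eq_zero_iff one_pos one_mem_strictPeriods_SL F).mp h3

/-- A level-one modular form of weight `6` is `a₀ • E₆`, on the level of `q`-coefficients. -/
theorem coeff_eq_of_weight_six {k : ℤ} (hk : k = 6) (F : ModularForm 𝒮ℒ k) (n : ℕ) :
    (qExpansion 1 F).coeff n = (qExpansion 1 F).coeff 0 * (qExpansion 1 E₆).coeff n := by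
  subst hk
  set a : ℂ := (qExpansion 1 F).coeff 0 with ha
  have hq : qExpansion 1 ((F - a • E₆ : ModularForm 𝒮ℒ 6) : ℍ → ℂ) =
      qExpansion 1 (F : ℍ → ℂ) - a • qExpansion 1 (E₆ : ℍ → ℂ) := by
    have e : ((F - a • E₆ : ModularForm 𝒮ℒ 6) : ℍ → ℂ) = (F : ℍ → ℂ) - ((a • E₆ : ModularForm 𝒮ℒ 6) : ℍ → ℂ) := rfl
    rw [e, ModularForm.qExpansion_sub one_pos one_mem_strictPeriods_SL F (a • E₆)]
    congr 1
    have e2 : ((a • E₆ : ModularForm 𝒮ℒ 6) : ℍ → ℂ) = a • (E₆ : ℍ → ℂ) := rfl
    rw [e2, ModularForm.qExpansion_smul one_pos one_mem_strictPeriods_SL a E₆]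
  have h0 : (qExpansion 1 ((F - a • E₆ : ModularForm 𝒮ℒ 6) : ℍ → ℂ)).coeff 0 = 0 := by
    rw [hq]
    simp only [map_sub, PowerSeries.coeff_smul, smul_eq_mul]
    rw [qExpansion_E6_coeff 0, if_pos rfl, mul_one, ← ha, sub_self]
  have hz := eq_zero_of_weight_lt_twelve (by norm_num) (F - a • E₆) h0
  have hq0 : qExpansion 1 (F : ℍ → ℂ) - a • qExpansion 1 (E₆ : ℍ → ℂ) = 0 := by
    rw [← hq, hz]
    have : ((0 : ModularForm 𝒮ℒ 6) : ℍ → ℂ) = 0 := rfl
    rw [this, qExpansion_zero]
  have := congrArg (PowerSeries.coeff n) hq0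
  simp only [map_sub, PowerSeries.coeff_smul, smul_eq_mul, map_zero] at this
  linear_combination this

end Fermat.Agent.S16
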