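import Mathlib
import Fermat.Prelude.Def_ModularForm_HeckeOperator
import Fermat.Prelude.Def_FLTPrelim_Modularity
import Fermat.Prelude.Thm_ModularForm_heckeT_slash_eq_self_of_mem_Gamma0
import Fermat.Prelude.Thm_ModularForm_mdifferentiable_heckeT
import Fermat.Prelude.Thm_CuspFormClass_isZeroAt_heckeT
import Fermat.Prelude.Thm_ModularFormClass_qCoeff_heckeT
import Fermat.Agent.S24.JqExp

/-!
# S16: Ramanujan's `τ` — integrality and the Hecke relation at a prime
-/

set_option autoImplicit false

open UpperHalfPlane hiding I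
open Complex Filter Function
open scoped Manifold MatrixGroups ModularForm Topology
open ModularForm

namespace Fermat.Agent.S16

/-- Ramanujan's `τ` function, as the coefficients of the integral series `q ∏ (1 - qⁿ)²⁴`. -/
noncomputable def tau (n : ℕ) : ℤ :=
  PowerSeries.coeff n (PowerSeries.X * ModularCurve.dedekindEtaUnit)

theorem tau_zero : tau 0 = 0 := by
  simp [tau]

theorem tau_one : tau 1 = 1 := by
  have h : PowerSeries.coeff 1 (PowerSeries.X * ModularCurve.dedekindEtaUnit) =
      PowerSeries.coeff 0 ModularCurve.dedekindEtaUnit := by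
    rw [show (1 : ℕ) = 0 + 1 from rfl, PowerSeries.coeff_succ_X_mul]
  rw [tau, h, PowerSeries.coeff_zero_eq_constantCoeff, ModularCurve.constantCoeff_dedekindEtaUnit]

theorem discriminant_hasSum (z : ℍ) :
    HasSum (fun n : ℕ => ((tau n : ℤ) : ℂ) * Function.Periodic.qParam 1 z ^ n)
      (ModularForm.discriminant z) := by
  set q : ℂ := Function.Periodic.qParam 1 z with hq
  have hq1 : ‖q‖ < 1 := Function.Periodic.norm_qParam_lt_one one_pos z.im_pos
  have hΔ : ModularForm.discriminant z = q * (∏' n : ℕ, (1 - q ^ (n + 1))) ^ 24 := by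
    rw [ModularForm.discriminant_eq_q_prod, (ModularForm.multipliable_one_sub_pow hq1).tprod_pow]
  have h1 := Fermat.Agent.S24.JqExp.hasSum_coeff_pow (Fermat.Agent.S24.JqExp.etaC_hasSum q hq1) 24
  have hX : HasSum (fun n => PowerSeries.coeff n (PowerSeries.X : PowerSeries ℂ) * q ^ n) q := by
    have := hasSum_single (f := fun n => PowerSeries.coeff n (PowerSeries.X : PowerSeries ℂ) * q ^ n) 1
      (by intro n hn; simp [PowerSeries.coeff_X, hn])
    simpa using this
  have h2 := Fermat.Agent.S24.JqExp.hasSum_coeff_mul hX h1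
  rw [hΔ]
  refine h2.congr_fun fun n => ?_
  congr 1
  rw [tau, ModularCurve.dedekindEtaUnit, Fermat.Agent.S24.JqExp.etaC, ← map_pow]
  have : (PowerSeries.X : PowerSeries ℂ) = PowerSeries.map (Int.castRingHom ℂ) PowerSeries.X := by
    simp
  rw [this, ← map_mul, PowerSeries.coeff_map]
  simp

theorem qExpansion_discriminant_coeff (n : ℕ) :
    (qExpansion 1 ModularForm.discriminant).coeff n = ((tau n : ℤ) : ℂ) := by
  have h := ModularFormClass.qExpansion_coeff_unique (f := CuspForm.discriminant)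
    (c := fun n => ((tau n : ℤ) : ℂ)) one_pos one_mem_strictPeriods_SL
    (fun z => by simpa [smul_eq_mul] using discriminant_hasSum z) n
  rw [CuspForm.coe_discriminant] at h
  exact h.symm

theorem mem_Gamma0_one_of_mem_SL {γ : GL (Fin 2) ℝ} (hγ : γ ∈ 𝒮ℒ) :
    γ ∈ (CongruenceSubgroup.Gamma0 1 : Subgroup (GL (Fin 2) ℝ)) := by
  obtain ⟨g, rfl⟩ := hγ
  exact ⟨g, by simp [CongruenceSubgroup.Gamma0_mem, Subsingleton.elim _ (0 : ZMod 1)], rfl⟩

/-- `T_p Δ` as a level-one cusp form of weight `12`. -/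
noncomputable def heckeDelta (p : ℕ) (hp : p.Prime) : CuspForm 𝒮ℒ 12 where
  toFun := ModularForm.heckeT 12 p ModularForm.discriminant
  slash_action_eq' γ hγ := by
    refine ModularForm.heckeT_slash_eq_self_of_mem_Gamma0 (N := 1) 12 hp
      (by simpa using hp.one_lt.ne') ?_ γ (mem_Gamma0_one_of_mem_SL hγ)
    rintro γ' ⟨g, -, rfl⟩
    exact CuspForm.discriminant.slash_action_eq' _ ⟨g, rfl⟩
  holo' := ModularForm.mdifferentiable_heckeT CuspForm.discriminant.holo' 12 p
  zero_at_cusps' hc := CuspFormClass.isZeroAt_heckeT CuspForm.discriminant p hc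

theorem coe_heckeDelta (p : ℕ) (hp : p.Prime) :
    (heckeDelta p hp : ℍ → ℂ) = ModularForm.heckeT 12 p ModularForm.discriminant := rfl

/-- The Hecke relation `τ(np) + [p ∣ n] p¹¹ τ(n/p) = τ(p) τ(n)`. -/
theorem tau_mul_prime (p : ℕ) (hp : p.Prime) (n : ℕ) :
    tau (n * p) + (if p ∣ n then (p : ℤ) ^ 11 * tau (n / p) else 0) = tau p * tau n := by
  obtain ⟨c, hc⟩ := CuspForm.exists_smul_discriminant_of_weight_eq_twelve (heckeDelta p hp)
  have key : ∀ m : ℕ, (ModularFormClass.qCoeff (ModularForm.heckeT 12 p ModularForm.discriminant) m : ℂ)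
      = c * ((tau m : ℤ) : ℂ) := by
    intro m
    have h1 : (heckeDelta p hp : ℍ → ℂ) = c • (CuspForm.discriminant : ℍ → ℂ) := by
      rw [← hc]; rfl
    rw [← coe_heckeDelta p hp, h1, ModularFormClass.qCoeff,
      ModularForm.qExpansion_smul one_pos one_mem_strictPeriods_SL c CuspForm.discriminant,
      CuspForm.coe_discriminant, PowerSeries.coeff_smul, qExpansion_discriminant_coeff, smul_eq_mul]
  have hT : ∀ m : ℕ, ModularFormClass.qCoeff (ModularForm.heckeT 12 p ModularForm.discriminant) m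
      = ((tau (m * p) : ℤ) : ℂ) + (if p ∣ m then (p : ℂ) ^ (11 : ℕ) * ((tau (m / p) : ℤ) : ℂ) else 0) := by
    intro m
    have h := ModularFormClass.qCoeff_heckeT (f := CuspForm.discriminant)
      one_mem_strictPeriods_SL hp.ne_zero m
    rw [CuspForm.coe_discriminant] at h
    rw [h, ModularForm.coeffHeckeT_apply]
    simp only [ModularFormClass.qCoeff, qExpansion_discriminant_coeff]
    norm_num
  have hc1 : c = ((tau p : ℤ) : ℂ) := by
    have h1 := key 1
    rw [hT 1, tau_one, one_mul, if_neg (by simpa using hp.one_lt.ne')] at h1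
    simpa using h1.symm
  have h2 := key n
  rw [hT n, hc1] at h2
  have h3 : (((tau (n * p) + (if p ∣ n then (p : ℤ) ^ 11 * tau (n / p) else 0) : ℤ)) : ℂ)
      = ((tau p * tau n : ℤ) : ℂ) := by
    rw [Int.cast_add, Int.cast_mul, ← h2]
    split_ifs <;> simp
  exact_mod_cast h3

end Fermat.Agent.S16
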