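import Mathlib
import Fermat.Prelude.Def_ModularForm_HeckeOperatorForms
import Fermat.Prelude.Thm_CongruenceSubgroup_one_mem_strictPeriods_Gamma0
import Fermat.Prelude.Thm_UpperHalfPlane_qCoeff_heckeU
import Fermat.Prelude.Thm_UpperHalfPlane_qCoeff_heckeT
import Fermat.Prelude.Thm_ModularForm_periodic_heckeU_comp_ofComplex
import Fermat.Prelude.Thm_ModularForm_periodic_heckeT_comp_ofComplex
import Fermat.Prelude.Thm_ModularForm_isBoundedAtImInfty_heckeU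
import Fermat.Prelude.Thm_ModularForm_isBoundedAtImInfty_heckeT
import Fermat.Agent.S23.Glue
import Fermat.Agent.S16.Fricke
import Fermat.Agent.S16.LevelOneSmall
import Fermat.Agent.S16.Tau

/-!
# S16, package P2: trace relations against level-one forms

For `G ∈ M₂(Γ₀(p))` and `h ∈ M_k(SL₂(ℤ))` the trace of `G(z) h(pz)` to level one has the
`q`-expansion `Ĝ · V_p ĥ - p^(-k) U_p (U_p Ĝ · ĥ)` (`exists_levelOne_trace`).  With `h = Δ`
(weight `14`, no forms with `a₀ = 0`) and `h = E₄` (weight `6`, spanned by `E₆`) this gives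

* `dvd_succ_mul_of_congr_const` (F2): `G ≡ c mod M`, `(M, p) = 1`  ⟹  `M ∣ (p + 1) c`;
* `dvd_const_of_congr_const_self`: `G ≡ c mod p`, `p ≥ 5`  ⟹  `p ∣ c`.
-/

set_option autoImplicit false

open UpperHalfPlane hiding I
open Complex Filter Function
open scoped Manifold MatrixGroups ModularForm Topology ArithmeticFunction.sigma
open ModularForm CongruenceSubgroup

namespace Fermat.Agent.S16

namespace TraceRel


/-- `1`-periodic, holomorphic and bounded at `i∞`. -/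
structure Nice (f : ℍ → ℂ) : Prop where
  per : Function.Periodic (f ∘ ofComplex) 1
  holo : MDiff f
  bdd : IsBoundedAtImInfty f

theorem Nice.analytic {f : ℍ → ℂ} (hf : Nice f) : AnalyticAt ℂ (cuspFunction 1 f) 0 :=
  analyticAt_cuspFunction_zero one_pos hf.per hf.holo hf.bdd

theorem Nice.mul {f g : ℍ → ℂ} (hf : Nice f) (hg : Nice g) : Nice (f * g) :=
  ⟨by
    have : (f * g) ∘ ofComplex = (f ∘ ofComplex) * (g ∘ ofComplex) := rfl
    rw [this]; exact hf.per.mul hg.per, hf.holo.mul hg.holo, hf.bdd.mul hg.bdd⟩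

theorem Nice.smul {f : ℍ → ℂ} (c : ℂ) (hf : Nice f) : Nice (c • f) :=
  ⟨by
    intro x
    exact congrArg (fun y => c • y) (hf.per x), hf.holo.const_smul c, hf.bdd.const_smul_left c⟩

theorem Nice.heckeU {f : ℍ → ℂ} (hf : Nice f) (k : ℤ) (p : ℕ) : Nice (heckeU k p f) :=
  ⟨ModularForm.periodic_heckeU_comp_ofComplex hf.per k p,
    ModularForm.mdifferentiable_heckeU hf.holo k p,
    ModularForm.isBoundedAtImInfty_heckeU hf.bdd k p⟩

theorem Nice.heckeT {f : ℍ → ℂ} (hf : Nice f) (k : ℤ) (p : ℕ) : Nice (heckeT k p f) :=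
  ⟨ModularForm.periodic_heckeT_comp_ofComplex hf.per k p,
    ModularForm.mdifferentiable_heckeT hf.holo k p,
    ModularForm.isBoundedAtImInfty_heckeT hf.bdd k p⟩

theorem nice_of_form {Γ : Subgroup (GL (Fin 2) ℝ)} {k : ℤ} (f : ModularForm Γ k)
    (hΓ : (1 : ℝ) ∈ Γ.strictPeriods) : Nice (f : ℍ → ℂ) :=
  have : Fact (IsCusp OnePoint.infty Γ) := ⟨Γ.isCusp_of_mem_strictPeriods one_pos hΓ⟩
  ⟨SlashInvariantFormClass.periodic_comp_ofComplex f hΓ, ModularFormClass.holo f,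
    ModularFormClass.bdd_at_infty f⟩

theorem frickeMat_eq (p : ℕ) [NeZero p] :
    frickeMat p = Matrix.SpecialLinearGroup.mapGL ℝ ModularGroup.S * heckeDiagMatrix p := by
  have hent : ∀ (h : SL(2, ℤ)) (i j : Fin 2),
      ((Matrix.SpecialLinearGroup.mapGL ℝ h : GL (Fin 2) ℝ) : Matrix (Fin 2) (Fin 2) ℝ) i j
        = ((h i j : ℤ) : ℝ) := fun h i j => rfl
  apply Matrix.GeneralLinearGroup.ext
  intro i j
  rw [Matrix.GeneralLinearGroup.coe_mul, val_frickeMat, val_heckeDiagMatrix (NeZero.ne p),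
    Matrix.mul_apply, Fin.sum_univ_two, hent, hent]
  fin_cases i <;> fin_cases j <;> simp [ModularGroup.S]

theorem slash_frickeMat_levelOne (p : ℕ) [NeZero p] {k : ℤ} (h : ModularForm 𝒮ℒ k) :
    (h : ℍ → ℂ) ∣[k] frickeMat p = (h : ℍ → ℂ) ∣[k] heckeDiagMatrix p := by
  rw [frickeMat_eq, SlashAction.slash_mul]
  congr 1
  exact h.slash_action_eq' _ ⟨ModularGroup.S, rfl⟩

theorem coeff_slash_diag {f : ℍ → ℂ} (hf : Nice f) (k : ℤ) {p : ℕ} (hp : p ≠ 0) (n : ℕ) :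
    (qExpansion 1 (f ∣[k] heckeDiagMatrix p)).coeff n =
      if p ∣ n then (p : ℂ) ^ (k - 1) * (qExpansion 1 f).coeff (n / p) else 0 := by
  have e : f ∣[k] heckeDiagMatrix p = heckeT k p f - heckeU k p f := by
    rw [heckeT_eq_heckeU_add]; abel
  rw [e, qExpansion_sub (hf.heckeT k p).analytic (hf.heckeU k p).analytic, map_sub]
  have h1 := UpperHalfPlane.qCoeff_heckeT hf.per hf.holo hf.bdd k hp n
  have h2 := UpperHalfPlane.qCoeff_heckeU hf.per hf.holo hf.bdd k hp n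
  simp only [ModularFormClass.qCoeff] at h1 h2
  rw [h1, h2, coeffHeckeT_eq_coeffHeckeU_add]
  simp only [ModularFormClass.qCoeff]
  ring

/-- the coefficients of `Ĝ · V_p ĥ` -/
def sV (p : ℕ) (a b : ℕ → ℤ) (n : ℕ) : ℤ :=
  ∑ x ∈ Finset.HasAntidiagonal.antidiagonal n, a x.1 * (if p ∣ x.2 then b (x.2 / p) else 0)

/-- the coefficients of `U_p (U_p Ĝ · ĥ)` -/
def sU (p : ℕ) (a b : ℕ → ℤ) (n : ℕ) : ℤ :=
  ∑ x ∈ Finset.HasAntidiagonal.antidiagonal (n * p), a (x.1 * p) * b x.2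

theorem sU_modEq (p : ℕ) (a b : ℕ → ℤ) (n : ℕ) (M : ℤ) (hk : ∀ k : ℕ, 1 ≤ k → M ∣ a k)
    (hp : 0 < p) : sU p a b n ≡ a 0 * b (n * p) [ZMOD M] := by
  unfold sU
  rw [Finset.Nat.sum_antidiagonal_eq_sum_range_succ_mk, Finset.sum_range_succ']
  simp only [zero_mul, Nat.sub_zero]
  have h : M ∣ ∑ i ∈ Finset.range (n * p), a ((i + 1) * p) * b (n * p - (i + 1)) := by
    refine Finset.dvd_sum fun i _ => Dvd.dvd.mul_right (hk _ ?_) _
    exact Nat.mul_pos (Nat.succ_pos i) hp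
  exact (Int.modEq_iff_dvd.mpr (by simpa using (dvd_neg.mpr h))).symm

theorem sV_zero (p : ℕ) (a b : ℕ → ℤ) : sV p a b 0 = a 0 * b 0 := by
  simp [sV]

theorem sV_one (p : ℕ) (hp : 2 ≤ p) (a b : ℕ → ℤ) : sV p a b 1 = a 1 * b 0 := by
  have h1 : ¬ p ∣ 1 := by
    intro h; have := Nat.le_of_dvd one_pos h; omega
  simp [sV, Finset.Nat.antidiagonal_succ, h1]

theorem sV_two (p : ℕ) (hp : 3 ≤ p) (a b : ℕ → ℤ) : sV p a b 2 = a 2 * b 0 := by
  have h1 : ¬ p ∣ 1 := by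
    intro h; have := Nat.le_of_dvd one_pos h; omega
  have h2 : ¬ p ∣ 2 := by
    intro h; have := Nat.le_of_dvd two_pos h; omega
  simp [sV, Finset.Nat.antidiagonal_succ, h1, h2]

theorem sV_self (p : ℕ) (hp : 2 ≤ p) (a b : ℕ → ℤ) : sV p a b p = a 0 * b 1 + a p * b 0 := by
  unfold sV
  rw [Finset.Nat.sum_antidiagonal_eq_sum_range_succ_mk, Finset.sum_range_succ']
  simp only [Nat.sub_zero, dvd_refl, if_true, Nat.div_self (by omega : 0 < p)]
  obtain ⟨m, rfl⟩ : ∃ m, p = m + 1 := ⟨p - 1, by omega⟩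
  rw [Finset.sum_range_succ]
  simp only [Nat.sub_self, dvd_zero, if_true, Nat.zero_div]
  have h : ∑ i ∈ Finset.range m, a (i + 1) *
      (if m + 1 ∣ m + 1 - (i + 1) then b ((m + 1 - (i + 1)) / (m + 1)) else 0) = 0 := by
    refine Finset.sum_eq_zero fun i hi => ?_
    have hi' : i < m := by simpa using hi
    have : ¬ m + 1 ∣ m + 1 - (i + 1) := by
      intro h
      have := Nat.le_of_dvd (by omega) h
      omega
    rw [if_neg this, mul_zero]
  rw [h]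
  ring

/-- Arithmetic core of (F2): the relation coming from `Tr (G · Δ(pz)) = 0`. -/
theorem dvd_of_rel_tau (p : ℕ) (hp : p.Prime) (a : ℕ → ℤ) (M : ℤ)
    (hk : ∀ k : ℕ, 1 ≤ k → M ∣ a k) (hM : IsCoprime M (p : ℤ))
    (hrel : ∀ n : ℕ, (p : ℤ) ^ 12 * sV p a tau n = sU p a tau n) :
    M ∣ ((p : ℤ) + 1) * a 0 := by
  have h1 := hrel 1
  rw [sV_one p hp.two_le, tau_zero, mul_zero, mul_zero] at h1
  have h1' := sU_modEq p a tau 1 M hk hp.pos
  rw [← h1, one_mul] at h1'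
  have d1 : M ∣ a 0 * tau p := (Int.modEq_zero_iff_dvd.mp h1'.symm)
  have h2 := hrel p
  rw [sV_self p hp.two_le, tau_zero, mul_zero, add_zero, tau_one, mul_one] at h2
  have h2' := sU_modEq p a tau p M hk hp.pos
  rw [← h2] at h2'
  have ht := tau_mul_prime p hp p
  rw [if_pos dvd_rfl, Nat.div_self hp.pos, tau_one, mul_one] at ht
  have d2 : M ∣ (p : ℤ) ^ 12 * a 0 - a 0 * tau (p * p) := (Int.modEq_iff_dvd.mp h2'.symm)
  have d3 : M ∣ (p : ℤ) ^ 11 * (((p : ℤ) + 1) * a 0) := by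
    have e : (p : ℤ) ^ 11 * (((p : ℤ) + 1) * a 0) =
        ((p : ℤ) ^ 12 * a 0 - a 0 * tau (p * p)) + (a 0 * tau p) * tau p := by
      have : tau (p * p) = tau p * tau p - (p : ℤ) ^ 11 := by linarith
      rw [this]; ring
    rw [e]
    exact dvd_add d2 (Dvd.dvd.mul_right d1 _)
  exact (IsCoprime.pow_right hM).dvd_of_dvd_mul_left d3

/-- integral `q`-coefficients of `E₄` -/
def e4 (n : ℕ) : ℤ := if n = 0 then 1 else 240 * (σ 3 n : ℤ)

/-- integral `q`-coefficients of `E₆` -/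
def e6 (n : ℕ) : ℤ := if n = 0 then 1 else -504 * (σ 5 n : ℤ)

theorem sU_zero (p : ℕ) (a b : ℕ → ℤ) : sU p a b 0 = a 0 * b 0 := by
  simp [sU]

theorem sigma_three_prime (p : ℕ) (hp : p.Prime) : σ 3 p = 1 + p ^ 3 := by
  rw [ArithmeticFunction.sigma_apply, hp.sum_divisors]
  simp [add_comm]

theorem sigma_three_two_mul (p : ℕ) (hp : p.Prime) (hp3 : 3 ≤ p) : σ 3 (2 * p) = 9 * (1 + p ^ 3) := by
  have hc : Nat.Coprime 2 p := by
    rw [Nat.coprime_primes Nat.prime_two hp]; omega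
  rw [ArithmeticFunction.isMultiplicative_sigma.map_mul_of_coprime hc, sigma_three_prime p hp]
  have : σ 3 2 = 9 := by
    rw [ArithmeticFunction.sigma_apply, Nat.prime_two.sum_divisors]; norm_num
  rw [this]

theorem sigma_five_one : σ 5 1 = 1 := by
  simp [ArithmeticFunction.sigma_apply]

theorem sigma_five_two : σ 5 2 = 33 := by
  rw [ArithmeticFunction.sigma_apply, Nat.prime_two.sum_divisors]; norm_num

/-- Arithmetic core of the case `l = p`: the relation coming from `Tr (G · E₄(pz)) ∈ ℂ E₆`. -/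
theorem dvd_of_rel_E4 (p : ℕ) (hp : p.Prime) (hp5 : 5 ≤ p) (a : ℕ → ℤ)
    (hk : ∀ k : ℕ, 1 ≤ k → (p : ℤ) ∣ a k)
    (hrel : ∀ n : ℕ, (p : ℤ) ^ 4 * sV p a e4 n - sU p a e4 n =
      ((p : ℤ) ^ 4 * sV p a e4 0 - sU p a e4 0) * e6 n) :
    (p : ℤ) ∣ a 0 := by
  have hp0 : p ≠ 0 := hp.ne_zero
  have hL0 : (p : ℤ) ^ 4 * sV p a e4 0 - sU p a e4 0 = ((p : ℤ) ^ 4 - 1) * a 0 := by
    rw [sV_zero, sU_zero]; simp [e4]; ring
  -- n = 1
  have h1 := hrel 1
  rw [hL0, sV_one p hp.two_le] at h1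
  have h1' := sU_modEq p a e4 1 (p : ℤ) hk hp.pos
  rw [one_mul] at h1'
  have he4p : e4 p = 240 * (1 + (p : ℤ) ^ 3) := by
    rw [e4, if_neg hp0, sigma_three_prime p hp]; push_cast; ring
  have he61 : e6 1 = -504 := by
    rw [e6, if_neg one_ne_zero, sigma_five_one]; norm_num
  rw [he4p] at h1'
  rw [he61] at h1
  have d1 : (p : ℤ) ∣ 744 * a 0 := by
    obtain ⟨t, ht⟩ := Int.modEq_iff_dvd.mp h1'.symm
    refine ⟨-t + (p : ℤ) ^ 3 * a 1 * e4 0 + 504 * (p : ℤ) ^ 3 * a 0 - 240 * (p : ℤ) ^ 2 * a 0, ?_⟩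
    linear_combination (-1 : ℤ) * ht - h1
  -- n = 2
  have h2 := hrel 2
  rw [hL0, sV_two p (by omega)] at h2
  have h2' := sU_modEq p a e4 2 (p : ℤ) hk hp.pos
  have he42p : e4 (2 * p) = 2160 * (1 + (p : ℤ) ^ 3) := by
    rw [e4, if_neg (by omega), sigma_three_two_mul p hp (by omega)]; push_cast; ring
  have he62 : e6 2 = -16632 := by
    rw [e6, if_neg two_ne_zero, sigma_five_two]; norm_num
  rw [he42p] at h2'
  rw [he62] at h2
  have d2 : (p : ℤ) ∣ 18792 * a 0 := by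
    obtain ⟨t, ht⟩ := Int.modEq_iff_dvd.mp h2'.symm
    refine ⟨-t + (p : ℤ) ^ 3 * a 2 * e4 0 + 16632 * (p : ℤ) ^ 3 * a 0 - 2160 * (p : ℤ) ^ 2 * a 0, ?_⟩
    linear_combination (-1 : ℤ) * ht - h2
  have d3 : (p : ℤ) ∣ 24 * a 0 := by
    have e : 24 * a 0 = 4 * (18792 * a 0) - 101 * (744 * a 0) := by ring
    rw [e]
    exact dvd_sub (Dvd.dvd.mul_left d2 _) (Dvd.dvd.mul_left d1 _)
  have hpi : Prime (p : ℤ) := Nat.prime_iff_prime_int.mp hp
  rcases hpi.dvd_or_dvd d3 with h | h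
  · exfalso
    have h' : p ∣ 24 := by exact_mod_cast h
    have hle := Nat.le_of_dvd (by norm_num) h'
    clear h1 h2 h1' h2' he4p he42p d1 d2 d3 hL0 hrel hk h hpi hp0
    interval_cases p <;> revert hp h' <;> decide
  · exact h

end TraceRel

open TraceRel


/-- **(TI)** the trace identity: for `G ∈ M₂(Γ₀(p))` and `h ∈ M_k(SL₂(ℤ))` (`k` even), the series
`Ĝ · V_p ĥ - p^(-k) U_p (U_p Ĝ · ĥ)` is the `q`-expansion of a level-one form of weight `k + 2`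
(a multiple of the trace of `G(z) h(pz)`). -/
theorem exists_levelOne_trace (p : ℕ) [Fact p.Prime]
    (G : ModularForm (CongruenceSubgroup.Gamma0 p) 2) {k : ℤ} (hk : Even k)
    (h : ModularForm 𝒮ℒ k) :
    ∃ F : ModularForm 𝒮ℒ (k + 2), ∀ n : ℕ, (qExpansion 1 F).coeff n =
      (∑ x ∈ Finset.HasAntidiagonal.antidiagonal n, (qExpansion 1 G).coeff x.1 *
          (if p ∣ x.2 then (qExpansion 1 h).coeff (x.2 / p) else 0))
        - (p : ℂ) ^ (-k) * ∑ x ∈ Finset.HasAntidiagonal.antidiagonal (n * p),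
            (qExpansion 1 G).coeff (x.1 * p) * (qExpansion 1 h).coeff x.2 := by
  have hp : p.Prime := Fact.out
  have : NeZero p := ⟨hp.ne_zero⟩
  have hpc : (p : ℂ) ≠ 0 := Nat.cast_ne_zero.mpr hp.ne_zero
  have hΓ := CongruenceSubgroup.one_mem_strictPeriods_Gamma0 p
  let Vh : ModularForm (CongruenceSubgroup.Gamma0 p) k :=
    frickeW p k (Fermat.Agent.S23.Glue.restrict p h)
  let H : ModularForm (CongruenceSubgroup.Gamma0 p) (k + 2) := Vh.mul G
  let TrH : ModularForm 𝒮ℒ (k + 2) := ModularForm.trace 𝒮ℒ H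
  have ng : Nice (G : ℍ → ℂ) := nice_of_form G hΓ
  have nh : Nice (h : ℍ → ℂ) := nice_of_form h one_mem_strictPeriods_SL
  have nV : Nice (Vh : ℍ → ℂ) := nice_of_form Vh hΓ
  have nU : Nice (heckeU 2 p (G : ℍ → ℂ)) := ng.heckeU 2 p
  have hVcoe : (Vh : ℍ → ℂ) = (h : ℍ → ℂ) ∣[k] heckeDiagMatrix p := by
    show (⇑(Fermat.Agent.S23.Glue.restrict p h) : ℍ → ℂ) ∣[k] frickeMat p = _
    rw [Fermat.Agent.S23.Glue.coe_restrict, slash_frickeMat_levelOne]
  have hVW : (Vh : ℍ → ℂ) ∣[k] frickeMat p = ((p : ℂ) ^ (k - 2)) • (h : ℍ → ℂ) := by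
    show ((⇑(Fermat.Agent.S23.Glue.restrict p h) : ℍ → ℂ) ∣[k] frickeMat p) ∣[k] frickeMat p = _
    rw [slash_frickeMat_slash_frickeMat, Fermat.Agent.S23.Glue.coe_restrict, Even.neg_one_zpow hk,
      one_mul]
  have hgW : (G : ℍ → ℂ) ∣[(2 : ℤ)] frickeMat p = -heckeU 2 p (G : ℍ → ℂ) :=
    slash_frickeMat_eq_neg_heckeU p G
  have e1 : (TrH : ℍ → ℂ) = (Vh : ℍ → ℂ) * (G : ℍ → ℂ)
      - ((p : ℂ)⁻¹) • heckeU (k + 2) p (heckeU 2 p (G : ℍ → ℂ) * (h : ℍ → ℂ)) := by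
    have hH : (H : ℍ → ℂ) = (Vh : ℍ → ℂ) * (G : ℍ → ℂ) := rfl
    have h1 := coe_trace_Gamma0 p H
    rw [hH, ModularForm.mul_slash k 2 (frickeMat p), hVW, hgW, det_frickeMat] at h1
    rw [show (TrH : ℍ → ℂ) = ⇑(ModularForm.trace 𝒮ℒ H) from rfl, h1]
    have e : |(p : ℝ)| • (((p : ℂ) ^ (k - 2)) • (h : ℍ → ℂ) * -heckeU 2 p (G : ℍ → ℂ)) =
        (-((p : ℂ) * (p : ℂ) ^ (k - 2))) • (heckeU 2 p (G : ℍ → ℂ) * (h : ℍ → ℂ)) := by
      funext τ
      simp only [Pi.smul_apply, Pi.mul_apply, Pi.neg_apply, smul_eq_mul, Complex.real_smul,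
        Nat.abs_cast, Complex.ofReal_natCast]
      ring
    have hs : (p : ℂ) ^ (2 - (k + 2)) * -((p : ℂ) * (p : ℂ) ^ (k - 2)) = -(p : ℂ)⁻¹ := by
      have e2 : (p : ℂ) ^ (2 - (k + 2)) = ((p : ℂ) ^ k)⁻¹ := by
        rw [show (2 : ℤ) - (k + 2) = -k by ring, zpow_neg]
      have e3 : (p : ℂ) ^ (k - 2) = (p : ℂ) ^ k / (p : ℂ) ^ (2 : ℕ) := by
        rw [zpow_sub₀ hpc]; norm_cast
      rw [e2, e3]
      have : (p : ℂ) ^ k ≠ 0 := zpow_ne_zero _ hpc
      field_simp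
    rw [e, heckeU_smul, smul_smul, hs]
    funext τ
    simp only [Pi.add_apply, Pi.sub_apply, Pi.smul_apply, smul_eq_mul]
    ring
  have nUh : Nice (heckeU 2 p (G : ℍ → ℂ) * (h : ℍ → ℂ)) := nU.mul nh
  have nUU : Nice (heckeU (k + 2) p (heckeU 2 p (G : ℍ → ℂ) * (h : ℍ → ℂ))) := nUh.heckeU _ _
  refine ⟨((p : ℂ) ^ (1 - k)) • TrH, fun n => ?_⟩
  have hq1 : qExpansion 1 ((((p : ℂ) ^ (1 - k)) • TrH : ModularForm 𝒮ℒ (k + 2)) : ℍ → ℂ) =
      ((p : ℂ) ^ (1 - k)) • qExpansion 1 (TrH : ℍ → ℂ) :=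
    ModularForm.qExpansion_smul one_pos one_mem_strictPeriods_SL _ TrH
  have hq2 : qExpansion 1 (TrH : ℍ → ℂ) =
      qExpansion 1 (G : ℍ → ℂ) * qExpansion 1 (Vh : ℍ → ℂ)
        - (p : ℂ)⁻¹ • qExpansion 1 (heckeU (k + 2) p (heckeU 2 p (G : ℍ → ℂ) * (h : ℍ → ℂ))) := by
    rw [e1, qExpansion_sub (nV.mul ng).analytic (nUU.smul _).analytic,
      qExpansion_mul nV.analytic ng.analytic, qExpansion_smul nUU.analytic, mul_comm]
  have c1 : ∀ m : ℕ, (qExpansion 1 (Vh : ℍ → ℂ)).coeff m =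
      if p ∣ m then (p : ℂ) ^ (k - 1) * (qExpansion 1 (h : ℍ → ℂ)).coeff (m / p) else 0 := by
    intro m
    rw [hVcoe]
    exact coeff_slash_diag nh k hp.ne_zero m
  have c2 : ∀ m : ℕ, (qExpansion 1 (heckeU 2 p (G : ℍ → ℂ))).coeff m =
      (qExpansion 1 (G : ℍ → ℂ)).coeff (m * p) := fun m =>
    UpperHalfPlane.qCoeff_heckeU ng.per ng.holo ng.bdd 2 hp.ne_zero m
  have c3 : (qExpansion 1 (heckeU (k + 2) p (heckeU 2 p (G : ℍ → ℂ) * (h : ℍ → ℂ)))).coeff n =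
      ∑ x ∈ Finset.HasAntidiagonal.antidiagonal (n * p),
        (qExpansion 1 (G : ℍ → ℂ)).coeff (x.1 * p) * (qExpansion 1 (h : ℍ → ℂ)).coeff x.2 := by
    have h3 := UpperHalfPlane.qCoeff_heckeU nUh.per nUh.holo nUh.bdd (k + 2) hp.ne_zero n
    simp only [ModularFormClass.qCoeff, coeffHeckeU_apply] at h3
    rw [h3, qExpansion_mul nU.analytic nh.analytic, PowerSeries.coeff_mul]
    exact Finset.sum_congr rfl fun x _ => by rw [c2]
  rw [hq1, hq2]
  simp only [PowerSeries.coeff_smul, map_sub, smul_eq_mul]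
  rw [c3, PowerSeries.coeff_mul, mul_sub, Finset.mul_sum]
  congr 1
  · refine Finset.sum_congr rfl fun x _ => ?_
    rw [c1]
    split_ifs
    · have h4 : (p : ℂ) ^ (1 - k) * (p : ℂ) ^ (k - 1) = 1 := by
        rw [← zpow_add₀ hpc]; simp
      linear_combination (qExpansion 1 (G : ℍ → ℂ)).coeff x.1 *
        (qExpansion 1 (h : ℍ → ℂ)).coeff (x.2 / p) * h4
    · simp
  · rw [← mul_assoc]
    congr 1
    rw [show (-k : ℤ) = (1 - k) + (-1) by ring, zpow_add₀ hpc, zpow_neg_one]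


theorem exists_levelOne_trace_int (p : ℕ) [Fact p.Prime]
    (G : ModularForm (CongruenceSubgroup.Gamma0 p) 2) {k : ℤ} (hk : Even k)
    (h : ModularForm 𝒮ℒ k) (a b : ℕ → ℤ) (ha : ∀ n, (qExpansion 1 G).coeff n = (a n : ℂ))
    (hb : ∀ n, (qExpansion 1 h).coeff n = (b n : ℂ)) :
    ∃ F : ModularForm 𝒮ℒ (k + 2), ∀ n : ℕ, (qExpansion 1 F).coeff n =
      ((sV p a b n : ℤ) : ℂ) - (p : ℂ) ^ (-k) * ((sU p a b n : ℤ) : ℂ) := by
  obtain ⟨F, hF⟩ := exists_levelOne_trace p G hk h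
  refine ⟨F, fun n => ?_⟩
  rw [hF n, sV, sU]
  push_cast
  congr 1
  · refine Finset.sum_congr rfl fun x _ => ?_
    rw [ha, hb]
  · congr 1
    refine Finset.sum_congr rfl fun x _ => ?_
    rw [ha, hb]

/-- The discriminant as a level-one modular form. -/
noncomputable def deltaForm : ModularForm 𝒮ℒ 12 where
  toFun := ModularForm.discriminant
  slash_action_eq' := CuspForm.discriminant.slash_action_eq'
  holo' := CuspForm.discriminant.holo'
  bdd_at_cusps' hc g hg := (CuspForm.discriminant.zero_at_cusps' hc g hg).isBoundedAtImInfty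

theorem coe_deltaForm : (deltaForm : ℍ → ℂ) = ModularForm.discriminant := rfl

/-- **(F2)** A weight-`2` form on `Γ₀(p)` with integral `q`-expansion which is congruent to the
constant `c` modulo `M` (`M` prime to `p`) has `M ∣ (p + 1) c`. -/
theorem dvd_succ_mul_of_congr_const (p : ℕ) [Fact p.Prime]
    (G : ModularForm (CongruenceSubgroup.Gamma0 p) 2) (c M : ℤ)
    (h0 : (qExpansion 1 G).coeff 0 = (c : ℂ))
    (hk : ∀ k : ℕ, 1 ≤ k → ∃ m : ℤ, (qExpansion 1 G).coeff k = ((M * m : ℤ) : ℂ))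
    (hM : IsCoprime M (p : ℤ)) : M ∣ ((p : ℤ) + 1) * c := by
  have hp : p.Prime := Fact.out
  classical
  let a : ℕ → ℤ := fun n => if h : 1 ≤ n then M * (hk n h).choose else c
  have ha : ∀ n, (qExpansion 1 G).coeff n = (a n : ℂ) := by
    intro n
    by_cases h : 1 ≤ n
    · simp only [a, dif_pos h]; exact (hk n h).choose_spec
    · have : n = 0 := by omega
      subst this
      simp only [a, dif_neg h]; exact h0
  have ha0 : a 0 = c := by simp [a]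
  have hak : ∀ k : ℕ, 1 ≤ k → M ∣ a k := fun k hk1 => by
    simp only [a, dif_pos hk1]; exact Dvd.intro _ rfl
  obtain ⟨F, hF⟩ := exists_levelOne_trace_int p G (k := 12) ⟨6, by norm_num⟩ deltaForm a tau ha
    (fun n => by rw [coe_deltaForm]; exact qExpansion_discriminant_coeff n)
  have hpc : (p : ℂ) ≠ 0 := Nat.cast_ne_zero.mpr hp.ne_zero
  have hF0 : (qExpansion 1 F).coeff 0 = 0 := by
    rw [hF 0, sV_zero, sU_zero, tau_zero]; simp
  have hFz : F = 0 := eq_zero_of_weight_fourteen (by norm_num) F hF0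
  have hrel : ∀ n : ℕ, (p : ℤ) ^ 12 * sV p a tau n = sU p a tau n := by
    intro n
    have h1 := hF n
    rw [hFz] at h1
    have h2 : (qExpansion 1 ((0 : ModularForm 𝒮ℒ (12 + 2)) : ℍ → ℂ)).coeff n = 0 := by
      have : ((0 : ModularForm 𝒮ℒ (12 + 2)) : ℍ → ℂ) = 0 := rfl
      rw [this, qExpansion_zero]; simp
    rw [h2] at h1
    have h3 : ((p : ℂ) ^ (12 : ℕ)) * ((sV p a tau n : ℤ) : ℂ) = ((sU p a tau n : ℤ) : ℂ) := by
      have e : (p : ℂ) ^ (-(12 : ℤ)) = ((p : ℂ) ^ (12 : ℕ))⁻¹ := by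
        rw [zpow_neg]; norm_cast
      rw [e] at h1
      have hp12 : (p : ℂ) ^ (12 : ℕ) ≠ 0 := pow_ne_zero _ hpc
      field_simp at h1
      linear_combination -h1
    exact_mod_cast h3
  have := dvd_of_rel_tau p hp a M hak hM hrel
  rwa [ha0] at this

/-- **(case `l = p`)** A weight-`2` form on `Γ₀(p)`, `p ≥ 5`, with integral `q`-expansion which is
congruent to the constant `c` modulo `p` has `p ∣ c`. -/
theorem dvd_const_of_congr_const_self (p : ℕ) [Fact p.Prime] (hp5 : 5 ≤ p)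
    (G : ModularForm (CongruenceSubgroup.Gamma0 p) 2) (c : ℤ)
    (h0 : (qExpansion 1 G).coeff 0 = (c : ℂ))
    (hk : ∀ k : ℕ, 1 ≤ k → ∃ m : ℤ, (qExpansion 1 G).coeff k = (((p : ℤ) * m : ℤ) : ℂ)) :
    (p : ℤ) ∣ c := by
  have hp : p.Prime := Fact.out
  classical
  let a : ℕ → ℤ := fun n => if h : 1 ≤ n then (p : ℤ) * (hk n h).choose else c
  have ha : ∀ n, (qExpansion 1 G).coeff n = (a n : ℂ) := by
    intro n
    by_cases h : 1 ≤ n
    · simp only [a, dif_pos h]; exact (hk n h).choose_spec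
    · have : n = 0 := by omega
      subst this
      simp only [a, dif_neg h]; exact h0
  have ha0 : a 0 = c := by simp [a]
  have hak : ∀ k : ℕ, 1 ≤ k → (p : ℤ) ∣ a k := fun k hk1 => by
    simp only [a, dif_pos hk1]; exact Dvd.intro _ rfl
  obtain ⟨F, hF⟩ := exists_levelOne_trace_int p G (k := 4) ⟨2, by norm_num⟩ E₄ a e4 ha
    (fun n => by rw [qExpansion_E4_coeff, e4]; split_ifs <;> push_cast <;> rfl)
  have hpc : (p : ℂ) ≠ 0 := Nat.cast_ne_zero.mpr hp.ne_zero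
  have h6 := coeff_eq_of_weight_six (by norm_num) F
  have hrel : ∀ n : ℕ, (p : ℤ) ^ 4 * sV p a e4 n - sU p a e4 n =
      ((p : ℤ) ^ 4 * sV p a e4 0 - sU p a e4 0) * e6 n := by
    intro n
    have h1 := h6 n
    rw [hF n, hF 0] at h1
    have he6 : (qExpansion 1 (E₆ : ℍ → ℂ)).coeff n = ((e6 n : ℤ) : ℂ) := by
      rw [qExpansion_E6_coeff, e6]; split_ifs <;> push_cast <;> rfl
    rw [he6] at h1
    have e : (p : ℂ) ^ (-(4 : ℤ)) = ((p : ℂ) ^ (4 : ℕ))⁻¹ := by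
      rw [zpow_neg]; norm_cast
    rw [e] at h1
    have hp4 : (p : ℂ) ^ (4 : ℕ) ≠ 0 := pow_ne_zero _ hpc
    have h3 : ((p : ℂ) ^ (4 : ℕ)) * ((sV p a e4 n : ℤ) : ℂ) - ((sU p a e4 n : ℤ) : ℂ) =
        (((p : ℂ) ^ (4 : ℕ)) * ((sV p a e4 0 : ℤ) : ℂ) - ((sU p a e4 0 : ℤ) : ℂ)) * ((e6 n : ℤ) : ℂ) := by
      field_simp at h1
      linear_combination h1
    exact_mod_cast h3
  have := dvd_of_rel_E4 p hp hp5 a hak hrel
  rwa [ha0] at this


end Fermat.Agent.S16
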