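import Mathlib
import Fermat.Agent.S24.JqExp

/-!
# Miller-type bound for level one forms (helper18, S16 package P3, part MB)

For a level one modular form `F` of weight `w` and `m` with `w < 12 m`, every `q`-coefficient of
`F` is a `ℤ`-linear combination of the first `m` coefficients.  We state this as: any additive
subgroup of `ℂ` containing `a_0, …, a_{m-1}` contains all `a_i`.
-/

set_option autoImplicit false

open UpperHalfPlane hiding I
open ModularForm EisensteinSeries
open scoped MatrixGroups Manifold

namespace Fermat.Agent.S16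

namespace Miller

/-- Power series over `ℂ` all of whose coefficients are (images of) integers. -/
noncomputable def intSeries : Subring (PowerSeries ℂ) := (PowerSeries.map (Int.castRingHom ℂ)).range

theorem mem_intSeries_iff (P : PowerSeries ℂ) :
    P ∈ intSeries ↔ ∀ n : ℕ, ∃ k : ℤ, PowerSeries.coeff n P = (k : ℂ) := by
  constructor
  · rintro ⟨P', rfl⟩ n
    exact ⟨PowerSeries.coeff n P', by simp⟩
  · intro h
    choose c hc using h
    refine ⟨PowerSeries.mk c, ?_⟩
    ext n
    simp [hc n]

theorem map_mem_intSeries (P : PowerSeries ℤ) : P.map (Int.castRingHom ℂ) ∈ intSeries :=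
  ⟨P, rfl⟩

/-- Multiplying by an integral series preserves "the first coefficients lie in `A`". -/
theorem coeff_mul_mem {P Q : PowerSeries ℂ} (hP : P ∈ intSeries) (A : AddSubgroup ℂ) (i : ℕ)
    (hQ : ∀ k ≤ i, PowerSeries.coeff k Q ∈ A) : PowerSeries.coeff i (P * Q) ∈ A := by
  rw [PowerSeries.coeff_mul]
  refine A.sum_mem fun kl hkl => ?_
  obtain ⟨c, hc⟩ := (mem_intSeries_iff P).mp hP kl.1
  have hle : kl.2 ≤ i := by
    have h2 := Finset.HasAntidiagonal.mem_antidiagonal.mp hkl
    omega
  rw [hc, ← zsmul_eq_mul]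
  exact A.zsmul_mem (hQ _ hle) c

theorem coeff_smul_mem {P : PowerSeries ℂ} (hP : P ∈ intSeries) (A : AddSubgroup ℂ) {a : ℂ}
    (ha : a ∈ A) (i : ℕ) : PowerSeries.coeff i (a • P) ∈ A := by
  obtain ⟨c, hc⟩ := (mem_intSeries_iff P).mp hP i
  rw [PowerSeries.coeff_smul, hc, smul_eq_mul, mul_comm, ← zsmul_eq_mul]
  exact A.zsmul_mem ha c

theorem qExpansion_E₄_mem : qExpansion 1 E₄ ∈ intSeries := by
  rw [mem_intSeries_iff]
  intro n
  rw [show (E₄ : ModularForm 𝒮ℒ 4) = E (k := 4) (by norm_num) from rfl,
    EisensteinSeries.E_qExpansion_coeff _ ⟨2, rfl⟩]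
  split_ifs with hn
  · exact ⟨1, by simp⟩
  · refine ⟨240 * (ArithmeticFunction.sigma 3 n : ℤ), ?_⟩
    rw [show bernoulli 4 = -1 / 30 by decide +kernel]
    push_cast
    norm_num

theorem qExpansion_E₆_mem : qExpansion 1 E₆ ∈ intSeries := by
  rw [mem_intSeries_iff]
  intro n
  rw [show (E₆ : ModularForm 𝒮ℒ 6) = E (k := 6) (by norm_num) from rfl,
    EisensteinSeries.E_qExpansion_coeff _ ⟨3, rfl⟩]
  split_ifs with hn
  · exact ⟨1, by simp⟩
  · refine ⟨-504 * (ArithmeticFunction.sigma 5 n : ℤ), ?_⟩
    rw [show bernoulli 6 = 1 / 42 by decide +kernel]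
    push_cast
    norm_num

open Fermat.Agent.S24.JqExp in
/-- The `q`-expansion of `Δ` is `X · ∏ (1 - Xⁿ)²⁴`. -/
theorem qExpansion_discriminant :
    qExpansion 1 ModularForm.discriminant = PowerSeries.X * etaC ^ 24 := by
  ext n
  have key : ∀ τ : ℍ, HasSum (fun m => PowerSeries.coeff m (PowerSeries.X * etaC ^ 24) •
      Function.Periodic.qParam 1 τ ^ m) (CuspForm.discriminant τ) := by
    intro τ
    set q : ℂ := Function.Periodic.qParam 1 τ with hq
    have hq1 : ‖q‖ < 1 := Function.Periodic.norm_qParam_lt_one one_pos τ.im_pos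
    have hΔ : CuspForm.discriminant τ = q * (∏' n : ℕ, (1 - q ^ (n + 1))) ^ 24 := by
      rw [CuspForm.coe_discriminant, ModularForm.discriminant_eq_q_prod,
        (ModularForm.multipliable_one_sub_pow hq1).tprod_pow]
    have hX : HasSum (fun m => PowerSeries.coeff m (PowerSeries.X : PowerSeries ℂ) * q ^ m) q := by
      have := hasSum_single (f := fun m => PowerSeries.coeff m (PowerSeries.X : PowerSeries ℂ) * q ^ m)
        1 (by intro m hm; simp [PowerSeries.coeff_X, hm])
      simpa using this
    have h := hasSum_coeff_mul hX (hasSum_coeff_pow (etaC_hasSum q hq1) 24)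
    rw [hΔ]
    simpa [smul_eq_mul] using h
  exact (ModularFormClass.qExpansion_coeff_unique one_pos one_mem_strictPeriods_SL
    (f := CuspForm.discriminant) key n).symm

open Fermat.Agent.S24.JqExp in
theorem etaC_mem : etaC ∈ intSeries := map_mem_intSeries _

theorem qExpansion_discriminant_mem : qExpansion 1 ModularForm.discriminant ∈ intSeries := by
  rw [qExpansion_discriminant]
  refine intSeries.mul_mem ?_ (intSeries.pow_mem etaC_mem 24)
  rw [mem_intSeries_iff]
  intro n
  by_cases hn : n = 1
  · exact ⟨1, by simp [PowerSeries.coeff_X, hn]⟩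
  · exact ⟨0, by simp [PowerSeries.coeff_X, hn]⟩

open Fermat.Agent.S24.JqExp in
/-- Division by `Δ` on the level of `q`-expansions is given by an integral series. -/
theorem exists_discriminant_inv :
    ∃ V ∈ intSeries, ∀ P : PowerSeries ℂ,
      V * (qExpansion 1 ModularForm.discriminant * P) = PowerSeries.X * P := by
  refine ⟨ModularCurve.dedekindEtaUnitInv.map (Int.castRingHom ℂ), map_mem_intSeries _, fun P => ?_⟩
  have hUV : etaC ^ 24 * ModularCurve.dedekindEtaUnitInv.map (Int.castRingHom ℂ) = 1 := by
    have h := congrArg (PowerSeries.map (Int.castRingHom ℂ)) ModularCurve.dedekindEtaUnit_mul_inv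
    rw [map_mul, map_one, ModularCurve.dedekindEtaUnit, map_pow] at h
    exact h
  rw [qExpansion_discriminant]
  calc ModularCurve.dedekindEtaUnitInv.map (Int.castRingHom ℂ) * (PowerSeries.X * etaC ^ 24 * P)
      = (etaC ^ 24 * ModularCurve.dedekindEtaUnitInv.map (Int.castRingHom ℂ)) *
          (PowerSeries.X * P) := by ring
    _ = PowerSeries.X * P := by rw [hUV, one_mul]

/-- In every even weight `w ≠ 2` there is a level one form with integral `q`-expansion and
constant term `1`. -/
theorem exists_g (w : ℕ) (hw : Even w) (hw2 : w ≠ 2) :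
    ∃ g : ModularForm 𝒮ℒ (w : ℤ), qExpansion 1 g ∈ intSeries ∧
      PowerSeries.coeff 0 (qExpansion 1 g) = 1 := by
  induction w using Nat.strong_induction_on with
  | _ w ih =>
    rcases Nat.eq_zero_or_pos w with rfl | hpos
    · refine ⟨ModularForm.mcast (by simp) (1 : ModularForm 𝒮ℒ 0) rfl, ?_, ?_⟩
      · rw [ModularForm.qExpansion_mcast, ModularForm.qExpansion_one]
        exact intSeries.one_mem
      · rw [ModularForm.qExpansion_mcast, ModularForm.qExpansion_one]
        simp
    · by_cases h6 : w = 6
      · subst h6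
        refine ⟨ModularForm.mcast (by simp) E₆ rfl, ?_, ?_⟩
        · rw [ModularForm.qExpansion_mcast]
          exact qExpansion_E₆_mem
        · rw [ModularForm.qExpansion_mcast]
          exact EisensteinSeries.E_qExpansion_coeff_zero _ ⟨3, rfl⟩
      · have h4 : 4 ≤ w := by
          obtain ⟨r, hr⟩ := hw
          omega
        obtain ⟨g', hg', hg'0⟩ := ih (w - 4) (by omega)
          (by obtain ⟨r, hr⟩ := hw; exact ⟨r - 2, by omega⟩) (by omega)
        refine ⟨ModularForm.mcast (by push_cast [Nat.cast_sub h4]; ring) (E₄.mul g') rfl, ?_, ?_⟩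
        · rw [ModularForm.qExpansion_mcast,
            ModularForm.qExpansion_mul one_pos one_mem_strictPeriods_SL]
          exact intSeries.mul_mem qExpansion_E₄_mem hg'
        · rw [ModularForm.qExpansion_mcast,
            ModularForm.qExpansion_mul one_pos one_mem_strictPeriods_SL,
            PowerSeries.coeff_mul]
          simp [hg'0, EisensteinSeries.E_qExpansion_coeff_zero _ ⟨2, rfl⟩]

theorem coeff_zero_form_mem (A : AddSubgroup ℂ) {w : ℤ} (F : ModularForm 𝒮ℒ w) (hF : F = 0)
    (i : ℕ) : PowerSeries.coeff i (qExpansion 1 F) ∈ A := by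
  subst hF
  rw [FunLike.coe_zero, qExpansion_zero]
  simp

/-- Auxiliary form of the Miller bound, by induction on `m`. -/
theorem coeff_mem_aux (A : AddSubgroup ℂ) (m : ℕ) :
    ∀ (w : ℤ) (F : ModularForm 𝒮ℒ w), w < 12 * m →
      (∀ i < m, PowerSeries.coeff i (qExpansion 1 F) ∈ A) →
      ∀ i, PowerSeries.coeff i (qExpansion 1 F) ∈ A := by
  induction m with
  | zero =>
    intro w F hw _ i
    refine coeff_zero_form_mem A F ?_ i
    exact rank_zero_iff_forall_zero.mp (levelOne_neg_weight_rank_zero (by simpa using hw)) F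
  | succ m ih =>
    intro w F hw hA i
    rcases lt_or_ge w 0 with hneg | hnn
    · exact coeff_zero_form_mem A F
        (rank_zero_iff_forall_zero.mp (levelOne_neg_weight_rank_zero hneg) F) i
    lift w to ℕ using hnn
    rcases Nat.even_or_odd w with hev | hodd
    swap
    · exact coeff_zero_form_mem A F
        (ModularForm.levelOne_odd_weight_eq_zero (by exact_mod_cast hodd) F) i
    by_cases hw2 : w = 2
    · subst hw2
      exact coeff_zero_form_mem A F
        (rank_zero_iff_forall_zero.mp levelOne_weight_two_rank_zero F) i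
    obtain ⟨g, hg, hg0⟩ := exists_g w hev hw2
    set a : ℂ := PowerSeries.coeff 0 (qExpansion 1 F) with ha
    have haA : a ∈ A := hA 0 (Nat.succ_pos m)
    have h1 : qExpansion 1 (⇑(F - a • g : ModularForm 𝒮ℒ (w : ℤ))) =
        qExpansion 1 F - a • qExpansion 1 g := by
      have e1 := ModularForm.qExpansion_sub one_pos one_mem_strictPeriods_SL F (a • g)
      have e2 := ModularForm.qExpansion_smul one_pos one_mem_strictPeriods_SL a g
      rw [← e2]
      exact e1
    have hcusp : PowerSeries.coeff 0 (qExpansion 1 (⇑(F - a • g : ModularForm 𝒮ℒ (w : ℤ)))) = 0 := by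
      rw [h1, map_sub, PowerSeries.coeff_smul, hg0, ha]
      simp
    set h' : ModularForm 𝒮ℒ ((w : ℤ) - 12) :=
      CuspForm.discriminantEquiv (toCuspForm (F - a • g) hcusp) with hh'
    have h2 : qExpansion 1 F - a • qExpansion 1 g =
        qExpansion 1 ModularForm.discriminant * qExpansion 1 h' := by
      rw [← h1]
      exact qExpansion_eq_qExpansion_discriminant_mul (F - a • g) hcusp
    -- the coefficients of `F - a g` below `m + 1` lie in `A`
    have hQ : ∀ k < m + 1, PowerSeries.coeff k (qExpansion 1 F - a • qExpansion 1 g) ∈ A := by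
      intro k hk
      rw [map_sub]
      exact A.sub_mem (hA k hk) (coeff_smul_mem hg A haA k)
    -- hence the first `m` coefficients of `h'` lie in `A`
    obtain ⟨V, hV, hVmul⟩ := exists_discriminant_inv
    have hh'A : ∀ k < m, PowerSeries.coeff k (qExpansion 1 h') ∈ A := by
      intro k hk
      have e := hVmul (qExpansion 1 h')
      rw [← h2] at e
      have e' : PowerSeries.coeff (k + 1) (PowerSeries.X * qExpansion 1 h') =
          PowerSeries.coeff k (qExpansion 1 h') := PowerSeries.coeff_succ_X_mul k _
      rw [← e', ← e]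
      exact coeff_mul_mem hV A (k + 1) (fun j hj => hQ j (by omega))
    have hall := ih ((w : ℤ) - 12) h' (by push_cast at hw ⊢; linarith) hh'A
    have h3 : qExpansion 1 F = a • qExpansion 1 g +
        qExpansion 1 ModularForm.discriminant * qExpansion 1 h' := by
      rw [← h2]; ring
    rw [h3, map_add]
    exact A.add_mem (coeff_smul_mem hg A haA i)
      (coeff_mul_mem qExpansion_discriminant_mem A i (fun k _ => hall k))

/-- **Miller bound.** For a level one form `F` of weight `w < 12 m`, every additive subgroup of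
`ℂ` containing the first `m` `q`-coefficients of `F` contains all of them. -/
theorem coeff_mem_of_lt {w : ℤ} (F : ModularForm 𝒮ℒ w) (A : AddSubgroup ℂ) (m : ℕ)
    (hm : w < 12 * m) (h : ∀ i < m, PowerSeries.coeff i (qExpansion 1 F) ∈ A) (i : ℕ) :
    PowerSeries.coeff i (qExpansion 1 F) ∈ A :=
  coeff_mem_aux A m w F hm h i

end Miller

end Fermat.Agent.S16
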