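import Mathlib
import Fermat.Agent.S16.Miller

/-!
# Norm to level one and the Miller bound (helper18, S16 package P3, part N)

`HasExp N F Θ`: the function `F` on the upper half plane has the expansion `Θ` in the variable
`exp (2 π i τ / N)`.
`HasOrd O M Θ b`: the series `Θ` has coefficients in the subring `O`, its coefficients below `b`
lie in the additive subgroup `M` and its `b`-th coefficient is a unit modulo `M`.

Main result `norm_bound`: if all conjugates of a form `f` of weight `k` on `𝒢` have such expansions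
with orders `b q`, then `12 * ∑ b q ≤ k * N * [𝒮ℒ : 𝒢]`.
-/

set_option autoImplicit false

open UpperHalfPlane hiding I
open ModularForm
open scoped MatrixGroups Manifold

namespace Fermat.Agent.S16

namespace NormBound

/-! ### Orders modulo an additive subgroup -/

/-- `Θ` has coefficients in `O`, coefficients below `b` in `M`, and `b`-th coefficient a unit
modulo `M`. -/
structure HasOrd (O : Subring ℂ) (M : AddSubgroup ℂ) (Θ : PowerSeries ℂ) (b : ℕ) : Prop where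
  coeff_mem : ∀ n, PowerSeries.coeff n Θ ∈ O
  coeff_lt : ∀ n < b, PowerSeries.coeff n Θ ∈ M
  unit : ∃ v ∈ O, PowerSeries.coeff b Θ * v - 1 ∈ M

variable {O : Subring ℂ} {M : AddSubgroup ℂ}

theorem HasOrd.one : HasOrd O M 1 0 where
  coeff_mem n := by
    rw [PowerSeries.coeff_one]
    split_ifs
    · exact O.one_mem
    · exact O.zero_mem
  coeff_lt n hn := absurd hn (Nat.not_lt_zero n)
  unit := ⟨1, O.one_mem, by simp⟩

theorem HasOrd.coeff_notMem {Θ : PowerSeries ℂ} {b : ℕ} (h : HasOrd O M Θ b)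
    (hOM : ∀ o ∈ O, ∀ m ∈ M, o * m ∈ M) (h1 : (1 : ℂ) ∉ M) :
    PowerSeries.coeff b Θ ∉ M := by
  intro hb
  obtain ⟨v, hv, hu⟩ := h.unit
  apply h1
  have h2 : v * PowerSeries.coeff b Θ ∈ M := hOM v hv _ hb
  have : (1 : ℂ) = v * PowerSeries.coeff b Θ - (PowerSeries.coeff b Θ * v - 1) := by ring
  rw [this]
  exact M.sub_mem h2 hu

theorem HasOrd.mul {Θ Θ' : PowerSeries ℂ} {b b' : ℕ} (hOM : ∀ o ∈ O, ∀ m ∈ M, o * m ∈ M)
    (h : HasOrd O M Θ b) (h' : HasOrd O M Θ' b') : HasOrd O M (Θ * Θ') (b + b') := by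
  have hterm : ∀ kl : ℕ × ℕ, kl.1 < b ∨ kl.2 < b' →
      PowerSeries.coeff kl.1 Θ * PowerSeries.coeff kl.2 Θ' ∈ M := by
    rintro kl (hk | hk)
    · rw [mul_comm]
      exact hOM _ (h'.coeff_mem _) _ (h.coeff_lt _ hk)
    · exact hOM _ (h.coeff_mem _) _ (h'.coeff_lt _ hk)
  refine ⟨fun n => ?_, fun n hn => ?_, ?_⟩
  · rw [PowerSeries.coeff_mul]
    exact O.sum_mem fun kl _ => O.mul_mem (h.coeff_mem _) (h'.coeff_mem _)
  · rw [PowerSeries.coeff_mul]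
    refine M.sum_mem fun kl hkl => hterm kl ?_
    have := Finset.HasAntidiagonal.mem_antidiagonal.mp hkl
    omega
  · obtain ⟨v, hv, hu⟩ := h.unit
    obtain ⟨v', hv', hu'⟩ := h'.unit
    have hmem : ((b, b') : ℕ × ℕ) ∈ Finset.HasAntidiagonal.antidiagonal (b + b') :=
      Finset.HasAntidiagonal.mem_antidiagonal.mpr rfl
    have hrest : PowerSeries.coeff (b + b') (Θ * Θ') -
        PowerSeries.coeff b Θ * PowerSeries.coeff b' Θ' ∈ M := by
      rw [PowerSeries.coeff_mul, ← Finset.sum_erase_eq_sub hmem]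
      refine M.sum_mem fun kl hkl => hterm kl ?_
      obtain ⟨hne, hkl'⟩ := Finset.mem_erase.mp hkl
      have := Finset.HasAntidiagonal.mem_antidiagonal.mp hkl'
      by_contra hcon
      push Not at hcon
      apply hne
      ext <;> simp <;> omega
    refine ⟨v * v', O.mul_mem hv hv', ?_⟩
    set α := PowerSeries.coeff b Θ * v - 1 with hα
    set β := PowerSeries.coeff b' Θ' * v' - 1 with hβ
    have hβO : β ∈ O := O.sub_mem (O.mul_mem (h'.coeff_mem _) hv') O.one_mem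
    have e : PowerSeries.coeff (b + b') (Θ * Θ') * (v * v') - 1 =
        (v * v') * (PowerSeries.coeff (b + b') (Θ * Θ') -
          PowerSeries.coeff b Θ * PowerSeries.coeff b' Θ') + (β * α + α + β) := by
      rw [hα, hβ]; ring
    rw [e]
    exact M.add_mem (hOM _ (O.mul_mem hv hv') _ hrest)
      (M.add_mem (M.add_mem (hOM _ hβO _ hu) hu) hu')

theorem HasOrd.prod {ι : Type*} (s : Finset ι) (Θ : ι → PowerSeries ℂ) (b : ι → ℕ)
    (hOM : ∀ o ∈ O, ∀ m ∈ M, o * m ∈ M) (h : ∀ i ∈ s, HasOrd O M (Θ i) (b i)) :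
    HasOrd O M (∏ i ∈ s, Θ i) (∑ i ∈ s, b i) := by
  classical
  induction s using Finset.induction_on with
  | empty => simpa using HasOrd.one
  | insert a s ha ih =>
    rw [Finset.prod_insert ha, Finset.sum_insert ha]
    exact HasOrd.mul hOM (h a (Finset.mem_insert_self a s))
      (ih fun i hi => h i (Finset.mem_insert_of_mem hi))

/-! ### Expansions in `exp (2 π i τ / N)` -/

/-- `F` has the expansion `Θ` in the variable `exp (2 π i τ / N)`. -/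
def HasExp (N : ℕ) (F : ℍ → ℂ) (Θ : PowerSeries ℂ) : Prop :=
  ∀ τ : ℍ, HasSum (fun n : ℕ => PowerSeries.coeff n Θ * Function.Periodic.qParam (N : ℝ) τ ^ n)
    (F τ)

theorem HasExp.one (N : ℕ) : HasExp N (fun _ => 1) 1 :=
  fun _ => Fermat.Agent.S24.JqExp.hasSum_coeff_one _

theorem HasExp.mul {N : ℕ} {F F' : ℍ → ℂ} {Θ Θ' : PowerSeries ℂ} (h : HasExp N F Θ)
    (h' : HasExp N F' Θ') : HasExp N (fun τ => F τ * F' τ) (Θ * Θ') :=
  fun τ => Fermat.Agent.S24.JqExp.hasSum_coeff_mul (h τ) (h' τ)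

theorem HasExp.prod {N : ℕ} {ι : Type*} (s : Finset ι) (F : ι → ℍ → ℂ) (Θ : ι → PowerSeries ℂ)
    (h : ∀ i ∈ s, HasExp N (F i) (Θ i)) :
    HasExp N (fun τ => ∏ i ∈ s, F i τ) (∏ i ∈ s, Θ i) := by
  classical
  induction s using Finset.induction_on with
  | empty => simpa using HasExp.one N
  | insert a s ha ih =>
    simp only [Finset.prod_insert ha]
    exact HasExp.mul (h a (Finset.mem_insert_self a s))
      (ih fun i hi => h i (Finset.mem_insert_of_mem hi))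

theorem qParam_pow_nat (N : ℕ) (hN : N ≠ 0) (τ : ℂ) :
    Function.Periodic.qParam (N : ℝ) τ ^ N = Function.Periodic.qParam 1 τ := by
  rw [Function.Periodic.qParam, Function.Periodic.qParam, ← Complex.exp_nat_mul]
  congr 1
  have : (N : ℂ) ≠ 0 := Nat.cast_ne_zero.mpr hN
  push_cast
  field_simp

/-- Uniqueness: an expansion in `exp (2 π i τ / N)` of a level one form is its `q`-expansion. -/
theorem HasExp.coeff_eq {N : ℕ} (hN : N ≠ 0) {w : ℤ} (G : ModularForm 𝒮ℒ w) {Θ : PowerSeries ℂ}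
    (h : HasExp N (⇑G) Θ) (n : ℕ) :
    PowerSeries.coeff n Θ =
      if N ∣ n then PowerSeries.coeff (n / N) (qExpansion 1 G) else 0 := by
  have hNpos : (0 : ℝ) < N := by exact_mod_cast Nat.pos_of_ne_zero hN
  have hper : (N : ℝ) ∈ (𝒮ℒ).strictPeriods := by
    rw [Subgroup.strictPeriods_SL2Z]
    exact AddSubgroup.mem_zmultiples_iff.mpr ⟨N, by simp⟩
  have e1 := ModularFormClass.qExpansion_coeff_unique (c := fun n => PowerSeries.coeff n Θ)
    hNpos hper (f := G) (by simpa [HasExp, smul_eq_mul] using h) n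
  have h2 : ∀ τ : ℍ, HasSum (fun n : ℕ =>
      (if N ∣ n then PowerSeries.coeff (n / N) (qExpansion 1 G) else 0) •
        Function.Periodic.qParam (N : ℝ) τ ^ n) (G τ) := by
    intro τ
    have hs := ModularForm.hasSum_qExpansion (f := G) one_pos one_mem_strictPeriods_SL τ
    have hinj : Function.Injective (fun m : ℕ => N * m) :=
      fun a b hab => Nat.eq_of_mul_eq_mul_left (Nat.pos_of_ne_zero hN) hab
    rw [← hinj.hasSum_iff]
    · refine hs.congr_fun fun m => ?_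
      simp only [Function.comp_apply, smul_eq_mul]
      rw [if_pos (dvd_mul_right N m), Nat.mul_div_cancel_left m (Nat.pos_of_ne_zero hN),
        pow_mul, qParam_pow_nat N hN]
    · intro n hn
      rw [if_neg, zero_smul]
      rintro ⟨c, hc⟩
      exact hn ⟨c, hc.symm⟩
  have e2 := ModularFormClass.qExpansion_coeff_unique
    (c := fun n => if N ∣ n then PowerSeries.coeff (n / N) (qExpansion 1 G) else 0)
    hNpos hper (f := G) h2 n
  exact e1.trans e2.symm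

/-! ### The norm bound -/

/-- **Norm bound.** Let `f` be a form of weight `k` on `𝒢` (of finite index in `𝒮ℒ`). Assume
that for every coset `q` the conjugate `quotientFunc f q` has an expansion `Θ q` in
`exp (2 π i τ / N)` with coefficients in `O`, which vanishes modulo `M` below `b q` and has a unit
coefficient modulo `M` at `b q`.  Then `12 * ∑ b q ≤ k * [𝒮ℒ : 𝒢] * N`. -/
theorem norm_bound {𝒢 : Subgroup (GL (Fin 2) ℝ)} [𝒢.IsFiniteRelIndex 𝒮ℒ] {k : ℤ}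
    (f : ModularForm 𝒢 k) (N : ℕ) (hN : N ≠ 0)
    (hOM : ∀ o ∈ O, ∀ m ∈ M, o * m ∈ M) (h1 : (1 : ℂ) ∉ M)
    (Θ : 𝒮ℒ ⧸ 𝒢.subgroupOf 𝒮ℒ → PowerSeries ℂ) (b : 𝒮ℒ ⧸ 𝒢.subgroupOf 𝒮ℒ → ℕ)
    (hexp : ∀ q, HasExp N (SlashInvariantForm.quotientFunc f q) (Θ q))
    (hord : ∀ q, HasOrd O M (Θ q) (b q)) :
    12 * ((∑ᶠ q, b q : ℕ) : ℤ) ≤ k * Nat.card (𝒮ℒ ⧸ 𝒢.subgroupOf 𝒮ℒ) * N := by
  classical
  let _ := Fintype.ofFinite (𝒮ℒ ⧸ 𝒢.subgroupOf 𝒮ℒ)
  rw [finsum_eq_sum_of_fintype]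
  set G := ModularForm.norm 𝒮ℒ f with hG
  have hexpG : HasExp N (⇑G) (∏ q, Θ q) := by
    have h := HasExp.prod Finset.univ (fun q => SlashInvariantForm.quotientFunc f q) Θ
      (fun q _ => hexp q)
    intro τ
    have hτ := h τ
    have e : G τ = ∏ q : 𝒮ℒ ⧸ 𝒢.subgroupOf 𝒮ℒ, SlashInvariantForm.quotientFunc f q τ := by
      have e0 := congrFun (ModularForm.coe_norm 𝒮ℒ f) τ
      rw [hG, e0]
      exact Finset.prod_apply τ Finset.univ _
    rw [e]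
    exact hτ
  have hordG : HasOrd O M (∏ q, Θ q) (∑ q, b q) :=
    HasOrd.prod Finset.univ Θ b hOM (fun q _ => hord q)
  set B := ∑ q, b q with hBdef
  have hB := hordG.coeff_notMem hOM h1
  rw [hexpG.coeff_eq hN G B] at hB
  have hdvd : N ∣ B := by
    by_contra h
    rw [if_neg h] at hB
    exact hB M.zero_mem
  rw [if_pos hdvd] at hB
  obtain ⟨m, hm⟩ := hdvd
  have hNpos : 0 < N := Nat.pos_of_ne_zero hN
  rw [hm, Nat.mul_div_cancel_left m hNpos] at hB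
  by_contra hlt
  push Not at hlt
  apply hB
  have hw : k * Nat.card (𝒮ℒ ⧸ 𝒢.subgroupOf 𝒮ℒ) < 12 * m := by
    rw [hm] at hlt
    push_cast at hlt
    have hN' : (0 : ℤ) < N := by exact_mod_cast hNpos
    by_contra hcon
    push Not at hcon
    nlinarith
  refine Miller.coeff_mem_of_lt G M m hw (fun i hi => ?_) m
  have hlt' : N * i < B := by
    rw [hm]
    exact Nat.mul_lt_mul_of_pos_left hi hNpos
  have h3 := hordG.coeff_lt (N * i) hlt'
  rwa [hexpG.coeff_eq hN G (N * i), if_pos (dvd_mul_right N i),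
    Nat.mul_div_cancel_left i hNpos] at h3

/-! ### Counting cosets inside an intermediate subgroup -/

/-- If `H ≤ K` and `b` takes the value `N` on all cosets contained in `K`, then
`N * [G : H] ≤ (∑ b) * [G : K]`. -/
theorem count_le {G : Type*} [Group G] {H K : Subgroup G} (hle : H ≤ K) [Finite (G ⧸ H)]
    (b : G ⧸ H → ℕ) (N : ℕ) (hb : ∀ g ∈ K, b (QuotientGroup.mk g) = N) :
    N * Nat.card (G ⧸ H) ≤ (∑ᶠ q, b q) * K.index := by
  classical
  let e := Subgroup.quotientEquivProdOfLE hle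
  have : Finite ((G ⧸ K) × (K ⧸ H.subgroupOf K)) := Finite.of_equiv _ e
  have : Nonempty (G ⧸ K) := ⟨QuotientGroup.mk 1⟩
  have : Nonempty (K ⧸ H.subgroupOf K) := ⟨QuotientGroup.mk 1⟩
  have : Finite (G ⧸ K) := Finite.prod_left (K ⧸ H.subgroupOf K)
  have : Finite (K ⧸ H.subgroupOf K) := Finite.prod_right (G ⧸ K)
  let _ := Fintype.ofFinite (G ⧸ H)
  let _ := Fintype.ofFinite (G ⧸ K)
  let _ := Fintype.ofFinite (K ⧸ H.subgroupOf K)
  have hcard : Nat.card (G ⧸ H) = Nat.card (G ⧸ K) * Nat.card (K ⧸ H.subgroupOf K) := by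
    rw [Nat.card_congr e, Nat.card_prod]
  have hsum : ∑ q, b q = ∑ x : G ⧸ K, ∑ y : K ⧸ H.subgroupOf K, b (e.symm (x, y)) := by
    rw [← Fintype.sum_prod_type', ← Equiv.sum_comp e.symm]
  have hone : ∀ y : K ⧸ H.subgroupOf K, b (e.symm (QuotientGroup.mk 1, y)) = N := by
    intro y
    induction y using Quotient.inductionOn' with
    | h k =>
      have hout : (Quotient.out (QuotientGroup.mk (1 : G) : G ⧸ K)) ∈ K := by
        have h1 := QuotientGroup.out_eq' (QuotientGroup.mk (1 : G) : G ⧸ K)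
        have h2 := QuotientGroup.eq.mp h1
        simpa using K.inv_mem h2
      have : e.symm (QuotientGroup.mk 1, Quotient.mk'' k) =
          QuotientGroup.mk (Quotient.out (QuotientGroup.mk (1 : G) : G ⧸ K) * (k : G)) := rfl
      rw [this]
      exact hb _ (K.mul_mem hout k.2)
  have hge : N * Nat.card (K ⧸ H.subgroupOf K) ≤ ∑ q, b q := by
    rw [hsum]
    calc N * Nat.card (K ⧸ H.subgroupOf K)
        = ∑ y : K ⧸ H.subgroupOf K, b (e.symm (QuotientGroup.mk 1, y)) := by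
          simp [hone, Nat.card_eq_fintype_card, mul_comm]
      _ ≤ ∑ x : G ⧸ K, ∑ y : K ⧸ H.subgroupOf K, b (e.symm (x, y)) :=
          Finset.single_le_sum (f := fun x : G ⧸ K => ∑ y : K ⧸ H.subgroupOf K, b (e.symm (x, y)))
            (fun _ _ => Nat.zero_le _) (Finset.mem_univ _)
  rw [finsum_eq_sum_of_fintype, hcard, Subgroup.index_eq_card]
  calc N * (Nat.card (G ⧸ K) * Nat.card (K ⧸ H.subgroupOf K))
      = (N * Nat.card (K ⧸ H.subgroupOf K)) * Nat.card (G ⧸ K) := by ring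
    _ ≤ (∑ q, b q) * Nat.card (G ⧸ K) := Nat.mul_le_mul_right _ hge

/-! ### User-facing forms -/

/-- Norm bound with an intermediate subgroup, in `GL(2, ℝ)`. -/
theorem twelve_le_weight_mul_relIndex {𝒢 𝒢' : Subgroup (GL (Fin 2) ℝ)} [𝒢.IsFiniteRelIndex 𝒮ℒ]
    (hle : 𝒢 ≤ 𝒢') {k : ℤ} (f : ModularForm 𝒢 k) (N : ℕ) (hN : N ≠ 0)
    (hOM : ∀ o ∈ O, ∀ m ∈ M, o * m ∈ M) (h1 : (1 : ℂ) ∉ M)
    (h : ∀ g : 𝒮ℒ, ∃ (Θ : PowerSeries ℂ) (b : ℕ),
      HasExp N (⇑f ∣[k] g.val⁻¹) Θ ∧ HasOrd O M Θ b ∧ (g.val ∈ 𝒢' → b = N)) :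
    12 ≤ k * 𝒢'.relIndex 𝒮ℒ := by
  classical
  have hq : ∀ q : 𝒮ℒ ⧸ 𝒢.subgroupOf 𝒮ℒ, SlashInvariantForm.quotientFunc f q =
      ⇑f ∣[k] (Quotient.out q : 𝒮ℒ).val⁻¹ := by
    intro q
    have e1 : q = QuotientGroup.mk (Quotient.out q) := (QuotientGroup.out_eq' q).symm
    have e2 : SlashInvariantForm.quotientFunc f (QuotientGroup.mk (Quotient.out q) :
        𝒮ℒ ⧸ 𝒢.subgroupOf 𝒮ℒ) = ⇑f ∣[k] (Quotient.out q : 𝒮ℒ).val⁻¹ := rfl
    rw [← e2, ← e1]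
  choose Θ b hΘ using fun q : 𝒮ℒ ⧸ 𝒢.subgroupOf 𝒮ℒ => h (Quotient.out q)
  have hnb := norm_bound f N hN hOM h1 Θ b (fun q => by rw [hq q]; exact (hΘ q).1)
    (fun q => (hΘ q).2.1)
  have hle' : 𝒢.subgroupOf 𝒮ℒ ≤ 𝒢'.subgroupOf 𝒮ℒ := by
    intro x hx
    rw [Subgroup.mem_subgroupOf] at hx ⊢
    exact hle hx
  have hcount := count_le hle' b N (by
    intro g hg
    set q : 𝒮ℒ ⧸ 𝒢.subgroupOf 𝒮ℒ := QuotientGroup.mk g with hqdef
    have hout : Quotient.out q ∈ 𝒢'.subgroupOf 𝒮ℒ := by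
      have h1 := QuotientGroup.out_eq' q
      have h2 : g⁻¹ * Quotient.out q ∈ 𝒢.subgroupOf 𝒮ℒ := QuotientGroup.eq.mp h1.symm
      have h3 := (𝒢'.subgroupOf 𝒮ℒ).mul_mem hg (hle' h2)
      simpa using h3
    rw [Subgroup.mem_subgroupOf] at hout
    exact (hΘ q).2.2 hout)
  have hidx : (𝒢'.subgroupOf 𝒮ℒ).index = 𝒢'.relIndex 𝒮ℒ := rfl
  rw [hidx] at hcount
  have hc : 0 < Nat.card (𝒮ℒ ⧸ 𝒢.subgroupOf 𝒮ℒ) := Nat.card_pos
  have hNpos : 0 < N := Nat.pos_of_ne_zero hN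
  have hcount' : (N : ℤ) * Nat.card (𝒮ℒ ⧸ 𝒢.subgroupOf 𝒮ℒ) ≤
      ((∑ᶠ q, b q : ℕ) : ℤ) * 𝒢'.relIndex 𝒮ℒ := by exact_mod_cast hcount
  have hpos : (0 : ℤ) < N * Nat.card (𝒮ℒ ⧸ 𝒢.subgroupOf 𝒮ℒ) := by positivity
  have hI : (0 : ℤ) ≤ 𝒢'.relIndex 𝒮ℒ := Nat.cast_nonneg _
  by_contra hcon
  push Not at hcon
  have h2 : 12 * ((N : ℤ) * Nat.card (𝒮ℒ ⧸ 𝒢.subgroupOf 𝒮ℒ)) ≤
      (k * 𝒢'.relIndex 𝒮ℒ) * ((N : ℤ) * Nat.card (𝒮ℒ ⧸ 𝒢.subgroupOf 𝒮ℒ)) := by
    calc 12 * ((N : ℤ) * Nat.card (𝒮ℒ ⧸ 𝒢.subgroupOf 𝒮ℒ))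
        ≤ 12 * (((∑ᶠ q, b q : ℕ) : ℤ) * 𝒢'.relIndex 𝒮ℒ) := by linarith
      _ = (12 * ((∑ᶠ q, b q : ℕ) : ℤ)) * 𝒢'.relIndex 𝒮ℒ := by ring
      _ ≤ (k * Nat.card (𝒮ℒ ⧸ 𝒢.subgroupOf 𝒮ℒ) * N) * 𝒢'.relIndex 𝒮ℒ :=
          mul_le_mul_of_nonneg_right hnb hI
      _ = (k * 𝒢'.relIndex 𝒮ℒ) * ((N : ℤ) * Nat.card (𝒮ℒ ⧸ 𝒢.subgroupOf 𝒮ℒ)) := by ring
  nlinarith

open Matrix.SpecialLinearGroup in
/-- **Norm bound, user-facing form.** `Γ ≤ Γ'` subgroups of `SL(2, ℤ)`, `Γ` of finite index, `f`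
a form of weight `k` on `Γ`.  Assume every conjugate `f ∣[k] γ` has an expansion in
`exp (2 π i τ / N)` with coefficients in `O` and some order modulo `M`, the order being exactly
`N` (i.e. `q`-order one) whenever `γ ∈ Γ'`.  Then `12 ≤ k * [SL(2, ℤ) : Γ']`. -/
theorem twelve_le_weight_mul_index {Γ Γ' : Subgroup SL(2, ℤ)} [Γ.FiniteIndex] (hle : Γ ≤ Γ')
    {k : ℤ} (f : ModularForm Γ k) (N : ℕ) (hN : N ≠ 0)
    (hOM : ∀ o ∈ O, ∀ m ∈ M, o * m ∈ M) (h1 : (1 : ℂ) ∉ M)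
    (h : ∀ γ : SL(2, ℤ), ∃ (Θ : PowerSeries ℂ) (b : ℕ),
      HasExp N (⇑f ∣[k] γ) Θ ∧ HasOrd O M Θ b ∧ (γ ∈ Γ' → b = N)) :
    12 ≤ k * Γ'.index := by
  have hinj : Function.Injective (mapGL ℝ : SL(2, ℤ) →* GL (Fin 2) ℝ) := mapGL_injective
  have key := twelve_le_weight_mul_relIndex (𝒢' := Γ'.map (mapGL ℝ)) (Subgroup.map_mono hle)
    f N hN hOM h1 (by
      rintro ⟨g, γ, rfl⟩
      obtain ⟨Θ, b, hexp, hord, hb⟩ := h γ⁻¹
      refine ⟨Θ, b, ?_, hord, fun hmem => hb ?_⟩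
      · have e : ⇑f ∣[k] γ⁻¹ = ⇑f ∣[k] ((mapGL ℝ : SL(2, ℤ) →* GL (Fin 2) ℝ) γ)⁻¹ := by
          rw [ModularForm.SL_slash, ← map_inv]
          rfl
        rw [← e]
        exact hexp
      · obtain ⟨γ', hγ', he⟩ := hmem
        rw [← hinj he]
        exact Γ'.inv_mem hγ')
  have hidx : (Γ'.map (mapGL ℝ : SL(2, ℤ) →* GL (Fin 2) ℝ)).relIndex 𝒮ℒ = Γ'.index := by
    rw [MonoidHom.range_eq_map, Subgroup.relIndex_map_map_of_injective _ _ hinj,
      Subgroup.relIndex_top_right]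
  rw [hidx] at key
  exact key

/-- **Norm bound, uniform form.** If every conjugate `f ∣[k] γ`, `γ ∈ SL(2, ℤ)`, of a form `f` of
weight `k` on a finite index subgroup has an expansion in `exp (2 π i τ / N)` with coefficients
in `O`, with all coefficients below `N` in `M` and the `N`-th coefficient a unit modulo `M`
(i.e. `q`-order exactly one modulo `M`), then `12 ≤ k`. -/
theorem twelve_le_weight {Γ : Subgroup SL(2, ℤ)} [Γ.FiniteIndex] {k : ℤ} (f : ModularForm Γ k)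
    (N : ℕ) (hN : N ≠ 0) (hOM : ∀ o ∈ O, ∀ m ∈ M, o * m ∈ M) (h1 : (1 : ℂ) ∉ M)
    (h : ∀ γ : SL(2, ℤ), ∃ Θ : PowerSeries ℂ, HasExp N (⇑f ∣[k] γ) Θ ∧ HasOrd O M Θ N) :
    12 ≤ k := by
  have := twelve_le_weight_mul_index (Γ' := ⊤) le_top f N hN hOM h1 (fun γ => by
    obtain ⟨Θ, h1, h2⟩ := h γ
    exact ⟨Θ, N, h1, h2, fun _ => rfl⟩)
  simpa using this

open Matrix.SpecialLinearGroup in
/-- **Norm bound, uniform form for arithmetic subgroups of `GL(2, ℝ)`**, with unbundled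
hypotheses: if every conjugate `f ∣[k] γ`, `γ ∈ SL(2, ℤ)`, has an expansion `Θ` in
`exp (2 π i τ / N)` with coefficients in `O`, coefficients below `N` in `M` and `N`-th coefficient
a unit modulo `M`, then `12 ≤ k`. -/
theorem twelve_le_weight_of_isArithmetic {𝒢 : Subgroup (GL (Fin 2) ℝ)} [𝒢.IsArithmetic] {k : ℤ}
    (f : ModularForm 𝒢 k) (O : Subring ℂ) (M : AddSubgroup ℂ)
    (hOM : ∀ a ∈ O, ∀ m ∈ M, a * m ∈ M) (h1 : (1 : ℂ) ∉ M) (N : ℕ) (hN : 0 < N)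
    (h : ∀ γ : SL(2, ℤ), ∃ Θ : PowerSeries ℂ, (∀ n, PowerSeries.coeff n Θ ∈ O) ∧
      (∀ τ : ℍ, HasSum (fun n : ℕ => PowerSeries.coeff n Θ *
        Function.Periodic.qParam (N : ℝ) τ ^ n) ((⇑f ∣[k] γ) τ)) ∧
      (∀ n < N, PowerSeries.coeff n Θ ∈ M) ∧ ∃ u ∈ O, u * PowerSeries.coeff N Θ - 1 ∈ M) :
    12 ≤ k := by
  have key := twelve_le_weight_mul_relIndex (𝒢 := 𝒢) (𝒢' := ⊤) le_top f N hN.ne' hOM h1 (by
    rintro ⟨g, γ, rfl⟩
    obtain ⟨Θ, hO, hexp, hlt, u, hu, hunit⟩ := h γ⁻¹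
    refine ⟨Θ, N, ?_, ⟨hO, hlt, u, hu, by rwa [mul_comm]⟩, fun _ => rfl⟩
    have e : ⇑f ∣[k] γ⁻¹ = ⇑f ∣[k] ((mapGL ℝ : SL(2, ℤ) →* GL (Fin 2) ℝ) γ)⁻¹ := by
      rw [ModularForm.SL_slash, ← map_inv]
      rfl
    rw [← e]
    exact hexp)
  simpa using key

end NormBound

end Fermat.Agent.S16
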