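import Mathlib
import Fermat.Prelude.Thm_CongruenceSubgroup_one_mem_strictPeriods_Gamma0
import Fermat.Prelude.Thm_ModularFormClass_qCoeff_heckeU
import Fermat.Agent.S16.Fricke
import Fermat.Agent.S16.NormBound

/-!
# Expansions of the conjugates of a weight two form on `Γ₀(p)` (helper18, S16)

For `G : ModularForm (Gamma0 p) 2` and every `γ : SL(2, ℤ)` the conjugate `G ∣[2] γ` has an
expansion in `exp (2 π i τ / p)` whose coefficients are either `a_{n/p}` (for `p ∣ n`, else `0`)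
or `-p⁻¹ ζ^n a_{np}` with `ζ^p = 1`, where `a_n` are the `q`-coefficients of `G`.
-/

set_option autoImplicit false

open UpperHalfPlane hiding I
open Complex ModularForm CongruenceSubgroup
open scoped MatrixGroups ModularForm Manifold

namespace Fermat.Agent.S16

namespace ConjExp

open NormBound

/-- Dilation: a `1`-periodic expansion is an expansion in `exp (2 π i τ / N)`. -/
theorem hasExp_dilate {N : ℕ} (hN : N ≠ 0) {F : ℍ → ℂ} {a : ℕ → ℂ}
    (h : ∀ τ : ℍ, HasSum (fun n : ℕ => a n * Function.Periodic.qParam 1 τ ^ n) (F τ)) :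
    HasExp N F (PowerSeries.mk fun n => if N ∣ n then a (n / N) else 0) := by
  intro τ
  have hinj : Function.Injective (fun m : ℕ => N * m) :=
    fun a b hab => Nat.eq_of_mul_eq_mul_left (Nat.pos_of_ne_zero hN) hab
  rw [← hinj.hasSum_iff]
  · refine (h τ).congr_fun fun m => ?_
    simp only [Function.comp_apply, PowerSeries.coeff_mk]
    rw [if_pos (dvd_mul_right N m), Nat.mul_div_cancel_left m (Nat.pos_of_ne_zero hN),
      pow_mul, qParam_pow_nat N hN]
  · intro n hn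
    rw [PowerSeries.coeff_mk, if_neg, zero_mul]
    rintro ⟨c, hc⟩
    exact hn ⟨c, hc.symm⟩

/-- The `q`-parameter at `(τ + j) / p`. -/
theorem qParam_heckeMatrix_smul {p : ℕ} (hp : p ≠ 0) (j : ℕ) (τ : ℍ) :
    Function.Periodic.qParam 1 ((heckeMatrix p j • τ : ℍ) : ℂ) =
      Complex.exp (2 * Real.pi * Complex.I * j / p) * Function.Periodic.qParam (p : ℝ) τ := by
  rw [coe_heckeMatrix_smul hp, Function.Periodic.qParam, Function.Periodic.qParam,
    ← Complex.exp_add]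
  congr 1
  have : (p : ℂ) ≠ 0 := Nat.cast_ne_zero.mpr hp
  push_cast
  field_simp
  ring

/-- Translation: the expansion of `τ ↦ F ((τ + j) / p)`. -/
theorem hasExp_heckeMatrix {p : ℕ} (hp : p ≠ 0) (j : ℕ) {F : ℍ → ℂ} {a : ℕ → ℂ}
    (h : ∀ τ : ℍ, HasSum (fun n : ℕ => a n * Function.Periodic.qParam 1 τ ^ n) (F τ)) :
    HasExp p (fun τ => F (heckeMatrix p j • τ))
      (PowerSeries.mk fun n => a n * Complex.exp (2 * Real.pi * Complex.I * j / p) ^ n) := by
  intro τ
  refine (h (heckeMatrix p j • τ)).congr_fun fun n => ?_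
  rw [PowerSeries.coeff_mk, qParam_heckeMatrix_smul hp, mul_pow]
  ring

theorem exp_pow_eq_one {p : ℕ} (hp : p ≠ 0) (j : ℕ) :
    Complex.exp (2 * Real.pi * Complex.I * j / p) ^ p = 1 := by
  rw [← Complex.exp_nat_mul]
  have : (p : ℂ) ≠ 0 := Nat.cast_ne_zero.mpr hp
  have e : (p : ℂ) * (2 * Real.pi * Complex.I * j / p) = (j : ℂ) * (2 * Real.pi * Complex.I) := by
    field_simp
  rw [e]
  exact Complex.exp_nat_mul_two_pi_mul_I j

variable (p : ℕ) [Fact p.Prime]

/-- The `q`-expansion of a form on `Γ₀(p)` as a convergent sum. -/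
theorem hasSum_qCoeff {k : ℤ} (G : ModularForm (Gamma0 p) k) (τ : ℍ) :
    HasSum (fun n : ℕ => ModularFormClass.qCoeff G n * Function.Periodic.qParam 1 τ ^ n) (G τ) :=
  ModularForm.hasSum_qExpansion (f := G) one_pos (one_mem_strictPeriods_Gamma0 p) τ

/-- Every conjugate of a form on `Γ₀(p)` is the form itself or one of the `p` translates
`τ ↦ p^(1-k) (G ∣ W)((τ + j)/p)`. -/
theorem slash_cases {k : ℤ} (G : ModularForm (Gamma0 p) k) (γ : SL(2, ℤ)) :
    ⇑G ∣[k] γ = ⇑G ∨ ∃ j < p, ⇑G ∣[k] γ =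
      fun τ => (p : ℂ) ^ (1 - k) * (frickeW p k G) (heckeMatrix p j • τ) := by
  have hp : p ≠ 0 := (Fact.out : p.Prime).ne_zero
  have : NeZero p := ⟨hp⟩
  have h1 := quotientFunc_quot0Mk_inv p G γ
  rcases quotientFunc_Gamma0_cases p G (quot0Mk p γ⁻¹) with h | ⟨j, hj, h⟩
  · left
    rw [← h1, h]
  · right
    refine ⟨j, hj, ?_⟩
    rw [← h1, h, ← slash_S_mul_T_pow p]
    funext τ
    rw [slash_S_mul_T_pow_apply p]
    rfl

omit [Fact p.Prime] in
theorem hasExp_const_mul {N : ℕ} {F : ℍ → ℂ} {Θ : PowerSeries ℂ} (c : ℂ) (h : HasExp N F Θ) :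
    HasExp N (fun τ => c * F τ) (c • Θ) := by
  intro τ
  have := (h τ).mul_left c
  refine this.congr_fun fun n => ?_
  rw [PowerSeries.coeff_smul, smul_eq_mul, mul_assoc]

/-- In weight two the `q`-coefficients of `G ∣ W` are `-a_{np}`. -/
theorem qCoeff_frickeW_two (G : ModularForm (Gamma0 p) 2) (n : ℕ) :
    ModularFormClass.qCoeff (frickeW p 2 G) n = -ModularFormClass.qCoeff G (n * p) := by
  have hp : p ≠ 0 := (Fact.out : p.Prime).ne_zero
  have : NeZero p := ⟨hp⟩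
  have hΓ := one_mem_strictPeriods_Gamma0 p
  have h0 : (⇑(frickeW p 2 G) : ℍ → ℂ) = -heckeU 2 p ⇑G := by
    rw [coe_frickeW]
    exact slash_frickeMat_eq_neg_heckeU p G
  have h1 : heckeU 2 p ⇑G = -⇑(frickeW p 2 G) := by
    rw [h0, neg_neg]
  have h2 := ModularFormClass.qCoeff_heckeU G hΓ hp n
  rw [h1, coeffHeckeU_apply] at h2
  rw [← h2, ModularFormClass.qCoeff, ModularFormClass.qCoeff,
    ModularForm.qExpansion_neg one_pos hΓ, map_neg, neg_neg]

/-- **Bridge.** Every conjugate `G ∣[2] γ`, `γ ∈ SL(2, ℤ)`, of a weight two form on `Γ₀(p)` has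
an expansion in `exp (2 π i τ / p)`, with coefficients `a_{n/p}` (`p ∣ n`; `0` otherwise) or
`-p⁻¹ ζ^n a_{np}` for a `p`-th root of unity `ζ`; here `a_n = qCoeff G n`. -/
theorem exists_exp_slash (G : ModularForm (Gamma0 p) 2) (γ : SL(2, ℤ)) :
    ∃ Ψ : PowerSeries ℂ, HasExp p (⇑G ∣[(2 : ℤ)] γ) Ψ ∧
      ((∀ n, PowerSeries.coeff n Ψ = if p ∣ n then ModularFormClass.qCoeff G (n / p) else 0) ∨
        ∃ ζ : ℂ, ζ ^ p = 1 ∧ ∀ n, PowerSeries.coeff n Ψ =
          -(p : ℂ)⁻¹ * ζ ^ n * ModularFormClass.qCoeff G (n * p)) := by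
  have hp : p ≠ 0 := (Fact.out : p.Prime).ne_zero
  rcases slash_cases p G γ with h | ⟨j, -, h⟩
  · refine ⟨_, ?_, Or.inl fun n => PowerSeries.coeff_mk _ _⟩
    rw [h]
    exact hasExp_dilate hp (hasSum_qCoeff p G)
  · refine ⟨(p : ℂ) ^ ((1 : ℤ) - 2) • PowerSeries.mk fun n =>
        ModularFormClass.qCoeff (frickeW p 2 G) n *
          Complex.exp (2 * Real.pi * Complex.I * j / p) ^ n, ?_,
      Or.inr ⟨Complex.exp (2 * Real.pi * Complex.I * j / p), exp_pow_eq_one hp j, fun n => ?_⟩⟩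
    · rw [h]
      exact hasExp_const_mul ((p : ℂ) ^ ((1 : ℤ) - 2))
        (hasExp_heckeMatrix hp j (hasSum_qCoeff p (frickeW p 2 G)))
    · rw [PowerSeries.coeff_smul, PowerSeries.coeff_mk, qCoeff_frickeW_two, smul_eq_mul]
      have e : (p : ℂ) ^ ((1 : ℤ) - 2) = (p : ℂ)⁻¹ := by
        rw [show (1 : ℤ) - 2 = -1 by norm_num, zpow_neg_one]
      rw [e]
      ring

omit [Fact p.Prime] in
/-- Conjugates of level one forms: `F ∣[k] γ = F`, with the dilated `q`-expansion. -/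
theorem hasExp_levelOne {k : ℤ} (F : ModularForm 𝒮ℒ k) {N : ℕ} (hN : N ≠ 0) (γ : SL(2, ℤ)) :
    HasExp N (⇑F ∣[k] γ)
      (PowerSeries.mk fun n => if N ∣ n then ModularFormClass.qCoeff F (n / N) else 0) := by
  have h : ⇑F ∣[k] γ = ⇑F := by
    rw [ModularForm.SL_slash]
    exact SlashInvariantFormClass.slash_action_eq F _ ⟨γ, rfl⟩
  rw [h]
  exact hasExp_dilate hN
    (fun τ => ModularForm.hasSum_qExpansion (f := F) one_pos one_mem_strictPeriods_SL τ)

end ConjExp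

end Fermat.Agent.S16
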