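import Mathlib

/-!
# `ℓ`-integral algebraic numbers (helper18, S16 package P3)

`lInt ℓ` is the subring of `ℂ` of numbers `z` such that `m z` is an algebraic integer for some
`m` prime to `ℓ`; `lMod ℓ = ℓ · lInt ℓ`.  The pair `(lInt ℓ, lMod ℓ)` satisfies the hypotheses of
`NormBound.norm_bound`: `lInt ℓ · lMod ℓ ⊆ lMod ℓ` and `1 ∉ lMod ℓ`.
-/

set_option autoImplicit false

namespace Fermat.Agent.S16

namespace LocalInt

variable (ℓ : ℕ) [hℓ : Fact ℓ.Prime]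

/-- The subring of `ℂ` of `ℓ`-integral algebraic numbers. -/
def lInt : Subring ℂ where
  carrier := {z | ∃ m : ℕ, ¬ ℓ ∣ m ∧ IsIntegral ℤ ((m : ℂ) * z)}
  mul_mem' := by
    rintro a b ⟨m, hm, ha⟩ ⟨m', hm', hb⟩
    refine ⟨m * m', fun h => ?_, ?_⟩
    · rcases (Nat.Prime.dvd_mul hℓ.out).mp h with h | h
      · exact hm h
      · exact hm' h
    · have e : ((m * m' : ℕ) : ℂ) * (a * b) = ↑m * a * (↑m' * b) := by
        push_cast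
        ring
      rw [e]
      exact ha.mul hb
  one_mem' := ⟨1, fun h => hℓ.out.one_lt.ne' (Nat.dvd_one.mp h), by simpa using isIntegral_one⟩
  add_mem' := by
    rintro a b ⟨m, hm, ha⟩ ⟨m', hm', hb⟩
    refine ⟨m * m', fun h => ?_, ?_⟩
    · rcases (Nat.Prime.dvd_mul hℓ.out).mp h with h | h
      · exact hm h
      · exact hm' h
    · have h1 : IsIntegral ℤ ((m' : ℂ)) := by
        have := isIntegral_algebraMap (R := ℤ) (A := ℂ) (x := (m' : ℤ))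
        simpa using this
      have h2 : IsIntegral ℤ ((m : ℂ)) := by
        have := isIntegral_algebraMap (R := ℤ) (A := ℂ) (x := (m : ℤ))
        simpa using this
      have e : ((m * m' : ℕ) : ℂ) * (a + b) = ↑m' * (↑m * a) + ↑m * (↑m' * b) := by
        push_cast
        ring
      rw [e]
      exact (h1.mul ha).add (h2.mul hb)
  zero_mem' := ⟨1, fun h => hℓ.out.one_lt.ne' (Nat.dvd_one.mp h), by simpa using isIntegral_zero⟩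
  neg_mem' := by
    rintro a ⟨m, hm, ha⟩
    refine ⟨m, hm, ?_⟩
    have e : (m : ℂ) * -a = -(↑m * a) := by ring
    rw [e]
    exact ha.neg

theorem mem_lInt_iff (z : ℂ) :
    z ∈ lInt ℓ ↔ ∃ m : ℕ, ¬ ℓ ∣ m ∧ IsIntegral ℤ ((m : ℂ) * z) := Iff.rfl

theorem of_isIntegral {z : ℂ} (hz : IsIntegral ℤ z) : z ∈ lInt ℓ :=
  ⟨1, fun h => hℓ.out.one_lt.ne' (Nat.dvd_one.mp h), by simpa using hz⟩

theorem intCast_mem (n : ℤ) : (n : ℂ) ∈ lInt ℓ := _root_.intCast_mem (lInt ℓ) n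

theorem natCast_mem (n : ℕ) : (n : ℂ) ∈ lInt ℓ := _root_.natCast_mem (lInt ℓ) n

theorem inv_natCast_mem {m : ℕ} (hm : ¬ ℓ ∣ m) : ((m : ℂ))⁻¹ ∈ lInt ℓ := by
  refine ⟨m, hm, ?_⟩
  have hm0 : (m : ℂ) ≠ 0 := by
    rintro h
    apply hm
    have : m = 0 := by exact_mod_cast h
    rw [this]
    exact dvd_zero ℓ
  rw [mul_inv_cancel₀ hm0]
  exact isIntegral_one

theorem of_pow_eq_one {z : ℂ} {n : ℕ} (hn : n ≠ 0) (hz : z ^ n = 1) : z ∈ lInt ℓ :=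
  of_isIntegral ℓ (IsIntegral.of_pow (Nat.pos_of_ne_zero hn) (hz ▸ isIntegral_one))

theorem ratCast_mem {r : ℚ} (hr : ¬ ℓ ∣ r.den) : (r : ℂ) ∈ lInt ℓ := by
  have h : (r : ℂ) = (r.num : ℂ) * ((r.den : ℂ))⁻¹ := by
    rw [← div_eq_mul_inv]
    exact Rat.cast_def r
  rw [h]
  exact (lInt ℓ).mul_mem (intCast_mem ℓ _) (inv_natCast_mem ℓ hr)

/-- The additive subgroup `ℓ · lInt ℓ`. -/
def lMod : AddSubgroup ℂ where
  carrier := {x | ∃ z ∈ lInt ℓ, (ℓ : ℂ) * z = x}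
  add_mem' := by
    rintro a b ⟨z, hz, rfl⟩ ⟨z', hz', rfl⟩
    exact ⟨z + z', (lInt ℓ).add_mem hz hz', by ring⟩
  zero_mem' := ⟨0, (lInt ℓ).zero_mem, by simp⟩
  neg_mem' := by
    rintro a ⟨z, hz, rfl⟩
    exact ⟨-z, (lInt ℓ).neg_mem hz, by ring⟩

theorem mem_lMod_iff (x : ℂ) : x ∈ lMod ℓ ↔ ∃ z ∈ lInt ℓ, (ℓ : ℂ) * z = x := Iff.rfl

theorem mul_mem_lMod {z : ℂ} (hz : z ∈ lInt ℓ) : (ℓ : ℂ) * z ∈ lMod ℓ := ⟨z, hz, rfl⟩

theorem lMod_le : ∀ x ∈ lMod ℓ, x ∈ lInt ℓ := by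
  rintro x ⟨z, hz, rfl⟩
  exact (lInt ℓ).mul_mem (natCast_mem ℓ ℓ) hz

/-- `lMod ℓ` is stable under multiplication by `lInt ℓ`. -/
theorem lMod_stable : ∀ o ∈ lInt ℓ, ∀ m ∈ lMod ℓ, o * m ∈ lMod ℓ := by
  rintro o ho m ⟨z, hz, rfl⟩
  exact ⟨o * z, (lInt ℓ).mul_mem ho hz, by ring⟩

/-- `ℓ` is not invertible in `lInt ℓ`. -/
theorem one_notMem_lMod : (1 : ℂ) ∉ lMod ℓ := by
  rintro ⟨z, ⟨m, hm, hz⟩, h1⟩
  have hℓ0 : (ℓ : ℂ) ≠ 0 := Nat.cast_ne_zero.mpr hℓ.out.ne_zero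
  have hz' : z = ((ℓ : ℂ))⁻¹ := by
    field_simp
    linear_combination h1
  rw [hz'] at hz
  have hq : IsIntegral ℤ (algebraMap ℚ ℂ ((m : ℚ) / (ℓ : ℚ))) := by
    convert hz using 1
    simp [div_eq_mul_inv]
  have hq' : IsIntegral ℤ ((m : ℚ) / (ℓ : ℚ)) :=
    (isIntegral_algebraMap_iff (algebraMap ℚ ℂ).injective).mp hq
  obtain ⟨y, hy⟩ := IsIntegrallyClosed.isIntegral_iff.mp hq'
  apply hm
  have hℓq : (ℓ : ℚ) ≠ 0 := Nat.cast_ne_zero.mpr hℓ.out.ne_zero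
  have e : ((m : ℤ) : ℚ) = ((ℓ : ℤ) * y : ℤ) := by
    have : (algebraMap ℤ ℚ) y = (y : ℚ) := rfl
    rw [this] at hy
    push_cast
    field_simp at hy
    linear_combination -hy
  have e' : (m : ℤ) = (ℓ : ℤ) * y := by exact_mod_cast e
  exact Int.natCast_dvd_natCast.mp ⟨y, e'⟩

/-- An element congruent modulo `lMod ℓ` to an element invertible in `lInt ℓ` is a unit
modulo `lMod ℓ`. -/
theorem exists_unit_of_sub_mem {x u : ℂ} (hu0 : u ≠ 0) (hu' : u⁻¹ ∈ lInt ℓ)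
    (hx : x - u ∈ lMod ℓ) : ∃ v ∈ lInt ℓ, x * v - 1 ∈ lMod ℓ := by
  refine ⟨u⁻¹, hu', ?_⟩
  have : x * u⁻¹ - 1 = u⁻¹ * (x - u) := by field_simp
  rw [this]
  exact lMod_stable ℓ _ hu' _ hx

end LocalInt

end Fermat.Agent.S16
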