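import Mathlib

/-!
# Expansions in `exp(2πiτ/N)` (helper10, S16 package U1, part 1)

`HasExp N f Θ` says that the function `f` on the upper half plane is the sum of the power series
`Θ` in the parameter `exp(2πiτ/N)`.  The predicate is closed under sums, products and scalar
multiples, and contains the level one Eisenstein series `E₄`, `E₆` with explicit series.
-/

set_option autoImplicit false

open UpperHalfPlane hiding I
open ModularForm EisensteinSeries
open scoped MatrixGroups Manifold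

namespace Fermat.Agent.S16

namespace UOne

/-- `f` is the sum of the series `Θ` in the parameter `exp(2πiτ/N)`. -/
def HasExp (N : ℕ) (f : ℍ → ℂ) (Θ : PowerSeries ℂ) : Prop :=
  ∀ τ : ℍ, HasSum (fun n : ℕ => PowerSeries.coeff n Θ * Function.Periodic.qParam N τ ^ n) (f τ)

theorem HasExp.add {N : ℕ} {f g : ℍ → ℂ} {Θ Θ' : PowerSeries ℂ} (hf : HasExp N f Θ)
    (hg : HasExp N g Θ') : HasExp N (f + g) (Θ + Θ') := by
  intro τ
  have := (hf τ).add (hg τ)
  simpa [add_mul] using this

theorem HasExp.sub {N : ℕ} {f g : ℍ → ℂ} {Θ Θ' : PowerSeries ℂ} (hf : HasExp N f Θ)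
    (hg : HasExp N g Θ') : HasExp N (f - g) (Θ - Θ') := by
  intro τ
  have := (hf τ).sub (hg τ)
  simpa [sub_mul] using this

theorem HasExp.const_smul {N : ℕ} {f : ℍ → ℂ} {Θ : PowerSeries ℂ} (hf : HasExp N f Θ) (a : ℂ) :
    HasExp N (a • f) (PowerSeries.C a * Θ) := by
  intro τ
  have := (hf τ).mul_left a
  simpa [mul_assoc] using this

theorem hasExp_const (N : ℕ) (a : ℂ) : HasExp N (fun _ => a) (PowerSeries.C a) := by
  intro τ
  have h := hasSum_ite_eq (0 : ℕ) a
  convert h using 2 with n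
  rw [PowerSeries.coeff_C]
  split_ifs with hn
  · simp [hn]
  · simp

theorem HasExp.mul {N : ℕ} {f g : ℍ → ℂ} {Θ Θ' : PowerSeries ℂ} (hf : HasExp N f Θ)
    (hg : HasExp N g Θ') : HasExp N (f * g) (Θ * Θ') := by
  intro τ
  set x := Function.Periodic.qParam N τ
  have h1 : Summable fun n : ℕ => ‖PowerSeries.coeff n Θ * x ^ n‖ := (hf τ).summable.norm
  have h2 : Summable fun n : ℕ => ‖PowerSeries.coeff n Θ' * x ^ n‖ := (hg τ).summable.norm
  have h3 := summable_norm_sum_mul_antidiagonal_of_summable_norm h1 h2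
  have h4 := tsum_mul_tsum_eq_tsum_sum_antidiagonal_of_summable_norm h1 h2
  rw [(hf τ).tsum_eq, (hg τ).tsum_eq] at h4
  have h5 : (fun n : ℕ => PowerSeries.coeff n (Θ * Θ') * x ^ n) = fun n : ℕ =>
      ∑ kl ∈ Finset.HasAntidiagonal.antidiagonal n,
        (PowerSeries.coeff kl.1 Θ * x ^ kl.1) * (PowerSeries.coeff kl.2 Θ' * x ^ kl.2) := by
    funext n
    rw [PowerSeries.coeff_mul, Finset.sum_mul]
    refine Finset.sum_congr rfl fun kl hkl => ?_
    have : kl.1 + kl.2 = n := Finset.HasAntidiagonal.mem_antidiagonal.mp hkl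
    rw [← this, pow_add]
    ring
  rw [h5, Pi.mul_apply, h4]
  exact h3.of_norm.hasSum

theorem HasExp.pow {N : ℕ} {f : ℍ → ℂ} {Θ : PowerSeries ℂ} (hf : HasExp N f Θ) (m : ℕ) :
    HasExp N (f ^ m) (Θ ^ m) := by
  induction m with
  | zero =>
    have := hasExp_const N 1
    simpa [HasExp, Pi.one_def] using this
  | succ m ih =>
    rw [pow_succ, pow_succ]
    exact ih.mul hf

theorem qParam_one_eq_pow (N : ℕ) (hN : N ≠ 0) (z : ℂ) :
    Function.Periodic.qParam (1 : ℕ) z = Function.Periodic.qParam N z ^ N := by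
  unfold Function.Periodic.qParam
  rw [← Complex.exp_nat_mul]
  congr 1
  have : (N : ℂ) ≠ 0 := by exact_mod_cast hN
  push_cast
  field_simp

/-- An expansion in `exp(2πiτ)` gives an expansion in `exp(2πiτ/N)`. -/
theorem HasExp.expand {f : ℍ → ℂ} {Θ : PowerSeries ℂ} (hf : HasExp 1 f Θ) (N : ℕ) (hN : N ≠ 0) :
    HasExp N f (PowerSeries.expand N hN Θ) := by
  intro τ
  have h := hf τ
  rw [qParam_one_eq_pow N hN] at h
  have hinj : Function.Injective fun m : ℕ => N * m := fun a b hab =>
    Nat.eq_of_mul_eq_mul_left (Nat.pos_of_ne_zero hN) hab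
  rw [← hinj.hasSum_iff]
  · convert h using 2 with m
    simp only [Function.comp_apply]
    rw [PowerSeries.coeff_expand_mul, pow_mul]
  · intro n hn
    have : ¬ N ∣ n := fun ⟨m, hm⟩ => hn ⟨m, hm.symm⟩
    rw [PowerSeries.coeff_expand_of_not_dvd N hN _ this, zero_mul]

/-- The series `∑ σ_k(m) x^(N m)`. -/
noncomputable def sigSer (k N : ℕ) : PowerSeries ℂ :=
  PowerSeries.mk fun n => if N ∣ n then ((ArithmeticFunction.sigma k (n / N) : ℕ) : ℂ) else 0

theorem coeff_sigSer (k N n : ℕ) : PowerSeries.coeff n (sigSer k N) =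
    if N ∣ n then ((ArithmeticFunction.sigma k (n / N) : ℕ) : ℂ) else 0 :=
  PowerSeries.coeff_mk _ _

theorem coeff_sigSer_of_lt {k N n : ℕ} (hn : n < N) : PowerSeries.coeff n (sigSer k N) = 0 := by
  rw [coeff_sigSer]
  split_ifs with h
  · have h0 : n = 0 := Nat.eq_zero_of_dvd_of_lt h hn
    subst h0
    simp
  · rfl

theorem coeff_sigSer_self {k N : ℕ} (hN : N ≠ 0) : PowerSeries.coeff N (sigSer k N) = 1 := by
  rw [coeff_sigSer, if_pos (dvd_refl N), Nat.div_self (Nat.pos_of_ne_zero hN)]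
  simp

theorem hasExp_one_of_modularForm {k : ℤ} (F : ModularForm 𝒮ℒ k) :
    HasExp 1 F (qExpansion 1 F) := by
  intro τ
  have := ModularForm.hasSum_qExpansion F one_pos one_mem_strictPeriods_SL τ
  simpa using this

theorem hasExp_E₄ (N : ℕ) (hN : N ≠ 0) :
    HasExp N E₄ (1 + PowerSeries.C (240 : ℂ) * sigSer 3 N) := by
  have h := (hasExp_one_of_modularForm E₄).expand N hN
  convert h using 1
  ext n
  rw [PowerSeries.coeff_expand, map_add, PowerSeries.coeff_C_mul, coeff_sigSer,
    PowerSeries.coeff_one]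
  by_cases hd : N ∣ n
  · rw [if_pos hd, if_pos hd, show (E₄ : ModularForm 𝒮ℒ 4) = E (k := 4) (by norm_num) from rfl,
      EisensteinSeries.E_qExpansion_coeff _ ⟨2, rfl⟩]
    have hiff : n / N = 0 ↔ n = 0 := by
      constructor
      · intro h0
        obtain ⟨m, rfl⟩ := hd
        rw [Nat.mul_div_cancel_left _ (Nat.pos_of_ne_zero hN)] at h0
        simp [h0]
      · rintro rfl
        simp
    by_cases h0 : n = 0
    · rw [if_pos h0, if_pos (hiff.mpr h0)]
      subst h0
      simp
    · rw [if_neg h0, if_neg (fun h => h0 (hiff.mp h)), show bernoulli 4 = -1 / 30 by decide +kernel]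
      push_cast
      norm_num
  · rw [if_neg hd, if_neg hd]
    have h0 : n ≠ 0 := fun h => hd (h ▸ dvd_zero N)
    simp [h0]

theorem hasExp_E₆ (N : ℕ) (hN : N ≠ 0) :
    HasExp N E₆ (1 - PowerSeries.C (504 : ℂ) * sigSer 5 N) := by
  have h := (hasExp_one_of_modularForm E₆).expand N hN
  convert h using 1
  ext n
  rw [PowerSeries.coeff_expand, map_sub, PowerSeries.coeff_C_mul, coeff_sigSer,
    PowerSeries.coeff_one]
  by_cases hd : N ∣ n
  · rw [if_pos hd, if_pos hd, show (E₆ : ModularForm 𝒮ℒ 6) = E (k := 6) (by norm_num) from rfl,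
      EisensteinSeries.E_qExpansion_coeff _ ⟨3, rfl⟩]
    have hiff : n / N = 0 ↔ n = 0 := by
      constructor
      · intro h0
        obtain ⟨m, rfl⟩ := hd
        rw [Nat.mul_div_cancel_left _ (Nat.pos_of_ne_zero hN)] at h0
        simp [h0]
      · rintro rfl
        simp
    by_cases h0 : n = 0
    · rw [if_pos h0, if_pos (hiff.mpr h0)]
      subst h0
      simp
    · rw [if_neg h0, if_neg (fun h => h0 (hiff.mp h)), show bernoulli 6 = 1 / 42 by decide +kernel]
      push_cast
      norm_num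
  · rw [if_neg hd, if_neg hd]
    have h0 : n ≠ 0 := fun h => hd (h ▸ dvd_zero N)
    simp [h0]

/-- Power series all of whose coefficients lie in the subring `O`. -/
def serO (O : Subring ℂ) : Subring (PowerSeries ℂ) where
  carrier := {Θ | ∀ n, PowerSeries.coeff n Θ ∈ O}
  mul_mem' := by
    intro a b ha hb n
    rw [PowerSeries.coeff_mul]
    exact O.sum_mem fun kl _ => O.mul_mem (ha _) (hb _)
  one_mem' := by
    intro n
    rw [PowerSeries.coeff_one]
    split_ifs
    · exact O.one_mem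
    · exact O.zero_mem
  add_mem' := by
    intro a b ha hb n
    rw [map_add]
    exact O.add_mem (ha _) (hb _)
  zero_mem' := by
    intro n
    rw [map_zero]
    exact O.zero_mem
  neg_mem' := by
    intro a ha n
    rw [map_neg]
    exact O.neg_mem (ha _)

theorem mem_serO {O : Subring ℂ} {Θ : PowerSeries ℂ} :
    Θ ∈ serO O ↔ ∀ n, PowerSeries.coeff n Θ ∈ O := Iff.rfl

theorem C_mem_serO {O : Subring ℂ} {a : ℂ} (ha : a ∈ O) : PowerSeries.C a ∈ serO O := by
  intro n
  rw [PowerSeries.coeff_C]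
  split_ifs
  · exact ha
  · exact O.zero_mem

theorem sigSer_mem_serO (O : Subring ℂ) (k N : ℕ) : sigSer k N ∈ serO O := by
  intro n
  rw [coeff_sigSer]
  split_ifs
  · exact natCast_mem O _
  · exact O.zero_mem

end UOne

end Fermat.Agent.S16
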