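import Mathlib
import Fermat.Agent.S16.UOneExp

/-!
# U1: no weight two form is congruent to a unit constant at all cusps (helper10, S16 package U1)

Core statements, for an arbitrary arithmetic subgroup `𝒢 ≤ SL(2, ℤ)`: if every `SL(2, ℤ)`-conjugate
of `G : ModularForm 𝒢 2` has an expansion `c + M·A` in `exp(2πiτ/N)` with `A` integral over a
subring `O` in which `l` is not invertible, then `l ∣ c` (`M = l ≥ 5`, `M = 9`, `M = 8`).
The proof applies the norm bound `NormBoundProp` to an explicit polynomial in `G`, `E₄`, `E₆`.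
-/

set_option autoImplicit false

open UpperHalfPlane hiding I
open ModularForm EisensteinSeries
open scoped MatrixGroups Manifold

namespace Fermat.Agent.S16

namespace UOne

/-- The norm bound, in the shape used in this file: a form of weight `k` on an arithmetic group
all of whose conjugates have `O`-integral expansions in `exp(2πiτ/N)` which vanish modulo `M`
below `x^N` and have a unit coefficient at `x^N`, has weight at least `12`. -/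
def NormBoundProp : Prop :=
  ∀ (𝒢 : Subgroup (GL (Fin 2) ℝ)) [𝒢.IsArithmetic] (k : ℤ) (f : ModularForm 𝒢 k)
    (O : Subring ℂ) (M : AddSubgroup ℂ), (∀ a ∈ O, ∀ m ∈ M, a * m ∈ M) → (1 : ℂ) ∉ M →
    ∀ N : ℕ, 0 < N →
    (∀ γ : SL(2, ℤ), ∃ Θ : PowerSeries ℂ, Θ ∈ serO O ∧ HasExp N (⇑f ∣[k] γ) Θ ∧
      (∀ n < N, PowerSeries.coeff n Θ ∈ M) ∧ ∃ u ∈ O, u * PowerSeries.coeff N Θ - 1 ∈ M) →
    12 ≤ k

/-- The additive subgroup `l·O` of `ℂ`. -/
def mulO (l : ℕ) (O : Subring ℂ) : AddSubgroup ℂ :=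
  O.toAddSubgroup.map (AddMonoidHom.mulLeft (l : ℂ))

theorem mem_mulO {l : ℕ} {O : Subring ℂ} {x : ℂ} : x ∈ mulO l O ↔ ∃ y ∈ O, (l : ℂ) * y = x := by
  simp [mulO, AddSubgroup.mem_map]

theorem mul_mem_mulO {l : ℕ} {O : Subring ℂ} {a m : ℂ} (ha : a ∈ O) (hm : m ∈ mulO l O) :
    a * m ∈ mulO l O := by
  obtain ⟨y, hy, rfl⟩ := mem_mulO.mp hm
  exact mem_mulO.mpr ⟨a * y, O.mul_mem ha hy, by ring⟩

theorem one_not_mem_mulO {l : ℕ} {O : Subring ℂ} (hl : (l : ℂ)⁻¹ ∉ O) : (1 : ℂ) ∉ mulO l O := by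
  intro h
  obtain ⟨y, hy, h1⟩ := mem_mulO.mp h
  apply hl
  have hl0 : (l : ℂ) ≠ 0 := by
    rintro h0
    rw [h0, zero_mul] at h1
    exact zero_ne_one h1
  have : y = (l : ℂ)⁻¹ := by
    field_simp
    linear_combination h1
  rwa [← this]

/-- Master lemma: a form of weight `< 12` on `𝒢` cannot have all conjugates of the shape
`l·T + v·S` with `T`, `S` integral, `S = x^N + …` and `v` an integer prime to `l`. -/
theorem master (NB : NormBoundProp) {𝒢 : Subgroup (GL (Fin 2) ℝ)} [𝒢.IsArithmetic] {k : ℤ}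
    (hk : k < 12) (H : ModularForm 𝒢 k) (O : Subring ℂ) (l : ℕ) (hl : (l : ℂ)⁻¹ ∉ O)
    (N : ℕ) (hN : 0 < N)
    (h : ∀ γ : SL(2, ℤ), ∃ T ∈ serO O, ∃ S ∈ serO O, ∃ v : ℤ, IsCoprime v (l : ℤ) ∧
      (∀ n < N, PowerSeries.coeff n S = 0) ∧ PowerSeries.coeff N S = 1 ∧
      HasExp N (⇑H ∣[k] γ) ((l : PowerSeries ℂ) * T + (v : PowerSeries ℂ) * S)) : False := by
  have h12 := NB 𝒢 k H O (mulO l O) (fun a ha m hm => mul_mem_mulO ha hm) (one_not_mem_mulO hl)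
    N hN ?_
  · omega
  intro γ
  obtain ⟨T, hT, S, hS, v, hv, hS0, hS1, hexp⟩ := h γ
  have hlO : (l : PowerSeries ℂ) ∈ serO O := natCast_mem _ l
  have hvO : (v : PowerSeries ℂ) ∈ serO O := intCast_mem _ v
  have hcoeff : ∀ n, PowerSeries.coeff n ((l : PowerSeries ℂ) * T + (v : PowerSeries ℂ) * S) =
      (l : ℂ) * PowerSeries.coeff n T + (v : ℂ) * PowerSeries.coeff n S := by
    intro n
    rw [map_add, ← map_natCast (PowerSeries.C (R := ℂ)) l, ← map_intCast (PowerSeries.C (R := ℂ)) v,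
      PowerSeries.coeff_C_mul, PowerSeries.coeff_C_mul]
  refine ⟨_, (serO O).add_mem ((serO O).mul_mem hlO hT) ((serO O).mul_mem hvO hS), hexp, ?_, ?_⟩
  · intro n hn
    rw [hcoeff, hS0 n hn, mul_zero, add_zero]
    exact mem_mulO.mpr ⟨_, hT n, rfl⟩
  · obtain ⟨u, w, huw⟩ := hv
    refine ⟨(u : ℂ), intCast_mem O u, ?_⟩
    rw [hcoeff, hS1, mul_one]
    refine mem_mulO.mpr ⟨(u : ℂ) * PowerSeries.coeff N T - (w : ℂ),
      O.sub_mem (O.mul_mem (intCast_mem O u) (hT N)) (intCast_mem O w), ?_⟩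
    have huw' : (u : ℂ) * (v : ℂ) + (w : ℂ) * (l : ℂ) = 1 := by exact_mod_cast huw
    linear_combination -huw'

/-- Restriction of a level one form to a subgroup of `SL(2, ℤ)`. -/
def restr {𝒢 : Subgroup (GL (Fin 2) ℝ)} (h𝒢 : 𝒢 ≤ 𝒮ℒ) {k : ℤ} (F : ModularForm 𝒮ℒ k) :
    ModularForm 𝒢 k where
  toFun := F
  slash_action_eq' γ hγ := SlashInvariantFormClass.slash_action_eq F γ (h𝒢 hγ)
  holo' := ModularFormClass.holo F
  bdd_at_cusps' hc := ModularFormClass.bdd_at_cusps F (hc.mono h𝒢)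

@[simp] theorem coe_restr {𝒢 : Subgroup (GL (Fin 2) ℝ)} (h𝒢 : 𝒢 ≤ 𝒮ℒ) {k : ℤ}
    (F : ModularForm 𝒮ℒ k) : ⇑(restr h𝒢 F) = ⇑F := rfl

theorem slash_levelOne {k : ℤ} (F : ModularForm 𝒮ℒ k) (γ : SL(2, ℤ)) : (⇑F) ∣[k] γ = ⇑F := by
  rw [ModularForm.SL_slash]
  exact SlashInvariantFormClass.slash_action_eq F _ ⟨γ, rfl⟩

theorem slash_apply_nat (f : ℍ → ℂ) (k : ℤ) (n : ℕ) (hk : k = n) (γ : SL(2, ℤ)) (τ : ℍ) :
    (f ∣[k] γ) τ = f (γ • τ) * (denom γ τ)⁻¹ ^ n := by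
  subst hk
  rw [ModularForm.SL_slash_apply, zpow_neg, zpow_natCast, inv_pow]

theorem levelOne_apply_eq {k : ℤ} (F : ModularForm 𝒮ℒ k) (n : ℕ) (hk : k = n) (γ : SL(2, ℤ))
    (τ : ℍ) : F τ = F (γ • τ) * (denom γ τ)⁻¹ ^ n := by
  conv_lhs => rw [← slash_levelOne F γ]
  exact slash_apply_nat _ k n hk γ τ

/-- **U1 for `l ≥ 7`** (core form). -/
theorem core_seven (NB : NormBoundProp) {𝒢 : Subgroup (GL (Fin 2) ℝ)} [𝒢.IsArithmetic]
    [𝒢.HasDetOne] (h𝒢 : 𝒢 ≤ 𝒮ℒ) (G : ModularForm 𝒢 2) (O : Subring ℂ) {l : ℕ} (hl : l.Prime) (h7 : 7 ≤ l)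
    (hlO : (l : ℂ)⁻¹ ∉ O) (N : ℕ) (hN : 0 < N) (c : ℤ)
    (hconj : ∀ γ : SL(2, ℤ), ∃ A ∈ serO O,
      HasExp N (⇑G ∣[(2 : ℤ)] γ) ((c : PowerSeries ℂ) + (l : PowerSeries ℂ) * A)) :
    (l : ℤ) ∣ c := by
  by_contra hc
  let H : ModularForm 𝒢 4 :=
    ModularForm.mcast (by norm_num) (G.mul G) - ((c : ℂ) ^ 2) • restr h𝒢 E₄
  refine master NB (by norm_num) H O l hlO N hN ?_
  intro γ
  obtain ⟨A, hA, hexp⟩ := hconj γ
  have hcO : (c : PowerSeries ℂ) ∈ serO O := intCast_mem _ c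
  have hlO' : (l : PowerSeries ℂ) ∈ serO O := natCast_mem _ l
  refine ⟨2 * (c : PowerSeries ℂ) * A + (l : PowerSeries ℂ) * A ^ 2, ?_, sigSer 3 N,
    sigSer_mem_serO O 3 N, -240 * c ^ 2, ?_, fun n hn => coeff_sigSer_of_lt hn,
    coeff_sigSer_self hN.ne', ?_⟩
  · exact (serO O).add_mem ((serO O).mul_mem ((serO O).mul_mem (ofNat_mem _ 2) hcO) hA)
      ((serO O).mul_mem hlO' ((serO O).pow_mem hA 2))
  · have hp : Prime (l : ℤ) := Nat.prime_iff_prime_int.mp hl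
    rw [isCoprime_comm]
    refine (Prime.coprime_iff_not_dvd hp).mpr ?_
    intro hdvd
    rcases (Prime.dvd_mul hp).mp hdvd with h1 | h1
    · have h2 : (l : ℤ) ∣ 240 := by simpa using h1
      have h3 : l ∣ 240 := by exact_mod_cast h2
      rw [show (240 : ℕ) = 2 ^ 4 * 3 * 5 by norm_num] at h3
      rcases (Nat.Prime.dvd_mul hl).mp h3 with h | h
      · rcases (Nat.Prime.dvd_mul hl).mp h with h | h
        · have := Nat.le_of_dvd (by norm_num) (hl.dvd_of_dvd_pow h)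
          omega
        · have := Nat.le_of_dvd (by norm_num) h
          omega
      · have := Nat.le_of_dvd (by norm_num) h
        omega
    · exact hc (Prime.dvd_of_dvd_pow hp h1)
  · have hfun : ⇑H ∣[(4 : ℤ)] γ = (⇑G ∣[(2 : ℤ)] γ) ^ 2 - ((c : ℂ) ^ 2) • ⇑E₄ := by
      funext τ
      rw [slash_apply_nat _ 4 4 rfl γ τ]
      simp only [Pi.sub_apply, Pi.pow_apply, Pi.smul_apply, smul_eq_mul]
      rw [slash_apply_nat _ 2 2 rfl γ τ, levelOne_apply_eq E₄ 4 rfl γ τ]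
      have hH : ∀ z, H z = G z * G z - (c : ℂ) ^ 2 * E₄ z := fun z => rfl
      rw [hH]
      ring
    rw [hfun]
    have h1 := (hexp.pow 2).sub ((hasExp_E₄ N hN.ne').const_smul ((c : ℂ) ^ 2))
    convert h1 using 1
    simp only [map_pow, map_intCast, map_ofNat, Int.cast_mul, Int.cast_neg, Int.cast_pow,
      Int.cast_ofNat]
    ring

/-- **U1 for `l = 5`** (core form). -/
theorem core_five (NB : NormBoundProp) {𝒢 : Subgroup (GL (Fin 2) ℝ)} [𝒢.IsArithmetic]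
    [𝒢.HasDetOne] (h𝒢 : 𝒢 ≤ 𝒮ℒ) (G : ModularForm 𝒢 2) (O : Subring ℂ)
    (hlO : (5 : ℂ)⁻¹ ∉ O) (N : ℕ) (hN : 0 < N) (c : ℤ)
    (hconj : ∀ γ : SL(2, ℤ), ∃ A ∈ serO O,
      HasExp N (⇑G ∣[(2 : ℤ)] γ) ((c : PowerSeries ℂ) + 5 * A)) :
    (5 : ℤ) ∣ c := by
  by_contra hc
  let H : ModularForm 𝒢 6 :=
    ModularForm.mcast (by norm_num) ((G.mul G).mul G) - ((c : ℂ) ^ 3) • restr h𝒢 E₆
  refine master NB (by norm_num) H O 5 (by simpa using hlO) N hN ?_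
  intro γ
  obtain ⟨A, hA, hexp⟩ := hconj γ
  have hcO : (c : PowerSeries ℂ) ∈ serO O := intCast_mem _ c
  refine ⟨3 * (c : PowerSeries ℂ) ^ 2 * A + 15 * (c : PowerSeries ℂ) * A ^ 2 + 25 * A ^ 3, ?_,
    sigSer 5 N, sigSer_mem_serO O 5 N, 504 * c ^ 3, ?_, fun n hn => coeff_sigSer_of_lt hn,
    coeff_sigSer_self hN.ne', ?_⟩
  · refine (serO O).add_mem ((serO O).add_mem ?_ ?_) ?_
    · exact (serO O).mul_mem ((serO O).mul_mem (ofNat_mem _ 3) ((serO O).pow_mem hcO 2)) hA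
    · exact (serO O).mul_mem ((serO O).mul_mem (ofNat_mem _ 15) hcO) ((serO O).pow_mem hA 2)
    · exact (serO O).mul_mem (ofNat_mem _ 25) ((serO O).pow_mem hA 3)
  · have hp : Prime (5 : ℤ) := Nat.prime_iff_prime_int.mp (by norm_num : Nat.Prime 5)
    rw [isCoprime_comm]
    refine (Prime.coprime_iff_not_dvd hp).mpr ?_
    intro hdvd
    rcases (Prime.dvd_mul hp).mp hdvd with h1 | h1
    · norm_num at h1
    · exact hc (Prime.dvd_of_dvd_pow hp h1)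
  · have hfun : ⇑H ∣[(6 : ℤ)] γ = (⇑G ∣[(2 : ℤ)] γ) ^ 3 - ((c : ℂ) ^ 3) • ⇑E₆ := by
      funext τ
      rw [slash_apply_nat _ 6 6 rfl γ τ]
      simp only [Pi.sub_apply, Pi.pow_apply, Pi.smul_apply, smul_eq_mul]
      rw [slash_apply_nat _ 2 2 rfl γ τ, levelOne_apply_eq E₆ 6 rfl γ τ]
      have hH : ∀ z, H z = G z * G z * G z - (c : ℂ) ^ 3 * E₆ z := fun z => rfl
      rw [hH]
      ring
    rw [hfun]
    have h1 := (hexp.pow 3).sub ((hasExp_E₆ N hN.ne').const_smul ((c : ℂ) ^ 3))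
    convert h1 using 1
    simp only [map_pow, map_intCast, map_ofNat, Int.cast_mul, Int.cast_pow, Int.cast_ofNat,
      Nat.cast_ofNat]
    ring

/-- **U1 for `l = 3`** (core form, modulus `9`). -/
theorem core_three (NB : NormBoundProp) {𝒢 : Subgroup (GL (Fin 2) ℝ)} [𝒢.IsArithmetic]
    [𝒢.HasDetOne] (h𝒢 : 𝒢 ≤ 𝒮ℒ) (G : ModularForm 𝒢 2) (O : Subring ℂ)
    (hlO : (3 : ℂ)⁻¹ ∉ O) (N : ℕ) (hN : 0 < N) (c : ℤ)
    (hconj : ∀ γ : SL(2, ℤ), ∃ A ∈ serO O,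
      HasExp N (⇑G ∣[(2 : ℤ)] γ) ((c : PowerSeries ℂ) + 9 * A)) :
    (3 : ℤ) ∣ c := by
  by_contra hc
  let H : ModularForm 𝒢 4 := (1 / 3 : ℂ) •
    (ModularForm.mcast (by norm_num) (G.mul G) - ((c : ℂ) ^ 2) • restr h𝒢 E₄)
  refine master NB (by norm_num) H O 3 (by simpa using hlO) N hN ?_
  intro γ
  obtain ⟨A, hA, hexp⟩ := hconj γ
  have hcO : (c : PowerSeries ℂ) ∈ serO O := intCast_mem _ c
  refine ⟨2 * (c : PowerSeries ℂ) * A + 9 * A ^ 2, ?_,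
    sigSer 3 N, sigSer_mem_serO O 3 N, -80 * c ^ 2, ?_, fun n hn => coeff_sigSer_of_lt hn,
    coeff_sigSer_self hN.ne', ?_⟩
  · exact (serO O).add_mem ((serO O).mul_mem ((serO O).mul_mem (ofNat_mem _ 2) hcO) hA)
      ((serO O).mul_mem (ofNat_mem _ 9) ((serO O).pow_mem hA 2))
  · have hp : Prime (3 : ℤ) := Nat.prime_iff_prime_int.mp (by norm_num : Nat.Prime 3)
    rw [isCoprime_comm]
    refine (Prime.coprime_iff_not_dvd hp).mpr ?_
    intro hdvd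
    rcases (Prime.dvd_mul hp).mp hdvd with h1 | h1
    · norm_num at h1
    · exact hc (Prime.dvd_of_dvd_pow hp h1)
  · have hfun : ⇑H ∣[(4 : ℤ)] γ =
        (1 / 3 : ℂ) • ((⇑G ∣[(2 : ℤ)] γ) ^ 2 - ((c : ℂ) ^ 2) • ⇑E₄) := by
      funext τ
      rw [slash_apply_nat _ 4 4 rfl γ τ]
      simp only [Pi.sub_apply, Pi.pow_apply, Pi.smul_apply, smul_eq_mul]
      rw [slash_apply_nat _ 2 2 rfl γ τ, levelOne_apply_eq E₄ 4 rfl γ τ]
      have hH : ∀ z, H z = (1 / 3 : ℂ) * (G z * G z - (c : ℂ) ^ 2 * E₄ z) := fun z => rfl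
      rw [hH]
      ring
    rw [hfun]
    have h1 := ((hexp.pow 2).sub ((hasExp_E₄ N hN.ne').const_smul ((c : ℂ) ^ 2))).const_smul
      (1 / 3 : ℂ)
    convert h1 using 1
    have ht : 3 * PowerSeries.C (1 / 3 : ℂ) = 1 := by
      rw [← map_ofNat (PowerSeries.C (R := ℂ)) 3, ← map_mul]
      norm_num
    simp only [map_pow, map_intCast, map_ofNat, Int.cast_mul, Int.cast_neg, Int.cast_pow,
      Int.cast_ofNat, Nat.cast_ofNat]
    linear_combination (-(6 * (c : PowerSeries ℂ) * A + 27 * A ^ 2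
      - 80 * (c : PowerSeries ℂ) ^ 2 * sigSer 3 N)) * ht

theorem eight_dvd_sigma_sub (m : ℕ) :
    (8 : ℤ) ∣ (ArithmeticFunction.sigma 5 m : ℤ) - (ArithmeticFunction.sigma 3 m : ℤ) := by
  rw [ArithmeticFunction.sigma_apply, ArithmeticFunction.sigma_apply]
  push_cast
  rw [← Finset.sum_sub_distrib]
  refine Finset.dvd_sum fun d _ => ?_
  have key : ∀ x : ZMod 8, x ^ 5 - x ^ 3 = 0 := by decide
  have h := (ZMod.intCast_zmod_eq_zero_iff_dvd ((d : ℤ) ^ 5 - (d : ℤ) ^ 3) 8).mp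
    (by push_cast; exact key _)
  exact_mod_cast h

/-- The series `∑ ((σ₅(m) - σ₃(m))/8) x^(N m)`. -/
noncomputable def dSer (N : ℕ) : PowerSeries ℂ :=
  PowerSeries.mk fun n => if N ∣ n then
    ((((ArithmeticFunction.sigma 5 (n / N) : ℤ) - (ArithmeticFunction.sigma 3 (n / N) : ℤ)) / 8 : ℤ) : ℂ)
    else 0

theorem dSer_mem_serO (O : Subring ℂ) (N : ℕ) : dSer N ∈ serO O := by
  intro n
  rw [dSer, PowerSeries.coeff_mk]
  split_ifs
  · exact intCast_mem O _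
  · exact O.zero_mem

theorem sigSer_five_eq (N : ℕ) : sigSer 5 N = sigSer 3 N + 8 * dSer N := by
  ext n
  rw [map_add, ← map_ofNat (PowerSeries.C (R := ℂ)) 8, PowerSeries.coeff_C_mul, coeff_sigSer,
    coeff_sigSer, dSer, PowerSeries.coeff_mk]
  split_ifs with h
  · obtain ⟨t, ht⟩ := eight_dvd_sigma_sub (n / N)
    rw [ht, Int.mul_ediv_cancel_left _ (by norm_num : (8 : ℤ) ≠ 0)]
    have : ((ArithmeticFunction.sigma 5 (n / N) : ℤ) : ℂ) =
        ((ArithmeticFunction.sigma 3 (n / N) : ℤ) : ℂ) + ((8 * t : ℤ) : ℂ) := by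
      rw [← ht]
      push_cast
      ring
    push_cast at this
    rw [this]
  · simp

/-- **U1 for `l = 2`** (core form, modulus `8`). -/
theorem core_two (NB : NormBoundProp) {𝒢 : Subgroup (GL (Fin 2) ℝ)} [𝒢.IsArithmetic]
    [𝒢.HasDetOne] (h𝒢 : 𝒢 ≤ 𝒮ℒ) (G : ModularForm 𝒢 2) (O : Subring ℂ)
    (hlO : (2 : ℂ)⁻¹ ∉ O) (N : ℕ) (hN : 0 < N) (c : ℤ)
    (hconj : ∀ γ : SL(2, ℤ), ∃ A ∈ serO O,
      HasExp N (⇑G ∣[(2 : ℤ)] γ) ((c : PowerSeries ℂ) + 8 * A)) :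
    (2 : ℤ) ∣ c := by
  by_contra hc
  let H : ModularForm 𝒢 8 := (1 / 256 : ℂ) •
    ((27 : ℂ) • ModularForm.mcast (by norm_num) ((G.mul G).mul (G.mul G))
      - ((18 : ℂ) * (c : ℂ) ^ 2) • ModularForm.mcast (by norm_num) ((restr h𝒢 E₄).mul (G.mul G))
      - ((8 : ℂ) * (c : ℂ) ^ 3) • ModularForm.mcast (by norm_num) ((restr h𝒢 E₆).mul G)
      - ((c : ℂ) ^ 4) • ModularForm.mcast (by norm_num) ((restr h𝒢 E₄).mul (restr h𝒢 E₄)))
  refine master NB (by norm_num) H O 2 (by simpa using hlO) N hN ?_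
  intro γ
  obtain ⟨A, hA, hexp⟩ := hconj γ
  have hcO : (c : PowerSeries ℂ) ∈ serO O := intCast_mem _ c
  have hS := sigSer_mem_serO O 3 N
  have hD := dSer_mem_serO O N
  have hS0 : ∀ n < N, PowerSeries.coeff n (sigSer 3 N) = 0 := fun n hn => coeff_sigSer_of_lt hn
  refine ⟨63 * (c : PowerSeries ℂ) ^ 4 * dSer N - 72 * (c : PowerSeries ℂ) ^ 3 * A * sigSer 3 N
      + 504 * (c : PowerSeries ℂ) ^ 3 * A * dSer N + (c : PowerSeries ℂ) ^ 3 * A
      - 540 * (c : PowerSeries ℂ) ^ 2 * A ^ 2 * sigSer 3 N + 18 * (c : PowerSeries ℂ) ^ 2 * A ^ 2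
      + 108 * (c : PowerSeries ℂ) * A ^ 3 + 216 * A ^ 4, ?_,
    sigSer 3 N + 75 * sigSer 3 N ^ 2, ?_, -3 * c ^ 4, ?_, ?_, ?_, ?_⟩
  · have h1 := (serO O).pow_mem hcO
    have h2 := (serO O).pow_mem hA
    refine (serO O).add_mem ((serO O).add_mem ((serO O).add_mem ((serO O).sub_mem
      ((serO O).add_mem ((serO O).add_mem ((serO O).sub_mem ?_ ?_) ?_) ?_) ?_) ?_) ?_) ?_
    · exact (serO O).mul_mem ((serO O).mul_mem (ofNat_mem _ 63) (h1 4)) hD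
    · exact (serO O).mul_mem ((serO O).mul_mem ((serO O).mul_mem (ofNat_mem _ 72) (h1 3)) hA) hS
    · exact (serO O).mul_mem ((serO O).mul_mem ((serO O).mul_mem (ofNat_mem _ 504) (h1 3)) hA) hD
    · exact (serO O).mul_mem (h1 3) hA
    · exact (serO O).mul_mem ((serO O).mul_mem ((serO O).mul_mem (ofNat_mem _ 540) (h1 2))
        (h2 2)) hS
    · exact (serO O).mul_mem ((serO O).mul_mem (ofNat_mem _ 18) (h1 2)) (h2 2)
    · exact (serO O).mul_mem ((serO O).mul_mem (ofNat_mem _ 108) hcO) (h2 3)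
    · exact (serO O).mul_mem (ofNat_mem _ 216) (h2 4)
  · exact (serO O).add_mem hS ((serO O).mul_mem (ofNat_mem _ 75) ((serO O).pow_mem hS 2))
  · have hp : Prime (2 : ℤ) := Nat.prime_iff_prime_int.mp (by norm_num : Nat.Prime 2)
    rw [isCoprime_comm]
    refine (Prime.coprime_iff_not_dvd hp).mpr ?_
    intro hdvd
    rcases (Prime.dvd_mul hp).mp hdvd with h1 | h1
    · norm_num at h1
    · exact hc (Prime.dvd_of_dvd_pow hp h1)
  · intro n hn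
    rw [map_add, hS0 n hn, zero_add, ← map_ofNat (PowerSeries.C (R := ℂ)) 75,
      PowerSeries.coeff_C_mul, pow_two, PowerSeries.coeff_mul]
    rw [Finset.sum_eq_zero, mul_zero]
    intro kl hkl
    have : kl.1 + kl.2 = n := Finset.HasAntidiagonal.mem_antidiagonal.mp hkl
    rw [hS0 kl.1 (by omega), zero_mul]
  · rw [map_add, coeff_sigSer_self hN.ne', ← map_ofNat (PowerSeries.C (R := ℂ)) 75,
      PowerSeries.coeff_C_mul, pow_two, PowerSeries.coeff_mul]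
    rw [Finset.sum_eq_zero, mul_zero, add_zero]
    intro kl hkl
    have : kl.1 + kl.2 = N := Finset.HasAntidiagonal.mem_antidiagonal.mp hkl
    by_cases h1 : kl.1 < N
    · rw [hS0 kl.1 h1, zero_mul]
    · rw [hS0 kl.2 (by omega), mul_zero]
  · have hfun : ⇑H ∣[(8 : ℤ)] γ = (1 / 256 : ℂ) •
        ((27 : ℂ) • (⇑G ∣[(2 : ℤ)] γ) ^ 4
          - ((18 : ℂ) * (c : ℂ) ^ 2) • (⇑E₄ * (⇑G ∣[(2 : ℤ)] γ) ^ 2)
          - ((8 : ℂ) * (c : ℂ) ^ 3) • (⇑E₆ * (⇑G ∣[(2 : ℤ)] γ))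
          - ((c : ℂ) ^ 4) • (⇑E₄ * ⇑E₄)) := by
      funext τ
      rw [slash_apply_nat _ 8 8 rfl γ τ]
      simp only [Pi.sub_apply, Pi.pow_apply, Pi.smul_apply, Pi.mul_apply, smul_eq_mul]
      rw [slash_apply_nat _ 2 2 rfl γ τ, levelOne_apply_eq E₄ 4 rfl γ τ,
        levelOne_apply_eq E₆ 6 rfl γ τ]
      have hH : ∀ z, H z = (1 / 256 : ℂ) * ((27 : ℂ) * (G z * G z * (G z * G z))
          - ((18 : ℂ) * (c : ℂ) ^ 2) * (E₄ z * (G z * G z))
          - ((8 : ℂ) * (c : ℂ) ^ 3) * (E₆ z * G z)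
          - ((c : ℂ) ^ 4) * (E₄ z * E₄ z)) := fun z => rfl
      rw [hH]
      ring
    rw [hfun]
    have hE4 := hasExp_E₄ N hN.ne'
    have hE6 := hasExp_E₆ N hN.ne'
    have h1 := ((((((hexp.pow 4).const_smul (27 : ℂ)).sub
      ((hE4.mul (hexp.pow 2)).const_smul ((18 : ℂ) * (c : ℂ) ^ 2))).sub
      ((hE6.mul hexp).const_smul ((8 : ℂ) * (c : ℂ) ^ 3))).sub
      ((hE4.mul hE4).const_smul ((c : ℂ) ^ 4)))).const_smul (1 / 256 : ℂ)
    convert h1 using 1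
    have ht : 256 * PowerSeries.C (1 / 256 : ℂ) = 1 := by
      rw [← map_ofNat (PowerSeries.C (R := ℂ)) 256, ← map_mul]
      norm_num
    rw [sigSer_five_eq]
    simp only [map_pow, map_mul, map_intCast, map_ofNat, Int.cast_mul, Int.cast_neg, Int.cast_pow,
      Int.cast_ofNat, Nat.cast_ofNat]
    linear_combination (-(2 * (63 * (c : PowerSeries ℂ) ^ 4 * dSer N
      - 72 * (c : PowerSeries ℂ) ^ 3 * A * sigSer 3 N
      + 504 * (c : PowerSeries ℂ) ^ 3 * A * dSer N + (c : PowerSeries ℂ) ^ 3 * A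
      - 540 * (c : PowerSeries ℂ) ^ 2 * A ^ 2 * sigSer 3 N + 18 * (c : PowerSeries ℂ) ^ 2 * A ^ 2
      + 108 * (c : PowerSeries ℂ) * A ^ 3 + 216 * A ^ 4)
      + (-3 * (c : PowerSeries ℂ) ^ 4) * (sigSer 3 N + 75 * sigSer 3 N ^ 2))) * ht

end UOne

end Fermat.Agent.S16
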