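import Mathlib
import Fermat.Agent.S16.UOneCore
import Fermat.Agent.S16.ConjExp
import Fermat.Agent.S16.LocalInt
import Fermat.Agent.S16.TraceRel

/-!
# U1 for `Γ₀(p)` (helper10, S16 package U1, final statements)

A weight two form on `Γ₀(p)` with integral `q`-expansion which is congruent to the constant `c`
modulo `l ≥ 5` (`l ≠ p`), modulo `9` (`p ≠ 3`) or modulo `8` (`p ≠ 2`) has `l ∣ c`, `3 ∣ c`,
`2 ∣ c` respectively.
-/

set_option autoImplicit false

open UpperHalfPlane hiding I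
open ModularForm EisensteinSeries CongruenceSubgroup ModularFormClass
open scoped MatrixGroups Manifold

namespace Fermat.Agent.S16

namespace UOne

/-- The norm bound of `NormBound.lean`, in the shape used by the core statements. -/
theorem normBoundProp : NormBoundProp := by
  intro 𝒢 _ k f O M hOM h1 N hN h
  refine NormBound.twelve_le_weight_of_isArithmetic f O M hOM h1 N hN fun γ => ?_
  obtain ⟨Θ, hΘ, hexp, hlt, hu⟩ := h γ
  exact ⟨Θ, hΘ, hexp, hlt, hu⟩

/-- **Bridge.** If `G ≡ c` modulo `M` and `M ∣ p + 1`, every conjugate of `G` has an expansion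
`c + M·A` in `exp(2πiτ/p)` with `A` integral over any subring containing `1/p` and the `p`-th
roots of unity. -/
theorem exists_series (p : ℕ) [Fact p.Prime] (G : ModularForm (Gamma0 p) 2) (c : ℤ) (M t : ℕ)
    (hMt : p + 1 = M * t) (hM0 : M ≠ 0) (h0 : qCoeff G 0 = (c : ℂ))
    (hk : ∀ k, 1 ≤ k → ∃ m : ℤ, qCoeff G k = ((M : ℂ) * (m : ℂ)))
    (O : Subring ℂ) (hpO : (p : ℂ)⁻¹ ∈ O) (hζO : ∀ ζ : ℂ, ζ ^ p = 1 → ζ ∈ O) (γ : SL(2, ℤ)) :
    ∃ A ∈ serO O, HasExp p (⇑G ∣[(2 : ℤ)] γ) ((c : PowerSeries ℂ) + (M : PowerSeries ℂ) * A) := by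
  classical
  have hp : p.Prime := Fact.out
  have hp0 : (p : ℂ) ≠ 0 := by exact_mod_cast hp.ne_zero
  have hM0' : (M : ℂ) ≠ 0 := by exact_mod_cast hM0
  obtain ⟨m, hm⟩ : ∃ m : ℕ → ℤ, ∀ k, 1 ≤ k → qCoeff G k = (M : ℂ) * (m k : ℂ) :=
    ⟨fun k => if h : 1 ≤ k then (hk k h).choose else 0, fun k h => by
      simp only [h, dif_pos]
      exact (hk k h).choose_spec⟩
  have hcoeff : ∀ (A : PowerSeries ℂ) (n : ℕ),
      PowerSeries.coeff n ((c : PowerSeries ℂ) + (M : PowerSeries ℂ) * A) =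
        (if n = 0 then (c : ℂ) else 0) + (M : ℂ) * PowerSeries.coeff n A := by
    intro A n
    rw [map_add, ← map_intCast (PowerSeries.C (R := ℂ)) c, ← map_natCast (PowerSeries.C (R := ℂ)) M,
      PowerSeries.coeff_C_mul, PowerSeries.coeff_C]
  obtain ⟨Ψ, hΨ, hcases⟩ := ConjExp.exists_exp_slash p G γ
  rcases hcases with h | ⟨ζ, hζ1, h⟩
  · refine ⟨PowerSeries.mk fun n => if n = 0 then 0 else if p ∣ n then (m (n / p) : ℂ) else 0,
      ?_, ?_⟩
    · intro n
      rw [PowerSeries.coeff_mk]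
      split_ifs
      · exact O.zero_mem
      · exact intCast_mem O _
      · exact O.zero_mem
    · have hΨeq : Ψ = (c : PowerSeries ℂ) + (M : PowerSeries ℂ) *
          PowerSeries.mk fun n => if n = 0 then 0 else if p ∣ n then (m (n / p) : ℂ) else 0 := by
        ext n
        rw [h n, hcoeff, PowerSeries.coeff_mk]
        by_cases hn : n = 0
        · subst hn
          simp [h0]
        · rw [if_neg hn, if_neg hn, zero_add]
          by_cases hd : p ∣ n
          · rw [if_pos hd, if_pos hd]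
            refine hm _ ?_
            obtain ⟨q, rfl⟩ := hd
            rw [Nat.mul_div_cancel_left _ hp.pos]
            rcases Nat.eq_zero_or_pos q with rfl | hq
            · simp at hn
            · exact hq
          · rw [if_neg hd, if_neg hd, mul_zero]
      rw [← hΨeq]
      exact fun τ => hΨ τ
  · refine ⟨PowerSeries.mk fun n => if n = 0 then -((t : ℂ) * (c : ℂ) * (p : ℂ)⁻¹)
        else -(p : ℂ)⁻¹ * ζ ^ n * (m (n * p) : ℂ), ?_, ?_⟩
    · intro n
      rw [PowerSeries.coeff_mk]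
      have hζ := hζO ζ hζ1
      split_ifs
      · exact O.neg_mem (O.mul_mem (O.mul_mem (natCast_mem O _) (intCast_mem O _)) hpO)
      · exact O.mul_mem (O.mul_mem (O.neg_mem hpO) (O.pow_mem hζ n)) (intCast_mem O _)
    · have hΨeq : Ψ = (c : PowerSeries ℂ) + (M : PowerSeries ℂ) *
          PowerSeries.mk fun n => if n = 0 then -((t : ℂ) * (c : ℂ) * (p : ℂ)⁻¹)
            else -(p : ℂ)⁻¹ * ζ ^ n * (m (n * p) : ℂ) := by
        ext n
        rw [h n, hcoeff, PowerSeries.coeff_mk]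
        by_cases hn : n = 0
        · subst hn
          have hMt' : (p : ℂ) + 1 = (M : ℂ) * (t : ℂ) := by exact_mod_cast hMt
          simp only [pow_zero, mul_one, zero_mul, if_true, h0]
          field_simp
          linear_combination (-(c : ℂ)) * hMt'
        · rw [if_neg hn, if_neg hn, zero_add, hm (n * p) (Nat.mul_pos (Nat.pos_of_ne_zero hn) hp.pos)]
          ring
      rw [← hΨeq]
      exact fun τ => hΨ τ

theorem gamma0_le (p : ℕ) : ((Gamma0 p : Subgroup SL(2, ℤ)) : Subgroup (GL (Fin 2) ℝ)) ≤ 𝒮ℒ :=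
  Subgroup.map_le_range _ _

theorem inv_notMem_lInt (l : ℕ) [Fact l.Prime] : ((l : ℂ))⁻¹ ∉ LocalInt.lInt l := by
  intro h
  have hl0 : (l : ℂ) ≠ 0 := by exact_mod_cast (Fact.out : l.Prime).ne_zero
  apply LocalInt.one_notMem_lMod l
  have := LocalInt.mul_mem_lMod l h
  rwa [mul_inv_cancel₀ hl0] at this

end UOne

open UOne

/-- **U1, `l ≥ 5`, `l ≠ p`.** A weight two form on `Γ₀(p)` with integral `q`-expansion congruent
to the constant `c` modulo `l` has `l ∣ c`. -/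
theorem uOne_of_five_le (p : ℕ) [Fact p.Prime] {l : ℕ} (hl : l.Prime) (h5 : 5 ≤ l) (hlp : l ≠ p)
    (G : ModularForm (Gamma0 p) 2) (c : ℤ) (h0 : qCoeff G 0 = (c : ℂ))
    (hk : ∀ k, 1 ≤ k → ∃ m : ℤ, qCoeff G k = (((l : ℤ) * m : ℤ) : ℂ)) : (l : ℤ) ∣ c := by
  by_contra hc
  have : Fact l.Prime := ⟨hl⟩
  have hp : p.Prime := Fact.out
  have hlZ : Prime (l : ℤ) := Nat.prime_iff_prime_int.mp hl
  have hcop : IsCoprime (l : ℤ) (p : ℤ) :=
    Nat.isCoprime_iff_coprime.mpr ((Nat.coprime_primes hl hp).mpr hlp)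
  have hF2 := dvd_succ_mul_of_congr_const p G c (l : ℤ) h0 hk hcop
  have hdiv : (l : ℤ) ∣ (p : ℤ) + 1 := ((Prime.dvd_mul hlZ).mp hF2).resolve_right hc
  obtain ⟨t, ht⟩ : l ∣ p + 1 := by exact_mod_cast hdiv
  have hlp' : ¬ l ∣ p := fun h => hlp ((Nat.prime_dvd_prime_iff_eq hl hp).mp h)
  have hk' : ∀ k, 1 ≤ k → ∃ m : ℤ, qCoeff G k = ((l : ℂ) * (m : ℂ)) := fun k hk1 => by
    obtain ⟨m, hm⟩ := hk k hk1
    exact ⟨m, by rw [hm]; push_cast; ring⟩
  have hconj := exists_series p G c l t ht hl.ne_zero h0 hk' (LocalInt.lInt l)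
    (LocalInt.inv_natCast_mem l hlp') (fun ζ hζ => LocalInt.of_pow_eq_one l hp.ne_zero hζ)
  have hlO := inv_notMem_lInt l
  rcases Nat.lt_or_ge l 7 with h7 | h7
  · have h5' : l = 5 := by
      interval_cases l
      · rfl
      · exact absurd hl (by norm_num)
    subst h5'
    exact hc (core_five normBoundProp (gamma0_le p) G (LocalInt.lInt 5) (by simpa using hlO) p
      hp.pos c (fun γ => by simpa using hconj γ))
  · exact hc (core_seven normBoundProp (gamma0_le p) G (LocalInt.lInt l) hl h7 hlO p hp.pos c hconj)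

/-- **U1, `l = 3`.** A weight two form on `Γ₀(p)`, `p ≠ 3`, with integral `q`-expansion
congruent to the constant `c` modulo `9` has `3 ∣ c`. -/
theorem uOne_three (p : ℕ) [Fact p.Prime] (hp3 : p ≠ 3)
    (G : ModularForm (Gamma0 p) 2) (c : ℤ) (h0 : qCoeff G 0 = (c : ℂ))
    (hk : ∀ k, 1 ≤ k → ∃ m : ℤ, qCoeff G k = (((9 : ℤ) * m : ℤ) : ℂ)) : (3 : ℤ) ∣ c := by
  by_contra hc
  have : Fact (Nat.Prime 3) := ⟨by norm_num⟩
  have hp : p.Prime := Fact.out
  have h3Z : Prime (3 : ℤ) := Nat.prime_iff_prime_int.mp (by norm_num : Nat.Prime 3)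
  have hcop3 : IsCoprime (3 : ℤ) (p : ℤ) := by
    have := Nat.isCoprime_iff_coprime.mpr
      ((Nat.coprime_primes (by norm_num : Nat.Prime 3) hp).mpr (Ne.symm hp3))
    simpa using this
  have hcop : IsCoprime (9 : ℤ) (p : ℤ) := by
    have := hcop3.pow_left (m := 2)
    norm_num at this
    exact this
  have hF2 := dvd_succ_mul_of_congr_const p G c 9 h0 hk hcop
  have hc9 : IsCoprime (9 : ℤ) c := by
    have h := ((Prime.coprime_iff_not_dvd h3Z).mpr hc).pow_left (m := 2)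
    norm_num at h
    exact h
  have hdiv : (9 : ℤ) ∣ (p : ℤ) + 1 := hc9.dvd_of_dvd_mul_right hF2
  obtain ⟨t, ht⟩ : 9 ∣ p + 1 := by exact_mod_cast hdiv
  have hlp' : ¬ 3 ∣ p := fun h => hp3 ((Nat.prime_dvd_prime_iff_eq (by norm_num) hp).mp h).symm
  have hk' : ∀ k, 1 ≤ k → ∃ m : ℤ, qCoeff G k = (((9 : ℕ) : ℂ) * (m : ℂ)) := fun k hk1 => by
    obtain ⟨m, hm⟩ := hk k hk1
    exact ⟨m, by rw [hm]; push_cast; ring⟩
  have hconj := exists_series p G c 9 t ht (by norm_num) h0 hk' (LocalInt.lInt 3)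
    (LocalInt.inv_natCast_mem 3 hlp') (fun ζ hζ => LocalInt.of_pow_eq_one 3 hp.ne_zero hζ)
  have hlO := inv_notMem_lInt 3
  exact hc (core_three normBoundProp (gamma0_le p) G (LocalInt.lInt 3) (by simpa using hlO) p
    hp.pos c (fun γ => by simpa using hconj γ))

/-- **U1, `l = 2`.** A weight two form on `Γ₀(p)`, `p ≠ 2`, with integral `q`-expansion
congruent to the constant `c` modulo `8` has `2 ∣ c`. -/
theorem uOne_two (p : ℕ) [Fact p.Prime] (hp2 : p ≠ 2)
    (G : ModularForm (Gamma0 p) 2) (c : ℤ) (h0 : qCoeff G 0 = (c : ℂ))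
    (hk : ∀ k, 1 ≤ k → ∃ m : ℤ, qCoeff G k = (((8 : ℤ) * m : ℤ) : ℂ)) : (2 : ℤ) ∣ c := by
  by_contra hc
  have : Fact (Nat.Prime 2) := ⟨by norm_num⟩
  have hp : p.Prime := Fact.out
  have h2Z : Prime (2 : ℤ) := Nat.prime_iff_prime_int.mp (by norm_num : Nat.Prime 2)
  have hcop2 : IsCoprime (2 : ℤ) (p : ℤ) := by
    have := Nat.isCoprime_iff_coprime.mpr
      ((Nat.coprime_primes (by norm_num : Nat.Prime 2) hp).mpr (Ne.symm hp2))
    simpa using this
  have hcop : IsCoprime (8 : ℤ) (p : ℤ) := by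
    have := hcop2.pow_left (m := 3)
    norm_num at this
    exact this
  have hF2 := dvd_succ_mul_of_congr_const p G c 8 h0 hk hcop
  have hc8 : IsCoprime (8 : ℤ) c := by
    have h := ((Prime.coprime_iff_not_dvd h2Z).mpr hc).pow_left (m := 3)
    norm_num at h
    exact h
  have hdiv : (8 : ℤ) ∣ (p : ℤ) + 1 := hc8.dvd_of_dvd_mul_right hF2
  obtain ⟨t, ht⟩ : 8 ∣ p + 1 := by exact_mod_cast hdiv
  have hlp' : ¬ 2 ∣ p := fun h => hp2 ((Nat.prime_dvd_prime_iff_eq (by norm_num) hp).mp h).symm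
  have hk' : ∀ k, 1 ≤ k → ∃ m : ℤ, qCoeff G k = (((8 : ℕ) : ℂ) * (m : ℂ)) := fun k hk1 => by
    obtain ⟨m, hm⟩ := hk k hk1
    exact ⟨m, by rw [hm]; push_cast; ring⟩
  have hconj := exists_series p G c 8 t ht (by norm_num) h0 hk' (LocalInt.lInt 2)
    (LocalInt.inv_natCast_mem 2 hlp') (fun ζ hζ => LocalInt.of_pow_eq_one 2 hp.ne_zero hζ)
  have hlO := inv_notMem_lInt 2
  exact hc (core_two normBoundProp (gamma0_le p) G (LocalInt.lInt 2) (by simpa using hlO) p
    hp.pos c (fun γ => by simpa using hconj γ))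

end Fermat.Agent.S16
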