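import Fermat.Agent.S16.EisP

/-!
# S16: arithmetic of `σ'(n) = ∑_{d ∣ n, p ∤ d} d` and the form `G = t • (e - f)`
-/

set_option autoImplicit false

open UpperHalfPlane hiding I
open Complex Filter Function
open scoped Manifold MatrixGroups ModularForm Topology Real

namespace Fermat.Agent.S16

namespace SigmaP

/-- `d ↦ d` if `p ∤ d`, `0` otherwise, as an arithmetic function. -/
def primeTo (p : ℕ) : ArithmeticFunction ℕ :=
  ⟨fun d => if p ∣ d then 0 else d, by simp⟩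

@[simp] theorem primeTo_apply (p d : ℕ) : primeTo p d = if p ∣ d then 0 else d := rfl

theorem isMultiplicative_primeTo {p : ℕ} (hp : p.Prime) :
    ArithmeticFunction.IsMultiplicative (primeTo p) := by
  refine ⟨by simp [hp.one_lt.ne'], fun {m n} _ => ?_⟩
  simp only [primeTo_apply, hp.dvd_mul]
  by_cases hm : p ∣ m <;> by_cases hn : p ∣ n <;> simp [hm, hn]

theorem sigmaP_eq (p n : ℕ) : sigmaP p n = (primeTo p * ArithmeticFunction.zeta) n := by
  rw [ArithmeticFunction.mul_zeta_apply, sigmaP, Finset.sum_filter]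
  refine Finset.sum_congr rfl fun d _ => ?_
  simp only [primeTo_apply]
  split_ifs <;> rfl

end SigmaP

theorem sigmaP_zero (p : ℕ) : sigmaP p 0 = 0 := by simp [sigmaP]

theorem sigmaP_one {p : ℕ} (hp : p.Prime) : sigmaP p 1 = 1 := by
  simp [sigmaP, Finset.filter_singleton, hp.one_lt.ne']

theorem sigmaP_mul_of_coprime {p : ℕ} (hp : p.Prime) {m n : ℕ} (h : m.Coprime n) :
    sigmaP p (m * n) = sigmaP p m * sigmaP p n := by
  simp only [SigmaP.sigmaP_eq]
  exact ((SigmaP.isMultiplicative_primeTo hp).mul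
    ArithmeticFunction.isMultiplicative_zeta).map_mul_of_coprime h

theorem sigmaP_prime_pow_eq (p l r : ℕ) (hl : l.Prime) :
    sigmaP p (l ^ r) = ∑ i ∈ Finset.range (r + 1), if p ∣ l ^ i then 0 else l ^ i := by
  rw [sigmaP, Finset.sum_filter, Nat.sum_divisors_prime_pow hl]
  refine Finset.sum_congr rfl fun i _ => ?_
  split_ifs <;> rfl

theorem sigmaP_prime_pow {p l : ℕ} (hp : p.Prime) (hl : l.Prime) (hlp : l ≠ p) (r : ℕ) :
    sigmaP p (l ^ r) = ∑ i ∈ Finset.range (r + 1), l ^ i := by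
  rw [sigmaP_prime_pow_eq p l r hl]
  refine Finset.sum_congr rfl fun i _ => ?_
  rw [if_neg]
  intro h
  exact hlp ((Nat.prime_dvd_prime_iff_eq hp hl).mp (hp.dvd_of_dvd_pow h)).symm

theorem sigmaP_prime {p l : ℕ} (hp : p.Prime) (hl : l.Prime) (hlp : l ≠ p) :
    sigmaP p l = 1 + l := by
  have := sigmaP_prime_pow hp hl hlp 1
  simpa [Finset.sum_range_succ] using this

theorem sigmaP_self_pow {p : ℕ} (hp : p.Prime) (r : ℕ) : sigmaP p (p ^ r) = 1 := by
  rw [sigmaP_prime_pow_eq p p r hp, Finset.sum_range_succ']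
  simp only [pow_zero, Nat.dvd_one, hp.one_lt.ne', if_false]
  rw [Finset.sum_eq_zero, zero_add]
  intro i _
  rw [if_pos (dvd_pow_self p (Nat.succ_ne_zero i))]

theorem sigmaP_self {p : ℕ} (hp : p.Prime) : sigmaP p p = 1 := by
  simpa using sigmaP_self_pow hp 1

/-- `U_p`-invariance: `σ'(p n) = σ'(n)`. -/
theorem sigmaP_self_mul {p : ℕ} (hp : p.Prime) (n : ℕ) : sigmaP p (p * n) = sigmaP p n := by
  rcases Nat.eq_zero_or_pos n with rfl | hn
  · simp
  · obtain ⟨e, m, hm, rfl⟩ := Nat.exists_eq_pow_mul_and_not_dvd hn.ne' p hp.one_lt.ne'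
    have hcop : ∀ k : ℕ, Nat.Coprime (p ^ k) m := fun k =>
      Nat.Coprime.pow_left k ((Nat.Prime.coprime_iff_not_dvd hp).mpr hm)
    rw [← mul_assoc, ← pow_succ', sigmaP_mul_of_coprime hp (hcop _),
      sigmaP_mul_of_coprime hp (hcop _), sigmaP_self_pow hp, sigmaP_self_pow hp]

/-- The `T_l`-recursion for `σ'` at primes `l ≠ p` (in `ℤ`). -/
theorem sigmaP_prime_pow_rec {p l : ℕ} (hp : p.Prime) (hl : l.Prime) (hlp : l ≠ p) (r : ℕ) :
    (sigmaP p (l ^ (r + 2)) : ℤ) =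
      (sigmaP p l : ℤ) * sigmaP p (l ^ (r + 1)) - (l : ℤ) * sigmaP p (l ^ r) := by
  rw [sigmaP_prime hp hl hlp, sigmaP_prime_pow hp hl hlp, sigmaP_prime_pow hp hl hlp,
    sigmaP_prime_pow hp hl hlp]
  push_cast
  rw [Finset.sum_range_succ (fun i => (l : ℤ) ^ i) (r + 2),
    Finset.sum_range_succ (fun i => (l : ℤ) ^ i) (r + 1)]
  ring

/-- The `U_p`-recursion for `σ'` at `p`. -/
theorem sigmaP_self_pow_rec {p : ℕ} (hp : p.Prime) (r : ℕ) :
    sigmaP p (p ^ (r + 2)) = sigmaP p p * sigmaP p (p ^ (r + 1)) := by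
  rw [sigmaP_self_pow hp, sigmaP_self_pow hp, sigmaP_self hp]

/-! ### The form `G = t • (e - f)` (Step F1) -/

/-- `G = t • (e - f)` for a cusp form `f` of weight `2` on `Γ₀(p)`. -/
noncomputable def eisDiff (p : ℕ) [Fact p.Prime] (t : ℂ)
    (f : CuspForm (CongruenceSubgroup.Gamma0 p) 2) : ModularForm (CongruenceSubgroup.Gamma0 p) 2 :=
  t • (eisP p - CuspForm.toModularFormₗ f)

theorem eisDiff_apply (p : ℕ) [Fact p.Prime] (t : ℂ)
    (f : CuspForm (CongruenceSubgroup.Gamma0 p) 2) (z : ℍ) :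
    eisDiff p t f z = t * (eisP p z - f z) := rfl

theorem qCoeff_eisDiff (p : ℕ) [Fact p.Prime] (t : ℂ)
    (f : CuspForm (CongruenceSubgroup.Gamma0 p) 2) (k : ℕ) :
    ModularFormClass.qCoeff (eisDiff p t f) k =
      t * (eisCoeff p k - ModularFormClass.qCoeff f k) := by
  have hΓ := CongruenceSubgroup.one_mem_strictPeriods_Gamma0 p
  have h1 : UpperHalfPlane.qExpansion 1 (eisDiff p t f) =
      t • (UpperHalfPlane.qExpansion 1 (eisP p) -
        UpperHalfPlane.qExpansion 1 (CuspForm.toModularFormₗ f)) := by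
    rw [eisDiff]
    have e1 := ModularForm.qExpansion_smul one_pos hΓ t (eisP p - CuspForm.toModularFormₗ f)
    have e2 := ModularForm.qExpansion_sub one_pos hΓ (eisP p) (CuspForm.toModularFormₗ f)
    rw [← e2]
    exact e1
  show (UpperHalfPlane.qExpansion 1 (eisDiff p t f)).coeff k = _
  rw [h1, PowerSeries.coeff_smul, map_sub, qExpansion_eisP_coeff]
  rfl

theorem qCoeff_eisDiff_zero (p : ℕ) [Fact p.Prime] (t : ℂ)
    (f : CuspForm (CongruenceSubgroup.Gamma0 p) 2) :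
    ModularFormClass.qCoeff (eisDiff p t f) 0 = t * (((p : ℂ) - 1) / 24) := by
  have h0 : ModularFormClass.qCoeff f 0 = 0 :=
    CuspFormClass.qExpansion_coeff_zero f one_pos (CongruenceSubgroup.one_mem_strictPeriods_Gamma0 p)
  rw [qCoeff_eisDiff, h0, sub_zero, eisCoeff, if_pos rfl]

theorem qCoeff_eisDiff_of_ne_zero (p : ℕ) [Fact p.Prime] (t : ℂ)
    (f : CuspForm (CongruenceSubgroup.Gamma0 p) 2) {k : ℕ} (hk : k ≠ 0) :
    ModularFormClass.qCoeff (eisDiff p t f) k =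
      t * ((sigmaP p k : ℂ) - ModularFormClass.qCoeff f k) := by
  rw [qCoeff_eisDiff, eisCoeff, if_neg hk]

/-- **Step F1**: if `f` has integral `q`-coefficients `c k ≡ σ'(k) mod d` for `k ≥ 1`, and
`t * (p - 1) = 24 * s` in `ℤ`, then `G = t • (e - f)` has constant term `s` and all higher
`q`-coefficients in `t * d * ℤ`. -/
theorem exists_form_of_congr (p : ℕ) [Fact p.Prime]
    (f : CuspForm (CongruenceSubgroup.Gamma0 p) 2) (c : ℕ → ℤ)
    (hc : ∀ k, ModularFormClass.qCoeff f k = (c k : ℂ)) (d : ℤ)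
    (hd : ∀ k, 1 ≤ k → d ∣ c k - (sigmaP p k : ℤ)) (t s : ℤ) (hts : t * ((p : ℤ) - 1) = 24 * s) :
    ∃ G : ModularForm (CongruenceSubgroup.Gamma0 p) 2,
      ModularFormClass.qCoeff G 0 = (s : ℂ) ∧
      ∀ k, 1 ≤ k → ∃ m : ℤ, ModularFormClass.qCoeff G k = ((t * d * m : ℤ) : ℂ) := by
  refine ⟨eisDiff p (t : ℂ) f, ?_, ?_⟩
  · rw [qCoeff_eisDiff_zero]
    have := congrArg (Int.cast : ℤ → ℂ) hts
    push_cast at this
    linear_combination this / 24
  · intro k hk
    obtain ⟨m, hm⟩ := hd k hk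
    refine ⟨-m, ?_⟩
    rw [qCoeff_eisDiff_of_ne_zero p _ f (by omega), hc]
    have := congrArg (Int.cast : ℤ → ℂ) hm
    push_cast at this ⊢
    linear_combination (-(t : ℂ)) * this

end Fermat.Agent.S16
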