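import Mathlib
import Fermat.Prelude.Def_ModularCurve_ModularUnit
import Fermat.Prelude.Thm_ModularForm_sturm_bound_Gamma0
import Fermat.Agent.S16.SigmaP
import Fermat.Agent.S20.Comb

/-!
# S16: assembly of the upper bound (Step 2, "Use" paragraphs)

`CongConst p c M` says: there is a weight-two modular form on `Γ₀(p)` with integral
`q`-expansion, constant term `c` and all higher coefficients divisible by `M`.
From the analytic facts (C1 = F2, U1 for each prime) about such forms we deduce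
`d ∣ eisensteinNumerator p` for every `d` such that the Eisenstein series is congruent to a
cusp form modulo `d`.
-/

set_option autoImplicit false

open CongruenceSubgroup ModularFormClass ModularCurve

namespace Fermat.Agent.S16

/-- There is `G ∈ M₂(Γ₀(p))` with integral `q`-expansion, `a₀(G) = c` and `M ∣ a_k(G)` for all
`k ≥ 1`. -/
def CongConst (p : ℕ) (c M : ℤ) : Prop :=
  ∃ G : ModularForm (Gamma0 p) 2, qCoeff G 0 = (c : ℂ) ∧
    ∀ k, 1 ≤ k → ∃ m : ℤ, qCoeff G k = ((M * m : ℤ) : ℂ)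

theorem CongConst.mono {p : ℕ} {c M M' : ℤ} (h : CongConst p c (M * M')) : CongConst p c M := by
  obtain ⟨G, h0, hk⟩ := h
  refine ⟨G, h0, fun k hk1 => ?_⟩
  obtain ⟨m, hm⟩ := hk k hk1
  exact ⟨M' * m, by rw [hm]; push_cast; ring⟩

theorem CongConst.of_eq {p : ℕ} {c c' M M' : ℤ} (h : CongConst p c M) (hc : c = c')
    (hM : M = M') : CongConst p c' M' := by
  subst hc; subst hM; exact h

/-- Dividing the form by a nonzero integer. -/
theorem CongConst.div {p : ℕ} {c M : ℤ} (r : ℤ) (hr : r ≠ 0) (h : CongConst p (r * c) (r * M)) :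
    CongConst p c M := by
  obtain ⟨G, h0, hk⟩ := h
  have hΓ := CongruenceSubgroup.one_mem_strictPeriods_Gamma0 p
  have hr' : (r : ℂ) ≠ 0 := by exact_mod_cast hr
  have e1 : UpperHalfPlane.qExpansion 1 (⇑(((r : ℂ)⁻¹) • G)) =
      ((r : ℂ)⁻¹) • UpperHalfPlane.qExpansion 1 (⇑G) :=
    ModularForm.qExpansion_smul one_pos hΓ ((r : ℂ)⁻¹) G
  have e2 : ∀ k, qCoeff (⇑(((r : ℂ)⁻¹) • G)) k = (r : ℂ)⁻¹ * qCoeff (⇑G) k := by
    intro k
    show (UpperHalfPlane.qExpansion 1 (⇑(((r : ℂ)⁻¹) • G))).coeff k = _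
    rw [e1, PowerSeries.coeff_smul]
    rfl
  refine ⟨((r : ℂ)⁻¹) • G, ?_, fun k hk1 => ?_⟩
  · rw [e2, h0]
    push_cast
    field_simp
  · obtain ⟨m, hm⟩ := hk k hk1
    refine ⟨m, ?_⟩
    rw [e2, hm]
    push_cast
    field_simp

/-- `p - 1` divides `12 * eisensteinNumerator p`. -/
theorem pred_dvd_twelve_mul_eisensteinNumerator (p : ℕ) :
    p - 1 ∣ 12 * eisensteinNumerator p := by
  unfold eisensteinNumerator
  have hg : Nat.gcd (p - 1) 12 ∣ p - 1 := Nat.gcd_dvd_left _ _
  have hg12 : Nat.gcd (p - 1) 12 ∣ 12 := Nat.gcd_dvd_right _ _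
  obtain ⟨t, ht⟩ := hg12
  have h1 : (p - 1) / Nat.gcd (p - 1) 12 * Nat.gcd (p - 1) 12 = p - 1 := Nat.div_mul_cancel hg
  refine ⟨t, ?_⟩
  calc 12 * ((p - 1) / Nat.gcd (p - 1) 12)
      = (Nat.gcd (p - 1) 12 * t) * ((p - 1) / Nat.gcd (p - 1) 12) := by rw [← ht]
    _ = ((p - 1) / Nat.gcd (p - 1) 12 * Nat.gcd (p - 1) 12) * t := by ring
    _ = (p - 1) * t := by rw [h1]

/-- **Upper bound, arithmetic assembly.** Given the facts (C1), (U) about forms congruent to a
constant, a form `G` with `a₀ = p - 1` and all higher coefficients divisible by `24 d` forces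
`d ∣ (p - 1) / gcd(p - 1, 12)`. -/
theorem dvd_eisensteinNumerator_of_congConst (p : ℕ) (hp : p.Prime) (hp5 : 5 ≤ p) (d : ℕ)
    (hG : CongConst p ((p : ℤ) - 1) (24 * (d : ℤ)))
    (C1 : ∀ c M : ℤ, CongConst p c M → IsCoprime M (p : ℤ) → M ∣ ((p : ℤ) + 1) * c)
    (U5 : ∀ (l : ℕ) (c : ℤ), l.Prime → 5 ≤ l → CongConst p c (l : ℤ) → (l : ℤ) ∣ c)
    (U3 : ∀ c : ℤ, CongConst p c 9 → (3 : ℤ) ∣ c)
    (U2 : ∀ c : ℤ, CongConst p c 8 → (2 : ℤ) ∣ c) :
    d ∣ eisensteinNumerator p := by
  rw [Nat.dvd_iff_prime_pow_dvd_dvd]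
  intro l s hl hls
  have hkey := pred_dvd_twelve_mul_eisensteinNumerator p
  have hp1 : 1 ≤ p := by omega
  have hcast : ((p - 1 : ℕ) : ℤ) = (p : ℤ) - 1 := by push_cast [hp1]; ring
  have hpodd : ¬ 2 ∣ p := fun h => by
    have := (Nat.prime_dvd_prime_iff_eq Nat.prime_two hp).mp h
    omega
  have hp3 : ¬ 3 ∣ p := fun h => by
    have := (Nat.prime_dvd_prime_iff_eq Nat.prime_three hp).mp h
    omega
  -- coprimality of prime powers `l^t` (l ≠ p) with `p` in `ℤ`
  have hcop : ∀ (q : ℕ), q.Prime → q ≠ p → ∀ t : ℕ, IsCoprime ((q : ℤ) ^ t) (p : ℤ) := by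
    intro q hq hqp t
    apply IsCoprime.pow_left
    rw [Int.isCoprime_iff_gcd_eq_one, Int.gcd_natCast_natCast]
    exact (Nat.coprime_primes hq hp).mpr hqp
  obtain ⟨d', hd'⟩ := hls
  rcases lt_or_ge l 5 with hl5 | hl5
  · -- `l = 2` or `l = 3`
    have hl23 : l = 2 ∨ l = 3 := by
      have h2 := hl.two_le
      interval_cases l
      · left; rfl
      · right; rfl
      · exact absurd hl (by decide)
    rcases hl23 with rfl | rfl
    · -- `l = 2`
      by_cases h4 : 4 ∣ p - 1
      · obtain ⟨v, hv⟩ := h4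
        have hv' : (p : ℤ) - 1 = 4 * v := by rw [← hcast, hv]; push_cast; ring
        -- C1 with `M = 2^(s+3)`
        have h1 : CongConst p ((p : ℤ) - 1) ((2 : ℤ) ^ (s + 3)) := by
          apply CongConst.mono (M' := 3 * (d' : ℤ))
          refine hG.of_eq rfl ?_
          rw [hd']; push_cast; ring
        have h2 := C1 _ _ h1 (by exact_mod_cast hcop 2 Nat.prime_two (by omega) (s + 3))
        -- `(p+1)(p-1) = 2 (2v+1) (p-1)`
        have h3 : ((p : ℤ) + 1) * ((p : ℤ) - 1) = 2 * ((2 * v + 1) * ((p : ℤ) - 1)) := by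
          have : (p : ℤ) + 1 = 2 * (2 * v + 1) := by linarith
          rw [this]; ring
        rw [h3, show (2 : ℤ) ^ (s + 3) = 2 * 2 ^ (s + 2) by ring] at h2
        have h4 : (2 : ℤ) ^ (s + 2) ∣ (2 * (v : ℤ) + 1) * ((p : ℤ) - 1) :=
          (mul_dvd_mul_iff_left (by norm_num : (2 : ℤ) ≠ 0)).mp h2
        have hc2 : IsCoprime ((2 : ℤ) ^ (s + 2)) (2 * (v : ℤ) + 1) := by
          apply IsCoprime.pow_left
          exact ⟨-(v : ℤ), 1, by ring⟩
        have h5 : (2 : ℤ) ^ (s + 2) ∣ (p : ℤ) - 1 := hc2.dvd_of_dvd_mul_left h4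
        have h6 : 2 ^ (s + 2) ∣ p - 1 := by
          rw [← hcast] at h5
          exact_mod_cast h5
        have h7 : 2 ^ (s + 2) ∣ 12 * eisensteinNumerator p := h6.trans hkey
        rw [show 2 ^ (s + 2) = 4 * 2 ^ s by ring,
          show 12 * eisensteinNumerator p = 4 * (3 * eisensteinNumerator p) by ring] at h7
        have h8 : 2 ^ s ∣ 3 * eisensteinNumerator p :=
          (Nat.mul_dvd_mul_iff_left (by norm_num : 0 < 4)).mp h7
        exact (Nat.Coprime.pow_left s (by decide : Nat.Coprime 2 3)).dvd_of_dvd_mul_left h8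
      · -- `4 ∤ p - 1`: then `2 ∤ d`
        rcases Nat.eq_zero_or_pos s with rfl | hs
        · simp
        · exfalso
          obtain ⟨s', rfl⟩ : ∃ s', s = s' + 1 := ⟨s - 1, by omega⟩
          -- `p - 1 = 2 m'`
          obtain ⟨m', hm'⟩ : 2 ∣ p - 1 := by
            have := Nat.Prime.eq_one_or_self_of_dvd hp 2
            omega
          have hm'' : (p : ℤ) - 1 = 2 * m' := by rw [← hcast, hm']; push_cast; ring
          have h1 : CongConst p (m' : ℤ) 8 := by
            apply CongConst.mono (M' := 3 * 2 ^ s' * (d' : ℤ))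
            apply CongConst.div 2 (by norm_num)
            refine hG.of_eq hm'' ?_
            rw [hd']; push_cast; ring
          have h2 := U2 _ h1
          have h3 : 2 ∣ m' := by exact_mod_cast h2
          obtain ⟨w, hw⟩ := h3
          exact h4 ⟨w, by rw [hm', hw]; ring⟩
    · -- `l = 3`
      by_cases h3 : 3 ∣ p - 1
      · have h1 : CongConst p ((p : ℤ) - 1) ((3 : ℤ) ^ (s + 1)) := by
          apply CongConst.mono (M' := 8 * (d' : ℤ))
          refine hG.of_eq rfl ?_
          rw [hd']; push_cast; ring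
        have h2 := C1 _ _ h1 (by exact_mod_cast hcop 3 Nat.prime_three (by omega) (s + 1))
        have hc3 : IsCoprime ((3 : ℤ) ^ (s + 1)) ((p : ℤ) + 1) := by
          apply IsCoprime.pow_left
          obtain ⟨v, hv⟩ := h3
          have hv' : (p : ℤ) - 1 = 3 * v := by rw [← hcast, hv]; push_cast; ring
          exact ⟨(v : ℤ) + 1, -1, by linarith⟩
        have h5 : (3 : ℤ) ^ (s + 1) ∣ (p : ℤ) - 1 := hc3.dvd_of_dvd_mul_left h2
        have h6 : 3 ^ (s + 1) ∣ p - 1 := by
          rw [← hcast] at h5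
          exact_mod_cast h5
        have h7 : 3 ^ (s + 1) ∣ 12 * eisensteinNumerator p := h6.trans hkey
        rw [show 3 ^ (s + 1) = 3 * 3 ^ s by ring,
          show 12 * eisensteinNumerator p = 3 * (4 * eisensteinNumerator p) by ring] at h7
        have h8 : 3 ^ s ∣ 4 * eisensteinNumerator p :=
          (Nat.mul_dvd_mul_iff_left (by norm_num : 0 < 3)).mp h7
        exact (Nat.Coprime.pow_left s (by decide : Nat.Coprime 3 4)).dvd_of_dvd_mul_left h8
      · rcases Nat.eq_zero_or_pos s with rfl | hs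
        · simp
        · exfalso
          obtain ⟨s', rfl⟩ : ∃ s', s = s' + 1 := ⟨s - 1, by omega⟩
          have h1 : CongConst p ((p : ℤ) - 1) 9 := by
            apply CongConst.mono (M' := 8 * 3 ^ s' * (d' : ℤ))
            refine hG.of_eq rfl ?_
            rw [hd']; push_cast; ring
          have h2 := U3 _ h1
          rw [← hcast] at h2
          exact h3 (by exact_mod_cast h2)
  · -- `l ≥ 5`: first `l^s ∣ p - 1` by induction
    have hind : ∀ t : ℕ, l ^ t ∣ d → l ^ t ∣ p - 1 := by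
      intro t
      induction t with
      | zero => intro _; simp
      | succ t ih =>
        intro ht
        obtain ⟨e, he⟩ := ht
        obtain ⟨m', hm'⟩ := ih ⟨l * e, by rw [he]; ring⟩
        have hm'' : (p : ℤ) - 1 = (l : ℤ) ^ t * m' := by rw [← hcast, hm']; push_cast; ring
        have hlt : ((l : ℤ) ^ t) ≠ 0 := pow_ne_zero _ (by exact_mod_cast hl.ne_zero)
        have h1 : CongConst p (m' : ℤ) (l : ℤ) := by
          apply CongConst.mono (M' := 24 * (e : ℤ))
          apply CongConst.div ((l : ℤ) ^ t) hlt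
          refine hG.of_eq hm'' ?_
          rw [he]; push_cast; ring
        have h2 := U5 l _ hl hl5 h1
        have h3 : l ∣ m' := by exact_mod_cast h2
        obtain ⟨w, hw⟩ := h3
        exact ⟨w, by rw [hm', hw]; ring⟩
    have h6 : l ^ s ∣ p - 1 := hind s ⟨d', hd'⟩
    have h7 : l ^ s ∣ 12 * eisensteinNumerator p := h6.trans hkey
    have hc : Nat.Coprime l 12 := by
      rw [show 12 = 2 ^ 2 * 3 by norm_num]
      apply Nat.Coprime.mul_right
      · apply Nat.Coprime.pow_right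
        exact (Nat.coprime_primes hl Nat.prime_two).mpr (by omega)
      · exact (Nat.coprime_primes hl Nat.prime_three).mpr (by omega)
    exact (Nat.Coprime.pow_left s hc).dvd_of_dvd_mul_left h7

/-- For `p = 2, 3` there are no nonzero cusp forms of weight two on `Γ₀(p)`; more generally this
holds as soon as `p + 1 < 6`. -/
theorem cuspForm_eq_zero_of_lt_five (p : ℕ) (hp : p.Prime) (hp5 : p < 5)
    (f : CuspForm (Gamma0 p) 2) : (⇑f : UpperHalfPlane → ℂ) = 0 := by
  have : NeZero p := ⟨hp.ne_zero⟩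
  have hidx : (Gamma0 p).index = p + 1 := by
    have h := Fermat.Agent.S20.Comb.relIndex_Gamma0_of_not_dvd (p := p) (M := 1) hp
      (by simpa using hp.ne_one)
    rw [mul_one, Fermat.Agent.S20.Comb.Gamma0_one_eq_top, Subgroup.relIndex_top_right] at h
    exact h
  have hΓ := CongruenceSubgroup.one_mem_strictPeriods_Gamma0 p
  have hF : CuspForm.toModularFormₗ f = 0 := by
    apply ModularForm.sturm_bound_Gamma0 p
    intro n hn
    rw [hidx] at hn
    have hn0 : n = 0 := by
      have h2 : ((2 : ℤ) * ((p + 1 : ℕ) : ℤ)).toNat / 12 = 0 := by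
        have : ((2 : ℤ) * ((p + 1 : ℕ) : ℤ)).toNat = 2 * (p + 1) := by
          rw [show (2 : ℤ) * ((p + 1 : ℕ) : ℤ) = ((2 * (p + 1) : ℕ) : ℤ) by push_cast; ring]
          exact Int.toNat_natCast _
        rw [this]
        omega
      omega
    subst hn0
    exact CuspFormClass.qExpansion_coeff_zero f one_pos hΓ
  have h2 : (⇑(CuspForm.toModularFormₗ f) : UpperHalfPlane → ℂ) = 0 := by
    rw [hF]; rfl
  exact h2

/-- **Upper bound (Step 2), modulo the analytic facts.** If a cusp form `f` of weight two on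
`Γ₀(p)` has integral `q`-coefficients congruent to `σ'(k)` modulo `d` for all `k ≥ 1`, then
`d ∣ eisensteinNumerator p`. The hypotheses `C1`, `U5`, `U3`, `U2` are the analytic inputs
(F2 and the statements U1 of the plan; `U5` for `l = p` is the case `l = p`); they are only used
for `p ≥ 5`. -/
theorem upperBound_of_facts (p : ℕ) [Fact p.Prime]
    (C1 : 5 ≤ p → ∀ c M : ℤ, CongConst p c M → IsCoprime M (p : ℤ) → M ∣ ((p : ℤ) + 1) * c)
    (U5 : 5 ≤ p → ∀ (l : ℕ) (c : ℤ), l.Prime → 5 ≤ l → CongConst p c (l : ℤ) → (l : ℤ) ∣ c)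
    (U3 : 5 ≤ p → ∀ c : ℤ, CongConst p c 9 → (3 : ℤ) ∣ c)
    (U2 : 5 ≤ p → ∀ c : ℤ, CongConst p c 8 → (2 : ℤ) ∣ c)
    (d : ℕ) (f : CuspForm (Gamma0 p) 2) (c : ℕ → ℤ)
    (hc : ∀ k, qCoeff f k = (c k : ℂ))
    (hcong : ∀ k, 1 ≤ k → (d : ℤ) ∣ c k - (sigmaP p k : ℤ)) :
    d ∣ eisensteinNumerator p := by
  have hp : p.Prime := Fact.out
  rcases lt_or_ge p 5 with hp5 | hp5
  · -- no cusp forms: `d ∣ 1`
    have hf := cuspForm_eq_zero_of_lt_five p hp hp5 f
    have h1 : qCoeff f 1 = 0 := by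
      show (UpperHalfPlane.qExpansion 1 (⇑f)).coeff 1 = 0
      rw [hf, UpperHalfPlane.qExpansion_zero]
      simp
    have h2 : c 1 = 0 := by
      have := hc 1
      rw [h1] at this
      exact_mod_cast this.symm
    have h3 := hcong 1 le_rfl
    rw [h2, sigmaP_one hp] at h3
    have h4 : (d : ℤ) ∣ 1 := by
      have : (0 : ℤ) - ((1 : ℕ) : ℤ) = -1 := by norm_num
      rw [this] at h3
      exact (dvd_neg).mp h3
    have h5 : d ∣ 1 := by exact_mod_cast h4
    exact h5.trans (one_dvd _)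
  · have hG : CongConst p ((p : ℤ) - 1) (24 * (d : ℤ)) := by
      obtain ⟨G, h0, hk⟩ := exists_form_of_congr p f c hc (d : ℤ) hcong 24 ((p : ℤ) - 1) rfl
      exact ⟨G, h0, hk⟩
    exact dvd_eisensteinNumerator_of_congConst p hp hp5 d hG (C1 hp5) (U5 hp5) (U3 hp5) (U2 hp5)

end Fermat.Agent.S16
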