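import Mathlib
import Fermat.Agent.S16.UpperGlue
import Fermat.Agent.S16.TraceRel
import Fermat.Agent.S16.UOne

/-!
# S16: the upper bound

If a cusp form `f` of weight two on `Γ₀(p)` has integral `q`-coefficients congruent to the
Eisenstein coefficients `σ'(k)` modulo `d` for all `k ≥ 1`, then `d` divides
`eisensteinNumerator p = (p - 1) / gcd(p - 1, 12)`.

This combines the arithmetic assembly `upperBound_of_facts` with the analytic inputs:
(F2) `dvd_succ_mul_of_congr_const`, the case `l = p` `dvd_const_of_congr_const_self`, and the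
statements (U1) `uOne_of_five_le`, `uOne_three`, `uOne_two`.
-/

set_option autoImplicit false

open CongruenceSubgroup ModularFormClass ModularCurve

namespace Fermat.Agent.S16

/-- **Upper bound of S16.** -/
theorem upperBound (p : ℕ) [Fact p.Prime] (d : ℕ) (hd : 2 ≤ d) (f : CuspForm (Gamma0 p) 2)
    (c : ℕ → ℤ) (hc : ∀ k, qCoeff f k = (c k : ℂ))
    (hcong : ∀ k, 1 ≤ k → (d : ℤ) ∣ c k - (sigmaP p k : ℤ)) : d ∣ eisensteinNumerator p := by
  have _ := hd
  refine upperBound_of_facts p ?_ ?_ ?_ ?_ d f c hc hcong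
  · rintro - c M ⟨G, h0, hk⟩ hM
    exact dvd_succ_mul_of_congr_const p G c M h0 hk hM
  · rintro hp5 l c hl h5 ⟨G, h0, hk⟩
    by_cases hlp : l = p
    · rw [hlp]
      refine dvd_const_of_congr_const_self p hp5 G c h0 (fun k hk1 => ?_)
      obtain ⟨m, hm⟩ := hk k hk1
      refine ⟨m, hm.trans ?_⟩
      rw [hlp]
    · exact uOne_of_five_le p hl h5 hlp G c h0 hk
  · rintro hp5 c ⟨G, h0, hk⟩
    exact uOne_three p (by omega) G c h0 hk
  · rintro hp5 c ⟨G, h0, hk⟩
    exact uOne_two p (by omega) G c h0 hk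

end Fermat.Agent.S16
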