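import Fermat.Agent.S21.Defs

/-!
# S16, package P8 (part 2): orbit-sum-zero subspaces over an arbitrary field

For a group `G` acting on a finite set `X` and a field `F` of any characteristic, `Zsub F g` is
the space of functions `X → F` whose sum over every orbit of `g` vanishes, and `Wsub F s t` is the
space of pairs `(a, c)` with `a ∈ Zsub F s`, `c ∈ Zsub F t`, `a + s·c ∈ Zsub F (s * t)`.
If `G` is generated by `s`, `t` and acts transitively,
`dim Wsub + n_s + n_t + n_{st} ≤ 2 |X| + 1`, where `n_g` is the number of orbits of `g`.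
-/

set_option autoImplicit false

namespace Fermat.Agent.S16

namespace CF

open Fermat.Agent.S21

variable {G X : Type} [Group G] [MulAction G X] (F : Type*) [Field F]

/-- functions whose sum over every orbit of `g` vanishes -/
def Zsub (g : G) : Submodule F (X → F) where
  carrier := {v | ∀ x, ∑ i ∈ Finset.range (MulAction.period g x), v ((g ^ i)⁻¹ • x) = 0}
  zero_mem' := by intro x; simp
  add_mem' := by
    intro v w hv hw x
    simp only [Pi.add_apply, Finset.sum_add_distrib, hv x, hw x, add_zero]
  smul_mem' := by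
    intro c v hv x
    simp only [Pi.smul_apply, smul_eq_mul, ← Finset.mul_sum, hv x, mul_zero]

theorem mem_Zsub {g : G} {v : X → F} :
    v ∈ Zsub F g ↔
      ∀ x, ∑ i ∈ Finset.range (MulAction.period g x), v ((g ^ i)⁻¹ • x) = 0 := Iff.rfl

/-- translation of functions: `(tr g m) x = m (g⁻¹ • x)` -/
def tr (g : G) : (X → F) →ₗ[F] (X → F) where
  toFun m := fun x => m (g⁻¹ • x)
  map_add' _ _ := rfl
  map_smul' _ _ := rfl

@[simp] theorem tr_apply (g : G) (m : X → F) (x : X) : tr F g m x = m (g⁻¹ • x) := rfl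

theorem tr_one (m : X → F) : tr F (1 : G) m = m := by
  funext x; simp

theorem tr_mul (g h : G) (m : X → F) : tr F (g * h) m = tr F g (tr F h m) := by
  funext x; simp [mul_smul]

theorem tr_sub_mem_Zsub (g : G) (m : X → F) : tr F g m - m ∈ Zsub F g := by
  intro x
  have h : ∀ i : ℕ, (tr F g m - m) ((g ^ i)⁻¹ • x) =
      m ((g ^ (i + 1))⁻¹ • x) - m ((g ^ i)⁻¹ • x) := by
    intro i
    simp only [Pi.sub_apply, tr_apply]
    rw [← mul_smul, ← mul_inv_rev, ← pow_succ]
  simp only [h]
  rw [Finset.sum_range_sub (fun i => m ((g ^ i)⁻¹ • x)), pow_zero, inv_one, one_smul,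
    inv_smul_eq_iff.mpr (MulAction.pow_period_smul g x).symm, sub_self]

theorem finrank_Zsub_add_nOrb_le [Fintype X] (g : G)
    (hg : ∀ x : X, 0 < MulAction.period g x) :
    Module.finrank F (Zsub (X := X) F g) + nOrb X g ≤ Fintype.card X := by
  classical
  let Ω := MulAction.orbitRel.Quotient (Subgroup.zpowers g) X
  have hfin : Finite Ω := Quotient.finite _
  let _ : Fintype Ω := Fintype.ofFinite _
  let E : (Ω → F) →ₗ[F] (X → F) :=
    { toFun := fun f y =>
        if y = Quotient.out (Quotient.mk'' y : Ω) then f (Quotient.mk'' y) else 0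
      map_add' := by
        intro f f'
        funext y
        simp only [Pi.add_apply]
        split_ifs <;> simp
      map_smul' := by
        intro c f
        funext y
        simp only [Pi.smul_apply, smul_eq_mul, RingHom.id_apply]
        split_ifs <;> simp }
  have hEapp : ∀ (f : Ω → F) (y : X), E f y =
      if y = Quotient.out (Quotient.mk'' y : Ω) then f (Quotient.mk'' y) else 0 := fun _ _ => rfl
  have hout : ∀ ω : Ω, (Quotient.mk'' (Quotient.out ω) : Ω) = ω := fun ω => Quotient.out_eq' ω
  have hE : Function.Injective E := by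
    intro f f' h
    funext ω
    have h1 := congrFun h (Quotient.out ω)
    rw [hEapp, hEapp, hout, if_pos rfl, if_pos rfl] at h1
    exact h1
  have hdisj : Disjoint (Zsub F g) (LinearMap.range E) := by
    rw [Submodule.disjoint_def]
    rintro v hv ⟨f, rfl⟩
    have hf : f = 0 := by
      funext ω
      have h0 := hv (Quotient.out ω)
      rw [Finset.sum_eq_single_of_mem 0 (Finset.mem_range.mpr (hg _))] at h0
      · rw [pow_zero, inv_one, one_smul, hEapp, hout, if_pos rfl] at h0
        exact h0
      · intro i hi hi0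
        have hcl : (Quotient.mk'' ((g ^ i)⁻¹ • Quotient.out ω) : Ω) = ω := by
          rw [← hout ω]
          apply Quotient.sound'
          refine ⟨⟨(g ^ i)⁻¹, Subgroup.inv_mem _ (Subgroup.pow_mem _ (Subgroup.mem_zpowers g) i)⟩,
            ?_⟩
          rw [hout]
          rfl
        have hne : (g ^ i)⁻¹ • Quotient.out ω ≠ Quotient.out ω := by
          intro h
          have h2 : g ^ i • Quotient.out ω = Quotient.out ω := by
            rw [eq_comm, ← inv_smul_eq_iff]
            exact h
          rw [MulAction.pow_smul_eq_iff_period_dvd] at h2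
          exact absurd (Nat.le_of_dvd (Nat.pos_of_ne_zero hi0) h2)
            (not_le.mpr (Finset.mem_range.mp hi))
        rw [hEapp, hcl, if_neg hne]
    rw [hf, map_zero]
  have h1 := Submodule.finrank_add_finrank_le_of_disjoint hdisj
  rw [LinearMap.finrank_range_of_inj hE, Module.finrank_fintype_fun_eq_card,
    Module.finrank_fintype_fun_eq_card] at h1
  have h2 : nOrb X g = Fintype.card Ω := by
    unfold nOrb
    rw [Nat.card_eq_fintype_card]
  rw [h2]
  exact h1

theorem tr_sub_mem_sup (s t : G) (hgen : Subgroup.closure {s, t} = ⊤) (g : G) :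
    ∀ m : X → F, tr F g m - m ∈ Zsub F s ⊔ Zsub F (s * t) := by
  have hs : ∀ m : X → F, tr F s m - m ∈ Zsub F s ⊔ Zsub F (s * t) := fun m =>
    Submodule.mem_sup_left (tr_sub_mem_Zsub F s m)
  have hst : ∀ m : X → F, tr F (s * t) m - m ∈ Zsub F s ⊔ Zsub F (s * t) := fun m =>
    Submodule.mem_sup_right (tr_sub_mem_Zsub F (s * t) m)
  have hmul : ∀ g h : G, (∀ m : X → F, tr F g m - m ∈ Zsub F s ⊔ Zsub F (s * t)) →
      (∀ m : X → F, tr F h m - m ∈ Zsub F s ⊔ Zsub F (s * t)) →
      ∀ m : X → F, tr F (g * h) m - m ∈ Zsub F s ⊔ Zsub F (s * t) := by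
    intro g h hg hh m
    have : tr F (g * h) m - m = (tr F g (tr F h m) - tr F h m) + (tr F h m - m) := by
      rw [tr_mul]; abel
    rw [this]
    exact Submodule.add_mem _ (hg _) (hh _)
  have hinv : ∀ g : G, (∀ m : X → F, tr F g m - m ∈ Zsub F s ⊔ Zsub F (s * t)) →
      ∀ m : X → F, tr F g⁻¹ m - m ∈ Zsub F s ⊔ Zsub F (s * t) := by
    intro g hg m
    have : tr F g⁻¹ m - m = -(tr F g (tr F g⁻¹ m) - tr F g⁻¹ m) := by
      rw [← tr_mul, mul_inv_cancel, tr_one]; abel
    rw [this]
    exact Submodule.neg_mem _ (hg _)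
  have ht : ∀ m : X → F, tr F t m - m ∈ Zsub F s ⊔ Zsub F (s * t) := by
    have := hmul s⁻¹ (s * t) (hinv s hs) hst
    simpa using this
  have hmem : g ∈ Subgroup.closure {s, t} := by rw [hgen]; trivial
  induction hmem using Subgroup.closure_induction with
  | mem x hx =>
    rcases hx with rfl | rfl
    · exact hs
    · exact ht
  | one => intro m; rw [tr_one, sub_self]; exact Submodule.zero_mem _
  | mul x y _ _ hx hy => exact hmul x y hx hy
  | inv x _ hx => exact hinv x hx

theorem mem_sup_of_sum_eq_zero [Fintype X] [MulAction.IsPretransitive G X] (s t : G)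
    (hgen : Subgroup.closure {s, t} = ⊤) (m : X → F) (hm : ∑ x, m x = 0) :
    m ∈ Zsub F s ⊔ Zsub F (s * t) := by
  classical
  rcases isEmpty_or_nonempty X with hX | ⟨⟨x0⟩⟩
  · have : m = 0 := by funext x; exact (hX.false x).elim
    rw [this]; exact Submodule.zero_mem _
  · have key : ∀ x : X, (Pi.single x (1 : F) : X → F) - Pi.single x0 1 ∈
        Zsub F s ⊔ Zsub F (s * t) := by
      intro x
      obtain ⟨g, hg⟩ := MulAction.exists_smul_eq G x0 x
      have h := tr_sub_mem_sup F s t hgen g (Pi.single x0 1)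
      have h2 : tr F g (Pi.single x0 (1 : F) : X → F) = Pi.single x 1 := by
        funext y
        simp only [tr_apply, Pi.single_apply]
        have : g⁻¹ • y = x0 ↔ y = x := by
          rw [inv_smul_eq_iff, hg]
        simp [this]
      rwa [h2] at h
    have hdecomp : m = ∑ x, m x • ((Pi.single x (1 : F) : X → F) - Pi.single x0 1) := by
      have h1 : ∑ x, m x • ((Pi.single x (1 : F) : X → F) - Pi.single x0 1) =
          ∑ x, (Pi.single x (m x) : X → F) - (∑ x, m x) • (Pi.single x0 (1 : F) : X → F) := by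
        rw [Finset.sum_smul, ← Finset.sum_sub_distrib]
        refine Finset.sum_congr rfl (fun x _ => ?_)
        rw [smul_sub]
        congr 1
        funext y
        simp [Pi.single_apply]
      rw [h1, hm, zero_smul, sub_zero, Finset.univ_sum_single]
    rw [hdecomp]
    exact Submodule.sum_mem _ (fun x _ => Submodule.smul_mem _ _ (key x))

theorem card_le_finrank_sup_add_one [Fintype X] [MulAction.IsPretransitive G X] (s t : G)
    (hgen : Subgroup.closure {s, t} = ⊤) :
    Fintype.card X ≤ Module.finrank F (Zsub F s ⊔ Zsub F (s * t) : Submodule F (X → F)) + 1 := by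
  classical
  let σ : (X → F) →ₗ[F] F :=
    { toFun := fun m => ∑ x, m x
      map_add' := fun m m' => by simp [Finset.sum_add_distrib]
      map_smul' := fun c m => by simp [Finset.mul_sum] }
  have hker : LinearMap.ker σ ≤ Zsub F s ⊔ Zsub F (s * t) := by
    intro m hm
    exact mem_sup_of_sum_eq_zero F s t hgen m hm
  have h1 := LinearMap.finrank_range_add_finrank_ker σ
  have h2 : Module.finrank F (LinearMap.range σ) ≤ 1 := by
    have := Submodule.finrank_le (LinearMap.range σ)
    simpa using this
  have h3 := Submodule.finrank_mono hker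
  rw [Module.finrank_fintype_fun_eq_card] at h1
  omega

/-- pairs `(a, c)` with `a ∈ Zsub s`, `c ∈ Zsub t`, `a + s·c ∈ Zsub (s * t)` -/
def Wsub (s t : G) : Submodule F ((X → F) × (X → F)) where
  carrier := {p | p.1 ∈ Zsub F s ∧ p.2 ∈ Zsub F t ∧ p.1 + tr F s p.2 ∈ Zsub F (s * t)}
  add_mem' := by
    rintro p q ⟨h1, h2, h3⟩ ⟨h1', h2', h3'⟩
    refine ⟨Submodule.add_mem _ h1 h1', Submodule.add_mem _ h2 h2', ?_⟩
    have : (p + q).1 + tr F s (p + q).2 = (p.1 + tr F s p.2) + (q.1 + tr F s q.2) := by
      simp only [Prod.fst_add, Prod.snd_add, map_add]; abel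
    rw [this]
    exact Submodule.add_mem _ h3 h3'
  zero_mem' := by
    refine ⟨Submodule.zero_mem _, Submodule.zero_mem _, ?_⟩
    simp
  smul_mem' := by
    rintro c p ⟨h1, h2, h3⟩
    refine ⟨Submodule.smul_mem _ c h1, Submodule.smul_mem _ c h2, ?_⟩
    have : (c • p).1 + tr F s (c • p).2 = c • (p.1 + tr F s p.2) := by
      simp only [Prod.smul_fst, Prod.smul_snd, map_smul, smul_add]
    rw [this]
    exact Submodule.smul_mem _ c h3

theorem mem_Wsub {s t : G} {p : (X → F) × (X → F)} :
    p ∈ Wsub F s t ↔ p.1 ∈ Zsub F s ∧ p.2 ∈ Zsub F t ∧ p.1 + tr F s p.2 ∈ Zsub F (s * t) :=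
  Iff.rfl

theorem finrank_Wsub_add_card_le [Fintype X] [MulAction.IsPretransitive G X] (s t : G)
    (hgen : Subgroup.closure {s, t} = ⊤) :
    Module.finrank F (Wsub (X := X) F s t) + Fintype.card X ≤
      Module.finrank F (Zsub (X := X) F s) + Module.finrank F (Zsub (X := X) F t) +
        Module.finrank F (Zsub (X := X) F (s * t)) + 1 := by
  classical
  let π : (Wsub F s t) →ₗ[F] (X → F) := (LinearMap.snd F _ _).comp (Wsub F s t).subtype
  have hπ : LinearMap.range π ≤ Zsub F t := by
    rintro _ ⟨p, rfl⟩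
    exact p.2.2.1
  let ι : (LinearMap.ker π) →ₗ[F] (X → F) :=
    ((LinearMap.fst F _ _).comp (Wsub F s t).subtype).comp (LinearMap.ker π).subtype
  have hι : Function.Injective ι := by
    rw [injective_iff_map_eq_zero]
    intro p hp
    have h2 : (p.1.1 : (X → F) × (X → F)).2 = 0 := LinearMap.mem_ker.mp p.2
    have h1 : (p.1.1 : (X → F) × (X → F)).1 = 0 := hp
    apply Subtype.ext
    apply Subtype.ext
    exact Prod.ext h1 h2
  have hιr : LinearMap.range ι ≤ Zsub F s ⊓ Zsub F (s * t) := by
    rintro _ ⟨p, rfl⟩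
    have h2 : (p.1.1 : (X → F) × (X → F)).2 = 0 := LinearMap.mem_ker.mp p.2
    refine ⟨p.1.2.1, ?_⟩
    have h3 := p.1.2.2.2
    rw [h2, map_zero, add_zero] at h3
    exact h3
  have e1 := LinearMap.finrank_range_add_finrank_ker π
  have e2 := Submodule.finrank_mono hπ
  have e3 := Submodule.finrank_mono hιr
  rw [LinearMap.finrank_range_of_inj hι] at e3
  have e4 := Submodule.finrank_sup_add_finrank_inf_eq (Zsub (X := X) F s) (Zsub (X := X) F (s * t))
  have e5 := card_le_finrank_sup_add_one (X := X) F s t hgen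
  omega

theorem finrank_Wsub_add_nOrb_le [Fintype X] [MulAction.IsPretransitive G X] (s t : G)
    (hgen : Subgroup.closure {s, t} = ⊤)
    (hper : ∀ (g : G) (x : X), 0 < MulAction.period g x) :
    Module.finrank F (Wsub (X := X) F s t) + nOrb X s + nOrb X t + nOrb X (s * t) ≤
      2 * Fintype.card X + 1 := by
  have h0 := finrank_Wsub_add_card_le (X := X) F s t hgen
  have h1 := finrank_Zsub_add_nOrb_le (X := X) F s (hper s)
  have h2 := finrank_Zsub_add_nOrb_le (X := X) F t (hper t)
  have h3 := finrank_Zsub_add_nOrb_le (X := X) F (s * t) (hper (s * t))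
  omega

end CF

end Fermat.Agent.S16
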