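import Fermat.Agent.S16.CFShapiro
import Fermat.Agent.S16.CFLinAlg
import Fermat.Agent.S21.Orbits

/-!
# S16, package P8 (part 3): the characteristic-free count

For every field `F` (any characteristic) the space `traceFuns N F` of additive functions
`Γ₀(N) → F` killing every element of trace `t` with `t² ≤ 4` (parabolic and elliptic elements,
`± 1`) has dimension at most `2 * genusFormula N`.
-/

set_option autoImplicit false

open CongruenceSubgroup ModularCurve ModularCurve.Period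
open scoped MatrixGroups

namespace Fermat.Agent.S16

namespace CF

open Fermat.Agent.S21

/-- `φ` kills every element of `Γ₀(N)` whose trace `t` satisfies `t² ≤ 4` -/
def IsTraceHom (N : ℕ) {A : Type*} [AddCommGroup A] (φ : Additive (Gamma0 N) →+ A) : Prop :=
  ∀ γ : Gamma0 N, ((γ : SL(2, ℤ)) : Matrix (Fin 2) (Fin 2) ℤ).trace ^ 2 ≤ 4 →
    φ (Additive.ofMul γ) = 0

theorem IsTraceHom.isParabolicHom {N : ℕ} {A : Type*} [AddCommGroup A]
    {φ : Additive (Gamma0 N) →+ A} (h : IsTraceHom N φ) : IsParabolicHom (Gamma0 N) φ :=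
  fun γ hγ => h γ hγ.le

/-- the additive map attached to an additive function on `Γ₀(N)` -/
def homOf {N : ℕ} {A : Type*} [AddCommGroup A] (f : Gamma0 N → A)
    (hf : ∀ γ δ : Gamma0 N, f (γ * δ) = f γ + f δ) : Additive (Gamma0 N) →+ A :=
  AddMonoidHom.mk' (fun a => f (Additive.toMul a)) (fun _ _ => hf _ _)

@[simp] theorem homOf_apply {N : ℕ} {A : Type*} [AddCommGroup A] (f : Gamma0 N → A)
    (hf : ∀ γ δ : Gamma0 N, f (γ * δ) = f γ + f δ) (γ : Gamma0 N) :
    homOf f hf (Additive.ofMul γ) = f γ := rfl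

/-- the additive functions `Γ₀(N) → F` killing the elements of trace `t`, `t² ≤ 4`, as a
subspace of the space of all functions (this avoids instance problems with `A →+ F`) -/
def traceFuns (N : ℕ) (F : Type*) [Field F] : Submodule F (Gamma0 N → F) where
  carrier := {f | (∀ γ δ : Gamma0 N, f (γ * δ) = f γ + f δ) ∧
    ∀ γ : Gamma0 N, ((γ : SL(2, ℤ)) : Matrix (Fin 2) (Fin 2) ℤ).trace ^ 2 ≤ 4 → f γ = 0}
  zero_mem' := ⟨fun _ _ => by simp, fun _ _ => rfl⟩
  add_mem' := by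
    rintro f g ⟨hf, hf'⟩ ⟨hg, hg'⟩
    refine ⟨fun γ δ => ?_, fun γ hγ => ?_⟩
    · simp only [Pi.add_apply, hf, hg]; abel
    · simp only [Pi.add_apply, hf' γ hγ, hg' γ hγ, add_zero]
  smul_mem' := by
    rintro c f ⟨hf, hf'⟩
    refine ⟨fun γ δ => ?_, fun γ hγ => ?_⟩
    · simp only [Pi.smul_apply, hf, smul_add]
    · simp only [Pi.smul_apply, hf' γ hγ, smul_zero]

theorem mem_traceFuns {N : ℕ} {F : Type*} [Field F] {f : Gamma0 N → F} :
    f ∈ traceFuns N F ↔ (∀ γ δ : Gamma0 N, f (γ * δ) = f γ + f δ) ∧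
      ∀ γ : Gamma0 N, ((γ : SL(2, ℤ)) : Matrix (Fin 2) (Fin 2) ℤ).trace ^ 2 ≤ 4 → f γ = 0 :=
  Iff.rfl

/-- the homomorphism attached to an element of `traceFuns` -/
def traceFuns.hom {N : ℕ} {F : Type*} [Field F] (f : traceFuns N F) : Additive (Gamma0 N) →+ F :=
  homOf (f : Gamma0 N → F) f.2.1

theorem traceFuns.hom_apply {N : ℕ} {F : Type*} [Field F] (f : traceFuns N F) (γ : Gamma0 N) :
    traceFuns.hom f (Additive.ofMul γ) = (f : Gamma0 N → F) γ := rfl

theorem traceFuns.isTraceHom {N : ℕ} {F : Type*} [Field F] (f : traceFuns N F) :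
    IsTraceHom N (traceFuns.hom f) := fun γ hγ => f.2.2 γ hγ

theorem trace_conj (r g : SL(2, ℤ)) :
    ((r⁻¹ * g * r : SL(2, ℤ)) : Matrix (Fin 2) (Fin 2) ℤ).trace =
      ((g : SL(2, ℤ)) : Matrix (Fin 2) (Fin 2) ℤ).trace := by
  rw [Matrix.SpecialLinearGroup.coe_mul, Matrix.trace_mul_comm,
    ← Matrix.SpecialLinearGroup.coe_mul, mul_inv_cancel_left]

theorem trace_pow_sq_le (g : SL(2, ℤ)) (n : ℕ) (hn : 0 < n) (hg : g ^ n = 1)
    (h : ∀ r < n, ((g ^ r : SL(2, ℤ)) : Matrix (Fin 2) (Fin 2) ℤ).trace ^ 2 ≤ 4) (k : ℕ) :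
    ((g ^ k : SL(2, ℤ)) : Matrix (Fin 2) (Fin 2) ℤ).trace ^ 2 ≤ 4 := by
  have hk : g ^ k = g ^ (k % n) := by
    conv_lhs => rw [← Nat.div_add_mod k n, pow_add, pow_mul, hg, one_pow, one_mul]
  rw [hk]
  exact h _ (Nat.mod_lt _ hn)

theorem trace_S_pow_sq_le (k : ℕ) :
    ((ModularGroup.S ^ k : SL(2, ℤ)) : Matrix (Fin 2) (Fin 2) ℤ).trace ^ 2 ≤ 4 := by
  refine trace_pow_sq_le ModularGroup.S 4 (by norm_num) Shapiro.S_pow_four ?_ k
  intro r hr
  interval_cases r <;> decide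

theorem trace_ST_pow_sq_le (k : ℕ) :
    (((ModularGroup.S * ModularGroup.T) ^ k : SL(2, ℤ)) : Matrix (Fin 2) (Fin 2) ℤ).trace ^ 2
      ≤ 4 := by
  refine trace_pow_sq_le (ModularGroup.S * ModularGroup.T) 6 (by norm_num) Shapiro.ST_pow_six ?_ k
  intro r hr
  interval_cases r <;> decide

theorem trace_T_pow_sq_le (k : ℕ) :
    ((ModularGroup.T ^ k : SL(2, ℤ)) : Matrix (Fin 2) (Fin 2) ℤ).trace ^ 2 ≤ 4 := by
  have h := Shapiro.trace_conj_T_pow 1 k
  rw [inv_one, one_mul, mul_one] at h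
  rw [h]
  norm_num

section count

variable (N : ℕ) [NeZero N] (F : Type*) [Field F]

omit [NeZero N] in
/-- the cocycle of a trace-hom at `g` has vanishing orbit sums, if all powers of `g` have
trace `t` with `t² ≤ 4` -/
theorem cfn_mem_Zsub (ψ : Additive (Gamma0 N) →+ F) (hψ : IsTraceHom N ψ)
    (m : SL(2, ℤ) ⧸ Gamma0 N → F) (g : SL(2, ℤ))
    (hg : ∀ k : ℕ, ((g ^ k : SL(2, ℤ)) : Matrix (Fin 2) (Fin 2) ℤ).trace ^ 2 ≤ 4) :
    cfn (Gamma0 N) ψ m g ∈ Zsub F g := by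
  intro x
  rw [← cfn_pow]
  obtain ⟨γ, hγ, hγ2⟩ := cfn_of_fixed (Gamma0 N) ψ m (g ^ MulAction.period g x) x
    (MulAction.pow_period_smul g x)
  rw [hγ2]
  apply hψ
  rw [hγ, trace_conj]
  exact hg _

/-- the map `(ψ, m) ↦ (c_{ψ,m}(S), c_{ψ,m}(T))` -/
noncomputable def ThetaF :
    ((traceFuns N F) × (SL(2, ℤ) ⧸ Gamma0 N → F)) →ₗ[F]
      ((SL(2, ℤ) ⧸ Gamma0 N → F) × (SL(2, ℤ) ⧸ Gamma0 N → F)) where
  toFun p := (cfn (Gamma0 N) (traceFuns.hom p.1) p.2 ModularGroup.S,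
    cfn (Gamma0 N) (traceFuns.hom p.1) p.2 ModularGroup.T)
  map_add' p q := by
    refine Prod.ext ?_ ?_ <;>
    · funext x
      simp only [cfn, traceFuns.hom_apply, Prod.fst_add, Prod.snd_add, Submodule.coe_add,
        Pi.add_apply]
      ring
  map_smul' a p := by
    refine Prod.ext ?_ ?_ <;>
    · funext x
      simp only [cfn, traceFuns.hom_apply, Prod.smul_fst, Prod.smul_snd, Submodule.coe_smul,
        Pi.smul_apply, smul_eq_mul, RingHom.id_apply]
      ring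

omit [NeZero N] in
theorem ThetaF_apply (p : (traceFuns N F) × (SL(2, ℤ) ⧸ Gamma0 N → F)) :
    ThetaF N F p = (cfn (Gamma0 N) (traceFuns.hom p.1) p.2 ModularGroup.S,
      cfn (Gamma0 N) (traceFuns.hom p.1) p.2 ModularGroup.T) := rfl

omit [NeZero N] in
theorem ThetaF_ker (p : (traceFuns N F) × (SL(2, ℤ) ⧸ Gamma0 N → F)) (hp : ThetaF N F p = 0) :
    p.1 = 0 ∧ ∀ x, p.2 x = p.2 ((1 : SL(2, ℤ)) : SL(2, ℤ) ⧸ Gamma0 N) := by
  rw [ThetaF_apply, Prod.mk_eq_zero] at hp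
  have hgen : Subgroup.closure {ModularGroup.S, ModularGroup.T} = (⊤ : Subgroup SL(2, ℤ)) :=
    SpecialLinearGroup.SL2Z_generators
  obtain ⟨h1, h2⟩ := eq_zero_of_cfn (Gamma0 N) (traceFuns.hom p.1) p.2
    {ModularGroup.S, ModularGroup.T} hgen (by
      intro s hs x
      rcases hs with rfl | rfl
      · exact congrFun hp.1 x
      · exact congrFun hp.2 x)
  refine ⟨Subtype.ext ?_, h2⟩
  funext γ
  have := congrArg (fun ψ : Additive (Gamma0 N) →+ F => ψ (Additive.ofMul γ)) h1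
  exact this

omit [NeZero N] in
theorem ThetaF_mem (p : (traceFuns N F) × (SL(2, ℤ) ⧸ Gamma0 N → F)) :
    ThetaF N F p ∈ Wsub (X := SL(2, ℤ) ⧸ Gamma0 N) F ModularGroup.S ModularGroup.T := by
  rw [ThetaF_apply, mem_Wsub]
  refine ⟨cfn_mem_Zsub N F _ (traceFuns.isTraceHom p.1) _ _ trace_S_pow_sq_le,
    cfn_mem_Zsub N F _ (traceFuns.isTraceHom p.1) _ _ trace_T_pow_sq_le, ?_⟩
  have h : cfn (Gamma0 N) (traceFuns.hom p.1) p.2 ModularGroup.S +
      tr F ModularGroup.S (cfn (Gamma0 N) (traceFuns.hom p.1) p.2 ModularGroup.T) =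
      cfn (Gamma0 N) (traceFuns.hom p.1) p.2 (ModularGroup.S * ModularGroup.T) := by
    funext x
    rw [cfn_mul]
    rfl
  rw [h]
  exact cfn_mem_Zsub N F _ (traceFuns.isTraceHom p.1) _ _ trace_ST_pow_sq_le

theorem finite_traceFuns : Module.Finite F (traceFuns N F) := by
  classical
  have hfinX : Finite (SL(2, ℤ) ⧸ Gamma0 N) := inferInstance
  let _ : Fintype (SL(2, ℤ) ⧸ Gamma0 N) := Fintype.ofFinite _
  let ι : (traceFuns N F) →ₗ[F]
      ((SL(2, ℤ) ⧸ Gamma0 N → F) × (SL(2, ℤ) ⧸ Gamma0 N → F)) :=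
    (ThetaF N F).comp (LinearMap.inl F _ _)
  have hι : Function.Injective ι := by
    rw [injective_iff_map_eq_zero]
    intro ψ hψ
    exact (ThetaF_ker N F (ψ, 0) hψ).1
  exact Module.Finite.of_injective ι hι

theorem finrank_traceFuns_add_nOrb_le :
    Module.finrank F (traceFuns N F) + nOrb (SL(2, ℤ) ⧸ Gamma0 N) ModularGroup.S
      + nOrb (SL(2, ℤ) ⧸ Gamma0 N) ModularGroup.T
      + nOrb (SL(2, ℤ) ⧸ Gamma0 N) (ModularGroup.S * ModularGroup.T) ≤
        Nat.card (SL(2, ℤ) ⧸ Gamma0 N) + 2 := by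
  classical
  have hfinX : Finite (SL(2, ℤ) ⧸ Gamma0 N) := inferInstance
  let _ : Fintype (SL(2, ℤ) ⧸ Gamma0 N) := Fintype.ofFinite _
  have hfin : Module.Finite F (traceFuns N F) := finite_traceFuns N F
  have hgen : Subgroup.closure {ModularGroup.S, ModularGroup.T} = (⊤ : Subgroup SL(2, ℤ)) :=
    SpecialLinearGroup.SL2Z_generators
  have hrange : LinearMap.range (ThetaF N F) ≤
      Wsub (X := SL(2, ℤ) ⧸ Gamma0 N) F ModularGroup.S ModularGroup.T := by
    rintro _ ⟨p, rfl⟩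
    exact ThetaF_mem N F p
  have hkerle : Module.finrank F (LinearMap.ker (ThetaF N F)) ≤ 1 := by
    let φ : (LinearMap.ker (ThetaF N F)) →ₗ[F] F :=
      ((LinearMap.proj ((1 : SL(2, ℤ)) : SL(2, ℤ) ⧸ Gamma0 N)).comp (LinearMap.snd F _ _)).comp
        (LinearMap.ker (ThetaF N F)).subtype
    have hφ : Function.Injective φ := by
      rw [injective_iff_map_eq_zero]
      intro w hw
      obtain ⟨h1, h2⟩ := ThetaF_ker N F w.1 w.2
      apply Subtype.ext
      refine Prod.ext h1 ?_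
      funext x
      rw [h2 x]
      exact hw
    have := LinearMap.finrank_le_finrank_of_injective hφ
    simpa using this
  have hrn := LinearMap.finrank_range_add_finrank_ker (ThetaF N F)
  have hdim : Module.finrank F ((traceFuns N F) × (SL(2, ℤ) ⧸ Gamma0 N → F)) =
      Module.finrank F (traceFuns N F) + Nat.card (SL(2, ℤ) ⧸ Gamma0 N) := by
    rw [Module.finrank_prod, Module.finrank_fintype_fun_eq_card, Nat.card_eq_fintype_card]
  have hle := Submodule.finrank_mono hrange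
  obtain ⟨k, hk, hkX⟩ := exists_pow_smul_eq N
  have hper : ∀ (g : SL(2, ℤ)) (x : SL(2, ℤ) ⧸ Gamma0 N), 0 < MulAction.period g x :=
    fun g x => MulAction.period_pos_of_fixed hk (hkX g x)
  have hW := finrank_Wsub_add_nOrb_le (X := SL(2, ℤ) ⧸ Gamma0 N) F ModularGroup.S ModularGroup.T
    hgen hper
  rw [← Nat.card_eq_fintype_card] at hW
  omega

/-- the characteristic-free bound -/
theorem finrank_traceFuns_le_two_genus :
    (Module.finrank F (traceFuns N F) : ℚ) ≤ 2 * genusFormula N := by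
  have h := finrank_traceFuns_add_nOrb_le N F
  have h2 := orbit_count N
  have h' : ((Module.finrank F (traceFuns N F) + nOrb (SL(2, ℤ) ⧸ Gamma0 N) ModularGroup.S
      + nOrb (SL(2, ℤ) ⧸ Gamma0 N) ModularGroup.T
      + nOrb (SL(2, ℤ) ⧸ Gamma0 N) (ModularGroup.S * ModularGroup.T) : ℕ) : ℚ) ≤
        ((Nat.card (SL(2, ℤ) ⧸ Gamma0 N) + 2 : ℕ) : ℚ) := by
    exact_mod_cast h
  push_cast at h'
  linarith

end count

end CF

end Fermat.Agent.S16
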