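import Fermat.Agent.S21.Shapiro

/-!
# S16, package P8 (part 1): Shapiro cocycles with values in an arbitrary abelian group

For a subgroup `Γ ≤ G`, a homomorphism `ψ : Γ → A` into an abelian group and a function
`m : G ⧸ Γ → A`, `cfn Γ ψ m g x = ψ (r(x)⁻¹ g r(g⁻¹ x)) + m (g⁻¹ x) - m x` is a `1`-cocycle of `G`
with values in the functions `G ⧸ Γ → A`.  This is the coefficient-free version of
`Fermat.Agent.S21.Shapiro.cfun`.
-/

set_option autoImplicit false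

namespace Fermat.Agent.S16

namespace CF

open Fermat.Agent.S21

variable {G : Type} [Group G] (Γ : Subgroup G) {A : Type*} [AddCommGroup A]

/-- the Shapiro cocycle of `ψ`, twisted by the coboundary of `m` -/
noncomputable def cfn (ψ : Additive Γ →+ A) (m : G ⧸ Γ → A) (g : G) (x : G ⧸ Γ) : A :=
  ψ (Additive.ofMul (Shapiro.cocEl Γ g x)) + m (g⁻¹ • x) - m x

theorem cfn_mul (ψ : Additive Γ →+ A) (m : G ⧸ Γ → A) (g h : G) (x : G ⧸ Γ) :
    cfn Γ ψ m (g * h) x = cfn Γ ψ m g x + cfn Γ ψ m h (g⁻¹ • x) := by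
  simp only [cfn, Shapiro.cocEl_mul, ofMul_mul, map_add, mul_inv_rev, mul_smul]
  abel

theorem cfn_one (ψ : Additive Γ →+ A) (m : G ⧸ Γ → A) (x : G ⧸ Γ) : cfn Γ ψ m 1 x = 0 := by
  have h := cfn_mul Γ ψ m 1 1 x
  rw [mul_one, inv_one, one_smul] at h
  simpa using h

theorem cfn_pow (ψ : Additive Γ →+ A) (m : G ⧸ Γ → A) (g : G) (k : ℕ) (x : G ⧸ Γ) :
    cfn Γ ψ m (g ^ k) x = ∑ i ∈ Finset.range k, cfn Γ ψ m g ((g ^ i)⁻¹ • x) := by
  induction k with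
  | zero => simp [cfn_one]
  | succ k ih => rw [pow_succ, cfn_mul, ih, Finset.sum_range_succ]

theorem cfn_inv (ψ : Additive Γ →+ A) (m : G ⧸ Γ → A) (g : G)
    (h : ∀ x, cfn Γ ψ m g x = 0) (x : G ⧸ Γ) : cfn Γ ψ m g⁻¹ x = 0 := by
  have h1 := cfn_mul Γ ψ m g⁻¹ g x
  rw [inv_mul_cancel, cfn_one, h, add_zero] at h1
  exact h1.symm

theorem cfn_eq_zero_of_closure (ψ : Additive Γ →+ A) (m : G ⧸ Γ → A) (S : Set G)
    (hS : Subgroup.closure S = ⊤) (h : ∀ s ∈ S, ∀ x, cfn Γ ψ m s x = 0) (g : G) :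
    ∀ x, cfn Γ ψ m g x = 0 := by
  have hg : g ∈ Subgroup.closure S := by rw [hS]; trivial
  induction hg using Subgroup.closure_induction with
  | mem y hy => exact h y hy
  | one => exact cfn_one Γ ψ m
  | mul y z _ _ hy hz => intro x; rw [cfn_mul, hy, hz, add_zero]
  | inv y _ hy => exact cfn_inv Γ ψ m y hy

/-- at a fixed point of `g` the cocycle is the value of `ψ` at a conjugate of `g` -/
theorem cfn_of_fixed (ψ : Additive Γ →+ A) (m : G ⧸ Γ → A) (g : G) (x : G ⧸ Γ)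
    (hx : g • x = x) :
    ∃ γ : Γ, (γ : G) = (Shapiro.rep Γ x)⁻¹ * g * Shapiro.rep Γ x ∧
      cfn Γ ψ m g x = ψ (Additive.ofMul γ) := by
  have hx' : g⁻¹ • x = x := by rw [inv_smul_eq_iff, hx]
  refine ⟨Shapiro.cocEl Γ g x, ?_, ?_⟩
  · show (Shapiro.rep Γ x)⁻¹ * g * Shapiro.rep Γ (g⁻¹ • x) = _
    rw [hx']
  · simp only [cfn, hx']
    abel

/-- a cocycle `cfn Γ ψ m` vanishing on generators comes from `ψ = 0` and a constant `m` -/
theorem eq_zero_of_cfn (ψ : Additive Γ →+ A) (m : G ⧸ Γ → A) (S : Set G)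
    (hS : Subgroup.closure S = ⊤) (h : ∀ s ∈ S, ∀ x, cfn Γ ψ m s x = 0) :
    ψ = 0 ∧ ∀ x, m x = m ((1 : G) : G ⧸ Γ) := by
  have hc : ∀ (g : G) (x : G ⧸ Γ), cfn Γ ψ m g x = 0 := cfn_eq_zero_of_closure Γ ψ m S hS h
  have hψ : ψ = 0 := by
    apply AddMonoidHom.ext
    intro γ'
    obtain ⟨γ, rfl⟩ := Additive.ofMul.surjective γ'
    set x0 : G ⧸ Γ := ((1 : G) : G ⧸ Γ) with hx0
    have hfix : (γ : G) • x0 = x0 := by
      show (((γ : G) * 1 : G) : G ⧸ Γ) = ((1 : G) : G ⧸ Γ)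
      rw [QuotientGroup.eq]
      simp
    have hr0 : Shapiro.rep Γ x0 ∈ Γ := by
      have h1 : ((Shapiro.rep Γ x0 : G) : G ⧸ Γ) = ((1 : G) : G ⧸ Γ) := Shapiro.mk_rep Γ x0
      rw [QuotientGroup.eq] at h1
      simpa using h1
    obtain ⟨δ, hδ, hδ2⟩ := cfn_of_fixed Γ ψ m (γ : G) x0 hfix
    have hel : δ = (⟨Shapiro.rep Γ x0, hr0⟩ : Γ)⁻¹ * γ * ⟨Shapiro.rep Γ x0, hr0⟩ :=
      Subtype.ext hδ
    have h0 := hc (γ : G) x0
    rw [hδ2, hel] at h0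
    simp only [ofMul_mul, ofMul_inv, map_add, map_neg] at h0
    simp only [AddMonoidHom.zero_apply]
    rw [← h0]
    abel
  refine ⟨hψ, ?_⟩
  intro x
  obtain ⟨g, rfl⟩ := QuotientGroup.mk_surjective x
  have h0 := hc g ((g : G) : G ⧸ Γ)
  have hg : g⁻¹ • ((g : G) : G ⧸ Γ) = ((1 : G) : G ⧸ Γ) := by
    show ((g⁻¹ * g : G) : G ⧸ Γ) = _
    rw [inv_mul_cancel]
  simp only [cfn, hψ, AddMonoidHom.zero_apply, zero_add, hg] at h0
  rw [sub_eq_zero] at h0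
  exact h0.symm

end CF

end Fermat.Agent.S16
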