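import Mathlib
import Fermat.Agent.S22.HeckeDefs

/-!
# S16, lower bound: correspondences on `Γ₀(N)`

A *correspondence* is an additive endomorphism of the free abelian group `ℤ[Γ₀(N)]`.  It acts on
functions `Γ₀(N) → M` for every abelian group `M`, naturally in `M`.  The Hecke correspondences
`tCorr`, `uCorr` are built from the S22 coset decompositions `gamT`, `gamU`.
-/

set_option autoImplicit false

open scoped MatrixGroups

namespace Fermat.Agent.S16.LB

open Fermat.Agent.S22

/-- Correspondences on `Γ₀(N)`: additive endomorphisms of `ℤ[Γ₀(N)]`. -/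
abbrev Corr (N : ℕ) : Type := (Gam N →₀ ℤ) →+ (Gam N →₀ ℤ)

section Act

variable {N : ℕ} {M M' : Type*} [AddCommGroup M] [AddCommGroup M']

/-- The additive extension of a function `Γ₀(N) → M` to `ℤ[Γ₀(N)]`. -/
noncomputable def liftFun (ψ : Gam N → M) : (Gam N →₀ ℤ) →+ M :=
  Finsupp.liftAddHom (fun γ => zmultiplesHom M (ψ γ))

@[simp] theorem liftFun_single (ψ : Gam N → M) (γ : Gam N) (k : ℤ) :
    liftFun ψ (Finsupp.single γ k) = k • ψ γ := by
  simp [liftFun]

/-- The action of a correspondence on functions. -/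
noncomputable def corrAct (A : Corr N) (ψ : Gam N → M) : Gam N → M :=
  fun γ => liftFun ψ (A (Finsupp.single γ 1))

theorem corrAct_apply (A : Corr N) (ψ : Gam N → M) (γ : Gam N) :
    corrAct A ψ γ = liftFun ψ (A (Finsupp.single γ 1)) := rfl

theorem liftFun_corrAct (A : Corr N) (ψ : Gam N → M) :
    liftFun (corrAct A ψ) = (liftFun ψ).comp A := by
  refine Finsupp.addHom_ext fun γ k => ?_
  rw [liftFun_single, corrAct_apply, AddMonoidHom.comp_apply]
  have : (Finsupp.single γ k : Gam N →₀ ℤ) = k • Finsupp.single γ 1 := by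
    rw [Finsupp.smul_single, smul_eq_mul, mul_one]
  rw [this, map_zsmul, map_zsmul]

theorem corrAct_comp_left (A B : Corr N) (ψ : Gam N → M) :
    corrAct (A.comp B) ψ = corrAct B (corrAct A ψ) := by
  funext γ
  rw [corrAct_apply, corrAct_apply, liftFun_corrAct]
  rfl

theorem corrAct_add_left (A B : Corr N) (ψ : Gam N → M) :
    corrAct (A + B) ψ = corrAct A ψ + corrAct B ψ := by
  funext γ
  rw [Pi.add_apply, corrAct_apply, corrAct_apply, corrAct_apply, AddMonoidHom.add_apply, map_add]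

theorem corrAct_zsmul_id (a : ℤ) (ψ : Gam N → M) :
    corrAct (a • AddMonoidHom.id (Gam N →₀ ℤ)) ψ = a • ψ := by
  funext γ
  rw [corrAct_apply, AddMonoidHom.smul_apply, AddMonoidHom.id_apply, map_zsmul, liftFun_single,
    one_smul]
  rfl

/-- Naturality of the action in the coefficient group. -/
theorem corrAct_map (A : Corr N) (l : M →+ M') (ψ : Gam N → M) :
    corrAct A (fun γ => l (ψ γ)) = fun γ => l (corrAct A ψ γ) := by
  have h : liftFun (fun γ => l (ψ γ)) = l.comp (liftFun ψ) := by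
    refine Finsupp.addHom_ext fun γ k => ?_
    simp
  funext γ
  rw [corrAct_apply, h]
  rfl

theorem corrAct_zero_right (A : Corr N) : corrAct A (0 : Gam N → M) = 0 := by
  funext γ
  have h : liftFun (0 : Gam N → M) = 0 := by
    refine Finsupp.addHom_ext fun γ k => ?_
    simp
  rw [corrAct_apply, h]
  rfl

theorem corrAct_add_right (A : Corr N) (ψ₁ ψ₂ : Gam N → M) :
    corrAct A (ψ₁ + ψ₂) = corrAct A ψ₁ + corrAct A ψ₂ := by
  have h : liftFun (ψ₁ + ψ₂) = liftFun ψ₁ + liftFun ψ₂ := by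
    refine Finsupp.addHom_ext fun γ k => ?_
    simp
  funext γ
  rw [corrAct_apply, h]
  rfl

theorem corrAct_zsmul_right (A : Corr N) (a : ℤ) (ψ : Gam N → M) :
    corrAct A (a • ψ) = a • corrAct A ψ :=
  corrAct_map A (zsmulAddGroupHom a : M →+ M) ψ

end Act

section Hecke

variable {N : ℕ}

/-- The correspondence `γ ↦ ∑ₓ [γₓ]` attached to a finite family of maps `Γ₀(N) → Γ₀(N)`. -/
noncomputable def sumCorr {ι : Type*} [Fintype ι] (s : Gam N → ι → Gam N) : Corr N :=
  liftFun (fun γ => ∑ x : ι, Finsupp.single (s γ x) (1 : ℤ))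

theorem corrAct_sumCorr {ι : Type*} [Fintype ι] (s : Gam N → ι → Gam N)
    {M : Type*} [AddCommGroup M] (ψ : Gam N → M) (γ : Gam N) :
    corrAct (sumCorr s) ψ γ = ∑ x : ι, ψ (s γ x) := by
  have h : sumCorr s (Finsupp.single γ 1) = ∑ x : ι, Finsupp.single (s γ x) (1 : ℤ) := by
    unfold sumCorr
    rw [liftFun_single, one_smul]
  rw [corrAct_apply, h, map_sum]
  simp

/-- The Hecke correspondence `T_l` (`l ∤ N`). -/
noncomputable def tCorr (N l : ℕ) [Fact l.Prime] (hlN : ¬ l ∣ N) : Corr N :=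
  haveI : NeZero l := ⟨(Fact.out : l.Prime).ne_zero⟩
  sumCorr (fun γ (x : OnePoint (ZMod l)) => gamT hlN γ x)

/-- The Hecke correspondence `U_q` (`q ∣ N`). -/
noncomputable def uCorr (N q : ℕ) [NeZero q] (hqN : q ∣ N) : Corr N :=
  sumCorr (fun γ (x : ZMod q) => gamU hqN γ x)

theorem corrAct_tCorr {l : ℕ} [Fact l.Prime] (hlN : ¬ l ∣ N)
    {M : Type*} [AddCommGroup M] (ψ : Gam N → M) (γ : Gam N) :
    corrAct (tCorr N l hlN) ψ γ =
      haveI : NeZero l := ⟨(Fact.out : l.Prime).ne_zero⟩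
      ∑ x : OnePoint (ZMod l), ψ (gamT hlN γ x) := by
  unfold tCorr
  exact corrAct_sumCorr _ ψ γ

theorem corrAct_uCorr {q : ℕ} [NeZero q] (hqN : q ∣ N)
    {M : Type*} [AddCommGroup M] (ψ : Gam N → M) (γ : Gam N) :
    corrAct (uCorr N q hqN) ψ γ = ∑ x : ZMod q, ψ (gamU hqN γ x) := by
  unfold uCorr
  exact corrAct_sumCorr _ ψ γ

end Hecke

end Fermat.Agent.S16.LB
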