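import Mathlib

/-!
# S16, package P8 (abstract part): lifting homomorphisms `Γ → ℤ/n` to `Γ → ℤ`

For a group `Γ` and a set `E ⊆ Γ`, `homKill E R` is the module of homomorphisms `Γ → R` killing `E`.

* `exists_lift_prime`: if `homKill E ℤ` is finite free of rank `≥ dim_{𝔽_r} homKill E 𝔽_r`, then
  every element of `homKill E 𝔽_r` is the reduction of an element of `homKill E ℤ`.
* `exists_lift_of_prime`: bootstrap from all primes `r` to arbitrary moduli `n`.
-/

set_option autoImplicit false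

namespace Fermat.Agent.S16.IntLift

variable {Γ : Type*} [Group Γ]

/-- Homomorphisms `Γ → R` killing every element of `E`. -/
def homKill (E : Set Γ) (R : Type*) [CommRing R] : Submodule R (Additive Γ →+ R) where
  carrier := {φ | ∀ γ ∈ E, φ (Additive.ofMul γ) = 0}
  zero_mem' := fun _ _ => rfl
  add_mem' := by
    intro φ ψ hφ hψ γ hγ
    show φ (Additive.ofMul γ) + ψ (Additive.ofMul γ) = 0
    rw [hφ γ hγ, hψ γ hγ, add_zero]
  smul_mem' := by
    intro c φ hφ γ hγ
    show c • φ (Additive.ofMul γ) = 0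
    rw [hφ γ hγ, smul_zero]

theorem mem_homKill {E : Set Γ} {R : Type*} [CommRing R] {φ : Additive Γ →+ R} :
    φ ∈ homKill E R ↔ ∀ γ ∈ E, φ (Additive.ofMul γ) = 0 := Iff.rfl

/-- Reduction mod `n` of an integer-valued homomorphism. -/
def red (n : ℕ) (Φ : Additive Γ →+ ℤ) : Additive Γ →+ ZMod n :=
  (Int.castAddHom (ZMod n)).comp Φ

@[simp] theorem red_apply (n : ℕ) (Φ : Additive Γ →+ ℤ) (γ : Additive Γ) :
    red n Φ γ = ((Φ γ : ℤ) : ZMod n) := rfl

theorem red_mem {E : Set Γ} (n : ℕ) {Φ : Additive Γ →+ ℤ} (h : Φ ∈ homKill E ℤ) :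
    red n Φ ∈ homKill E (ZMod n) := by
  intro γ hγ
  rw [red_apply, h γ hγ, Int.cast_zero]

/-- Division by `r` of a homomorphism all of whose values are divisible by `r`. -/
def divHom (r : ℤ) (Ψ : Additive Γ →+ ℤ) (h : ∀ γ, r ∣ Ψ γ) : Additive Γ →+ ℤ where
  toFun γ := Ψ γ / r
  map_zero' := by simp
  map_add' a b := by
    rw [map_add, Int.add_ediv_of_dvd_left (h a)]

theorem divHom_apply (r : ℤ) (Ψ : Additive Γ →+ ℤ) (h : ∀ γ, r ∣ Ψ γ) (γ : Additive Γ) :
    r * divHom r Ψ h γ = Ψ γ :=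
  Int.mul_ediv_cancel' (h γ)

theorem divHom_mem {E : Set Γ} (r : ℤ) (Ψ : Additive Γ →+ ℤ) (h : ∀ γ, r ∣ Ψ γ)
    (hΨ : Ψ ∈ homKill E ℤ) : divHom r Ψ h ∈ homKill E ℤ := by
  intro γ hγ
  show Ψ (Additive.ofMul γ) / r = 0
  rw [hΨ γ hγ, Int.zero_ediv]

/-- **Lifting mod a prime.** -/
theorem exists_lift_prime (E : Set Γ) (r : ℕ) [Fact r.Prime]
    [Module.Finite ℤ (homKill E ℤ)] [Module.Free ℤ (homKill E ℤ)]
    [Module.Finite (ZMod r) (homKill E (ZMod r))]
    (h : Module.finrank (ZMod r) (homKill E (ZMod r)) ≤ Module.finrank ℤ (homKill E ℤ))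
    (φ : Additive Γ →+ ZMod r) (hφ : φ ∈ homKill E (ZMod r)) :
    ∃ Φ ∈ homKill E ℤ, ∀ γ, ((Φ γ : ℤ) : ZMod r) = φ γ := by
  classical
  have hr : r.Prime := Fact.out
  let b := Module.Free.chooseBasis ℤ (homKill E ℤ)
  let ι := Module.Free.ChooseBasisIndex ℤ (homKill E ℤ)
  let v : ι → homKill E (ZMod r) := fun i => ⟨red r (b i : Additive Γ →+ ℤ), red_mem r (b i).2⟩
  -- reduction of integer combinations
  have hcomb : ∀ (c : ι → ℤ) (γ : Additive Γ),
      (((∑ i, c i • (b i : Additive Γ →+ ℤ)) γ : ℤ) : ZMod r) =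
        ((∑ i, (c i : ZMod r) • v i : homKill E (ZMod r)) : Additive Γ →+ ZMod r) γ := by
    intro c γ
    simp only [AddMonoidHom.finsetSum_apply, AddMonoidHom.smul_apply, Submodule.coe_sum,
      Submodule.coe_smul, smul_eq_mul, Int.cast_sum, Int.cast_mul]
    rfl
  have hli : LinearIndependent (ZMod r) v := by
    rw [Fintype.linearIndependent_iff]
    intro g hg i
    -- lift the coefficients
    let c : ι → ℤ := fun i => ((g i).val : ℤ)
    have hc : ∀ i, ((c i : ℤ) : ZMod r) = g i := fun i => by simp [c]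
    let Ψ : Additive Γ →+ ℤ := ∑ i, c i • (b i : Additive Γ →+ ℤ)
    have hΨmem : Ψ ∈ homKill E ℤ :=
      Submodule.sum_mem _ fun i _ => Submodule.smul_mem _ _ (b i).2
    have hdiv : ∀ γ, (r : ℤ) ∣ Ψ γ := by
      intro γ
      rw [← ZMod.intCast_zmod_eq_zero_iff_dvd, hcomb c γ]
      simp only [hc, hg]
      rfl
    let Ψ' : homKill E ℤ := ⟨divHom r Ψ hdiv, divHom_mem r Ψ hdiv hΨmem⟩
    have hΨ' : (r : ℤ) • Ψ' = ∑ i, c i • b i := by
      apply Subtype.ext
      refine AddMonoidHom.ext fun γ => ?_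
      simp only [Submodule.coe_smul, AddMonoidHom.smul_apply, smul_eq_mul, Submodule.coe_sum]
      exact divHom_apply r Ψ hdiv γ
    have hrepr : ∀ j, c j = (r : ℤ) * b.repr Ψ' j := by
      intro j
      have h1 := congrArg (fun x => b.repr x j) hΨ'
      simp only [map_smul, Finsupp.smul_apply, smul_eq_mul, map_sum, Finsupp.coe_finsetSum,
        Finset.sum_apply, Module.Basis.repr_self, Finsupp.single_apply, mul_ite, mul_one,
        mul_zero, Finset.sum_ite_eq', Finset.mem_univ, if_true] at h1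
      exact h1.symm
    rw [← hc i, hrepr i]
    simp
  have hcard : Fintype.card ι = Module.finrank (ZMod r) (homKill E (ZMod r)) := by
    have h1 := hli.fintype_card_le_finrank
    have h2 : Module.finrank ℤ (homKill E ℤ) = Fintype.card ι :=
      Module.finrank_eq_card_chooseBasisIndex ℤ (homKill E ℤ)
    omega
  have hspan := hli.span_eq_top_of_card_eq_finrank' hcard
  have hmem : (⟨φ, hφ⟩ : homKill E (ZMod r)) ∈ Submodule.span (ZMod r) (Set.range v) := by
    rw [hspan]; trivial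
  obtain ⟨g, hg⟩ := (Submodule.mem_span_range_iff_exists_fun (ZMod r)).mp hmem
  let c : ι → ℤ := fun i => ((g i).val : ℤ)
  have hc : ∀ i, ((c i : ℤ) : ZMod r) = g i := fun i => by simp [c]
  refine ⟨∑ i, c i • (b i : Additive Γ →+ ℤ),
    Submodule.sum_mem _ fun i _ => Submodule.smul_mem _ _ (b i).2, fun γ => ?_⟩
  rw [hcomb c γ]
  simp only [hc, hg]

/-- Multiplication by `r` as a map `ℤ/m → ℤ/(r m)`. -/
def mulHom (r m : ℕ) : ZMod m →+ ZMod (r * m) :=
  ZMod.lift m ⟨(AddMonoidHom.mulLeft (r : ZMod (r * m))).comp (Int.castAddHom (ZMod (r * m))), by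
    show (r : ZMod (r * m)) * ((m : ℤ) : ZMod (r * m)) = 0
    rw [Int.cast_natCast, ← Nat.cast_mul, ZMod.natCast_self]⟩

theorem mulHom_intCast (r m : ℕ) (a : ℤ) :
    mulHom r m (a : ZMod m) = (r : ZMod (r * m)) * (a : ZMod (r * m)) := by
  rw [mulHom, ZMod.lift_coe]
  rfl

theorem mulHom_injective (r m : ℕ) (hr : 0 < r) : Function.Injective (mulHom r m) := by
  rw [injective_iff_map_eq_zero]
  intro x hx
  obtain ⟨a, rfl⟩ := ZMod.intCast_surjective x
  rw [mulHom_intCast, ← Int.cast_natCast, ← Int.cast_mul, ZMod.intCast_zmod_eq_zero_iff_dvd] at hx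
  rw [ZMod.intCast_zmod_eq_zero_iff_dvd]
  push_cast at hx
  exact (mul_dvd_mul_iff_left (by exact_mod_cast hr.ne')).mp hx

theorem mem_range_mulHom (r m : ℕ) (x : ZMod (r * m))
    (hx : ZMod.castHom (dvd_mul_right r m) (ZMod r) x = 0) : x ∈ (mulHom r m).range := by
  obtain ⟨a, rfl⟩ := ZMod.intCast_surjective x
  rw [map_intCast, ZMod.intCast_zmod_eq_zero_iff_dvd] at hx
  obtain ⟨b, rfl⟩ := hx
  exact ⟨(b : ZMod m), by rw [mulHom_intCast]; push_cast; ring⟩

/-- **Bootstrap**: if homomorphisms `Γ → 𝔽_r` killing `E` lift to `ℤ` for every prime `r`, then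
homomorphisms `Γ → ℤ/n` killing `E` lift to `ℤ` for every `n ≥ 1`. -/
theorem exists_lift_of_prime (E : Set Γ)
    (H : ∀ r : ℕ, r.Prime → ∀ φ : Additive Γ →+ ZMod r, φ ∈ homKill E (ZMod r) →
      ∃ Φ ∈ homKill E ℤ, ∀ γ, ((Φ γ : ℤ) : ZMod r) = φ γ) :
    ∀ (n : ℕ), 0 < n → ∀ φ : Additive Γ →+ ZMod n, φ ∈ homKill E (ZMod n) →
      ∃ Φ ∈ homKill E ℤ, ∀ γ, ((Φ γ : ℤ) : ZMod n) = φ γ := by
  intro n
  induction n using Nat.strong_induction_on with
  | _ n ih =>
    intro hn φ hφ
    rcases Nat.lt_or_ge 1 n with h1 | h1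
    · -- `n = r * m`
      obtain ⟨r, hrp, m, hm⟩ : ∃ r : ℕ, r.Prime ∧ ∃ m : ℕ, n = r * m :=
        ⟨n.minFac, Nat.minFac_prime h1.ne', Nat.minFac_dvd n⟩
      have hmpos : 0 < m := by
        rcases Nat.eq_zero_or_pos m with rfl | h
        · simp at hm; omega
        · exact h
      have hmlt : m < n := by
        rw [hm]
        exact lt_mul_of_one_lt_left hmpos hrp.one_lt
      subst hm
      -- reduce mod `r`
      let c := ZMod.castHom (dvd_mul_right r m) (ZMod r)
      obtain ⟨Φ₁, hΦ₁, hΦ₁φ⟩ := H r hrp (c.toAddMonoidHom.comp φ) (by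
        intro γ hγ
        show c (φ (Additive.ofMul γ)) = 0
        rw [hφ γ hγ, map_zero])
      -- the difference is divisible by `r`
      let ψ : Additive Γ →+ ZMod (r * m) := φ - red (r * m) Φ₁
      have hψ : ∀ γ, ψ γ ∈ (mulHom r m).range := by
        intro γ
        apply mem_range_mulHom
        show c (φ γ - ((Φ₁ γ : ℤ) : ZMod (r * m))) = 0
        rw [map_sub, map_intCast, hΦ₁φ γ]
        exact sub_self _
      let e := AddMonoidHom.ofInjective (mulHom_injective r m hrp.pos)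
      let ψ' : Additive Γ →+ ZMod m :=
        e.symm.toAddMonoidHom.comp (ψ.codRestrict (mulHom r m).range hψ)
      have hψ' : ∀ γ, mulHom r m (ψ' γ) = ψ γ := by
        intro γ
        have := e.apply_symm_apply (ψ.codRestrict (mulHom r m).range hψ γ)
        exact congrArg Subtype.val this
      have hψ'mem : ψ' ∈ homKill E (ZMod m) := by
        intro γ hγ
        apply mulHom_injective r m hrp.pos
        rw [hψ', map_zero]
        show φ (Additive.ofMul γ) - ((Φ₁ (Additive.ofMul γ) : ℤ) : ZMod (r * m)) = 0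
        rw [hφ γ hγ, hΦ₁ γ hγ, Int.cast_zero, sub_zero]
      obtain ⟨Φ₂, hΦ₂, hΦ₂ψ⟩ := ih m hmlt hmpos ψ' hψ'mem
      refine ⟨Φ₁ + (r : ℤ) • Φ₂,
        Submodule.add_mem _ hΦ₁ (Submodule.smul_mem _ _ hΦ₂), fun γ => ?_⟩
      have h2 : ψ γ = (r : ZMod (r * m)) * ((Φ₂ γ : ℤ) : ZMod (r * m)) := by
        rw [← hψ', ← hΦ₂ψ γ, mulHom_intCast]
      have h3 : ψ γ = φ γ - ((Φ₁ γ : ℤ) : ZMod (r * m)) := rfl
      simp only [AddMonoidHom.add_apply, AddMonoidHom.smul_apply, smul_eq_mul]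
      push_cast
      rw [← h2, h3]
      ring
    · have hn1 : n = 1 := by omega
      subst hn1
      exact ⟨0, Submodule.zero_mem _, fun γ => Subsingleton.elim _ _⟩

/-! ### Finitely generated groups: finiteness and the rank comparison `ℂ` vs `ℤ` -/

/-- Two homomorphisms agreeing on a generating set are equal. -/
theorem hom_ext_of_closure {A : Type*} [AddCommGroup A] (S : Set Γ)
    (hS : Subgroup.closure S = ⊤) (φ ψ : Additive Γ →+ A)
    (h : ∀ s ∈ S, φ (Additive.ofMul s) = ψ (Additive.ofMul s)) : φ = ψ := by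
  have key : ∀ x : Γ, x ∈ Subgroup.closure S → φ (Additive.ofMul x) = ψ (Additive.ofMul x) := by
    intro x hx
    induction hx using Subgroup.closure_induction with
    | mem x hx => exact h x hx
    | one => exact (map_zero φ).trans (map_zero ψ).symm
    | mul x y _ _ hx hy =>
      show φ (Additive.ofMul x + Additive.ofMul y) = ψ (Additive.ofMul x + Additive.ofMul y)
      rw [map_add, map_add, hx, hy]
    | inv x _ hx =>
      show φ (-Additive.ofMul x) = ψ (-Additive.ofMul x)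
      rw [map_neg, map_neg, hx]
  refine AddMonoidHom.ext fun γ => ?_
  exact key (Additive.toMul γ) (by rw [hS]; trivial)

/-- Evaluation on a finite generating set. -/
def evalGen (R : Type*) [CommRing R] (S : Finset Γ) : (Additive Γ →+ R) →ₗ[R] (S → R) where
  toFun φ := fun s => φ (Additive.ofMul (s : Γ))
  map_add' _ _ := rfl
  map_smul' _ _ := rfl

theorem evalGen_injective (R : Type*) [CommRing R] (S : Finset Γ)
    (hS : Subgroup.closure (S : Set Γ) = ⊤) : Function.Injective (evalGen (Γ := Γ) R S) := by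
  intro φ ψ h
  refine hom_ext_of_closure (S : Set Γ) hS φ ψ fun s hs => ?_
  exact congrFun h ⟨s, hs⟩

theorem finite_hom (R : Type*) [CommRing R] [IsNoetherianRing R] [Group.FG Γ] :
    Module.Finite R (Additive Γ →+ R) := by
  obtain ⟨S, hS⟩ := Group.fg_def.mp (inferInstance : Group.FG Γ)
  exact Module.Finite.of_injective (evalGen R S) (evalGen_injective R S hS)

theorem finite_homKill (E : Set Γ) (R : Type*) [CommRing R] [IsNoetherianRing R] [Group.FG Γ] :
    Module.Finite R (homKill E R) := by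
  have := finite_hom (Γ := Γ) R
  have : IsNoetherian R (Additive Γ →+ R) := isNoetherian_of_isNoetherianRing_of_finite R _
  infer_instance

theorem isAddTorsionFree_homKill_int (E : Set Γ) : IsAddTorsionFree (homKill E ℤ) where
  nsmul_right_injective n hn a b hab := by
    apply Subtype.ext
    refine AddMonoidHom.ext fun γ => ?_
    have h : n • ((a : Additive Γ →+ ℤ) γ) = n • ((b : Additive Γ →+ ℤ) γ) := by
      have := congrArg (fun x : homKill E ℤ => (x : Additive Γ →+ ℤ) γ) hab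
      simpa using this
    exact nsmul_right_injective hn h

theorem free_homKill_int (E : Set Γ) [Group.FG Γ] : Module.Free ℤ (homKill E ℤ) := by
  have := finite_homKill (Γ := Γ) E ℤ
  have := isAddTorsionFree_homKill_int (Γ := Γ) E
  exact Module.free_of_finite_type_torsion_free'

/-- Clearing denominators of a `ℚ`-valued homomorphism on a finitely generated group. -/
theorem exists_int_mul (S : Finset Γ) (hS : Subgroup.closure (S : Set Γ) = ⊤)
    (χ : Additive Γ →+ ℚ) :
    ∃ N : ℕ, N ≠ 0 ∧ ∃ Φ : Additive Γ →+ ℤ, ∀ γ, ((Φ γ : ℤ) : ℚ) = N * χ γ := by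
  classical
  let N : ℕ := ∏ s ∈ S, (χ (Additive.ofMul s)).den
  have hN : N ≠ 0 := Finset.prod_ne_zero_iff.mpr fun s _ => (χ (Additive.ofMul s)).den_nz
  let H : AddSubgroup ℚ := (Int.castAddHom ℚ).range
  have hmem : ∀ γ, (N • χ) γ ∈ H := by
    have h0 : (QuotientAddGroup.mk' H).comp (N • χ) = 0 := by
      refine hom_ext_of_closure (S : Set Γ) hS _ _ fun s hs => ?_
      show ((N • χ) (Additive.ofMul s) : ℚ ⧸ H) = 0
      rw [QuotientAddGroup.eq_zero_iff]
      obtain ⟨M, hM⟩ := Finset.dvd_prod_of_mem (fun s => (χ (Additive.ofMul s)).den) hs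
      refine ⟨(M : ℤ) * (χ (Additive.ofMul s)).num, ?_⟩
      show (((M : ℤ) * (χ (Additive.ofMul s)).num : ℤ) : ℚ) = N • χ (Additive.ofMul s)
      have hN' : (N : ℚ) = (χ (Additive.ofMul s)).den * M := by
        show ((∏ s ∈ S, (χ (Additive.ofMul s)).den : ℕ) : ℚ) = _
        rw [hM]; push_cast; ring
      rw [nsmul_eq_mul, hN']
      push_cast
      rw [← Rat.mul_den_eq_num]
      ring
    intro γ
    have := congrArg (fun f : Additive Γ →+ ℚ ⧸ H => f γ) h0
    exact (QuotientAddGroup.eq_zero_iff _).mp this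
  let e := AddMonoidHom.ofInjective (f := Int.castAddHom ℚ) Int.cast_injective
  refine ⟨N, hN, e.symm.toAddMonoidHom.comp ((N • χ).codRestrict H hmem), fun γ => ?_⟩
  have h1 := e.apply_symm_apply ((N • χ).codRestrict H hmem γ)
  have h2 := congrArg Subtype.val h1
  simp only [AddMonoidHom.coe_comp, Function.comp_apply, AddEquiv.coe_toAddMonoidHom]
  rw [← nsmul_eq_mul]
  exact h2

/-- On a finitely generated group, every `ℂ`-valued homomorphism killing `E` is a `ℂ`-linear
combination of `ℤ`-valued homomorphisms killing `E`. -/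
theorem mem_span_int (E : Set Γ) [Group.FG Γ] (ψ : Additive Γ →+ ℂ) (hψ : ψ ∈ homKill E ℂ) :
    ψ ∈ Submodule.span ℂ (Set.range fun Φ : homKill E ℤ =>
      (Int.castAddHom ℂ).comp (Φ : Additive Γ →+ ℤ)) := by
  classical
  obtain ⟨S, hS⟩ := Group.fg_def.mp (inferInstance : Group.FG Γ)
  let b := Module.Basis.ofVectorSpace ℚ ℂ
  let ι := Module.Basis.ofVectorSpaceIndex ℚ ℂ
  let χ : ι → (Additive Γ →+ ℚ) := fun i => (b.coord i).toAddMonoidHom.comp ψ
  have hχ : ∀ i γ, χ i γ = b.repr (ψ γ) i := fun i γ => rfl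
  let F : Finset ι := S.biUnion fun s => (b.repr (ψ (Additive.ofMul s))).support
  have hF : ∀ i, i ∉ F → χ i = 0 := by
    intro i hi
    refine hom_ext_of_closure (S : Set Γ) hS _ _ fun s hs => ?_
    rw [hχ]
    by_contra h
    exact hi (Finset.mem_biUnion.mpr ⟨s, hs, Finsupp.mem_support_iff.mpr h⟩)
  have hsum : ∀ γ, ψ γ = ∑ i ∈ F, (χ i γ) • (b i : ℂ) := by
    intro γ
    have h1 := b.linearCombination_repr (ψ γ)
    rw [Finsupp.linearCombination_apply] at h1
    have hsub : (b.repr (ψ γ)).support ⊆ F := by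
      intro i hi
      by_contra h
      have := hF i h
      rw [Finsupp.mem_support_iff] at hi
      exact hi (by rw [← hχ, this]; rfl)
    have h2 : ((b.repr (ψ γ)).sum fun i a => a • (b i : ℂ)) =
        ∑ i ∈ F, (b.repr (ψ γ) i) • (b i : ℂ) :=
      Finsupp.sum_of_support_subset _ hsub _ (fun i _ => zero_smul _ _)
    exact h1.symm.trans h2
  choose N hN Φ hΦ using fun i => exists_int_mul S hS (χ i)
  have hΦmem : ∀ i, Φ i ∈ homKill E ℤ := by
    intro i γ hγ
    have h1 := hΦ i (Additive.ofMul γ)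
    rw [hχ, hψ γ hγ, map_zero] at h1
    simp only [Finsupp.coe_zero, Pi.zero_apply, mul_zero] at h1
    exact_mod_cast h1
  have hψeq : ψ = ∑ i ∈ F, ((b i : ℂ) * ((N i : ℂ))⁻¹) •
      (Int.castAddHom ℂ).comp (Φ i) := by
    refine AddMonoidHom.ext fun γ => ?_
    rw [hsum γ]
    simp only [AddMonoidHom.finsetSum_apply, AddMonoidHom.smul_apply, AddMonoidHom.coe_comp,
      Function.comp_apply, Int.coe_castAddHom, smul_eq_mul]
    refine Finset.sum_congr rfl fun i _ => ?_
    have h1 : ((Φ i γ : ℤ) : ℂ) = (N i : ℂ) * ((χ i γ : ℚ) : ℂ) := by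
      have := congrArg (fun q : ℚ => (q : ℂ)) (hΦ i γ)
      push_cast at this
      exact this
    have hNi : (N i : ℂ) ≠ 0 := by exact_mod_cast hN i
    rw [h1, Rat.smul_def]
    field_simp
  rw [hψeq]
  exact Submodule.sum_mem _ fun i _ =>
    Submodule.smul_mem _ _ (Submodule.subset_span ⟨⟨Φ i, hΦmem i⟩, rfl⟩)

/-- **Rank comparison**: `dim_ℂ Hom_E(Γ, ℂ) ≤ rank_ℤ Hom_E(Γ, ℤ)` for finitely generated `Γ`. -/
theorem finrank_homKill_complex_le (E : Set Γ) [Group.FG Γ] :
    Module.finrank ℂ (homKill E ℂ) ≤ Module.finrank ℤ (homKill E ℤ) := by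
  classical
  have := finite_homKill (Γ := Γ) E ℤ
  have := free_homKill_int (Γ := Γ) E
  let b := Module.Free.chooseBasis ℤ (homKill E ℤ)
  let ι := Module.Free.ChooseBasisIndex ℤ (homKill E ℤ)
  have hmemC : ∀ Φ : homKill E ℤ,
      (Int.castAddHom ℂ).comp (Φ : Additive Γ →+ ℤ) ∈ homKill E ℂ := by
    intro Φ γ hγ
    show ((((Φ : Additive Γ →+ ℤ) (Additive.ofMul γ)) : ℤ) : ℂ) = 0
    rw [Φ.2 γ hγ, Int.cast_zero]
  let w : ι → homKill E ℂ := fun j => ⟨_, hmemC (b j)⟩
  have hspan : Submodule.span ℂ (Set.range w) = ⊤ := by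
    rw [eq_top_iff]
    rintro ⟨ψ, hψ⟩ -
    have h1 := mem_span_int E ψ hψ
    -- transport the span into the subtype
    have h2 : ∀ Φ : homKill E ℤ, (⟨_, hmemC Φ⟩ : homKill E ℂ) ∈
        Submodule.span ℂ (Set.range w) := by
      intro Φ
      have hrepr : (⟨_, hmemC Φ⟩ : homKill E ℂ) = ∑ j, ((b.repr Φ j : ℤ) : ℂ) • w j := by
        apply Subtype.ext
        refine AddMonoidHom.ext fun γ => ?_
        have h3 := congrArg (fun x : homKill E ℤ => ((x : Additive Γ →+ ℤ) γ : ℤ)) (b.sum_repr Φ)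
        simp only [Submodule.coe_sum, Submodule.coe_smul, AddMonoidHom.finsetSum_apply,
          AddMonoidHom.smul_apply, smul_eq_mul] at h3
        simp only [Submodule.coe_sum, Submodule.coe_smul, AddMonoidHom.finsetSum_apply,
          AddMonoidHom.smul_apply, smul_eq_mul, w]
        show (((Φ : Additive Γ →+ ℤ) γ : ℤ) : ℂ) = _
        rw [← h3]
        push_cast
        rfl
      rw [hrepr]
      exact Submodule.sum_mem _ fun j _ => Submodule.smul_mem _ _ (Submodule.subset_span ⟨j, rfl⟩)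
    have h4 : Submodule.span ℂ (Set.range fun Φ : homKill E ℤ =>
        (Int.castAddHom ℂ).comp (Φ : Additive Γ →+ ℤ)) ≤
        (Submodule.span ℂ (Set.range w)).map (homKill E ℂ).subtype := by
      rw [Submodule.span_le]
      rintro _ ⟨Φ, rfl⟩
      exact ⟨⟨_, hmemC Φ⟩, h2 Φ, rfl⟩
    obtain ⟨x, hx, hxψ⟩ := h4 h1
    have : x = ⟨ψ, hψ⟩ := Subtype.ext hxψ
    rw [← this]
    exact hx
  have h5 := finrank_le_of_span_eq_top hspan
  have h6 : Module.finrank ℤ (homKill E ℤ) = Fintype.card ι :=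
    Module.finrank_eq_card_chooseBasisIndex ℤ (homKill E ℤ)
  omega

end Fermat.Agent.S16.IntLift
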