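import Fermat.Agent.S16.IntLift
import Fermat.Agent.S21.UpperBound
import Fermat.Prelude.Def_ModularCurve_PeriodMap

/-!
# S16, package P8 (level part): lifting homomorphisms `Γ₀(N) → ℤ/n` to parabolic `Γ₀(N) → ℤ`

`peSet N` is the set of elements of `Γ₀(N)` whose trace `t` satisfies `t² ≤ 4` (i.e. `±1`,
parabolic and elliptic elements).  Given the characteristic-`r` dimension bounds
`dim_{𝔽_r} Hom_{peSet}(Γ₀(N), 𝔽_r) ≤ 2 dim S₂(Γ₀(N))` for all primes `r`, every homomorphism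
`Γ₀(N) → ℤ/n` killing `peSet N` lifts to a parabolic homomorphism `Γ₀(N) → ℤ`.
-/

set_option autoImplicit false

open scoped MatrixGroups
open CongruenceSubgroup ModularCurve.Period

namespace Fermat.Agent.S16

open IntLift

/-- Elements of `Γ₀(N)` of trace `t` with `t² ≤ 4`. -/
def peSet (N : ℕ) : Set ↥(Gamma0 N) :=
  {γ | ((γ : SL(2, ℤ)) : Matrix (Fin 2) (Fin 2) ℤ).trace ^ 2 ≤ 4}

theorem mem_peSet {N : ℕ} {γ : ↥(Gamma0 N)} :
    γ ∈ peSet N ↔ ((γ : SL(2, ℤ)) : Matrix (Fin 2) (Fin 2) ℤ).trace ^ 2 ≤ 4 := Iff.rfl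

namespace IntLift

/-- Cayley–Hamilton for `SL(2, ℤ)`. -/
theorem sl2_sq (g : SL(2, ℤ)) :
    (g : Matrix (Fin 2) (Fin 2) ℤ) * g =
      (g : Matrix (Fin 2) (Fin 2) ℤ).trace • (g : Matrix (Fin 2) (Fin 2) ℤ) - 1 := by
  have hdet := g.det_coe
  rw [Matrix.det_fin_two] at hdet
  ext i j
  simp only [Matrix.mul_apply, Fin.sum_univ_two, Matrix.sub_apply, Matrix.smul_apply,
    Matrix.trace_fin_two, smul_eq_mul]
  fin_cases i <;> fin_cases j <;> simp <;>
    first | ring1 | linear_combination (-1 : ℤ) * hdet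

/-- Elements of `SL(2, ℤ)` of trace `0, ±1` have order dividing `12`. -/
theorem sl2_pow_twelve (g : SL(2, ℤ))
    (ht : (g : Matrix (Fin 2) (Fin 2) ℤ).trace ^ 2 < 4) : g ^ 12 = 1 := by
  have hCH := sl2_sq g
  have ht' : (g : Matrix (Fin 2) (Fin 2) ℤ).trace = -1 ∨
      (g : Matrix (Fin 2) (Fin 2) ℤ).trace = 0 ∨ (g : Matrix (Fin 2) (Fin 2) ℤ).trace = 1 := by
    have h1 : -2 < (g : Matrix (Fin 2) (Fin 2) ℤ).trace := by nlinarith
    have h2 : (g : Matrix (Fin 2) (Fin 2) ℤ).trace < 2 := by nlinarith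
    omega
  apply Subtype.ext
  rw [Matrix.SpecialLinearGroup.coe_pow, Matrix.SpecialLinearGroup.coe_one]
  generalize (g : Matrix (Fin 2) (Fin 2) ℤ) = M at hCH ht'
  rcases ht' with h | h | h
  · rw [h, neg_one_smul] at hCH
    have h3 : M ^ 3 = 1 := by
      calc M ^ 3 = (M * M) * M := by rw [pow_succ, pow_two]
        _ = (-M - 1) * M := by rw [hCH]
        _ = -(M * M) - M := by noncomm_ring
        _ = -(-M - 1) - M := by rw [hCH]
        _ = 1 := by abel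
    calc M ^ 12 = (M ^ 3) ^ 4 := by rw [← pow_mul]
      _ = 1 := by rw [h3, one_pow]
  · rw [h, zero_smul, zero_sub] at hCH
    have h2 : M ^ 2 = -1 := by rw [pow_two, hCH]
    calc M ^ 12 = (M ^ 2) ^ 6 := by rw [← pow_mul]
      _ = 1 := by rw [h2]; exact Even.neg_one_pow (by decide)
  · rw [h, one_smul] at hCH
    have h3 : M ^ 3 = -1 := by
      calc M ^ 3 = (M * M) * M := by rw [pow_succ, pow_two]
        _ = (M - 1) * M := by rw [hCH]
        _ = M * M - M := by noncomm_ring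
        _ = (M - 1) - M := by rw [hCH]
        _ = -1 := by abel
    calc M ^ 12 = (M ^ 3) ^ 4 := by rw [← pow_mul]
      _ = 1 := by rw [h3]; exact Even.neg_one_pow (by decide)

end IntLift

/-- A parabolic homomorphism into a group without `12`-torsion kills all of `peSet N`. -/
theorem parabolic_kills_peSet {A : Type*} [AddCommGroup A]
    (h12 : ∀ a : A, (12 : ℕ) • a = 0 → a = 0) (N : ℕ) (φ : Additive ↥(Gamma0 N) →+ A)
    (hφ : IsParabolicHom (Gamma0 N) φ) : ∀ γ ∈ peSet N, φ (Additive.ofMul γ) = 0 := by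
  intro γ hγ
  rcases (mem_peSet.mp hγ).lt_or_eq with h | h
  · apply h12
    have h1 : γ ^ 12 = 1 := Subtype.ext (by
      rw [Subgroup.coe_pow, Subgroup.coe_one]
      exact IntLift.sl2_pow_twelve _ h)
    rw [← map_nsmul, ← ofMul_pow, h1, ofMul_one, map_zero]
  · exact hφ γ h

theorem homKill_peSet_le_parabolic {A : Type*} [CommRing A] (N : ℕ)
    {φ : Additive ↥(Gamma0 N) →+ A} (hφ : φ ∈ homKill (peSet N) A) :
    IsParabolicHom (Gamma0 N) φ :=
  fun γ hγ => hφ γ (mem_peSet.mpr hγ.le)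

theorem mem_homKill_peSet_int (N : ℕ) {Φ : Additive ↥(Gamma0 N) →+ ℤ} :
    Φ ∈ homKill (peSet N) ℤ ↔ IsParabolicHom (Gamma0 N) Φ :=
  ⟨homKill_peSet_le_parabolic N, fun h => parabolic_kills_peSet (fun a ha => by
    rw [nsmul_eq_mul] at ha; push_cast at ha; omega) N Φ h⟩

theorem homKill_peSet_complex (N : ℕ) :
    homKill (peSet N) ℂ = parabolicHoms ℂ (Gamma0 N) ℂ := by
  ext φ
  exact ⟨homKill_peSet_le_parabolic N,
    fun h => parabolic_kills_peSet (fun a ha => by simpa using ha) N φ h⟩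

instance IntLift.fg_SL2Z : Group.FG SL(2, ℤ) :=
  Group.fg_iff.mpr ⟨{ModularGroup.S, ModularGroup.T},
    SpecialLinearGroup.SL2Z_generators, by simp⟩

instance IntLift.fg_Gamma0 (N : ℕ) [NeZero N] : Group.FG ↥(Gamma0 N) :=
  Subgroup.fg_of_index_ne_zero (Gamma0 N)

/-- `2 dim S₂(Γ₀(N)) ≤ rank_ℤ` of the integral parabolic homomorphisms. -/
theorem two_genus_le_rank (N : ℕ) [NeZero N] :
    2 * Module.finrank ℂ (CuspForm (Gamma0 N) 2) ≤ Module.finrank ℤ (homKill (peSet N) ℤ) := by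
  have h1 := Fermat.Agent.S21.two_mul_finrank_cuspForm_two_le N
  have h2 := finrank_homKill_complex_le (peSet N)
  rw [homKill_peSet_complex] at h2
  exact h1.trans h2

/-- **P8 (modulo the characteristic-`r` count)**: if for every prime `r` the space of
homomorphisms `Γ₀(N) → 𝔽_r` killing `peSet N` has dimension at most `2 dim S₂(Γ₀(N))`, then every
homomorphism `Γ₀(N) → ℤ/n` killing `peSet N` lifts to a parabolic homomorphism `Γ₀(N) → ℤ`. -/
theorem exists_int_lift_of_bound (N : ℕ) [NeZero N]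
    (H : ∀ r : ℕ, r.Prime → Module.finrank (ZMod r) (homKill (peSet N) (ZMod r)) ≤
      2 * Module.finrank ℂ (CuspForm (Gamma0 N) 2))
    (n : ℕ) [NeZero n] (φ : Additive ↥(Gamma0 N) →+ ZMod n)
    (hφ : ∀ γ : ↥(Gamma0 N), ((γ : SL(2, ℤ)) : Matrix (Fin 2) (Fin 2) ℤ).trace ^ 2 ≤ 4 →
      φ (Additive.ofMul γ) = 0) :
    ∃ Φ : Additive ↥(Gamma0 N) →+ ℤ, IsParabolicHom (Gamma0 N) Φ ∧
      ∀ γ, ((Φ γ : ℤ) : ZMod n) = φ γ := by
  have hprime : ∀ r : ℕ, r.Prime → ∀ φ : Additive ↥(Gamma0 N) →+ ZMod r,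
      φ ∈ homKill (peSet N) (ZMod r) →
      ∃ Φ ∈ homKill (peSet N) ℤ, ∀ γ, ((Φ γ : ℤ) : ZMod r) = φ γ := by
    intro r hr φ hφ
    have : Fact r.Prime := ⟨hr⟩
    have := finite_homKill (peSet N) ℤ
    have := free_homKill_int (peSet N)
    have := finite_homKill (peSet N) (ZMod r)
    exact exists_lift_prime (peSet N) r ((H r hr).trans (two_genus_le_rank N)) φ hφ
  obtain ⟨Φ, hΦ, hΦφ⟩ := exists_lift_of_prime (peSet N) hprime n (NeZero.pos n) φ
    (fun γ hγ => hφ γ hγ)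
  exact ⟨Φ, (mem_homKill_peSet_int N).mp hΦ, hΦφ⟩

end Fermat.Agent.S16
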