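import Fermat.Agent.S22.HeckeDefs
import Fermat.Prelude.Def_ModularCurve_PeriodMap
import Fermat.Prelude.Def_ModularCurve_ModularUnit

/-!
# S16, package P9: the Shimura homomorphism `Γ₀(p) → ℤ/n`

`n = eisensteinNumerator p = (p-1)/gcd(p-1,12)`.  The homomorphism sends `γ = [a b; c d]` to the
class of `a mod p` in `(ℤ/p)ˣ/μ₁₂ ≅ ℤ/n`.  It is onto, kills every element of trace `t` with
`t² ≤ 4` (parabolic, elliptic, `±1`), and is an Eisenstein eigenvector for the S22 Hecke
correspondences (`gamT`, `gamU`).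
-/

set_option autoImplicit false

open scoped MatrixGroups
open Fermat.Agent.S22

namespace Fermat.Agent.S16

/-- A surjective character of `(ℤ/p)ˣ` onto `ℤ/n` killing the `12`-torsion. -/
theorem exists_shimuraChar (p : ℕ) [Fact p.Prime] :
    ∃ χ : (ZMod p)ˣ →* Multiplicative (ZMod (ModularCurve.eisensteinNumerator p)),
      Function.Surjective χ ∧ ∀ u : (ZMod p)ˣ, u ^ 12 = 1 → χ u = 1 := by
  have hcard : Nat.card (ZMod p)ˣ = p - 1 := by
    rw [Nat.card_eq_fintype_card, ZMod.card_units_eq_totient,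
      Nat.totient_prime (Fact.out : p.Prime)]
  have hdvd : ModularCurve.eisensteinNumerator p ∣ Nat.card (ZMod p)ˣ := by
    rw [hcard]; exact ModularCurve.eisensteinNumerator_dvd p
  have hp1 : 0 < p - 1 := Nat.sub_pos_of_lt (Fact.out : p.Prime).one_lt
  have : NeZero (Nat.card (ZMod p)ˣ) := ⟨by rw [hcard]; exact hp1.ne'⟩
  have hcyc : IsCyclic (ZMod p)ˣ := inferInstance
  let e := zmodCyclicMulEquiv hcyc
  let c : ZMod (Nat.card (ZMod p)ˣ) →+ ZMod (ModularCurve.eisensteinNumerator p) :=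
    (ZMod.castHom hdvd (ZMod (ModularCurve.eisensteinNumerator p))).toAddMonoidHom
  refine ⟨(AddMonoidHom.toMultiplicative c).comp e.symm.toMonoidHom, ?_, ?_⟩
  · intro y
    obtain ⟨k, hk⟩ := ZMod.castHom_surjective hdvd (Multiplicative.toAdd y)
    refine ⟨e (Multiplicative.ofAdd k), ?_⟩
    simp only [MonoidHom.coe_comp, Function.comp_apply, MulEquiv.coe_toMonoidHom,
      MulEquiv.symm_apply_apply]
    exact congrArg Multiplicative.ofAdd hk
  · intro u hu
    simp only [MonoidHom.coe_comp, Function.comp_apply, MulEquiv.coe_toMonoidHom]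
    set k : ZMod (Nat.card (ZMod p)ˣ) := Multiplicative.toAdd (e.symm u) with hk
    have h12 : (12 : ℕ) • k = 0 := by
      have h1 : (e.symm u) ^ 12 = 1 := by rw [← map_pow, hu, map_one]
      have := congrArg Multiplicative.toAdd h1
      simpa [hk] using this
    -- `n ∣ k.val`
    have hkv : ((12 * k.val : ℕ) : ZMod (Nat.card (ZMod p)ˣ)) = 0 := by
      push_cast
      rw [ZMod.natCast_zmod_val]
      simpa [nsmul_eq_mul] using h12
    rw [ZMod.natCast_eq_zero_iff] at hkv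
    have hkv' : p - 1 ∣ 12 * k.val := hcard ▸ hkv
    have hn : ModularCurve.eisensteinNumerator p ∣ k.val := by
      unfold ModularCurve.eisensteinNumerator
      set g := Nat.gcd (p - 1) 12 with hg
      have hgpos : 0 < g := Nat.gcd_pos_of_pos_right _ (by norm_num)
      obtain ⟨n, hn⟩ : g ∣ p - 1 := Nat.gcd_dvd_left _ _
      obtain ⟨m, hm⟩ : g ∣ 12 := Nat.gcd_dvd_right _ _
      have hcop : Nat.Coprime n m := by
        have := Nat.coprime_div_gcd_div_gcd (m := p - 1) (n := 12) hgpos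
        rwa [← hg, hn, hm, Nat.mul_div_cancel_left _ hgpos, Nat.mul_div_cancel_left _ hgpos] at this
      rw [hn, Nat.mul_div_cancel_left _ hgpos]
      have h2 : g * n ∣ g * (m * k.val) := by
        rw [← hn, ← mul_assoc, ← hm]; exact hkv'
      have h3 : n ∣ m * k.val := (Nat.mul_dvd_mul_iff_left hgpos).mp h2
      exact hcop.dvd_of_dvd_mul_left h3
    show Multiplicative.ofAdd (c k) = 1
    have : c k = 0 := by
      show (ZMod.castHom hdvd (ZMod (ModularCurve.eisensteinNumerator p))) k = 0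
      rw [← ZMod.natCast_zmod_val k, map_natCast, ZMod.natCast_eq_zero_iff]
      exact hn
    rw [this]; rfl

/-- The chosen character `(ℤ/p)ˣ → ℤ/n` (surjective, trivial on `μ₁₂`). -/
noncomputable def shimuraChar (p : ℕ) [Fact p.Prime] :
    (ZMod p)ˣ →* Multiplicative (ZMod (ModularCurve.eisensteinNumerator p)) :=
  Classical.choose (exists_shimuraChar p)

theorem shimuraChar_surjective (p : ℕ) [Fact p.Prime] : Function.Surjective (shimuraChar p) :=
  (Classical.choose_spec (exists_shimuraChar p)).1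

theorem shimuraChar_eq_one (p : ℕ) [Fact p.Prime] {u : (ZMod p)ˣ} (hu : u ^ 12 = 1) :
    shimuraChar p u = 1 :=
  (Classical.choose_spec (exists_shimuraChar p)).2 u hu

theorem Shimura.gam_lower_left (N : ℕ) (γ : Gam N) : (((γ : SL(2, ℤ)) 1 0 : ℤ) : ZMod N) = 0 :=
  CongruenceSubgroup.Gamma0_mem.mp γ.2

theorem Shimura.gam_diag_mul (N : ℕ) (γ : Gam N) :
    (((γ : SL(2, ℤ)) 0 0 : ℤ) : ZMod N) * (((γ : SL(2, ℤ)) 1 1 : ℤ) : ZMod N) = 1 := by
  have h := congrArg (Int.cast : ℤ → ZMod N) (Matrix.SpecialLinearGroup.det_coe (γ : SL(2, ℤ)))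
  rw [Matrix.det_fin_two] at h
  push_cast at h
  linear_combination h + (((γ : SL(2, ℤ)) 0 1 : ℤ) : ZMod N) * Shimura.gam_lower_left N γ

/-- The upper-left entry mod `N`, as a homomorphism `Γ₀(N) → (ℤ/N)ˣ`. -/
noncomputable def diagUnit (N : ℕ) : Gam N →* (ZMod N)ˣ where
  toFun γ :=
    { val := (((γ : SL(2, ℤ)) 0 0 : ℤ) : ZMod N)
      inv := (((γ : SL(2, ℤ)) 1 1 : ℤ) : ZMod N)
      val_inv := Shimura.gam_diag_mul N γ
      inv_val := by rw [mul_comm]; exact Shimura.gam_diag_mul N γ }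
  map_one' := by
    ext
    simp
  map_mul' γ δ := by
    ext
    have h := Shimura.gam_lower_left N δ
    simp only [Subgroup.coe_mul, Matrix.SpecialLinearGroup.coe_mul, Matrix.mul_apply,
      Fin.sum_univ_two, Units.val_mul]
    push_cast
    rw [h, mul_zero, add_zero]

@[simp] theorem diagUnit_val (N : ℕ) (γ : Gam N) :
    ((diagUnit N γ : (ZMod N)ˣ) : ZMod N) = (((γ : SL(2, ℤ)) 0 0 : ℤ) : ZMod N) := rfl

theorem diagUnit_surjective (p : ℕ) [Fact p.Prime] : Function.Surjective (diagUnit p) := by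
  intro u
  have hp : p.Prime := Fact.out
  have hcop : IsCoprime ((u : ZMod p).val : ℤ) (p : ℤ) := by
    rw [Nat.isCoprime_iff_coprime]
    exact (ZMod.val_coe_unit_coprime u)
  obtain ⟨x, y, hxy⟩ := hcop
  let g : SL(2, ℤ) := ⟨!![((u : ZMod p).val : ℤ), -y; (p : ℤ), x], by
    rw [Matrix.det_fin_two_of]; linarith⟩
  have hg : g ∈ CongruenceSubgroup.Gamma0 p := by
    rw [CongruenceSubgroup.Gamma0_mem]
    show (((p : ℤ)) : ZMod p) = 0
    simp
  refine ⟨⟨g, hg⟩, ?_⟩
  ext
  rw [diagUnit_val]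
  show ((((u : ZMod p).val : ℤ)) : ZMod p) = u
  simp

/-- **The Shimura homomorphism** `Γ₀(p) → ℤ/n`, `n = (p-1)/gcd(p-1,12)`:
`[a b; c d] ↦` the class of `a mod p` in `(ℤ/p)ˣ/μ₁₂ ≅ ℤ/n`. -/
noncomputable def shimuraHom (p : ℕ) [Fact p.Prime] :
    Additive (Gam p) →+ ZMod (ModularCurve.eisensteinNumerator p) :=
  MonoidHom.toAdditiveLeft ((shimuraChar p).comp (diagUnit p))

theorem shimuraHom_apply (p : ℕ) [Fact p.Prime] (γ : Gam p) :
    shimuraHom p (Additive.ofMul γ) = Multiplicative.toAdd (shimuraChar p (diagUnit p γ)) := rfl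

theorem shimuraHom_surjective (p : ℕ) [Fact p.Prime] : Function.Surjective (shimuraHom p) := by
  intro y
  obtain ⟨u, hu⟩ := shimuraChar_surjective p (Multiplicative.ofAdd y)
  obtain ⟨γ, hγ⟩ := diagUnit_surjective p u
  refine ⟨Additive.ofMul γ, ?_⟩
  rw [shimuraHom_apply, hγ, hu]; rfl

/-- `shimuraHom` kills every element whose trace `t` satisfies `t² ≤ 4`
(i.e. `±1`, parabolic and elliptic elements). -/
theorem shimuraHom_eq_zero_of_trace_sq_le (p : ℕ) [Fact p.Prime] (γ : Gam p)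
    (h : ((γ : SL(2, ℤ)) : Matrix (Fin 2) (Fin 2) ℤ).trace ^ 2 ≤ 4) :
    shimuraHom p (Additive.ofMul γ) = 0 := by
  rw [shimuraHom_apply, shimuraChar_eq_one p, toAdd_one]
  -- the unit `a` satisfies `a² - t a + 1 = 0`
  set t : ℤ := ((γ : SL(2, ℤ)) : Matrix (Fin 2) (Fin 2) ℤ).trace with ht
  set a : ZMod p := (((γ : SL(2, ℤ)) 0 0 : ℤ) : ZMod p) with ha
  have hquad : a ^ 2 - (t : ZMod p) * a + 1 = 0 := by
    have h1 := Shimura.gam_diag_mul p γ
    have ht' : (t : ZMod p) = a + (((γ : SL(2, ℤ)) 1 1 : ℤ) : ZMod p) := by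
      rw [ht, Matrix.trace_fin_two]; push_cast; rfl
    rw [ht']
    linear_combination (-1 : ZMod p) * h1
  have ht2 : t ∈ ({-2, -1, 0, 1, 2} : Set ℤ) := by
    have h1 : -2 ≤ t := by nlinarith
    have h2 : t ≤ 2 := by nlinarith
    simp only [Set.mem_insert_iff, Set.mem_singleton_iff]
    omega
  have key : a ^ 12 = 1 := by
    simp only [Set.mem_insert_iff, Set.mem_singleton_iff] at ht2
    rcases ht2 with h | h | h | h | h <;> rw [h] at hquad <;> push_cast at hquad
    · have h0 : (a + 1) ^ 2 = 0 := by linear_combination hquad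
      have h1 : a = -1 := by
        have := pow_eq_zero_iff (two_ne_zero) |>.mp h0
        linear_combination this
      rw [h1]; norm_num
    · have h3 : a ^ 3 = 1 := by linear_combination (a - 1) * hquad
      calc a ^ 12 = (a ^ 3) ^ 4 := by ring
        _ = 1 := by rw [h3, one_pow]
    · have h2 : a ^ 2 = -1 := by linear_combination hquad
      calc a ^ 12 = (a ^ 2) ^ 6 := by ring
        _ = 1 := by rw [h2]; norm_num
    · have h3 : a ^ 3 = -1 := by linear_combination (a + 1) * hquad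
      calc a ^ 12 = (a ^ 3) ^ 4 := by ring
        _ = 1 := by rw [h3]; norm_num
    · have h0 : (a - 1) ^ 2 = 0 := by linear_combination hquad
      have h1 : a = 1 := by
        have := pow_eq_zero_iff (two_ne_zero) |>.mp h0
        linear_combination this
      rw [h1]; norm_num
  ext
  rw [Units.val_pow_eq_pow_val, diagUnit_val]
  exact key

theorem shimuraHom_isParabolicHom (p : ℕ) [Fact p.Prime] :
    ModularCurve.Period.IsParabolicHom (CongruenceSubgroup.Gamma0 p) (shimuraHom p) := by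
  intro γ hγ
  exact shimuraHom_eq_zero_of_trace_sq_le p γ hγ.le

/-! ### Eisenstein eigen-identities -/

/-- Upper-left entry of the representative `hRep l x`. -/
def Shimura.repDiag (l : ℕ) (x : OnePoint (ZMod l)) : ℕ := x.elim l (fun _ => 1)

theorem Shimura.hRep_entries (l : ℕ) (hl : l ≠ 0) (x : OnePoint (ZMod l)) :
    ((hRep l x : GL (Fin 2) ℝ) : Matrix (Fin 2) (Fin 2) ℝ) 0 0 = (Shimura.repDiag l x : ℝ) ∧
    ((hRep l x : GL (Fin 2) ℝ) : Matrix (Fin 2) (Fin 2) ℝ) 1 0 = 0 ∧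
    ∃ b : ℤ, ((hRep l x : GL (Fin 2) ℝ) : Matrix (Fin 2) (Fin 2) ℝ) 0 1 = (b : ℝ) := by
  induction x using OnePoint.rec with
  | infty =>
    show ((ModularForm.heckeDiagMatrix l : GL (Fin 2) ℝ) : Matrix (Fin 2) (Fin 2) ℝ) 0 0 = _ ∧
      ((ModularForm.heckeDiagMatrix l : GL (Fin 2) ℝ) : Matrix (Fin 2) (Fin 2) ℝ) 1 0 = 0 ∧
      ∃ b : ℤ, ((ModularForm.heckeDiagMatrix l : GL (Fin 2) ℝ) : Matrix (Fin 2) (Fin 2) ℝ) 0 1
        = (b : ℝ)
    rw [ModularForm.val_heckeDiagMatrix hl]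
    refine ⟨by simp [Shimura.repDiag], by simp, 0, by simp⟩
  | coe j =>
    show ((ModularForm.heckeMatrix l j.val : GL (Fin 2) ℝ) : Matrix (Fin 2) (Fin 2) ℝ) 0 0 = _ ∧
      ((ModularForm.heckeMatrix l j.val : GL (Fin 2) ℝ) : Matrix (Fin 2) (Fin 2) ℝ) 1 0 = 0 ∧
      ∃ b : ℤ, ((ModularForm.heckeMatrix l j.val : GL (Fin 2) ℝ) : Matrix (Fin 2) (Fin 2) ℝ) 0 1
        = (b : ℝ)
    rw [ModularForm.val_heckeMatrix hl]
    refine ⟨by simp [Shimura.repDiag], by simp, (j.val : ℤ), by simp⟩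

theorem Shimura.mapGL_entry (g : SL(2, ℤ)) (i j : Fin 2) :
    ((Matrix.SpecialLinearGroup.mapGL ℝ g : GL (Fin 2) ℝ) : Matrix (Fin 2) (Fin 2) ℝ) i j
      = ((g i j : ℤ) : ℝ) := by
  rw [Matrix.SpecialLinearGroup.mapGL_coe_matrix]
  simp

/-- If `α γ = γ' α'` with `α, α'` real matrices whose lower-left entries vanish and whose
upper-left entries are the integers `r`, `r'`, then `r · a(γ) ≡ a(γ') · r'` mod `N`. -/
theorem Shimura.diag_congr_of_mul_eq (N : ℕ) (γ γ' : Gam N) (α α' : GL (Fin 2) ℝ) (r r' : ℕ)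
    (hα : (α : Matrix (Fin 2) (Fin 2) ℝ) 0 0 = (r : ℝ))
    (hα' : (α' : Matrix (Fin 2) (Fin 2) ℝ) 0 0 = (r' : ℝ))
    (hα'0 : (α' : Matrix (Fin 2) (Fin 2) ℝ) 1 0 = 0)
    (hαb : ∃ b : ℤ, (α : Matrix (Fin 2) (Fin 2) ℝ) 0 1 = (b : ℝ))
    (h : α * Matrix.SpecialLinearGroup.mapGL ℝ (γ : SL(2, ℤ)) =
      Matrix.SpecialLinearGroup.mapGL ℝ (γ' : SL(2, ℤ)) * α') :
    (r : ZMod N) * (((γ : SL(2, ℤ)) 0 0 : ℤ) : ZMod N) =
      (((γ' : SL(2, ℤ)) 0 0 : ℤ) : ZMod N) * (r' : ZMod N) := by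
  obtain ⟨b, hb⟩ := hαb
  have h00 := congrArg (fun M : GL (Fin 2) ℝ => (M : Matrix (Fin 2) (Fin 2) ℝ) 0 0) h
  simp only [Matrix.GeneralLinearGroup.coe_mul, Matrix.mul_apply, Fin.sum_univ_two, Shimura.mapGL_entry,
    hα, hα', hα'0, hb, mul_zero, add_zero] at h00
  have hZ : (r : ℤ) * (γ : SL(2, ℤ)) 0 0 + b * (γ : SL(2, ℤ)) 1 0 =
      (γ' : SL(2, ℤ)) 0 0 * (r' : ℤ) := by exact_mod_cast h00
  have h2 := congrArg (Int.cast : ℤ → ZMod N) hZ
  push_cast at h2
  rw [Shimura.gam_lower_left N γ, mul_zero, add_zero] at h2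
  exact h2

theorem Shimura.repDiag_coprime {p l : ℕ} [Fact p.Prime] [Fact l.Prime] (hlp : ¬ l ∣ p)
    (x : OnePoint (ZMod l)) : Nat.Coprime (Shimura.repDiag l x) p := by
  induction x using OnePoint.rec with
  | infty =>
    show Nat.Coprime l p
    exact (Nat.Prime.coprime_iff_not_dvd Fact.out).mpr hlp
  | coe j => exact Nat.coprime_one_left p

/-- **`T_l φ = (1 + l) φ`** for the Shimura homomorphism, in terms of the S22 correspondence
`gamT` (`α_x γ = γ_x α_{γ·x}`). -/
theorem shimuraHom_heckeT (p : ℕ) [Fact p.Prime] {l : ℕ} [Fact l.Prime] (hlp : ¬ l ∣ p)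
    (γ : Gam p) :
    haveI : NeZero l := ⟨(Fact.out : l.Prime).ne_zero⟩
    ∑ x : OnePoint (ZMod l), shimuraHom p (Additive.ofMul (gamT hlp γ x)) =
      (l + 1) • shimuraHom p (Additive.ofMul γ) := by
  have : NeZero l := ⟨(Fact.out : l.Prime).ne_zero⟩
  have hl : l ≠ 0 := (Fact.out : l.Prime).ne_zero
  -- the weights of the representatives
  let w : OnePoint (ZMod l) → ZMod (ModularCurve.eisensteinNumerator p) := fun x =>
    Multiplicative.toAdd (shimuraChar p (ZMod.unitOfCoprime (Shimura.repDiag l x) (Shimura.repDiag_coprime hlp x)))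
  let σ : Equiv.Perm (OnePoint (ZMod l)) := MulAction.toPerm (redMat l (γ : SL(2, ℤ)))
  have key : ∀ x : OnePoint (ZMod l),
      shimuraHom p (Additive.ofMul (gamT hlp γ x)) =
        w x + shimuraHom p (Additive.ofMul γ) - w (σ x) := by
    intro x
    have hspec := gamT_spec hlp γ x
    obtain ⟨h1, -, h3⟩ := Shimura.hRep_entries l hl x
    obtain ⟨h1', h2', -⟩ := Shimura.hRep_entries l hl (redMat l (γ : SL(2, ℤ)) • x)
    have hc := Shimura.diag_congr_of_mul_eq p γ (gamT hlp γ x) _ _ _ _ h1 h1' h2' h3 hspec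
    have hu : ZMod.unitOfCoprime (Shimura.repDiag l x) (Shimura.repDiag_coprime hlp x) * diagUnit p γ =
        diagUnit p (gamT hlp γ x) *
          ZMod.unitOfCoprime (Shimura.repDiag l (σ x)) (Shimura.repDiag_coprime hlp (σ x)) := by
      ext
      simp only [Units.val_mul, diagUnit_val, ZMod.coe_unitOfCoprime]
      exact hc
    have hχ := congrArg (fun u => Multiplicative.toAdd (shimuraChar p u)) hu
    simp only [map_mul, toAdd_mul] at hχ
    rw [shimuraHom_apply, shimuraHom_apply]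
    show _ = w x + _ - w (σ x)
    have : Multiplicative.toAdd (shimuraChar p (diagUnit p (gamT hlp γ x))) + w (σ x) =
        w x + Multiplicative.toAdd (shimuraChar p (diagUnit p γ)) := hχ.symm
    linear_combination this
  rw [Finset.sum_congr rfl (fun x _ => key x), Finset.sum_sub_distrib, Finset.sum_add_distrib,
    Equiv.sum_comp σ w, add_sub_cancel_left, Finset.sum_const, Finset.card_univ]
  congr 1
  rw [show Fintype.card (OnePoint (ZMod l)) = Fintype.card (Option (ZMod l)) from rfl,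
    Fintype.card_option, ZMod.card]

/-- **`U_p φ = φ`** for the Shimura homomorphism, in terms of the S22 correspondence `gamU`. -/
theorem shimuraHom_heckeU (p : ℕ) [Fact p.Prime] (γ : Gam p) :
    haveI : NeZero p := ⟨(Fact.out : p.Prime).ne_zero⟩
    ∑ x : ZMod p, shimuraHom p (Additive.ofMul (gamU (dvd_refl p) γ x)) =
      shimuraHom p (Additive.ofMul γ) := by
  have : NeZero p := ⟨(Fact.out : p.Prime).ne_zero⟩
  have hp : p ≠ 0 := (Fact.out : p.Prime).ne_zero
  have key : ∀ x : ZMod p, shimuraHom p (Additive.ofMul (gamU (dvd_refl p) γ x)) =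
      shimuraHom p (Additive.ofMul γ) := by
    intro x
    have hspec := gamU_spec (dvd_refl p) γ x
    have hc := Shimura.diag_congr_of_mul_eq p γ (gamU (dvd_refl p) γ x) _ _ 1 1
      (by rw [ModularForm.val_heckeMatrix hp]; simp)
      (by rw [ModularForm.val_heckeMatrix hp]; simp)
      (by rw [ModularForm.val_heckeMatrix hp]; simp)
      ⟨(x.val : ℤ), by rw [ModularForm.val_heckeMatrix hp]; simp⟩ hspec
    have hu : diagUnit p γ = diagUnit p (gamU (dvd_refl p) γ x) := by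
      ext
      simp only [diagUnit_val]
      simpa using hc
    rw [shimuraHom_apply, shimuraHom_apply, hu]
  rw [Finset.sum_congr rfl (fun x _ => key x), Finset.sum_const, Finset.card_univ, ZMod.card]
  -- `p ≡ 1 mod n`
  have hp1 : ((p : ℕ) : ZMod (ModularCurve.eisensteinNumerator p)) = 1 := by
    have h1 : 1 ≤ p := (Fact.out : p.Prime).one_lt.le
    have : ((p - 1 : ℕ) : ZMod (ModularCurve.eisensteinNumerator p)) = 0 :=
      (ZMod.natCast_eq_zero_iff _ _).mpr (ModularCurve.eisensteinNumerator_dvd p)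
    rw [Nat.cast_sub h1, Nat.cast_one, sub_eq_zero] at this
    exact this
  rw [nsmul_eq_mul, hp1, one_mul]

end Fermat.Agent.S16
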