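import Fermat.Agent.S16.PerZero
import Fermat.Agent.S16.Shimura
import Fermat.Agent.S23
import Fermat.Statements.S16

/-!
# S16, lower bound: the Eisenstein ideal has index divisible by `n`

If a polynomial `P` in the Hecke operators vanishes on `S₂(Γ₀(p))`, then its value at the
Eisenstein system is divisible by `n = (p-1)/gcd(p-1,12)`:  the Shimura homomorphism
`Γ₀(p) → ℤ/n` is an Eisenstein eigenvector which lifts to a `ℤ`-valued parabolic homomorphism
(input `hlift`, the characteristic-free count), and by Eichler–Shimura (S21) the Hecke relations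
of `S₂` hold on all parabolic homomorphisms.
-/

set_option autoImplicit false

open scoped MatrixGroups ComplexConjugate
open Complex

namespace Fermat.Agent.S16.LB

open Fermat.Agent.S22 ModularCurve ModularCurve.Period CongruenceSubgroup

variable (p : ℕ) [Fact p.Prime]

/-- The Shimura homomorphism as a function on `Γ₀(p)`. -/
noncomputable def shimuraFun : Gam p → ZMod (eisensteinNumerator p) :=
  fun γ => shimuraHom p (Additive.ofMul γ)

/-- For every Hecke polynomial there is a correspondence realising it on periods and acting on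
the Shimura class through the Eisenstein system. -/
theorem exists_corr (P : HeckeAlg) :
    ∃ A : Corr p,
      (∀ f : CuspForm (Gamma0 p) 2,
        corrAct A (per0 f) =
          per0 (((CuspForm.heckeEvalForms p 2 P : CuspForm.heckeAlgebra p 2 ∅) :
            Module.End ℂ (CuspForm (Gamma0 p) 2)) f)) ∧
      corrAct A (shimuraFun p) =
        (MvPolynomial.aeval (eisensteinSystem p) P : ℤ) • shimuraFun p := by
  induction P using MvPolynomial.induction_on with
  | C a =>
    refine ⟨a • AddMonoidHom.id _, fun f => ?_, ?_⟩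
    · rw [corrAct_zsmul_id, CuspForm.heckeEvalForms_C]
      have : ((algebraMap ℤ (CuspForm.heckeAlgebra p 2 ∅) a : CuspForm.heckeAlgebra p 2 ∅) :
          Module.End ℂ (CuspForm (Gamma0 p) 2)) f = a • f := by
        simp
      rw [this, per0_zsmul]
    · rw [corrAct_zsmul_id, MvPolynomial.aeval_C]
      rfl
  | add P Q hP hQ =>
    obtain ⟨A, hA1, hA2⟩ := hP
    obtain ⟨B, hB1, hB2⟩ := hQ
    refine ⟨A + B, fun f => ?_, ?_⟩
    · rw [corrAct_add_left, hA1, hB1, map_add, ← per0_add]
      rfl
    · rw [corrAct_add_left, hA2, hB2, map_add, add_smul]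
  | mul_X P l hP =>
    obtain ⟨A, hA1, hA2⟩ := hP
    by_cases hl : (l : ℕ) ∣ p
    · -- the operator `U_p`
      have : NeZero (l : ℕ) := ⟨l.2.ne_zero⟩
      refine ⟨(uCorr p l hl).comp A, fun f => ?_, ?_⟩
      · rw [corrAct_comp_left, ← per0_heckeU, hA1, map_mul,
          show (MvPolynomial.X l : HeckeAlg) = heckeGen l from rfl,
          CuspForm.heckeEvalForms_heckeGen_of_dvd hl]
        rfl
      · have hU : corrAct (uCorr p l hl) (shimuraFun p) = shimuraFun p := by
          obtain ⟨l, hlp⟩ := l
          have hlp' : l = p := (Nat.prime_dvd_prime_iff_eq hlp Fact.out).mp hl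
          subst hlp'
          funext γ
          rw [corrAct_uCorr]
          exact shimuraHom_heckeU l γ
        rw [corrAct_comp_left, hU, hA2, map_mul, MvPolynomial.aeval_X,
          eisensteinSystem_of_dvd hl, mul_one]
    · -- the operator `T_l`
      have : Fact (l : ℕ).Prime := ⟨l.2⟩
      refine ⟨(tCorr p l hl).comp A, fun f => ?_, ?_⟩
      · rw [corrAct_comp_left, ← per0_heckeT, hA1, map_mul,
          show (MvPolynomial.X l : HeckeAlg) = heckeGen l from rfl,
          CuspForm.heckeEvalForms_heckeGen_of_not_dvd hl]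
        rfl
      · have hT : corrAct (tCorr p l hl) (shimuraFun p) =
            ((1 + (l : ℕ) : ℤ)) • shimuraFun p := by
          funext γ
          rw [corrAct_tCorr]
          have h := shimuraHom_heckeT p hl γ
          refine h.trans ?_
          rw [Pi.smul_apply]
          simp only [shimuraFun]
          rw [← natCast_zsmul]
          push_cast
          rw [add_comm]
        rw [corrAct_comp_left, hT, corrAct_zsmul_right, hA2, map_mul, MvPolynomial.aeval_X,
          eisensteinSystem_of_not_dvd hl, smul_smul, mul_comm]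

/-- A correspondence which kills all period functions kills every `ℤ`-valued parabolic
homomorphism. -/
theorem corrAct_eq_zero_of_parabolic {N : ℕ} [NeZero N] (A : Corr N)
    (hA : ∀ f : CuspForm (Gamma0 N) 2, corrAct A (per0 f) = 0)
    (Φ : Additive (Gam N) →+ ℤ) (hΦ : IsParabolicHom (Gamma0 N) Φ) :
    corrAct A (fun γ : Gam N => Φ (Additive.ofMul γ)) = 0 := by
  -- the complexification of `Φ`
  let ΦC : Additive (Gamma0 N) →+ ℂ := (Int.castAddHom ℂ).comp Φ
  have hΦC : ΦC ∈ parabolicHoms ℂ (Gamma0 N) ℂ := by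
    intro γ hγ
    show ((Φ (Additive.ofMul γ) : ℤ) : ℂ) = 0
    rw [hΦ γ hγ, Int.cast_zero]
  obtain ⟨f₁, f₂, h12⟩ := exists_periods_of_parabolic ΦC hΦC
  have hpi : (2 * (Real.pi : ℂ) * I) ≠ 0 := Complex.two_pi_I_ne_zero
  set c : ℂ := (2 * Real.pi * I)⁻¹ with hc
  -- the two additive maps used to transport `per0`
  let l₁ : ℂ →+ ℂ := AddMonoidHom.mulLeft c
  let l₂ : ℂ →+ ℂ := ((starRingEnd ℂ : ℂ →+* ℂ) : ℂ →+ ℂ).comp (AddMonoidHom.mulLeft c)
  have hdecomp : (fun γ : Gam N => ((Φ (Additive.ofMul γ) : ℤ) : ℂ)) =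
      (fun γ => l₁ (per0 f₁ γ)) + (fun γ => l₂ (per0 f₂ γ)) := by
    funext γ
    have h := h12 γ
    have e1 : l₁ (per0 f₁ γ) = periodMap N f₁ (Additive.ofMul γ) := by
      show c * per0 f₁ γ = _
      rw [per0_eq, hc]
      field_simp
    have e2 : l₂ (per0 f₂ γ) = conj (periodMap N f₂ (Additive.ofMul γ)) := by
      show conj (c * per0 f₂ γ) = _
      rw [per0_eq, hc]
      congr 1
      field_simp
    rw [Pi.add_apply, e1, e2, ← h]
    rfl
  have hC : corrAct A (fun γ : Gam N => ((Φ (Additive.ofMul γ) : ℤ) : ℂ)) = 0 := by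
    rw [hdecomp, corrAct_add_right, corrAct_map A l₁, corrAct_map A l₂, hA f₁, hA f₂]
    funext γ
    simp
  have hnat := corrAct_map A (Int.castAddHom ℂ) (fun γ : Gam N => Φ (Additive.ofMul γ))
  funext γ
  have h1 := congrFun hnat γ
  have h2 := congrFun hC γ
  have h3 : ((corrAct A (fun γ : Gam N => Φ (Additive.ofMul γ)) γ : ℤ) : ℂ) = 0 := by
    have : (Int.castAddHom ℂ) (corrAct A (fun γ : Gam N => Φ (Additive.ofMul γ)) γ) = 0 := by
      rw [← h1]
      exact h2
    exact this
  exact_mod_cast h3

/-- **Lower bound for S16**, modulo the existence of an integral parabolic lift of the Shimura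
homomorphism. -/
theorem lowerBound_of_lift
    (hlift : ∃ Φ : Additive (Gam p) →+ ℤ, IsParabolicHom (Gamma0 p) Φ ∧
      ∀ γ : Gam p, ((Φ (Additive.ofMul γ) : ℤ) : ZMod (eisensteinNumerator p)) =
        shimuraHom p (Additive.ofMul γ))
    (P : HeckeAlg)
    (hP : ((CuspForm.latticeRestrictHom p ∅).toRingHom.comp (CuspForm.heckeEvalForms p 2)) P = 0) :
    (eisensteinNumerator p : ℤ) ∣ MvPolynomial.aeval (eisensteinSystem p) P := by
  -- the Hecke polynomial vanishes on cusp forms
  have hP0 : CuspForm.heckeEvalForms p 2 P = 0 := by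
    have hinj := (CuspForm.latticeRestrictHom_bijective p ∅ (Fermat.Agent.S23.result p)).1
    apply hinj
    rw [map_zero]
    exact hP
  obtain ⟨A, hA1, hA2⟩ := exists_corr p P
  have hA0 : ∀ f : CuspForm (Gamma0 p) 2, corrAct A (per0 f) = 0 := by
    intro f
    rw [hA1 f, hP0]
    exact per0_zero
  obtain ⟨Φ, hΦpar, hΦ⟩ := hlift
  have hZ := corrAct_eq_zero_of_parabolic A hA0 Φ hΦpar
  -- reduce modulo `n`
  have hnat := corrAct_map A (Int.castAddHom (ZMod (eisensteinNumerator p)))
    (fun γ : Gam p => Φ (Additive.ofMul γ))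
  have hred : (fun γ : Gam p => (Int.castAddHom (ZMod (eisensteinNumerator p)))
      (Φ (Additive.ofMul γ))) = shimuraFun p := by
    funext γ
    exact hΦ γ
  rw [hred, hZ, hA2] at hnat
  obtain ⟨γ, hγ⟩ := shimuraHom_surjective p 1
  have h1 := congrFun hnat (Additive.toMul γ)
  simp only [Pi.smul_apply, Pi.zero_apply, map_zero] at h1
  have h2 : shimuraFun p (Additive.toMul γ) = 1 := hγ
  rw [h2, zsmul_one] at h1
  exact (ZMod.intCast_zmod_eq_zero_iff_dvd _ _).mp h1

end Fermat.Agent.S16.LB
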