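import Fermat.Agent.S16.Corr
import Fermat.Agent.S22.Assembly
import Fermat.Agent.S21.Inj
import Fermat.Agent.S23.Conj
import Fermat.Agent.S21

/-!
# S16, lower bound: weight two periods

* `per0 f : Γ₀(N) → ℂ`, the S22 period function in weight two, is Hecke equivariant for the
  correspondences `tCorr`, `uCorr`;
* `per0 f = 2πi • periodMap N f` (bridge to the prelude period map used in S21);
* `periodMap N f ∘ jConj = - conj ∘ periodMap N g` for the complex conjugate form `g` of `f`;
* hence (S21) every `ℂ`-valued parabolic homomorphism is `periodMap f₁ + conj ∘ periodMap f₂`.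
-/

set_option autoImplicit false

open UpperHalfPlane hiding I
open Complex Filter Function
open scoped Manifold MatrixGroups ModularForm Topology Derivative ComplexConjugate
open Polynomial Matrix.SpecialLinearGroup

namespace Fermat.Agent.S16.LB

open Fermat.Agent.S22 ModularCurve ModularCurve.Period CongruenceSubgroup

variable {N : ℕ} [NeZero N]

/-- The weight two period function of a cusp form: the constant coefficient of the S22 period
polynomial with `m = 0`. -/
noncomputable def per0 (f : CuspForm (Gamma0 N) 2) : Gam N → ℂ :=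
  fun γ => (periodPoly (N := N) 0 f γ).coeff 0

omit [NeZero N] in
theorem per0_apply (f : CuspForm (Gamma0 N) 2) (γ : Gam N) :
    per0 f γ = (periodPoly (N := N) 0 f γ).coeff 0 := rfl

theorem per0_add (f g : CuspForm (Gamma0 N) 2) : per0 (f + g) = per0 f + per0 g := by
  funext γ
  have h := congrFun (periodPoly_add (m := 0) (N := N) f g) γ
  rw [per0_apply, Pi.add_apply, per0_apply, per0_apply]
  have h2 : periodPoly (N := N) 0 (f + g) γ = periodPoly (N := N) 0 f γ + periodPoly (N := N) 0 g γ := h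
  rw [h2, Polynomial.coeff_add]

/-- `per0` as an additive map. -/
noncomputable def per0Hom (N : ℕ) [NeZero N] : CuspForm (Gamma0 N) 2 →+ (Gam N → ℂ) :=
  AddMonoidHom.mk' per0 per0_add

@[simp] theorem per0Hom_apply (f : CuspForm (Gamma0 N) 2) : per0Hom N f = per0 f := rfl

theorem per0_zero : per0 (0 : CuspForm (Gamma0 N) 2) = 0 := (per0Hom N).map_zero

theorem per0_zsmul (a : ℤ) (f : CuspForm (Gamma0 N) 2) : per0 (a • f) = a • per0 f :=
  map_zsmul (per0Hom N) a f

omit [NeZero N] in
theorem coeff_zero_polyAct_zero (a b c d : ℤ) (q : ℂ[X]) :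
    (polyAct 0 a b c d q).coeff 0 = q.coeff 0 := by
  simp [polyAct, polyBasis]

omit [NeZero N] in
theorem coeff_zero_polyActRep_zero (p : ℕ) (x : OnePoint (ZMod p)) (q : ℂ[X]) :
    (polyActRep 0 p x q).coeff 0 = q.coeff 0 := by
  induction x using OnePoint.rec with
  | infty => exact coeff_zero_polyAct_zero _ _ _ _ _
  | coe j => exact coeff_zero_polyAct_zero _ _ _ _ _

/-- Hecke equivariance of `per0` for `T_l`. -/
theorem per0_heckeT {l : ℕ} [Fact l.Prime] (hlN : ¬ l ∣ N) (f : CuspForm (Gamma0 N) 2) :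
    per0 (CuspForm.heckeTLin 2 Fact.out hlN f) = corrAct (tCorr N l hlN) (per0 f) := by
  funext γ
  rw [corrAct_tCorr, per0_apply]
  have h := periodPoly_heckeT (m := 0) hlN f
  have h2 : periodPoly (N := N) 0 (CuspForm.heckeTLin 2 Fact.out hlN f) γ =
      heckeTOp N 0 l hlN (periodPoly 0 f) γ := congrFun h γ
  rw [h2, heckeTOp_apply, Polynomial.finsetSum_coeff]
  refine Finset.sum_congr rfl fun x _ => ?_
  rw [coeff_zero_polyActRep_zero]
  rfl

/-- Hecke equivariance of `per0` for `U_q`. -/
theorem per0_heckeU {q : ℕ} [NeZero q] (hqN : q ∣ N) (f : CuspForm (Gamma0 N) 2) :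
    per0 (CuspForm.heckeULin 2 hqN f) = corrAct (uCorr N q hqN) (per0 f) := by
  funext γ
  rw [corrAct_uCorr, per0_apply]
  have h := periodPoly_heckeU (m := 0) hqN f
  have h2 : periodPoly (N := N) 0 (CuspForm.heckeULin 2 hqN f) γ =
      heckeUOp N 0 q hqN (periodPoly 0 f) γ := congrFun h γ
  rw [h2, heckeUOp_apply, Polynomial.finsetSum_coeff]
  refine Finset.sum_congr rfl fun x _ => ?_
  rw [coeff_zero_polyAct_zero]
  rfl

/-- The S22 Eichler integral (weight two) is `2πi` times the S21 equivariant primitive. -/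
theorem eichler_zero_eq {f : CuspForm (Gamma0 N) 2} {F : ℍ → ℂ}
    (hF : HasEquivariantPrimitive N f F) :
    eichler (N := N) 0 f = (2 * Real.pi * I : ℂ) • F := by
  have hpi : (2 * (Real.pi : ℂ) * I) ≠ 0 := Complex.two_pi_I_ne_zero
  have hmd : MDiff F := Fermat.Agent.S21.mdiff_of_hasEquivariantPrimitive hF
  symm
  apply eichler_unique (m := 0) f
  · exact hmd.const_smul _
  · exact ZeroAtFilter.smul (2 * Real.pi * I : ℂ) hF.2.1
  · rw [iterate_D_smul _ _ hmd]
    rw [Function.iterate_one, Fermat.Agent.S21.Prim.D_of_hasDerivAt hF.1]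
    funext τ
    simp only [Pi.smul_apply, smul_eq_mul]
    field_simp

/-- The S22 period function is `2πi` times the prelude period map. -/
theorem per0_eq (f : CuspForm (Gamma0 N) 2) (γ : Gam N) :
    per0 f γ = 2 * Real.pi * I * periodMap N f (Additive.ofMul γ) := by
  obtain ⟨F, hF⟩ := Fermat.Agent.S21.exists_hasEquivariantPrimitive f
  obtain ⟨hdeg, hval⟩ := periodPoly_spec (m := 0) f γ
  have h1 := hval UpperHalfPlane.I
  rw [Polynomial.eq_C_of_natDegree_le_zero hdeg, Polynomial.eval_C] at h1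
  rw [per0_apply, ← h1, Fermat.Agent.S21.periodMap_apply hF γ UpperHalfPlane.I,
    eichler_zero_eq hF, Pi.sub_apply, Eichler.slash_neg_apply]
  simp only [Pi.smul_apply, smul_eq_mul, pow_zero, mul_one]
  ring

omit [NeZero N] in
/-- The `q`-parameter at the reflected point. -/
theorem qParam_J_smul (z : ℍ) :
    Function.Periodic.qParam 1 ((J • z : ℍ) : ℂ) = conj (Function.Periodic.qParam 1 (z : ℂ)) := by
  rw [UpperHalfPlane.coe_J_smul, Function.Periodic.qParam, Function.Periodic.qParam,
    ← Complex.exp_conj]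
  congr 1
  simp only [map_div₀, map_mul, map_ofNat, Complex.conj_ofReal, Complex.conj_I,
    Complex.ofReal_one, map_one]
  ring

/-- The complex conjugate cusp form `z ↦ conj (f (-conj z))`. -/
theorem exists_conj_cuspForm (f : CuspForm (Gamma0 N) 2) :
    ∃ g : CuspForm (Gamma0 N) 2, ∀ z : ℍ, g z = conj (f (J • z)) := by
  obtain ⟨g, hg⟩ := Fermat.Agent.S23.exists_cuspForm_conj N (starRingAut : ℂ ≃+* ℂ) f
  refine ⟨g, fun z => ?_⟩
  have hsg := UpperHalfPlane.hasSum_qExpansion (h := 1) one_pos
    (by simpa using Eichler.periodic_cuspForm g) (CuspFormClass.holo g)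
    (ModularFormClass.bdd_at_infty g) z
  have hsf := UpperHalfPlane.hasSum_qExpansion (h := 1) one_pos
    (by simpa using Eichler.periodic_cuspForm f) (CuspFormClass.holo f)
    (ModularFormClass.bdd_at_infty f) (J • z)
  have hsf' := hsf.map (starRingEnd ℂ) Complex.continuous_conj
  refine hsg.unique ?_
  convert hsf' using 1
  funext m
  have h1 := hg m
  simp only [ModularFormClass.qCoeff] at h1
  simp only [Function.comp_apply, smul_eq_mul, map_mul, map_pow]
  rw [h1, qParam_J_smul, Complex.conj_conj]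
  rfl

/-- If `F` is the equivariant primitive of `f` and `g z = conj (f (-conj z))`, then
`z ↦ -conj (F (-conj z))` is the equivariant primitive of `g`. -/
theorem hasEquivariantPrimitive_neg_refl {f g : CuspForm (Gamma0 N) 2} {F : ℍ → ℂ}
    (hF : HasEquivariantPrimitive N f F) (hg : ∀ z : ℍ, g z = conj (f (J • z))) :
    HasEquivariantPrimitive N g (fun z => -Fermat.Agent.S21.Inj.refl F z) := by
  refine ⟨fun τ => ?_, ?_, fun γ => ?_, fun δ => ?_⟩
  · -- derivative
    have hopen : IsOpen {z : ℂ | 0 < z.im} := isOpen_upperHalfPlaneSet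
    have h1 : HasDerivAt (F ∘ ofComplex) (f (J • τ)) (-(conj (τ : ℂ))) := by
      have := hF.1 (J • τ)
      rwa [UpperHalfPlane.coe_J_smul] at this
    have h2 : HasDerivAt (fun w : ℂ => (F ∘ ofComplex) (-w)) (f (J • τ) * (-1)) (conj (τ : ℂ)) :=
      HasDerivAt.comp (conj (τ : ℂ)) h1 (hasDerivAt_neg (conj (τ : ℂ)))
    have h3 := h2.conj_conj
    rw [Complex.conj_conj] at h3
    have h4 : HasDerivAt (fun w : ℂ => -((conj ∘ (fun w : ℂ => (F ∘ ofComplex) (-w)) ∘ conj) w))
        (-(conj (f (J • τ) * (-1)))) (τ : ℂ) := h3.neg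
    have e : -(conj (f (J • τ) * (-1))) = g τ := by
      rw [hg τ]; simp
    rw [e] at h4
    refine h4.congr_of_eventuallyEq ?_
    filter_upwards [hopen.mem_nhds τ.im_pos] with w hw
    simp only [Fermat.Agent.S21.Inj.refl, comp_apply]
    rw [UpperHalfPlane.J_smul, ofComplex_apply_of_im_pos hw]
  · -- limit at infinity
    have h1 : Tendsto (fun z : ℍ => F (J • z)) atImInfty (𝓝 0) :=
      hF.2.1.comp Fermat.Agent.S21.Inj.tendsto_J_smul
    have h2 := ((Complex.continuous_conj.tendsto (0 : ℂ)).comp h1).neg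
    simpa [Fermat.Agent.S21.Inj.refl] using h2
  · -- equivariance
    refine ⟨-(conj (periodMap N f (Additive.ofMul (jConjGamma0 N γ)))), fun z => ?_⟩
    beta_reduce
    rw [Fermat.Agent.S21.periodMap_apply hF (jConjGamma0 N γ) (J • z),
      Fermat.Agent.S21.Inj.refl_smul]
    simp only [Fermat.Agent.S21.Inj.refl, jConjGamma0_coe, map_sub]
    ring
  · -- limits at the cusps
    obtain ⟨L, hL⟩ := Fermat.Agent.S21.Inj.refl_tendsto hF δ
    exact ⟨-L, hL.neg⟩

/-- The period map of `f` composed with the `j`-conjugation is minus the complex conjugate of the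
period map of the conjugate form. -/
theorem exists_periodMap_jConj (f : CuspForm (Gamma0 N) 2) :
    ∃ g : CuspForm (Gamma0 N) 2, ∀ γ : Gamma0 N,
      periodMap N f (Additive.ofMul (jConjGamma0 N γ)) =
        -(conj (periodMap N g (Additive.ofMul γ))) := by
  obtain ⟨F, hF⟩ := Fermat.Agent.S21.exists_hasEquivariantPrimitive f
  obtain ⟨g, hg⟩ := exists_conj_cuspForm f
  refine ⟨g, fun γ => ?_⟩
  have hG := hasEquivariantPrimitive_neg_refl hF hg
  rw [Fermat.Agent.S21.periodMap_apply hG γ UpperHalfPlane.I,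
    Fermat.Agent.S21.periodMap_apply hF (jConjGamma0 N γ) (J • UpperHalfPlane.I),
    Fermat.Agent.S21.Inj.refl_smul]
  simp only [Fermat.Agent.S21.Inj.refl, jConjGamma0_coe, map_sub, map_neg, Complex.conj_conj]
  ring

/-- **Eichler–Shimura in conjugate form** (from S21): every `ℂ`-valued parabolic homomorphism of
`Γ₀(N)` is `periodMap f₁ + conj ∘ periodMap f₂` for cusp forms `f₁, f₂`. -/
theorem exists_periods_of_parabolic (ψ : Additive (Gamma0 N) →+ ℂ)
    (hψ : ψ ∈ parabolicHoms ℂ (Gamma0 N) ℂ) :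
    ∃ f₁ f₂ : CuspForm (Gamma0 N) 2, ∀ γ : Gamma0 N,
      ψ (Additive.ofMul γ) =
        periodMap N f₁ (Additive.ofMul γ) + conj (periodMap N f₂ (Additive.ofMul γ)) := by
  have hrange := (Fermat.Agent.S21.result N).2
  rw [← hrange] at hψ
  obtain ⟨⟨f, g⟩, rfl⟩ := hψ
  obtain ⟨pml, hpml, hdef⟩ := periodHomPair_def N (Fermat.Agent.S21.existsPeriodMapLinear (N := N))
  obtain ⟨f', hf'⟩ := exists_periodMap_jConj f
  obtain ⟨g', hg'⟩ := exists_periodMap_jConj g
  refine ⟨f + g, g' - f', fun γ => ?_⟩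
  rw [hdef]
  simp only [LinearMap.coprod_apply, LinearMap.comp_apply, LinearMap.add_apply,
    LinearMap.sub_apply, LinearMap.id_apply, AddMonoidHom.add_apply, AddMonoidHom.sub_apply,
    charInvolution_apply, toMul_ofMul, hpml]
  rw [hf' γ, hg' γ, ← hpml (f + g), ← hpml (g' - f'), map_add, map_sub, hpml, hpml, hpml, hpml]
  simp only [AddMonoidHom.add_apply, AddMonoidHom.sub_apply, map_sub]
  ring

end Fermat.Agent.S16.LB
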