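import Mathlib
import Fermat.Agent.S16.ConjExp
import Fermat.Agent.S16.LocalInt
import Fermat.Agent.S16.TraceRel
import Fermat.Agent.S16.LevelOneSmall
import Fermat.Agent.S23.Glue

/-!
# S16, common frame for the statements (U1)

* `coeffRing O`: power series with coefficients in a subring `O ⊆ ℂ`;
* `hasExp_sub`, `hasExp_C_mul`: expansions of differences and constant multiples;
* `sigmaSeries N k = ∑ σ_k(n) x^(N n)` and `hasExp_E4`: the expansion of `E₄` in `exp(2πiτ/N)`;
* `exists_exp_slash_decomp`: every conjugate of a weight two form on `Γ₀(p)` congruent to a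
  constant `c` modulo `M₀` (with `M₀ ∣ p + 1`) has an expansion `c + M₀ A` with `A` integral at `ℓ`.
-/

set_option autoImplicit false

open UpperHalfPlane hiding I
open Complex ModularForm CongruenceSubgroup
open scoped MatrixGroups ModularForm Manifold ArithmeticFunction.sigma

namespace Fermat.Agent.S16

namespace UFrame

open NormBound

/-- The subring of power series all of whose coefficients lie in a given subring of `ℂ`. -/
def coeffRing (O : Subring ℂ) : Subring (PowerSeries ℂ) where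
  carrier := {P | ∀ n, PowerSeries.coeff n P ∈ O}
  mul_mem' := by
    intro a b ha hb n
    rw [PowerSeries.coeff_mul]
    exact O.sum_mem fun kl _ => O.mul_mem (ha _) (hb _)
  one_mem' := by
    intro n
    rw [PowerSeries.coeff_one]
    split_ifs
    · exact O.one_mem
    · exact O.zero_mem
  add_mem' := by
    intro a b ha hb n
    rw [map_add]
    exact O.add_mem (ha n) (hb n)
  zero_mem' := by
    intro n
    rw [map_zero]
    exact O.zero_mem
  neg_mem' := by
    intro a ha n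
    rw [map_neg]
    exact O.neg_mem (ha n)

theorem mem_coeffRing {O : Subring ℂ} {P : PowerSeries ℂ} :
    P ∈ coeffRing O ↔ ∀ n, PowerSeries.coeff n P ∈ O := Iff.rfl

theorem hasExp_sub {N : ℕ} {F F' : ℍ → ℂ} {Θ Θ' : PowerSeries ℂ} (h : HasExp N F Θ)
    (h' : HasExp N F' Θ') : HasExp N (fun τ => F τ - F' τ) (Θ - Θ') := by
  intro τ
  have := (h τ).sub (h' τ)
  refine this.congr_fun fun n => ?_
  rw [map_sub, sub_mul]

theorem hasExp_C_mul {N : ℕ} {F : ℍ → ℂ} {Θ : PowerSeries ℂ} (a : ℂ) (h : HasExp N F Θ) :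
    HasExp N (fun τ => a * F τ) (PowerSeries.C a * Θ) := by
  have := ConjExp.hasExp_const_mul a h
  rwa [PowerSeries.smul_eq_C_mul] at this

/-- The dilated series of the divisor sums `σ_k`. -/
noncomputable def sigmaSeries (N k : ℕ) : PowerSeries ℂ :=
  PowerSeries.mk fun n => if N ∣ n then (σ k (n / N) : ℂ) else 0

theorem coeff_sigmaSeries_of_lt {N k n : ℕ} (hn : n < N) :
    PowerSeries.coeff n (sigmaSeries N k) = 0 := by
  rw [sigmaSeries, PowerSeries.coeff_mk]
  split_ifs with h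
  · have h0 : n = 0 := Nat.eq_zero_of_dvd_of_lt h hn
    subst h0
    simp
  · rfl

theorem coeff_sigmaSeries_self {N k : ℕ} (hN : N ≠ 0) :
    PowerSeries.coeff N (sigmaSeries N k) = 1 := by
  rw [sigmaSeries, PowerSeries.coeff_mk, if_pos dvd_rfl, Nat.div_self (Nat.pos_of_ne_zero hN)]
  simp

theorem sigmaSeries_mem (O : Subring ℂ) (N k : ℕ) : sigmaSeries N k ∈ coeffRing O := by
  intro n
  rw [sigmaSeries, PowerSeries.coeff_mk]
  split_ifs
  · exact natCast_mem O _
  · exact O.zero_mem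

/-- The expansion of `E₄` in `exp (2 π i τ / N)`. -/
theorem hasExp_E4 {N : ℕ} (hN : N ≠ 0) (γ : SL(2, ℤ)) :
    HasExp N (⇑E₄ ∣[(4 : ℤ)] γ) (1 + 240 * sigmaSeries N 3) := by
  have h := ConjExp.hasExp_levelOne E₄ hN γ
  have e : (PowerSeries.mk fun n => if N ∣ n then ModularFormClass.qCoeff E₄ (n / N) else 0) =
      1 + 240 * sigmaSeries N 3 := by
    ext n
    rw [PowerSeries.coeff_mk, map_add, show (240 : PowerSeries ℂ) = PowerSeries.C (240 : ℂ) from
      (map_ofNat PowerSeries.C 240).symm, PowerSeries.coeff_C_mul, sigmaSeries,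
      PowerSeries.coeff_mk, PowerSeries.coeff_one]
    by_cases hd : N ∣ n
    · rw [if_pos hd, if_pos hd]
      show (qExpansion 1 E₄).coeff (n / N) = _
      rw [qExpansion_E4_coeff]
      by_cases h0 : n = 0
      · subst h0
        simp
      · have h1 : n / N ≠ 0 := by
          obtain ⟨t, rfl⟩ := hd
          rw [Nat.mul_div_cancel_left t (Nat.pos_of_ne_zero hN)]
          rintro rfl
          exact h0 (mul_zero N)
        rw [if_neg h1, if_neg h0, zero_add]
    · rw [if_neg hd, if_neg hd]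
      have h0 : n ≠ 0 := by
        rintro rfl
        exact hd (dvd_zero N)
      rw [if_neg h0]
      ring
  rwa [e] at h

/-- **Conjugates of a form congruent to a constant.** Let `G ∈ M₂(Γ₀(p))` have
`q`-coefficients `a₀ = c` and `a_k ∈ M₀ ℤ` for `k ≥ 1`, and suppose `M₀ ∣ p + 1`. Then for every
`γ ∈ SL(2, ℤ)` and every prime `ℓ ≠ p`, the conjugate `G ∣[2] γ` has an expansion
`Ψ = c + M₀ A` in `exp (2 π i τ / p)` with `A` having `ℓ`-integral coefficients. -/
theorem exists_exp_slash_decomp (p : ℕ) [Fact p.Prime] (ℓ : ℕ) [Fact ℓ.Prime] (hℓp : ℓ ≠ p)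
    (G : ModularForm (Gamma0 p) 2) (c M₀ : ℤ)
    (h0 : ModularFormClass.qCoeff G 0 = (c : ℂ))
    (hk : ∀ k : ℕ, 1 ≤ k → ∃ m : ℤ, ModularFormClass.qCoeff G k = (M₀ : ℂ) * (m : ℂ))
    (hM : M₀ ∣ (p : ℤ) + 1) (γ : SL(2, ℤ)) :
    ∃ Ψ A : PowerSeries ℂ, HasExp p (⇑G ∣[(2 : ℤ)] γ) Ψ ∧
      Ψ = (c : PowerSeries ℂ) + (M₀ : PowerSeries ℂ) * A ∧ A ∈ coeffRing (LocalInt.lInt ℓ) := by
  have hp : p.Prime := Fact.out
  have hℓ : ℓ.Prime := Fact.out
  have hpne : p ≠ 0 := hp.ne_zero
  have hpC : (p : ℂ) ≠ 0 := Nat.cast_ne_zero.mpr hpne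
  have hℓp' : ¬ ℓ ∣ p := fun h => hℓp ((Nat.prime_dvd_prime_iff_eq hℓ hp).mp h)
  have hpinv : ((p : ℂ))⁻¹ ∈ LocalInt.lInt ℓ := LocalInt.inv_natCast_mem ℓ hℓp'
  -- the integers `m k`
  have hk' : ∀ k : ℕ, ∃ m : ℤ, 1 ≤ k → ModularFormClass.qCoeff G k = (M₀ : ℂ) * (m : ℂ) := by
    intro k
    by_cases h : 1 ≤ k
    · obtain ⟨m, hm⟩ := hk k h
      exact ⟨m, fun _ => hm⟩
    · exact ⟨0, fun h' => absurd h' h⟩
  choose m hm using hk'
  obtain ⟨w, hw⟩ := hM
  have hwC : (p : ℂ) + 1 = (M₀ : ℂ) * (w : ℂ) := by exact_mod_cast congrArg (Int.cast : ℤ → ℂ) hw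
  have hcPS : ∀ n, PowerSeries.coeff n ((c : PowerSeries ℂ)) = if n = 0 then (c : ℂ) else 0 := by
    intro n
    rw [show ((c : PowerSeries ℂ)) = PowerSeries.C (c : ℂ) from (map_intCast (PowerSeries.C (R := ℂ)) c).symm,
      PowerSeries.coeff_C]
  have hMPS : ∀ (A : PowerSeries ℂ) (n : ℕ), PowerSeries.coeff n ((M₀ : PowerSeries ℂ) * A) =
      (M₀ : ℂ) * PowerSeries.coeff n A := by
    intro A n
    rw [show ((M₀ : PowerSeries ℂ)) = PowerSeries.C (M₀ : ℂ) from
      (map_intCast (PowerSeries.C (R := ℂ)) M₀).symm, PowerSeries.coeff_C_mul]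
  obtain ⟨Ψ, hΨ, hcases | ⟨ζ, hζ, hcases⟩⟩ := ConjExp.exists_exp_slash p G γ
  · -- the conjugate is `G` itself
    refine ⟨Ψ, PowerSeries.mk fun n => if n = 0 then 0 else if p ∣ n then (m (n / p) : ℂ) else 0,
      hΨ, ?_, ?_⟩
    · ext n
      rw [hcases, map_add, hcPS, hMPS, PowerSeries.coeff_mk]
      by_cases h0' : n = 0
      · subst h0'
        simp [h0]
      · rw [if_neg h0', if_neg h0', zero_add]
        by_cases hd : p ∣ n
        · rw [if_pos hd, if_pos hd]
          apply hm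
          obtain ⟨t, rfl⟩ := hd
          rw [Nat.mul_div_cancel_left t (Nat.pos_of_ne_zero hpne)]
          rcases Nat.eq_zero_or_pos t with rfl | ht
          · exact absurd (mul_zero p) h0'
          · exact ht
        · rw [if_neg hd, if_neg hd, mul_zero]
    · intro n
      rw [PowerSeries.coeff_mk]
      split_ifs
      · exact (LocalInt.lInt ℓ).zero_mem
      · exact LocalInt.intCast_mem ℓ _
      · exact (LocalInt.lInt ℓ).zero_mem
  · -- the conjugate is a translate of `G ∣ W`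
    have hζO : ζ ∈ LocalInt.lInt ℓ := LocalInt.of_pow_eq_one ℓ hpne hζ
    refine ⟨Ψ, PowerSeries.mk fun n => if n = 0 then -((c : ℂ) * (w : ℂ) * (p : ℂ)⁻¹)
        else -((p : ℂ)⁻¹ * ζ ^ n * (m (n * p) : ℂ)), hΨ, ?_, ?_⟩
    · ext n
      rw [hcases, map_add, hcPS, hMPS, PowerSeries.coeff_mk]
      by_cases h0' : n = 0
      · subst h0'
        rw [if_pos rfl, if_pos rfl, zero_mul, h0, pow_zero]
        have : (M₀ : ℂ) * -((c : ℂ) * (w : ℂ) * (p : ℂ)⁻¹) = -((c : ℂ) * ((p : ℂ) + 1) * (p : ℂ)⁻¹) := by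
          rw [hwC]; ring
        rw [this]
        field_simp
        ring
      · rw [if_neg h0', if_neg h0', zero_add]
        have h1 : 1 ≤ n * p := Nat.mul_pos (Nat.pos_of_ne_zero h0') (Nat.pos_of_ne_zero hpne)
        rw [hm (n * p) h1]
        ring
    · intro n
      rw [PowerSeries.coeff_mk]
      split_ifs
      · exact (LocalInt.lInt ℓ).neg_mem ((LocalInt.lInt ℓ).mul_mem
          ((LocalInt.lInt ℓ).mul_mem (LocalInt.intCast_mem ℓ _) (LocalInt.intCast_mem ℓ _)) hpinv)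
      · exact (LocalInt.lInt ℓ).neg_mem ((LocalInt.lInt ℓ).mul_mem
          ((LocalInt.lInt ℓ).mul_mem hpinv ((LocalInt.lInt ℓ).pow_mem hζO n))
          (LocalInt.intCast_mem ℓ _))

end UFrame

end Fermat.Agent.S16
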