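import Mathlib
import Fermat.Agent.S16.ConjExp
import Fermat.Agent.S16.LocalInt
import Fermat.Agent.S16.TraceRel
import Fermat.Agent.S23.Glue
import Fermat.Agent.S20.LevelOneBasic

/-!
# S16, U1 for `ℓ = 2` (helper18)

No `G ∈ M₂(Γ₀(p))` (`p` an odd prime) has integral `q`-expansion with odd constant term `c` and
all higher coefficients divisible by `8`.

Proof: `H = (27 G⁴ - 18 c² E₄ G² - 8 c³ E₆ G - c⁴ E₄²) / 6912` is a form of weight `8` on `Γ₀(p)`
all of whose `SL(2, ℤ)`-conjugates have `2`-integral expansions which are `≡ unit · q + …` modulo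
`2`; this contradicts the norm bound (`12 ≤ 8`).
-/

set_option autoImplicit false

open UpperHalfPlane hiding I
open Complex ModularForm CongruenceSubgroup
open scoped MatrixGroups ModularForm Manifold ArithmeticFunction.sigma

namespace Fermat.Agent.S16

namespace UTwo

open NormBound

/-! ### Series with coefficients in a subring -/

/-- Power series all of whose coefficients lie in the subring `O`. -/
def coeffRing (O : Subring ℂ) : Subring (PowerSeries ℂ) where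
  carrier := {Θ | ∀ n, PowerSeries.coeff n Θ ∈ O}
  mul_mem' := by
    intro a b ha hb n
    rw [PowerSeries.coeff_mul]
    exact O.sum_mem fun kl _ => O.mul_mem (ha _) (hb _)
  one_mem' := by
    intro n
    rw [PowerSeries.coeff_one]
    split_ifs
    · exact O.one_mem
    · exact O.zero_mem
  add_mem' := by
    intro a b ha hb n
    rw [map_add]
    exact O.add_mem (ha n) (hb n)
  zero_mem' := by
    intro n
    rw [map_zero]
    exact O.zero_mem
  neg_mem' := by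
    intro a ha n
    rw [map_neg]
    exact O.neg_mem (ha n)

theorem mem_coeffRing {O : Subring ℂ} {Θ : PowerSeries ℂ} :
    Θ ∈ coeffRing O ↔ ∀ n, PowerSeries.coeff n Θ ∈ O := Iff.rfl

theorem C_mem_coeffRing {O : Subring ℂ} {a : ℂ} (ha : a ∈ O) : PowerSeries.C a ∈ coeffRing O := by
  intro n
  rw [PowerSeries.coeff_C]
  split_ifs
  · exact ha
  · exact O.zero_mem

/-! ### Algebra of expansions -/

theorem hasExp_const (N : ℕ) (a : ℂ) : HasExp N (fun _ => a) (PowerSeries.C a) := by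
  intro τ
  have := hasSum_single (f := fun n : ℕ => PowerSeries.coeff n (PowerSeries.C a) *
    Function.Periodic.qParam (N : ℝ) τ ^ n) 0 (by
      intro n hn
      simp [PowerSeries.coeff_C, hn])
  simpa using this

theorem hasExp_add {N : ℕ} {F F' : ℍ → ℂ} {Θ Θ' : PowerSeries ℂ} (h : HasExp N F Θ)
    (h' : HasExp N F' Θ') : HasExp N (fun τ => F τ + F' τ) (Θ + Θ') := by
  intro τ
  refine ((h τ).add (h' τ)).congr_fun fun n => ?_
  rw [map_add, add_mul]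

theorem hasExp_sub {N : ℕ} {F F' : ℍ → ℂ} {Θ Θ' : PowerSeries ℂ} (h : HasExp N F Θ)
    (h' : HasExp N F' Θ') : HasExp N (fun τ => F τ - F' τ) (Θ - Θ') := by
  intro τ
  refine ((h τ).sub (h' τ)).congr_fun fun n => ?_
  rw [map_sub, sub_mul]

theorem hasExp_pow {N : ℕ} {F : ℍ → ℂ} {Θ : PowerSeries ℂ} (h : HasExp N F Θ) (k : ℕ) :
    HasExp N (fun τ => F τ ^ k) (Θ ^ k) :=
  fun τ => Fermat.Agent.S24.JqExp.hasSum_coeff_pow (h τ) k

/-! ### The weight eight form -/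

/-- The quartic polynomial `(27 g⁴ - 18 c² e₄ g² - 8 c³ e₆ g - c⁴ e₄²) / 6912`. -/
noncomputable def quartic (c g e4 e6 : ℂ) : ℂ :=
  (6912 : ℂ)⁻¹ * (27 * g ^ 4 - 18 * c ^ 2 * e4 * g ^ 2 - 8 * c ^ 3 * e6 * g - c ^ 4 * e4 ^ 2)

variable (p : ℕ) [Fact p.Prime]

/-- The form `H = quartic c G E₄ E₆` of weight `8` on `Γ₀(p)`. -/
theorem exists_H (G : ModularForm (Gamma0 p) 2) (c : ℂ) :
    ∃ H : ModularForm (Gamma0 p) 8, ∀ τ : ℍ, H τ = quartic c (G τ) (E₄ τ) (E₆ τ) := by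
  have : NeZero p := ⟨(Fact.out : p.Prime).ne_zero⟩
  let E4r : ModularForm (Gamma0 p) 4 := Fermat.Agent.S23.Glue.restrict p E₄
  let E6r : ModularForm (Gamma0 p) 6 := Fermat.Agent.S23.Glue.restrict p E₆
  let t1 : ModularForm (Gamma0 p) 8 := ModularForm.mcast (by norm_num) (G.pow 4) rfl
  let t2 : ModularForm (Gamma0 p) 8 := ModularForm.mcast (by norm_num) (E4r.mul (G.pow 2)) rfl
  let t3 : ModularForm (Gamma0 p) 8 := ModularForm.mcast (by norm_num) (E6r.mul G) rfl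
  let t4 : ModularForm (Gamma0 p) 8 := ModularForm.mcast (by norm_num) (E4r.pow 2) rfl
  refine ⟨(6912 : ℂ)⁻¹ • ((27 : ℂ) • t1 - (18 * c ^ 2) • t2 - (8 * c ^ 3) • t3 - (c ^ 4) • t4),
    fun τ => ?_⟩
  simp only [quartic, t1, t2, t3, t4, E4r, E6r, ModularForm.coe_mcast, ModularForm.coe_mul,
    ModularForm.coe_pow, Fermat.Agent.S23.Glue.coe_restrict, FunLike.coe_smul, FunLike.coe_sub,
    Pi.smul_apply, Pi.sub_apply, Pi.mul_apply, Pi.pow_apply, smul_eq_mul]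
  ring

omit [Fact p.Prime] in
/-- Conjugates of `H`: the same polynomial in the conjugates of `G`. -/
theorem slash_H (G : ModularForm (Gamma0 p) 2) (c : ℂ) (H : ModularForm (Gamma0 p) 8)
    (hH : ∀ τ : ℍ, H τ = quartic c (G τ) (E₄ τ) (E₆ τ)) (γ : SL(2, ℤ)) (τ : ℍ) :
    (⇑H ∣[(8 : ℤ)] γ) τ = quartic c ((⇑G ∣[(2 : ℤ)] γ) τ) (E₄ τ) (E₆ τ) := by
  have hd : denom γ τ ≠ 0 := denom_ne_zero γ τ
  rw [ModularForm.SL_slash_apply, ModularForm.SL_slash_apply, hH,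
    Fermat.Agent.S20.E₄_smul, Fermat.Agent.S20.E₆_smul]
  simp only [quartic, zpow_neg, zpow_ofNat]
  field_simp

/-! ### The auxiliary series -/

/-- `S₃(x^p)`, where `S₃ = ∑ σ₃(m) x^m`. -/
noncomputable def S3 (p : ℕ) : PowerSeries ℂ :=
  PowerSeries.mk fun n => if p ∣ n then (σ 3 (n / p) : ℂ) else 0

/-- `((S₅ - S₃) / 8)(x^p)`. -/
noncomputable def T8 (p : ℕ) : PowerSeries ℂ :=
  PowerSeries.mk fun n => if p ∣ n then
    ((((σ 5 (n / p) : ℤ) - (σ 3 (n / p) : ℤ)) / 8 : ℤ) : ℂ) else 0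

theorem eight_dvd_pow (d : ℕ) : (8 : ℤ) ∣ (d : ℤ) ^ 5 - (d : ℤ) ^ 3 := by
  have h : ∀ r : ZMod 8, r ^ 5 - r ^ 3 = 0 := by decide
  have := h (d : ZMod 8)
  rw [← Int.cast_natCast, ← Int.cast_pow, ← Int.cast_pow, ← Int.cast_sub] at this
  exact (ZMod.intCast_zmod_eq_zero_iff_dvd _ 8).mp this

theorem eight_dvd_sigma (k : ℕ) : (8 : ℤ) ∣ (σ 5 k : ℤ) - (σ 3 k : ℤ) := by
  rw [ArithmeticFunction.sigma_apply, ArithmeticFunction.sigma_apply]
  push_cast
  rw [← Finset.sum_sub_distrib]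
  exact Finset.dvd_sum fun d _ => eight_dvd_pow d

theorem coeff_ofNat_mul (k : ℕ) [k.AtLeastTwo] (Θ : PowerSeries ℂ) (n : ℕ) :
    PowerSeries.coeff n ((OfNat.ofNat k : PowerSeries ℂ) * Θ) =
      (OfNat.ofNat k : ℂ) * PowerSeries.coeff n Θ := by
  rw [← map_ofNat (PowerSeries.C (R := ℂ)) k, PowerSeries.coeff_C_mul]

theorem S3_mem (p : ℕ) (O : Subring ℂ) : S3 p ∈ coeffRing O := by
  intro n
  rw [S3, PowerSeries.coeff_mk]
  split_ifs
  · exact natCast_mem O _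
  · exact O.zero_mem

theorem T8_mem (p : ℕ) (O : Subring ℂ) : T8 p ∈ coeffRing O := by
  intro n
  rw [T8, PowerSeries.coeff_mk]
  split_ifs
  · exact intCast_mem O _
  · exact O.zero_mem

theorem coeff_S3_of_lt {p n : ℕ} (hn : n < p) : PowerSeries.coeff n (S3 p) = 0 := by
  rw [S3, PowerSeries.coeff_mk]
  split_ifs with h
  · have h0 : n = 0 := Nat.eq_zero_of_dvd_of_lt h hn
    subst h0
    simp
  · rfl

theorem coeff_S3_self {p : ℕ} (hp : p ≠ 0) : PowerSeries.coeff p (S3 p) = 1 := by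
  rw [S3, PowerSeries.coeff_mk, if_pos (dvd_refl p), Nat.div_self (Nat.pos_of_ne_zero hp)]
  simp [ArithmeticFunction.sigma_apply]

theorem coeff_S3_sq {p n : ℕ} (hn : n < 2 * p) : PowerSeries.coeff n (S3 p ^ 2) = 0 := by
  rw [pow_two, PowerSeries.coeff_mul]
  refine Finset.sum_eq_zero fun kl hkl => ?_
  have h := Finset.HasAntidiagonal.mem_antidiagonal.mp hkl
  rcases Nat.lt_or_ge kl.1 p with h1 | h1
  · rw [coeff_S3_of_lt h1, zero_mul]
  · rw [coeff_S3_of_lt (n := kl.2) (by omega), mul_zero]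

/-- The dilated expansion of `E₄` is `1 + 240 S₃(x^p)`. -/
theorem e4_eq {p : ℕ} (hp : p ≠ 0) :
    (PowerSeries.mk fun n => if p ∣ n then ModularFormClass.qCoeff E₄ (n / p) else 0) =
      1 + 240 * S3 p := by
  ext n
  rw [PowerSeries.coeff_mk, map_add, coeff_ofNat_mul, S3, PowerSeries.coeff_mk,
    PowerSeries.coeff_one]
  by_cases h : p ∣ n
  · rw [if_pos h, if_pos h, ModularFormClass.qCoeff, qExpansion_E4_coeff]
    by_cases h0 : n = 0
    · subst h0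
      simp
    · have : n / p ≠ 0 := by
        obtain ⟨m, rfl⟩ := h
        rw [Nat.mul_div_cancel_left _ (Nat.pos_of_ne_zero hp)]
        rintro rfl
        exact h0 (mul_zero p)
      rw [if_neg this, if_neg h0, zero_add]
  · have h0 : n ≠ 0 := by
      rintro rfl
      exact h (dvd_zero p)
    rw [if_neg h, if_neg h, if_neg h0]
    simp

/-- The dilated expansion of `E₆` is `1 - 504 (S₃ + 8 T)(x^p)`. -/
theorem e6_eq {p : ℕ} (hp : p ≠ 0) :
    (PowerSeries.mk fun n => if p ∣ n then ModularFormClass.qCoeff E₆ (n / p) else 0) =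
      1 - 504 * (S3 p + 8 * T8 p) := by
  ext n
  rw [PowerSeries.coeff_mk, map_sub, coeff_ofNat_mul, map_add, coeff_ofNat_mul, S3, T8,
    PowerSeries.coeff_mk, PowerSeries.coeff_mk, PowerSeries.coeff_one]
  by_cases h : p ∣ n
  · rw [if_pos h, if_pos h, if_pos h, ModularFormClass.qCoeff, qExpansion_E6_coeff]
    have h8 : ((σ 3 (n / p) : ℕ) : ℂ) + 8 * ((((σ 5 (n / p) : ℤ) - (σ 3 (n / p) : ℤ)) / 8 : ℤ) : ℂ)
        = ((σ 5 (n / p) : ℕ) : ℂ) := by
      have := Int.mul_ediv_cancel' (eight_dvd_sigma (n / p))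
      have h2 : ((8 * (((σ 5 (n / p) : ℤ) - (σ 3 (n / p) : ℤ)) / 8) : ℤ) : ℂ) =
          (((σ 5 (n / p) : ℤ) - (σ 3 (n / p) : ℤ) : ℤ) : ℂ) := by rw [this]
      push_cast at h2
      linear_combination h2
    rw [h8]
    by_cases h0 : n = 0
    · subst h0
      simp
    · have : n / p ≠ 0 := by
        obtain ⟨m, rfl⟩ := h
        rw [Nat.mul_div_cancel_left _ (Nat.pos_of_ne_zero hp)]
        rintro rfl
        exact h0 (mul_zero p)
      rw [if_neg this, if_neg h0]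
      ring
  · have h0 : n ≠ 0 := by
      rintro rfl
      exact h (dvd_zero p)
    rw [if_neg h, if_neg h, if_neg h, if_neg h0]
    simp

/-! ### The quartic identity -/

/-- The cofactor polynomial in the quartic identity. -/
def Qpoly {R : Type*} [CommRing R] (c A S T : R) : R :=
  -113 * c ^ 4 * S ^ 2 - 2 * c ^ 4 * S + 63 * c ^ 4 * T - 72 * c ^ 3 * A * S + 504 * c ^ 3 * A * T
    + c ^ 3 * A - 540 * c ^ 2 * A ^ 2 * S + 18 * c ^ 2 * A ^ 2 + 108 * c * A ^ 3 + 216 * A ^ 4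

theorem quartic_identity {R : Type*} [CommRing R] (c A S T : R) :
    27 * (c + 8 * A) ^ 4 - 18 * c ^ 2 * (1 + 240 * S) * (c + 8 * A) ^ 2
      - 8 * c ^ 3 * (1 - 504 * (S + 8 * T)) * (c + 8 * A) - c ^ 4 * (1 + 240 * S) ^ 2
    = 256 * (c ^ 4 * (S + S ^ 2) + 2 * Qpoly c A S T) := by
  unfold Qpoly
  ring

theorem Qpoly_mem {R : Type*} [CommRing R] (𝒪 : Subring R) {c A S T : R} (hc : c ∈ 𝒪)
    (hA : A ∈ 𝒪) (hS : S ∈ 𝒪) (hT : T ∈ 𝒪) : Qpoly c A S T ∈ 𝒪 := by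
  unfold Qpoly
  repeat (first
    | apply Subring.add_mem
    | apply Subring.sub_mem
    | apply Subring.mul_mem
    | apply Subring.pow_mem
    | apply Subring.neg_mem
    | assumption
    | exact ofNat_mem 𝒪 _)

/-- The expansion of a conjugate of `H`, rewritten. -/
theorem theta_eq (c : ℂ) (A S T : PowerSeries ℂ) :
    PowerSeries.C (6912 : ℂ)⁻¹ * (PowerSeries.C 27 * (PowerSeries.C c + 8 * A) ^ 4
      - PowerSeries.C (18 * c ^ 2) * (1 + 240 * S) * (PowerSeries.C c + 8 * A) ^ 2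
      - PowerSeries.C (8 * c ^ 3) * (1 - 504 * (S + 8 * T)) * (PowerSeries.C c + 8 * A)
      - PowerSeries.C (c ^ 4) * (1 + 240 * S) ^ 2)
    = PowerSeries.C (27 : ℂ)⁻¹ * (PowerSeries.C (c ^ 4) * (S + S ^ 2)
        + PowerSeries.C 2 * Qpoly (PowerSeries.C c) A S T) := by
  have key : PowerSeries.C (27 : ℂ) * (PowerSeries.C c + 8 * A) ^ 4
      - PowerSeries.C (18 * c ^ 2) * (1 + 240 * S) * (PowerSeries.C c + 8 * A) ^ 2
      - PowerSeries.C (8 * c ^ 3) * (1 - 504 * (S + 8 * T)) * (PowerSeries.C c + 8 * A)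
      - PowerSeries.C (c ^ 4) * (1 + 240 * S) ^ 2
      = PowerSeries.C (256 : ℂ) * (PowerSeries.C (c ^ 4) * (S + S ^ 2)
        + PowerSeries.C 2 * Qpoly (PowerSeries.C c) A S T) := by
    simp only [map_mul, map_pow, map_ofNat]
    exact quartic_identity (PowerSeries.C c) A S T
  rw [key, ← mul_assoc, ← map_mul]
  norm_num

/-! ### The order of the conjugate expansions modulo `2` -/

theorem two_mul_mem_lMod {z : ℂ} (hz : z ∈ LocalInt.lInt 2) : 2 * z ∈ LocalInt.lMod 2 := by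
  have := LocalInt.mul_mem_lMod 2 hz
  simpa using this

theorem inv_pow_four_mem {c : ℤ} (hc : ¬ (2 : ℤ) ∣ c) : (((c : ℂ) ^ 4)⁻¹) ∈ LocalInt.lInt 2 := by
  have h1 : ¬ 2 ∣ c.natAbs ^ 4 := by
    intro h
    have h2 : 2 ∣ c.natAbs := Nat.Prime.dvd_of_dvd_pow Nat.prime_two h
    apply hc
    have h3 : (2 : ℤ).natAbs ∣ c.natAbs := by simpa using h2
    exact Int.natAbs_dvd_natAbs.mp h3
  have h4 := LocalInt.inv_natCast_mem 2 h1
  have h5 : ((c.natAbs ^ 4 : ℕ) : ℂ) = (c : ℂ) ^ 4 := by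
    have e : ((c.natAbs : ℤ)) ^ 2 = c ^ 2 := Int.natAbs_sq c
    have e' : ((c.natAbs : ℤ)) ^ 4 = c ^ 4 := by
      calc ((c.natAbs : ℤ)) ^ 4 = (((c.natAbs : ℤ)) ^ 2) ^ 2 := by ring
        _ = (c ^ 2) ^ 2 := by rw [e]
        _ = c ^ 4 := by ring
    rw [Nat.cast_pow, ← Int.cast_natCast (R := ℂ) c.natAbs, ← Int.cast_pow, e', Int.cast_pow]
  rwa [h5] at h4

/-- The rewritten expansion has `x`-order exactly `p` modulo `2`. -/
theorem hasOrd_theta {p : ℕ} (hp : p ≠ 0) (c : ℤ) (hc : ¬ (2 : ℤ) ∣ c) (A : PowerSeries ℂ)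
    (hA : A ∈ coeffRing (LocalInt.lInt 2)) :
    HasOrd (LocalInt.lInt 2) (LocalInt.lMod 2)
      (PowerSeries.C (27 : ℂ)⁻¹ * (PowerSeries.C ((c : ℂ) ^ 4) * (S3 p + S3 p ^ 2)
        + PowerSeries.C 2 * Qpoly (PowerSeries.C (c : ℂ)) A (S3 p) (T8 p))) p := by
  have h27 : ((27 : ℂ))⁻¹ ∈ LocalInt.lInt 2 := by
    have := LocalInt.inv_natCast_mem 2 (m := 27) (by norm_num)
    simpa using this
  have hcO : (c : ℂ) ∈ LocalInt.lInt 2 := LocalInt.intCast_mem 2 c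
  have h2O : (2 : ℂ) ∈ LocalInt.lInt 2 := ofNat_mem (LocalInt.lInt 2) 2
  have hQ : Qpoly (PowerSeries.C (c : ℂ)) A (S3 p) (T8 p) ∈ coeffRing (LocalInt.lInt 2) :=
    Qpoly_mem _ (C_mem_coeffRing hcO) hA (S3_mem p _) (T8_mem p _)
  have hcoeff : ∀ n, PowerSeries.coeff n (PowerSeries.C (27 : ℂ)⁻¹ *
      (PowerSeries.C ((c : ℂ) ^ 4) * (S3 p + S3 p ^ 2)
        + PowerSeries.C 2 * Qpoly (PowerSeries.C (c : ℂ)) A (S3 p) (T8 p))) =
      (27 : ℂ)⁻¹ * ((c : ℂ) ^ 4 * (PowerSeries.coeff n (S3 p) + PowerSeries.coeff n (S3 p ^ 2))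
        + 2 * PowerSeries.coeff n (Qpoly (PowerSeries.C (c : ℂ)) A (S3 p) (T8 p))) := by
    intro n
    rw [PowerSeries.coeff_C_mul, map_add, PowerSeries.coeff_C_mul, map_add,
      PowerSeries.coeff_C_mul]
  refine ⟨fun n => ?_, fun n hn => ?_, ?_⟩
  · rw [hcoeff]
    exact Subring.mul_mem _ h27 (Subring.add_mem _
      (Subring.mul_mem _ (Subring.pow_mem _ hcO 4)
        (Subring.add_mem _ (S3_mem p _ n) (Subring.pow_mem _ (S3_mem p _) 2 n)))
      (Subring.mul_mem _ h2O (hQ n)))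
  · rw [hcoeff, coeff_S3_of_lt hn, coeff_S3_sq (by omega)]
    have e : (27 : ℂ)⁻¹ * ((c : ℂ) ^ 4 * (0 + 0) +
        2 * PowerSeries.coeff n (Qpoly (PowerSeries.C (c : ℂ)) A (S3 p) (T8 p))) =
        2 * ((27 : ℂ)⁻¹ * PowerSeries.coeff n (Qpoly (PowerSeries.C (c : ℂ)) A (S3 p) (T8 p))) := by
      ring
    rw [e]
    exact two_mul_mem_lMod (Subring.mul_mem _ h27 (hQ n))
  · have hc0 : (c : ℂ) ≠ 0 := by
      rintro h
      apply hc
      have : c = 0 := by exact_mod_cast h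
      rw [this]
      exact dvd_zero 2
    refine LocalInt.exists_unit_of_sub_mem 2 (u := (27 : ℂ)⁻¹ * (c : ℂ) ^ 4) ?_ ?_ ?_
    · exact mul_ne_zero (by norm_num) (pow_ne_zero 4 hc0)
    · rw [mul_inv, inv_inv]
      exact Subring.mul_mem _ (ofNat_mem (LocalInt.lInt 2) 27) (inv_pow_four_mem hc)
    · rw [hcoeff, coeff_S3_self hp, coeff_S3_sq (by omega)]
      have e : (27 : ℂ)⁻¹ * ((c : ℂ) ^ 4 * (1 + 0) +
          2 * PowerSeries.coeff p (Qpoly (PowerSeries.C (c : ℂ)) A (S3 p) (T8 p))) -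
          (27 : ℂ)⁻¹ * (c : ℂ) ^ 4 =
          2 * ((27 : ℂ)⁻¹ * PowerSeries.coeff p (Qpoly (PowerSeries.C (c : ℂ)) A (S3 p) (T8 p))) := by
        ring
      rw [e]
      exact two_mul_mem_lMod (Subring.mul_mem _ h27 (hQ p))

/-! ### The conjugate expansions of `G` are `c + 8 A` -/

theorem exists_A (G : ModularForm (Gamma0 p) 2) (c : ℤ) (hp2 : p ≠ 2)
    (h0 : ModularFormClass.qCoeff G 0 = (c : ℂ))
    (hk : ∀ k, 1 ≤ k → ∃ m : ℤ, ModularFormClass.qCoeff G k = ((8 * m : ℤ) : ℂ))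
    (h8 : (8 : ℤ) ∣ (p : ℤ) + 1) (Ψ : PowerSeries ℂ)
    (hΨ : (∀ n, PowerSeries.coeff n Ψ =
        if p ∣ n then ModularFormClass.qCoeff G (n / p) else 0) ∨
      ∃ ζ : ℂ, ζ ^ p = 1 ∧ ∀ n, PowerSeries.coeff n Ψ =
        -(p : ℂ)⁻¹ * ζ ^ n * ModularFormClass.qCoeff G (n * p)) :
    ∃ A ∈ coeffRing (LocalInt.lInt 2), Ψ = PowerSeries.C (c : ℂ) + 8 * A := by
  have hp : p.Prime := Fact.out
  have hp0 : p ≠ 0 := hp.ne_zero
  have hpC : (p : ℂ) ≠ 0 := Nat.cast_ne_zero.mpr hp0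
  have h2p : ¬ 2 ∣ p := fun h => hp2 ((Nat.prime_dvd_prime_iff_eq Nat.prime_two hp).mp h).symm
  have hpinv : ((p : ℂ))⁻¹ ∈ LocalInt.lInt 2 := LocalInt.inv_natCast_mem 2 h2p
  refine ⟨PowerSeries.C (8 : ℂ)⁻¹ * (Ψ - PowerSeries.C (c : ℂ)), fun n => ?_, ?_⟩
  · rw [PowerSeries.coeff_C_mul, map_sub, PowerSeries.coeff_C]
    rcases hΨ with h | ⟨ζ, hζ, h⟩
    · rw [h]
      by_cases hn : n = 0
      · subst hn
        rw [if_pos (dvd_zero p), Nat.zero_div, h0, if_pos rfl, sub_self, mul_zero]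
        exact Subring.zero_mem _
      · rw [if_neg hn, sub_zero]
        by_cases hd : p ∣ n
        · rw [if_pos hd]
          have h1 : 1 ≤ n / p := by
            obtain ⟨m, rfl⟩ := hd
            rw [Nat.mul_div_cancel_left _ (Nat.pos_of_ne_zero hp0)]
            rcases Nat.eq_zero_or_pos m with rfl | hm
            · exact absurd (mul_zero p) hn
            · exact hm
          obtain ⟨m, hm⟩ := hk _ h1
          rw [hm]
          have e : (8 : ℂ)⁻¹ * ((8 * m : ℤ) : ℂ) = (m : ℂ) := by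
            push_cast
            field_simp
          rw [e]
          exact LocalInt.intCast_mem 2 m
        · rw [if_neg hd, mul_zero]
          exact Subring.zero_mem _
    · rw [h]
      have hζO : ζ ∈ LocalInt.lInt 2 := LocalInt.of_pow_eq_one 2 hp0 hζ
      by_cases hn : n = 0
      · subst hn
        rw [zero_mul, h0, if_pos rfl, pow_zero]
        obtain ⟨t, ht⟩ := h8
        have htC : (p : ℂ) + 1 = 8 * (t : ℂ) := by exact_mod_cast ht
        have e : (8 : ℂ)⁻¹ * (-(p : ℂ)⁻¹ * 1 * (c : ℂ) - (c : ℂ)) =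
            -((c : ℂ) * (p : ℂ)⁻¹ * (t : ℂ)) := by
          field_simp
          linear_combination (-(c : ℂ)) * htC
        rw [e]
        exact Subring.neg_mem _ (Subring.mul_mem _ (Subring.mul_mem _ (LocalInt.intCast_mem 2 c)
          hpinv) (LocalInt.intCast_mem 2 t))
      · rw [if_neg hn, sub_zero]
        have h1 : 1 ≤ n * p :=
          Nat.mul_pos (Nat.pos_of_ne_zero hn) (Nat.pos_of_ne_zero hp0)
        obtain ⟨m, hm⟩ := hk _ h1
        rw [hm]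
        have e : (8 : ℂ)⁻¹ * (-(p : ℂ)⁻¹ * ζ ^ n * ((8 * m : ℤ) : ℂ)) =
            -((p : ℂ)⁻¹ * ζ ^ n * (m : ℂ)) := by
          push_cast
          field_simp
        rw [e]
        exact Subring.neg_mem _ (Subring.mul_mem _ (Subring.mul_mem _ hpinv
          (Subring.pow_mem _ hζO n)) (LocalInt.intCast_mem 2 m))
  · have e : (8 : PowerSeries ℂ) * PowerSeries.C (8 : ℂ)⁻¹ = 1 := by
      rw [← map_ofNat (PowerSeries.C (R := ℂ)) 8, ← map_mul]
      norm_num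
    rw [← mul_assoc, e, one_mul]
    ring

/-! ### The theorem -/

/-- **U1 for `ℓ = 2`.** A weight two form on `Γ₀(p)`, `p` an odd prime, with integral
`q`-expansion, constant term `c` and all higher coefficients divisible by `8` has `c` even. -/
theorem uOne_two (hp2 : p ≠ 2) (G : ModularForm (Gamma0 p) 2) (c : ℤ)
    (h0 : ModularFormClass.qCoeff G 0 = (c : ℂ))
    (hk : ∀ k, 1 ≤ k → ∃ m : ℤ, ModularFormClass.qCoeff G k = ((8 * m : ℤ) : ℂ)) :
    (2 : ℤ) ∣ c := by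
  by_contra hc
  have hp : p.Prime := Fact.out
  have hp0 : p ≠ 0 := hp.ne_zero
  have : NeZero p := ⟨hp0⟩
  -- `8 ∣ p + 1` from the trace relation
  have hcop : IsCoprime (8 : ℤ) (p : ℤ) := by
    have h1 : Nat.Coprime 2 p := (Nat.coprime_primes Nat.prime_two hp).mpr (Ne.symm hp2)
    have h2 : Nat.Coprime (2 ^ 3) p := Nat.Coprime.pow_left 3 h1
    have h3 : IsCoprime (((2 ^ 3 : ℕ) : ℤ)) (p : ℤ) := Nat.isCoprime_iff_coprime.mpr h2
    simpa using h3
  have h8c : (8 : ℤ) ∣ ((p : ℤ) + 1) * c := dvd_succ_mul_of_congr_const p G c 8 h0 hk hcop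
  have hcop2 : IsCoprime (8 : ℤ) c := by
    have h1 : IsCoprime (2 : ℤ) c := (Prime.coprime_iff_not_dvd Int.prime_two).mpr hc
    have h2 : IsCoprime ((2 : ℤ) ^ 3) c := h1.pow_left
    simpa using h2
  have h8 : (8 : ℤ) ∣ (p : ℤ) + 1 := hcop2.dvd_of_dvd_mul_right h8c
  obtain ⟨H, hH⟩ := exists_H p G (c : ℂ)
  have key := twelve_le_weight H p hp0 (LocalInt.lMod_stable 2) (LocalInt.one_notMem_lMod 2)
    (fun γ => ?_)
  · norm_num at key
  · obtain ⟨Ψ, hΨ, hcases⟩ := ConjExp.exists_exp_slash p G γ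
    obtain ⟨A, hA, hΨA⟩ := exists_A p G c hp2 h0 hk h8 Ψ hcases
    have hE4 : HasExp p (fun τ => E₄ τ) (PowerSeries.mk fun n =>
        if p ∣ n then ModularFormClass.qCoeff E₄ (n / p) else 0) :=
      ConjExp.hasExp_dilate hp0
        (fun τ => ModularForm.hasSum_qExpansion (f := E₄) one_pos one_mem_strictPeriods_SL τ)
    have hE6 : HasExp p (fun τ => E₆ τ) (PowerSeries.mk fun n =>
        if p ∣ n then ModularFormClass.qCoeff E₆ (n / p) else 0) :=
      ConjExp.hasExp_dilate hp0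
        (fun τ => ModularForm.hasSum_qExpansion (f := E₆) one_pos one_mem_strictPeriods_SL τ)
    have hfun : (⇑H ∣[(8 : ℤ)] γ) = fun τ => (6912 : ℂ)⁻¹ *
        (27 * (⇑G ∣[(2 : ℤ)] γ) τ ^ 4 - 18 * (c : ℂ) ^ 2 * E₄ τ * (⇑G ∣[(2 : ℤ)] γ) τ ^ 2
          - 8 * (c : ℂ) ^ 3 * E₆ τ * (⇑G ∣[(2 : ℤ)] γ) τ - (c : ℂ) ^ 4 * E₄ τ ^ 2) :=
      funext fun τ => slash_H p G (c : ℂ) H hH γ τ
    have hexp := HasExp.mul (hasExp_const p ((6912 : ℂ)⁻¹))
      (hasExp_sub (hasExp_sub (hasExp_sub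
        (HasExp.mul (hasExp_const p (27 : ℂ)) (hasExp_pow hΨ 4))
        (HasExp.mul (HasExp.mul (hasExp_const p (18 * (c : ℂ) ^ 2)) hE4) (hasExp_pow hΨ 2)))
        (HasExp.mul (HasExp.mul (hasExp_const p (8 * (c : ℂ) ^ 3)) hE6) hΨ))
        (HasExp.mul (hasExp_const p ((c : ℂ) ^ 4)) (hasExp_pow hE4 2)))
    rw [← hfun, hΨA, e4_eq hp0, e6_eq hp0, theta_eq] at hexp
    exact ⟨_, hexp, hasOrd_theta hp0 c hc A hA⟩

end UTwo

end Fermat.Agent.S16
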